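import Mathlib
import Fermat.Agent.S44.L.PthPoint

/-!
# PROGRAM MR (S44), strand L, NZ chain: change of chart for `PthPoint.PowAt`

Level-free.  `O[u]` and `O[v]`, `u * v = 1`, are the two coordinate rings of the projective line;
`B_u = integralClosure (adjoin O {u}) F`, `B_v = integralClosure (adjoin O {v}) F` the two chart
rings of the function field `F`.  A point of the `v`-chart off `v = 0` is a point of the
`u`-chart, and the pointwise datum `PthPoint.PowAt` transfers: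

* `exists_mul_pow_mem` : `c ∈ O[u] ⟹ c * v ^ n ∈ O[v]` for all large `n`.
* `exists_isIntegral_mul_pow` : `x` integral over `O[u]` ⟹ `x * v ^ n` integral over `O[v]` for
  all large `n`.
* `powAt_of_mul_eq_one` : `PowAt` at all maximal ideals `∋ p` of `B_u` gives `PowAt` at every
  prime `𝔪 ∋ p` of `B_v` with `v ∉ 𝔪`.
* `hinf_of_h0`, `h0_of_hinf` : the binders `hinf` / `h0` of
  `PthRootRam.exists_pow_eq_of_pointwise_ram` from one another and the points over `u = ∞`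
  (resp. `u = 0`).

No hypothesis on residue fields: the contraction of `𝔪` to `B_u` need not be shown maximal, any
maximal ideal above it serves.
-/

set_option autoImplicit false

namespace Fermat.Agent.S44.L.NZ.ChartChange

open Polynomial

variable {O F : Type*} [CommRing O] [Field F] [Algebra O F]

/-- An element of `O[u]` times a high power of `v = u⁻¹` lies in `O[v]`. -/
theorem exists_mul_pow_mem (u v : F) (huv : u * v = 1) (c : F)
    (hc : c ∈ Algebra.adjoin O ({u} : Set F)) :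
    ∃ m : ℕ, ∀ n, m ≤ n → c * v ^ n ∈ Algebra.adjoin O ({v} : Set F) := by
  have hv : v ∈ Algebra.adjoin O ({v} : Set F) := Algebra.subset_adjoin (Set.mem_singleton v)
  induction hc using Algebra.adjoin_induction with
  | mem x hx =>
    rw [Set.mem_singleton_iff] at hx
    subst hx
    refine ⟨1, fun n hn => ?_⟩
    obtain ⟨k, rfl⟩ := Nat.exists_eq_add_of_le hn
    have h : x * v ^ (1 + k) = v ^ k := by
      rw [pow_add, pow_one, ← mul_assoc, huv, one_mul]
    rw [h]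
    exact Subalgebra.pow_mem _ hv k
  | algebraMap r =>
    exact ⟨0, fun n _ =>
      Subalgebra.mul_mem _ (Subalgebra.algebraMap_mem _ r) (Subalgebra.pow_mem _ hv n)⟩
  | add x y hx hy ihx ihy =>
    obtain ⟨m₁, h₁⟩ := ihx
    obtain ⟨m₂, h₂⟩ := ihy
    refine ⟨max m₁ m₂, fun n hn => ?_⟩
    rw [add_mul]
    exact Subalgebra.add_mem _ (h₁ n (le_trans (le_max_left _ _) hn))
      (h₂ n (le_trans (le_max_right _ _) hn))
  | mul x y hx hy ihx ihy =>
    obtain ⟨m₁, h₁⟩ := ihx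
    obtain ⟨m₂, h₂⟩ := ihy
    refine ⟨m₁ + m₂, fun n hn => ?_⟩
    obtain ⟨k, rfl⟩ := Nat.exists_eq_add_of_le hn
    have h : x * y * v ^ (m₁ + m₂ + k) = (x * v ^ m₁) * (y * v ^ (m₂ + k)) := by ring
    rw [h]
    exact Subalgebra.mul_mem _ (h₁ m₁ le_rfl) (h₂ (m₂ + k) (Nat.le_add_right _ _))

/-- The coordinate `v` is integral over `O[v]`. -/
theorem isIntegral_self (v : F) : IsIntegral (Algebra.adjoin O ({v} : Set F)) v :=
  isIntegral_algebraMap (R := Algebra.adjoin O ({v} : Set F)) (A := F)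
    (x := ⟨v, Algebra.subset_adjoin (Set.mem_singleton v)⟩)

/-- **Scaling**: if `x` is integral over `O[u]` and `u * v = 1`, then `x * v ^ n` is integral
over `O[v]` for all large `n`. -/
theorem exists_isIntegral_mul_pow (u v : F) (huv : u * v = 1) (x : F)
    (hx : IsIntegral (Algebra.adjoin O ({u} : Set F)) x) :
    ∃ N : ℕ, ∀ n, N ≤ n → IsIntegral (Algebra.adjoin O ({v} : Set F)) (x * v ^ n) := by
  classical
  obtain ⟨P, hPm, hPx⟩ := hx
  have hcoef : ∀ i : ℕ, ∃ m : ℕ, ∀ n, m ≤ n →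
      ((P.coeff i : Algebra.adjoin O ({u} : Set F)) : F) * v ^ n ∈
        Algebra.adjoin O ({v} : Set F) := fun i =>
    exists_mul_pow_mem u v huv _ (P.coeff i).2
  choose m hm using hcoef
  have hN0 : ∀ i, i ≤ P.natDegree → m i ≤ (Finset.range (P.natDegree + 1)).sup m := fun i hi =>
    Finset.le_sup (f := m) (Finset.mem_range.mpr (Nat.lt_succ_of_le hi))
  generalize (Finset.range (P.natDegree + 1)).sup m = N0 at hN0
  have key : IsIntegral (Algebra.adjoin O ({v} : Set F)) (x * v ^ N0) := by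
    have hPFm : (P.map (algebraMap (Algebra.adjoin O ({u} : Set F)) F)).Monic := hPm.map _
    have hPFx : eval₂ (RingHom.id F) x (P.map (algebraMap (Algebra.adjoin O ({u} : Set F)) F))
        = 0 := by
      rw [eval₂_id, eval_map]; exact hPx
    have hdeg : (P.map (algebraMap (Algebra.adjoin O ({u} : Set F)) F)).natDegree
        = P.natDegree := hPm.natDegree_map _
    have hQm : (scaleRoots (P.map (algebraMap (Algebra.adjoin O ({u} : Set F)) F))
        (v ^ N0)).Monic := (monic_scaleRoots_iff _).mpr hPFm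
    have hQx : eval (x * v ^ N0) (scaleRoots (P.map (algebraMap (Algebra.adjoin O ({u} : Set F)) F))
        (v ^ N0)) = 0 := by
      have h := scaleRoots_eval₂_eq_zero (RingHom.id F) (s := v ^ N0) hPFx
      rw [eval₂_id, RingHom.id_apply, mul_comm] at h
      exact h
    have hlift : scaleRoots (P.map (algebraMap (Algebra.adjoin O ({u} : Set F)) F)) (v ^ N0) ∈
        lifts (algebraMap (Algebra.adjoin O ({v} : Set F)) F) := by
      rw [lifts_iff_coeff_lifts]
      intro i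
      rw [coeff_scaleRoots, hdeg, coeff_map]
      rcases lt_trichotomy i P.natDegree with hi | hi | hi
      · have h1 : m i ≤ N0 * (P.natDegree - i) :=
          le_trans (hN0 i hi.le) (Nat.le_mul_of_pos_right _ (Nat.sub_pos_of_lt hi))
        rw [← pow_mul]
        exact ⟨⟨_, hm i _ h1⟩, rfl⟩
      · subst hi
        rw [Nat.sub_self, pow_zero, mul_one, hPm.coeff_natDegree]
        exact ⟨1, by rw [map_one, map_one]⟩
      · rw [coeff_eq_zero_of_natDegree_lt hi]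
        exact ⟨0, by rw [map_zero, map_zero, zero_mul]⟩
    obtain ⟨Q, hQmap, -, hQmonic⟩ := lifts_and_natDegree_eq_and_monic hlift hQm
    refine ⟨Q, hQmonic, ?_⟩
    rw [← eval_map, hQmap]
    exact hQx
  refine ⟨N0, fun n hn => ?_⟩
  obtain ⟨k, rfl⟩ := Nat.exists_eq_add_of_le hn
  rw [pow_add, ← mul_assoc]
  exact key.mul ((isIntegral_self v).pow k)

/-- **Change of chart for `PowAt`**: if `PowAt` holds at all maximal ideals `∋ p` of the
`u`-chart, it holds at every prime `𝔪 ∋ p` of the `v`-chart (`u * v = 1`) with `v ∉ 𝔪`. -/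
theorem powAt_of_mul_eq_one (u v : F) (huv : u * v = 1) (p : ℕ) (H : F)
    (h0 : ∀ 𝔫 : Ideal (integralClosure (Algebra.adjoin O ({u} : Set F)) F), 𝔫.IsMaximal →
      (p : integralClosure (Algebra.adjoin O ({u} : Set F)) F) ∈ 𝔫 →
      PthPoint.PowAt (Algebra.adjoin O ({u} : Set F)) p H 𝔫)
    (𝔪 : Ideal (integralClosure (Algebra.adjoin O ({v} : Set F)) F)) (h𝔪 : 𝔪.IsPrime)
    (hp𝔪 : (p : integralClosure (Algebra.adjoin O ({v} : Set F)) F) ∈ 𝔪)
    (hv𝔪 : ∀ t : integralClosure (Algebra.adjoin O ({v} : Set F)) F, (t : F) = v → t ∉ 𝔪) :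
    PthPoint.PowAt (Algebra.adjoin O ({v} : Set F)) p H 𝔪 := by
  classical
  -- the coordinate `v` in the chart ring
  have hvint : IsIntegral (Algebra.adjoin O ({v} : Set F)) v := isIntegral_self v
  have hvn : ∀ n : ℕ, (⟨v, hvint⟩ : integralClosure (Algebra.adjoin O ({v} : Set F)) F) ^ n ∉ 𝔪 :=
    fun n hn => hv𝔪 ⟨v, hvint⟩ rfl (h𝔪.mem_of_pow_mem n hn)
  -- membership in `𝔪` read in `F`
  have hmemF : ∀ (a b : integralClosure (Algebra.adjoin O ({v} : Set F)) F),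
      (a : F) = (b : F) → a ∈ 𝔪 → b ∈ 𝔪 := fun a b hab ha => by
    have : a = b := Subtype.ext hab
    rw [← this]; exact ha
  -- the contraction
  let I : Ideal (integralClosure (Algebra.adjoin O ({u} : Set F)) F) :=
    { carrier := {x | ∃ (n : ℕ) (a : integralClosure (Algebra.adjoin O ({v} : Set F)) F),
        a ∈ 𝔪 ∧ (a : F) = (x : F) * v ^ n}
      add_mem' := by
        rintro x y ⟨n, a, ha, hax⟩ ⟨k, b, hb, hby⟩
        refine ⟨n + k, a * ⟨v, hvint⟩ ^ k + b * ⟨v, hvint⟩ ^ n,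
          𝔪.add_mem (𝔪.mul_mem_right _ ha) (𝔪.mul_mem_right _ hb), ?_⟩
        push_cast
        rw [hax, hby]
        ring
      zero_mem' := ⟨0, 0, 𝔪.zero_mem, by push_cast; ring⟩
      smul_mem' := by
        rintro c x ⟨n, a, ha, hax⟩
        obtain ⟨N, hN⟩ := exists_isIntegral_mul_pow u v huv (c : F) c.2
        refine ⟨N + n, ⟨(c : F) * v ^ N, hN N le_rfl⟩ * a, 𝔪.mul_mem_left _ ha, ?_⟩
        rw [smul_eq_mul]
        push_cast
        rw [hax]
        ring }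
  have hIdef : ∀ x : integralClosure (Algebra.adjoin O ({u} : Set F)) F, x ∈ I ↔
      ∃ (n : ℕ) (a : integralClosure (Algebra.adjoin O ({v} : Set F)) F),
        a ∈ 𝔪 ∧ (a : F) = (x : F) * v ^ n := fun x => Iff.rfl
  have hI1 : I ≠ ⊤ := by
    intro htop
    have h1 : (1 : integralClosure (Algebra.adjoin O ({u} : Set F)) F) ∈ I := by
      rw [htop]; exact Submodule.mem_top
    obtain ⟨n, a, ha, ha1⟩ := (hIdef 1).mp h1
    refine hvn n (hmemF a _ ?_ ha)
    rw [ha1]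
    push_cast
    ring
  have hpI : (p : integralClosure (Algebra.adjoin O ({u} : Set F)) F) ∈ I := by
    refine (hIdef _).mpr ⟨0, (p : integralClosure (Algebra.adjoin O ({v} : Set F)) F), hp𝔪, ?_⟩
    push_cast
    ring
  obtain ⟨𝔫, h𝔫, hI𝔫⟩ := Ideal.exists_le_maximal I hI1
  obtain ⟨s, G, w, hs, hsw, hH⟩ := h0 𝔫 h𝔫 (hI𝔫 hpI)
  obtain ⟨N₁, hN₁⟩ := exists_isIntegral_mul_pow u v huv (s : F) s.2
  obtain ⟨N₂, hN₂⟩ := exists_isIntegral_mul_pow u v huv ((s : F) * w) hsw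
  have hsN : IsIntegral (Algebra.adjoin O ({v} : Set F)) ((s : F) * v ^ (N₁ + N₂)) :=
    hN₁ _ (Nat.le_add_right _ _)
  refine ⟨⟨(s : F) * v ^ (N₁ + N₂), hsN⟩, G, w, ?_, ?_, hH⟩
  · intro hmem
    exact hs (hI𝔫 ((hIdef s).mpr ⟨N₁ + N₂, _, hmem, rfl⟩))
  · have h : ((⟨(s : F) * v ^ (N₁ + N₂), hsN⟩ :
        integralClosure (Algebra.adjoin O ({v} : Set F)) F) : F) * w
        = (s : F) * w * v ^ (N₁ + N₂) := by
      show (s : F) * v ^ (N₁ + N₂) * w = (s : F) * w * v ^ (N₁ + N₂)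
      ring
    rw [h]
    exact hN₂ _ (Nat.le_add_left _ _)

/-- **`hinf` from `h0`**: the binder `hinf` of `PthRootRam.exists_pow_eq_of_pointwise_ram` from
the binder `h0` and the points of the chart at infinity over `u = ∞` (`u⁻¹ ∈ 𝔪`). -/
theorem hinf_of_h0 (u : F) (hu : u ≠ 0) (p : ℕ) (H : F)
    (h0 : ∀ 𝔪 : Ideal (integralClosure (Algebra.adjoin O ({u} : Set F)) F), 𝔪.IsMaximal →
      (p : integralClosure (Algebra.adjoin O ({u} : Set F)) F) ∈ 𝔪 →
      PthPoint.PowAt (Algebra.adjoin O ({u} : Set F)) p H 𝔪)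
    (hcusp : ∀ 𝔪 : Ideal (integralClosure (Algebra.adjoin O ({u⁻¹} : Set F)) F), 𝔪.IsMaximal →
      (p : integralClosure (Algebra.adjoin O ({u⁻¹} : Set F)) F) ∈ 𝔪 →
      (∃ t : integralClosure (Algebra.adjoin O ({u⁻¹} : Set F)) F, (t : F) = u⁻¹ ∧ t ∈ 𝔪) →
      PthPoint.PowAt (Algebra.adjoin O ({u⁻¹} : Set F)) p H 𝔪) :
    ∀ 𝔪 : Ideal (integralClosure (Algebra.adjoin O ({u⁻¹} : Set F)) F), 𝔪.IsMaximal →
      (p : integralClosure (Algebra.adjoin O ({u⁻¹} : Set F)) F) ∈ 𝔪 →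
      PthPoint.PowAt (Algebra.adjoin O ({u⁻¹} : Set F)) p H 𝔪 := by
  intro 𝔪 h𝔪 hp𝔪
  by_cases hc : ∃ t : integralClosure (Algebra.adjoin O ({u⁻¹} : Set F)) F, (t : F) = u⁻¹ ∧ t ∈ 𝔪
  · exact hcusp 𝔪 h𝔪 hp𝔪 hc
  · exact powAt_of_mul_eq_one u u⁻¹ (mul_inv_cancel₀ hu) p H h0 𝔪 h𝔪.isPrime hp𝔪
      (fun t ht htm => hc ⟨t, ht, htm⟩)

/-- **`h0` from `hinf`**: the mirror of `hinf_of_h0`. -/
theorem h0_of_hinf (u : F) (hu : u ≠ 0) (p : ℕ) (H : F)
    (hinf : ∀ 𝔪 : Ideal (integralClosure (Algebra.adjoin O ({u⁻¹} : Set F)) F), 𝔪.IsMaximal →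
      (p : integralClosure (Algebra.adjoin O ({u⁻¹} : Set F)) F) ∈ 𝔪 →
      PthPoint.PowAt (Algebra.adjoin O ({u⁻¹} : Set F)) p H 𝔪)
    (hcusp : ∀ 𝔪 : Ideal (integralClosure (Algebra.adjoin O ({u} : Set F)) F), 𝔪.IsMaximal →
      (p : integralClosure (Algebra.adjoin O ({u} : Set F)) F) ∈ 𝔪 →
      (∃ t : integralClosure (Algebra.adjoin O ({u} : Set F)) F, (t : F) = u ∧ t ∈ 𝔪) →
      PthPoint.PowAt (Algebra.adjoin O ({u} : Set F)) p H 𝔪) :
    ∀ 𝔪 : Ideal (integralClosure (Algebra.adjoin O ({u} : Set F)) F), 𝔪.IsMaximal →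
      (p : integralClosure (Algebra.adjoin O ({u} : Set F)) F) ∈ 𝔪 →
      PthPoint.PowAt (Algebra.adjoin O ({u} : Set F)) p H 𝔪 := by
  intro 𝔪 h𝔪 hp𝔪
  by_cases hc : ∃ t : integralClosure (Algebra.adjoin O ({u} : Set F)) F, (t : F) = u ∧ t ∈ 𝔪
  · exact hcusp 𝔪 h𝔪 hp𝔪 hc
  · exact powAt_of_mul_eq_one u⁻¹ u (inv_mul_cancel₀ hu) p H hinf 𝔪 h𝔪.isPrime hp𝔪
      (fun t ht htm => hc ⟨t, ht, htm⟩)

end Fermat.Agent.S44.L.NZ.ChartChange
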