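import Mathlib
import Fermat.Agent.S44.L.RedTransfer
import Fermat.Agent.S44.L.RedSepInst
import Fermat.Agent.S44.L.ThetaKer
import Fermat.Agent.S44.L.TopLemmas
import Fermat.Agent.S44.D.LiftCoreBridge
import Fermat.Agent.S34.Modular.SwapE

/-!
# PROGRAM MR (S44), strand L, (L.NZ): the `p`-th root of a reduction descends to EVERY base field

helper279.  `A` a valuation subring of `ℚ̄` over `p`, `κ` its residue field, `E ⊆ ℚ̄` a number
field with `O = OE A E` a discrete valuation ring.

The landed `R3Base.exists_gauss_pow` turns "the `ℚ̄`-level reduction of `x` is a constant times a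
`p`-th power `h ^ p`, `h` in the reduced function field" into "`red z = red g ^ p` over `E`" only
for `E` containing a finite set `S` (fields of definition of `h`).  On the cover-free route the
base field is `K(b)` with `K` in the inertia field, and `S ⊆ K(b)` cannot be arranged.  Here the
finite set is removed: the root lies in the residue field of the Gauss valuation of `LE N E`
itself, for EVERY `E`.

* `mem_of_pow_mem_of_isSeparable` (level-free) : `h` separable over a subfield `F₀` and
  `h ^ p ∈ F₀` (characteristic exponent `p`) imply `h ∈ F₀`.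
* `isSeparable_map_of_tower`, `isSeparable_of_pow_eq_one` (level-free) : the two separability
  suppliers.
* `gaussRes N A E` : the residue field of the Gauss valuation of `LE N E`, read in `κ((q))`
  (the reductions `kmap (red g)` of the Gauss-integral `g : LE N E`); it contains `j̄` and is
  contained in the reduced function field `redField N A`.
* `isSeparable_gaussRes` : every element of `redField N A` is separable over `gaussRes N A E`.
* `exists_gauss_root` : a Gauss-integral `z : LE N E` whose reduction is `h ^ p` with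
  `h ∈ redField N A` has `h = kmap (red g)` for a Gauss-integral `g : LE N E`.
* `exists_gauss_pow_desc` : **the exit** = `R3Base.exists_gauss_pow` without the finite set;
  `exists_gauss_pow_desc_of_mem_redField` : the same with the root `h` anywhere in
  `redField N A` (not only in `redSet N A`).
-/

set_option autoImplicit false
set_option linter.unusedSectionVars false
set_option linter.unusedVariables false
set_option linter.style.haveILetI false
set_option synthInstance.maxHeartbeats 400000

open ModularCurve HahnSeries Polynomial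

noncomputable section

namespace Fermat.Agent.S44.L.NZ.RootDesc

/-! ### Level-free: separable and purely inseparable -/

section LevelFree

variable {Ω : Type*} [Field Ω]

/-- **Separable + purely inseparable = rational.**  If `h` is separable over the subfield `F₀`
and `h ^ p ∈ F₀` (`p` the characteristic exponent), then `h ∈ F₀`. -/
theorem mem_of_pow_mem_of_isSeparable (p : ℕ) [ExpChar Ω p] (F₀ : Subfield Ω) {h : Ω}
    (hsep : IsSeparable F₀ h) (hpow : h ^ p ∈ F₀) : h ∈ F₀ := by
  haveI : ExpChar F₀ p := (algebraMap F₀ Ω).expChar (algebraMap F₀ Ω).injective p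
  have h1 : h ∈ separableClosure F₀ Ω := mem_separableClosure_iff.2 hsep
  have h2 : h ∈ perfectClosure F₀ Ω :=
    (mem_perfectClosure_iff_pow_mem p).2 ⟨1, ⟨⟨h ^ p, hpow⟩, by rw [pow_one]; rfl⟩⟩
  have h3 : h ∈ (⊥ : IntermediateField F₀ Ω) := by
    rw [← separableClosure_inf_perfectClosure]
    exact ⟨h1, h2⟩
  obtain ⟨y, hy⟩ := IntermediateField.mem_bot.1 h3
  rw [← hy]
  exact y.2

/-- An element with `x ^ m = 1`, `m` invertible, is separable over every subfield. -/
theorem isSeparable_of_pow_eq_one (F₀ : Subfield Ω) {x : Ω} {m : ℕ} (hm : (m : Ω) ≠ 0)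
    (hx : x ^ m = 1) : IsSeparable F₀ x := by
  have hm' : ((m : ℕ) : F₀) ≠ 0 := by
    intro h
    apply hm
    have h' := congrArg (algebraMap F₀ Ω) h
    rwa [map_natCast, map_zero] at h'
  have hsep : (X ^ m - Polynomial.C (1 : F₀) : F₀[X]).Separable :=
    separable_X_pow_sub_C 1 hm' one_ne_zero
  have haeval : aeval x (X ^ m - Polynomial.C (1 : F₀) : F₀[X]) = 0 := by
    rw [map_sub, map_pow, aeval_X, aeval_C, map_one, hx, sub_self]
  exact hsep.of_dvd (minpoly.dvd F₀ x haeval)

/-- **Transitivity of separability along a ring homomorphism.**  `F / E₁` separable,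
`φ : F →+* Ω`, and the image of every element of `E₁` separable over the subfield `F₀` of `Ω`:
then the image of every element of `F` is separable over `F₀`. -/
theorem isSeparable_map_of_tower (F₀ : Subfield Ω) {F E₁ : Type*} [Field F] [Field E₁]
    [Algebra E₁ F] [Algebra.IsSeparable E₁ F] (φ : F →+* Ω)
    (hE : ∀ e : E₁, IsSeparable F₀ (φ (algebraMap E₁ F e))) (x : F) :
    IsSeparable F₀ (φ x) := by
  let S : IntermediateField F₀ Ω := separableClosure F₀ Ω
  let ψ : E₁ →+* S := (φ.comp (algebraMap E₁ F)).codRestrict S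
    (fun e => mem_separableClosure_iff.2 (hE e))
  have hψ : (algebraMap S Ω).comp ψ = φ.comp (algebraMap E₁ F) := by
    ext e
    rfl
  have hm : (minpoly E₁ x).Separable := Algebra.IsSeparable.isSeparable E₁ x
  have hm' : ((minpoly E₁ x).map ψ).Separable := hm.map
  have haeval : aeval (φ x) ((minpoly E₁ x).map ψ) = 0 := by
    rw [aeval_def, eval₂_map, hψ, ← hom_eval₂, ← aeval_def, minpoly.aeval, map_zero]
  have hsepS : IsSeparable S (φ x) := hm'.of_dvd (minpoly.dvd S (φ x) haeval)
  exact IsSeparable.of_algebra_isSeparable_of_isSeparable F₀ hsepS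

end LevelFree

/-! ### The residue field of the Gauss valuation of `LE N E` -/

open Fermat.Agent.S30 Fermat.Agent.S18 Fermat.Agent.S18.K1Defs Fermat.Agent.S18.K1Top
open Fermat.Agent.S44.Contract Fermat.Agent.S44.L Fermat.Agent.S44.L.Top
open Fermat.Agent.S34.Modular.SwapE Fermat.Agent.S30.Producer

local notation "Qb" => AlgebraicClosure ℚ

section Gauss

variable (N : ℕ) [NeZero N] (A : ValuationSubring Qb) (E : IntermediateField ℚ Qb)
  [IsDiscreteValuationRing (OE A E)]

local notation "κ" => IsLocalRing.ResidueField A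

/-- The reduction of a Gauss-integral element of `LE N E`, read in `κ((q))`. -/
def gred (g : LE N E) (hg : (g : LaurentSeries E) ∈ GaussDVR.V (OE A E) E) : LaurentSeries κ :=
  RedTransfer.kmap A E (GaussDVR.red (OE A E) E ⟨(g : LaurentSeries E), hg⟩)

theorem gred_mul (g g' : LE N E) (hg : (g : LaurentSeries E) ∈ GaussDVR.V (OE A E) E)
    (hg' : (g' : LaurentSeries E) ∈ GaussDVR.V (OE A E) E)
    (h : ((g * g' : LE N E) : LaurentSeries E) ∈ GaussDVR.V (OE A E) E) :
    gred N A E (g * g') h = gred N A E g hg * gred N A E g' hg' := by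
  unfold gred
  rw [← map_mul, ← map_mul]
  rfl

theorem gred_add (g g' : LE N E) (hg : (g : LaurentSeries E) ∈ GaussDVR.V (OE A E) E)
    (hg' : (g' : LaurentSeries E) ∈ GaussDVR.V (OE A E) E)
    (h : ((g + g' : LE N E) : LaurentSeries E) ∈ GaussDVR.V (OE A E) E) :
    gred N A E (g + g') h = gred N A E g hg + gred N A E g' hg' := by
  unfold gred
  rw [← map_add, ← map_add]
  rfl

theorem gred_neg (g : LE N E) (hg : (g : LaurentSeries E) ∈ GaussDVR.V (OE A E) E)
    (h : ((-g : LE N E) : LaurentSeries E) ∈ GaussDVR.V (OE A E) E) :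
    gred N A E (-g) h = -gred N A E g hg := by
  unfold gred
  rw [← map_neg, ← map_neg]
  rfl

theorem gred_one (h : ((1 : LE N E) : LaurentSeries E) ∈ GaussDVR.V (OE A E) E) :
    gred N A E 1 h = 1 := by
  unfold gred
  have e : (⟨((1 : LE N E) : LaurentSeries E), h⟩ : GaussDVR.V (OE A E) E) = 1 := rfl
  rw [e, map_one, map_one]

theorem gred_zero (h : ((0 : LE N E) : LaurentSeries E) ∈ GaussDVR.V (OE A E) E) :
    gred N A E 0 h = 0 := by
  unfold gred
  have e : (⟨((0 : LE N E) : LaurentSeries E), h⟩ : GaussDVR.V (OE A E) E) = 0 := rfl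
  rw [e, map_zero, map_zero]

theorem gred_eq_zero_iff (g : LE N E) (hg : (g : LaurentSeries E) ∈ GaussDVR.V (OE A E) E) :
    gred N A E g hg = 0 ↔ GaussDVR.red (OE A E) E ⟨(g : LaurentSeries E), hg⟩ = 0 := by
  unfold gred
  constructor
  · intro h
    exact RedTransfer.kmap_injective A E (by rw [h, map_zero])
  · intro h
    rw [h, map_zero]

/-- The inverse of a Gauss unit of `LE N E` is Gauss-integral, with the inverse reduction. -/
theorem gred_inv (g : LE N E) (hg : (g : LaurentSeries E) ∈ GaussDVR.V (OE A E) E)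
    (hne : gred N A E g hg ≠ 0) :
    ∃ h : ((g⁻¹ : LE N E) : LaurentSeries E) ∈ GaussDVR.V (OE A E) E,
      gred N A E g⁻¹ h = (gred N A E g hg)⁻¹ := by
  have hred : GaussDVR.red (OE A E) E ⟨(g : LaurentSeries E), hg⟩ ≠ 0 := fun h0 =>
    hne ((gred_eq_zero_iff N A E g hg).2 h0)
  have hinv : ((g⁻¹ : LE N E) : LaurentSeries E) ∈ GaussDVR.V (OE A E) E :=
    GaussDVR.inv_mem (OE A E) E ⟨(g : LaurentSeries E), hg⟩ hred
  refine ⟨hinv, ?_⟩
  have hg0 : g ≠ 0 := by
    rintro rfl
    exact hne (gred_zero N A E hg)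
  have h1 : ((g * g⁻¹ : LE N E) : LaurentSeries E) ∈ GaussDVR.V (OE A E) E := by
    rw [mul_inv_cancel₀ hg0]
    exact one_mem _
  have h2 := gred_mul N A E g g⁻¹ hg hinv h1
  have h3 : gred N A E (g * g⁻¹) h1 = 1 := by
    have e : ∀ (y : LE N E) (hy : y = 1)
        (h : (y : LaurentSeries E) ∈ GaussDVR.V (OE A E) E), gred N A E y h = 1 := by
      rintro y rfl h
      exact gred_one N A E h
    exact e _ (mul_inv_cancel₀ hg0) h1
  rw [h3] at h2
  exact eq_inv_of_mul_eq_one_right h2.symm

/-- **The residue field of the Gauss valuation of `LE N E`**, read in `κ((q))`: the reductions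
of the Gauss-integral elements of `LE N E`. -/
def gaussRes : Subfield (LaurentSeries κ) where
  carrier := {φ | ∃ (g : LE N E) (hg : (g : LaurentSeries E) ∈ GaussDVR.V (OE A E) E),
    gred N A E g hg = φ}
  mul_mem' := by
    rintro _ _ ⟨g, hg, rfl⟩ ⟨g', hg', rfl⟩
    exact ⟨g * g', mul_mem hg hg', gred_mul N A E g g' hg hg' _⟩
  one_mem' := ⟨1, one_mem _, gred_one N A E _⟩
  add_mem' := by
    rintro _ _ ⟨g, hg, rfl⟩ ⟨g', hg', rfl⟩
    exact ⟨g + g', add_mem hg hg', gred_add N A E g g' hg hg' _⟩
  zero_mem' := ⟨0, zero_mem _, gred_zero N A E _⟩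
  neg_mem' := by
    rintro _ ⟨g, hg, rfl⟩
    exact ⟨-g, neg_mem hg, gred_neg N A E g hg _⟩
  inv_mem' := by
    rintro _ ⟨g, hg, rfl⟩
    by_cases hne : gred N A E g hg = 0
    · rw [hne, inv_zero]
      exact ⟨0, zero_mem _, gred_zero N A E _⟩
    · obtain ⟨h, hh⟩ := gred_inv N A E g hg hne
      exact ⟨g⁻¹, h, hh⟩

theorem mem_gaussRes {φ : LaurentSeries κ} :
    φ ∈ gaussRes N A E ↔ ∃ (g : LE N E) (hg : (g : LaurentSeries E) ∈ GaussDVR.V (OE A E) E),
      RedTransfer.kmap A E (GaussDVR.red (OE A E) E ⟨(g : LaurentSeries E), hg⟩) = φ :=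
  Iff.rfl

/-- `j` as an element of `LE N E`. -/
def jLE : LE N E :=
  ⟨coeffEmb E jq, coeffEmb_mem_laurentBaseChange E (by
    have h := jqd_mem_full N (one_dvd N)
    rwa [qExpand_one_apply] at h)⟩

theorem coe_jLE : ((jLE N E : LE N E) : LaurentSeries E) = coeffEmb E jq := rfl

/-- `j̄` lies in the residue field of the Gauss valuation of `LE N E`. -/
theorem jqModC_mem_gaussRes : jqModC κ ∈ gaussRes N A E := by
  have hcoe : ((jLE N E : LE N E) : LaurentSeries E)
      = GaussDVR.iota (OE A E) E (jqModC (OE A E)) := by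
    rw [E2G1.iota_jqModC, ← E2G1.coeffEmb_jq, coe_jLE]
  have hV : ((jLE N E : LE N E) : LaurentSeries E) ∈ GaussDVR.V (OE A E) E := by
    rw [hcoe]
    exact GaussDVR.mem_of_int (OE A E) E _
  refine ⟨jLE N E, hV, ?_⟩
  have e : (⟨((jLE N E : LE N E) : LaurentSeries E), hV⟩ : GaussDVR.V (OE A E) E)
      = ⟨GaussDVR.iota (OE A E) E (jqModC (OE A E)), GaussDVR.mem_of_int (OE A E) E _⟩ :=
    Subtype.ext hcoe
  unfold gred
  rw [e, GaussDVR.red_of_int]
  exact Fermat.Agent.S44.D.LiftCoreBridge.kmap_rho_jqModC A E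

/-- The residue field of the Gauss valuation of `LE N E` lies in the reduced function field. -/
theorem gaussRes_le_redField {p : ℕ} (hp : p.Prime) (hA : A.LiesOverPrime p) :
    gaussRes N A E ≤ redField N A := by
  haveI : Fact p.Prime := ⟨hp⟩
  rintro _ ⟨g, hg, rfl⟩
  exact Subfield.subset_closure
    (RedTransfer.kmap_red_mem_redSet A E N p hA (g : LaurentSeries E) hg
      (K1Descent.upHom N E g).2)

/-- **Every element of the reduced function field is separable over the residue field of the
Gauss valuation of `LE N E`.** -/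
theorem isSeparable_gaussRes {p : ℕ} (hp : p.Prime) (hA : A.LiesOverPrime p)
    (h : LaurentSeries κ) (hh : h ∈ redField N A) : IsSeparable (gaussRes N A E) h := by
  haveI := Kappa.charP_residueField hp hA
  haveI : Fact p.Prime := ⟨hp⟩
  haveI : CharP (LaurentSeries κ) p :=
    charP_of_injective_ringHom (HahnSeries.C_injective (Γ := ℤ) (R := κ)) p
  haveI : ExpChar (LaurentSeries κ) p := ExpChar.prime hp
  haveI := RedSepInst.isSeparable_redField N hp A hA
  -- constants are separable
  have hconst : ∀ c : κ, IsSeparable (gaussRes N A E) (HahnSeries.C c : LaurentSeries κ) := by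
    intro c
    by_cases hc : c = 0
    · rw [hc, map_zero]
      have h0 := isSeparable_algebraMap (F := gaussRes N A E) (K := LaurentSeries κ) 0
      rwa [map_zero] at h0
    · obtain ⟨n, hn, hcn⟩ := Kappa.exists_pow_eq_one hp hA c hc
      obtain ⟨e, m, hm, rfl⟩ := Nat.exists_eq_pow_mul_and_not_dvd hn.ne' p hp.ne_one
      have hCn : (HahnSeries.C c : LaurentSeries κ) ^ (p ^ e * m) = 1 := by
        rw [← map_pow, hcn, map_one]
      have hCm : (HahnSeries.C c : LaurentSeries κ) ^ m = 1 :=
        (ExpChar.pow_prime_pow_mul_eq_one_iff p e m _).1 hCn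
      refine isSeparable_of_pow_eq_one (gaussRes N A E) ?_ hCm
      intro h0
      exact hm ((CharP.cast_eq_zero_iff (LaurentSeries κ) p m).1 h0)
  -- the tower
  have hE : ∀ e : IntermediateField.adjoin (ThetaKerFin.constSub N A) {ThetaKerFin.jRed N A},
      IsSeparable (gaussRes N A E) ((redField N A).subtype
        (algebraMap (IntermediateField.adjoin (ThetaKerFin.constSub N A)
          {ThetaKerFin.jRed N A}) (redField N A) e)) := by
    -- the subfield of `redField N A` of elements separable over `gaussRes`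
    let T : Subfield (redField N A) :=
      (separableClosure (gaussRes N A E) (LaurentSeries κ)).toSubfield.comap
        (redField N A).subtype
    have hle : (IntermediateField.adjoin (ThetaKerFin.constSub N A)
        {ThetaKerFin.jRed N A}).toSubfield ≤ T := by
      rw [IntermediateField.adjoin_toSubfield, Subfield.closure_le]
      rintro x (⟨c, rfl⟩ | hx)
      · obtain ⟨c', hc'⟩ := (ThetaKerFin.mem_constSub N A (c : redField N A)).1 c.2
        show IsSeparable (gaussRes N A E) ((c : redField N A) : LaurentSeries κ)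
        rw [hc']
        exact hconst c'
      · rw [Set.mem_singleton_iff] at hx
        subst hx
        show IsSeparable (gaussRes N A E) (jqModC κ)
        have hj : jqModC κ = algebraMap (gaussRes N A E) (LaurentSeries κ)
            ⟨jqModC κ, jqModC_mem_gaussRes N A E⟩ := rfl
        rw [hj]
        exact isSeparable_algebraMap _
    intro e
    exact hle e.2
  have := isSeparable_map_of_tower (gaussRes N A E) (redField N A).subtype hE ⟨h, hh⟩
  exact this

/-- **The `p`-th root descends.**  A Gauss-integral `z : LE N E` whose reduction, read in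
`κ((q))`, is the `p`-th power of an element `h` of the reduced function field: `h` is itself the
reduction of a Gauss-integral `g : LE N E`. -/
theorem exists_gauss_root {p : ℕ} (hp : p.Prime) (hA : A.LiesOverPrime p) (z : LE N E)
    (hz : (z : LaurentSeries E) ∈ GaussDVR.V (OE A E) E) (h : LaurentSeries κ)
    (hh : h ∈ redField N A)
    (hpow : RedTransfer.kmap A E (GaussDVR.red (OE A E) E ⟨(z : LaurentSeries E), hz⟩)
      = h ^ p) :
    ∃ (g : LE N E) (hg : (g : LaurentSeries E) ∈ GaussDVR.V (OE A E) E),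
      RedTransfer.kmap A E (GaussDVR.red (OE A E) E ⟨(g : LaurentSeries E), hg⟩) = h := by
  haveI := Kappa.charP_residueField hp hA
  haveI : Fact p.Prime := ⟨hp⟩
  haveI : CharP (LaurentSeries κ) p :=
    charP_of_injective_ringHom (HahnSeries.C_injective (Γ := ℤ) (R := κ)) p
  haveI : ExpChar (LaurentSeries κ) p := ExpChar.prime hp
  have hmem : h ^ p ∈ gaussRes N A E := ⟨z, hz, hpow⟩
  exact mem_of_pow_mem_of_isSeparable p (gaussRes N A E)
    (isSeparable_gaussRes N A E hp hA h hh) hmem

end Gauss

/-! ### The exit: `R3Base.exists_gauss_pow` without the finite set -/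

set_option maxHeartbeats 1600000 in
/-- **The `ℚ̄`-level reduction, transported to EVERY `E`** (the `p`-th root anywhere in the
reduced function field).  `x ∈ FN N` with a reduction `fb = ē · h ^ p`, `h ∈ redField N A`:
over every `E` with `A ∩ E` a discrete valuation ring, every `f : LE N E` with `upE f = x` is
`d · z` with `d : E` a nonzero constant, `z` Gauss-integral, and `red z = red g ^ p` for a
Gauss unit `g : LE N E`. -/
theorem exists_gauss_pow_desc_of_mem_redField (N p : ℕ) [NeZero N] (hp : p.Prime)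
    (A : ValuationSubring Qb) (hA : A.LiesOverPrime p) (x : FN N)
    (fb h : LaurentSeries (IsLocalRing.ResidueField A)) (e : IsLocalRing.ResidueField A)
    (hx : RedAt N A x fb) (hhF : h ∈ redField N A) (hpow : fb = HahnSeries.C e * h ^ p)
    (E : IntermediateField ℚ Qb) [IsDiscreteValuationRing (OE A E)]
    (f : LE N E) (hf : upE N E f = x) :
    ∃ (d : E) (z g : LE N E) (hz : (z : LaurentSeries E) ∈ GaussDVR.V (OE A E) E)
      (hg : (g : LaurentSeries E) ∈ GaussDVR.V (OE A E) E),
      d ≠ 0 ∧ f = algebraMap E (LE N E) d * z ∧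
      GaussDVR.red (OE A E) E ⟨(g : LaurentSeries E), hg⟩ ≠ 0 ∧
      GaussDVR.red (OE A E) E ⟨(z : LaurentSeries E), hz⟩ =
        GaussDVR.red (OE A E) E ⟨(g : LaurentSeries E), hg⟩ ^ p := by
  classical
  haveI : Fact p.Prime := ⟨hp⟩
  have hx0 : x ≠ 0 := TopLemmas.RedAt.left_ne_zero hx
  have hfb0 : fb ≠ 0 := TopLemmas.RedAt.ne_zero hx
  have hf0 : f ≠ 0 := by
    rintro rfl
    exact hx0 (by rw [← hf, map_zero])
  have hfco : (f : LaurentSeries E) ≠ 0 := fun h0 => hf0 (Subtype.ext h0)
  -- the Gauss normal form of `f` over `O = A ∩ E`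
  obtain ⟨ϖ, hϖ⟩ := IsDiscreteValuationRing.exists_irreducible (OE A E)
  have hfrac : (f : LaurentSeries E) ∈ GaussDVR.fracField (OE A E) E :=
    E2G1.mem_fracField_of_mem_LE N A E f.2
  obtain ⟨i, k, y, hy, hfy⟩ := GaussDVR.exists_unit_pow E ϖ hϖ (f : LaurentSeries E) hfrac hfco
  have hϖ0 : (algebraMap (OE A E) E ϖ) ≠ 0 := by
    intro h0
    exact hϖ.ne_zero (FaithfulSMul.algebraMap_injective (OE A E) E (by rw [h0, map_zero]))
  obtain ⟨d, hd⟩ : ∃ d : E, d = algebraMap (OE A E) E ϖ ^ i / algebraMap (OE A E) E ϖ ^ k :=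
    ⟨_, rfl⟩
  have hd0 : d ≠ 0 := by
    rw [hd]
    exact div_ne_zero (pow_ne_zero _ hϖ0) (pow_ne_zero _ hϖ0)
  obtain ⟨kd, hkd⟩ : ∃ kd : LE N E, kd = algebraMap E (LE N E) d := ⟨_, rfl⟩
  have hkd0 : kd ≠ 0 := by
    rw [hkd]
    exact (_root_.map_ne_zero _).mpr hd0
  have hkdco : (kd : LaurentSeries E) = HahnSeries.C d := by
    rw [hkd, Fermat.Agent.S18.Wiring.C_eq_algebraMap]
    rfl
  obtain ⟨z, hzdef⟩ : ∃ z : LE N E, z = f * kd⁻¹ := ⟨_, rfl⟩
  have hfz : f = algebraMap E (LE N E) d * z := by
    rw [hzdef, ← hkd, mul_comm f, ← mul_assoc, mul_inv_cancel₀ hkd0, one_mul]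
  have hu : ((GaussDVR.unif E ϖ : GaussDVR.V (OE A E) E) : LaurentSeries E) ≠ 0 :=
    GaussDVR.coe_unif_ne_zero E ϖ hϖ
  have hzy : (z : LaurentSeries E) = (y : LaurentSeries E) := by
    have h1 : (z : LaurentSeries E) * (kd : LaurentSeries E) = (f : LaurentSeries E) := by
      have h2 : z * kd = f := by
        rw [hzdef, mul_assoc, inv_mul_cancel₀ hkd0, mul_one]
      exact congrArg (fun t : LE N E => (t : LaurentSeries E)) h2
    have h3 : (kd : LaurentSeries E)
        * ((GaussDVR.unif E ϖ : GaussDVR.V (OE A E) E) : LaurentSeries E) ^ k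
        = ((GaussDVR.unif E ϖ : GaussDVR.V (OE A E) E) : LaurentSeries E) ^ i := by
      have h4 : d * algebraMap (OE A E) E ϖ ^ k = algebraMap (OE A E) E ϖ ^ i := by
        rw [hd, div_mul_cancel₀ _ (pow_ne_zero k hϖ0)]
      have h5 : (HahnSeries.C (d * algebraMap (OE A E) E ϖ ^ k) : LaurentSeries E)
          = HahnSeries.C (algebraMap (OE A E) E ϖ ^ i) := by rw [h4]
      rw [map_mul, map_pow, map_pow] at h5
      rw [hkdco, GaussDVR.coe_unif]
      exact h5
    apply mul_left_cancel₀ (pow_ne_zero i hu)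
    rw [← hfy, ← h1, ← h3]
    ring
  have hzV : (z : LaurentSeries E) ∈ GaussDVR.V (OE A E) E := by
    rw [hzy]
    exact y.2
  have hzred : GaussDVR.red (OE A E) E ⟨(z : LaurentSeries E), hzV⟩ ≠ 0 := by
    have e1 : (⟨(z : LaurentSeries E), hzV⟩ : GaussDVR.V (OE A E) E) = y := Subtype.ext hzy
    rw [e1]
    exact hy
  -- the `ℚ̄`-level reduction of `x` computed from `z`
  obtain ⟨P, Q, hP, hQ, hQr, hPQ⟩ := RedTransfer.exists_frac_of_mem_V A E N p hA
    (z : LaurentSeries E) hzV (K1Descent.upHom N E z).2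
  have hkPQ := RedTransfer.kmap_red_mul A E (z : LaurentSeries E) hzV P Q hPQ
  have hk0 : RedTransfer.kmap A E (GaussDVR.red (OE A E) E ⟨(z : LaurentSeries E), hzV⟩) ≠ 0 :=
    fun h0 => hzred (RedTransfer.kmap_injective A E (by rw [h0, map_zero]))
  have hPr : Congr.red A P ≠ 0 := by
    rw [← hkPQ]
    exact mul_ne_zero hk0 hQr
  have hdQ : ((d : E) : Qb) ≠ 0 := by
    intro h0
    exact hd0 (Subtype.ext h0)
  have hxred : RedAt N A x
      (RedTransfer.kmap A E (GaussDVR.red (OE A E) E ⟨(z : LaurentSeries E), hzV⟩)) := by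
    refine ⟨((d : E) : Qb), P, Q, hdQ, hPr, hQr, ?_, hkPQ⟩
    have hxf : (x : LaurentSeries Qb) = GaussDescent.up E (f : LaurentSeries E) :=
      (congrArg Subtype.val hf).symm
    have hfco' : (f : LaurentSeries E) = HahnSeries.C d * (z : LaurentSeries E) := by
      have h2 := congrArg (fun t : LE N E => (t : LaurentSeries E)) hfz
      rw [← hkd] at h2
      rw [← hkdco]
      exact h2
    have hupC : GaussDescent.up E (HahnSeries.C d : LaurentSeries E)
        = HahnSeries.C ((d : E) : Qb) := by
      rw [Fermat.Agent.S18.Wiring.C_eq_algebraMap, GaussDescent.up_algebraMap,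
        ← Fermat.Agent.S18.Wiring.C_eq_algebraMap]
    rw [hxf, hfco', map_mul, hupC, mul_assoc, hPQ]
  obtain ⟨e₁, he₁, hee⟩ := TopLemmas.RedAt.unique hxred hx
  -- `kmap (red z) = (C e₃ * h) ^ p`
  obtain ⟨e₃, he₃⟩ := RedSep.exists_pow_eq_residue p hp A hA (e₁ * e)
  have hroot : RedTransfer.kmap A E (GaussDVR.red (OE A E) E ⟨(z : LaurentSeries E), hzV⟩)
      = (HahnSeries.C e₃ * h) ^ p := by
    rw [hee, hpow, mul_pow, ← map_pow, he₃, map_mul]
    ring
  obtain ⟨g, hgV, hg⟩ := exists_gauss_root N A E hp hA z hzV (HahnSeries.C e₃ * h)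
    (mul_mem (TopLemmas.C_mem_redField N A e₃) hhF) hroot
  have hgred : GaussDVR.red (OE A E) E ⟨(g : LaurentSeries E), hgV⟩ ≠ 0 := by
    intro h0
    apply hk0
    rw [hroot, ← hg, h0, map_zero, zero_pow hp.ne_zero]
  refine ⟨d, z, g, hzV, hgV, hd0, hfz, hgred, ?_⟩
  apply RedTransfer.kmap_injective A E
  rw [map_pow, hg, hroot]

/-- **The exit: `R3Base.exists_gauss_pow` without the finite set `S`.**  `x ∈ FN N` with a
reduction `fb = ē · h ^ p`, `h ∈ redSet N A`: over EVERY `E` with `A ∩ E` a discrete valuation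
ring, every `f : LE N E` with `upE f = x` is `d · z` with `d : E` a nonzero constant, `z`
Gauss-integral, and `red z = red g ^ p` for a Gauss unit `g : LE N E`. -/
theorem exists_gauss_pow_desc (N p : ℕ) [NeZero N] (hp : p.Prime)
    (A : ValuationSubring Qb) (hA : A.LiesOverPrime p) (x : FN N)
    (fb h : LaurentSeries (IsLocalRing.ResidueField A)) (e : IsLocalRing.ResidueField A)
    (hx : RedAt N A x fb) (hh : h ∈ redSet N A) (hpow : fb = HahnSeries.C e * h ^ p)
    (E : IntermediateField ℚ Qb) [IsDiscreteValuationRing (OE A E)]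
    (f : LE N E) (hf : upE N E f = x) :
    ∃ (d : E) (z g : LE N E) (hz : (z : LaurentSeries E) ∈ GaussDVR.V (OE A E) E)
      (hg : (g : LaurentSeries E) ∈ GaussDVR.V (OE A E) E),
      d ≠ 0 ∧ f = algebraMap E (LE N E) d * z ∧
      GaussDVR.red (OE A E) E ⟨(g : LaurentSeries E), hg⟩ ≠ 0 ∧
      GaussDVR.red (OE A E) E ⟨(z : LaurentSeries E), hz⟩ =
        GaussDVR.red (OE A E) E ⟨(g : LaurentSeries E), hg⟩ ^ p :=
  exists_gauss_pow_desc_of_mem_redField N p hp A hA x fb h e hx (Subfield.subset_closure hh)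
    hpow E f hf

end Fermat.Agent.S44.L.NZ.RootDesc
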