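import Mathlib
import Fermat.Agent.S44.L.PthRootRam
import Fermat.Agent.S34.DescendRoot
import Fermat.Agent.S30.Model.ChartProv
import Fermat.Agent.S36.InvFun
import Fermat.Agent.S44.L.IotaCalc
import Fermat.Agent.S18.K1Main.JBase

/-!
# PROGRAM MR (S44), strand L, (L.NZ) on the cover-free route, row NZ.7 (EX): the exit, core

(helper293.)  `E ⊆ ℚ̄` a subfield with `O_E = A ∩ E` a discrete valuation ring, `F = LE N E` the
function field of level `N` over `E`, `U ∈ F` a coordinate (transcendental over `E`, `F` finite
over `E(U)`), `H ∈ F`.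

* `exists_upF_pow_of_exit` : **the Kummer field provider**.  Any exit theorem of the shape of
  `PthRoot.exists_pow_eq_of_localPow` / `PthRootRam.exists_pow_eq_of_pointwise_ram` ("for every
  field `L ⊇ F` with no new integral constants, with a finite chart and with a `p`-th root of `H`,
  `H` is a `p`-th power in `F`") gives: `H` is a `p`-th power in `Fb N` (over `ℚ̄`).  The
  hypotheses on `L` are discharged at `L = F[X] / (X ^ p - H)`: if `X ^ p - H` stays irreducible
  over `Fb N` there are no new constants (`Descend.no_new_constants`); otherwise `H` is already a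
  `p`-th power over `ℚ̄`.
* `exists_upF_pow_of_powAt` : the ramified exit: `p = η π ^ p` in `O_E`, the fibres at `π` of the
  two charts `O_E[U]`, `O_E[U⁻¹]` reduced (`hred0`, `hredinf`), `PthPoint.PowAt` at every maximal
  ideal over `p` of both charts: `H` is a `p`-th power in `Fb N`.
* `sim_one_of_upF_pow` : then `x = upF fs * h ^ p`, `fs = ca * H` give `Sim ℚ̄ p x 1`.
-/

set_option autoImplicit false
set_option linter.unusedSectionVars false
set_option linter.unusedVariables false
set_option linter.style.haveILetI false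
set_option synthInstance.maxHeartbeats 400000
set_option maxHeartbeats 8000000

open ModularCurve Polynomial

noncomputable section

namespace Fermat.Agent.S44.L.NZ.ExitCore

open Fermat.Agent.S18.K1Defs Fermat.Agent.S18.K1Main Fermat.Agent.S30 Fermat.Agent.S30.E4
open Fermat.Agent.S30.Model Fermat.Agent.S34.Descend

local notation "Qb" => AlgebraicClosure ℚ

/-- The hypotheses of an exit theorem of the `PthRoot` shape, at a finite extension `L` of
`F = LE N E` without new constants (`O_E`-algebra structure of `L` through `E`). -/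
theorem exists_pow_of_exit_of_const (N : ℕ) [NeZero N] (A : ValuationSubring Qb)
    (E : IntermediateField ℚ Qb) [IsDiscreteValuationRing (OE A E)] (p : ℕ)
    (U : LE N E) (hU : Transcendental E U)
    [FiniteDimensional (IntermediateField.adjoin E {U}) (LE N E)] (H : LE N E)
    (exit : letI := algebraOL (OE A E) E (LE N E)
      ∀ (L : Type) [Field L] [Algebra (LE N E) L] [Algebra (OE A E) L]
        [IsScalarTower (OE A E) (LE N E) L],
        Function.Injective (algebraMap (OE A E) L) →
        (∀ x : L, IsIntegral (OE A E) x → ∃ a : OE A E, algebraMap (OE A E) L a = x) →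
        Module.Finite (Algebra.adjoin (OE A E) ({algebraMap (LE N E) L U} : Set L))
          (integralClosure (Algebra.adjoin (OE A E) ({algebraMap (LE N E) L U} : Set L)) L) →
        ∀ z : L, z ^ p = algebraMap (LE N E) L H → ∃ g : LE N E, H = g ^ p)
    (L : Type) [Field L] [Algebra (LE N E) L] [Algebra E L] [IsScalarTower E (LE N E) L]
    [FiniteDimensional (LE N E) L]
    (hconst : ∀ x : L, IsAlgebraic E x → ∃ c : E, algebraMap E L c = x)
    (z : L) (hz : z ^ p = algebraMap (LE N E) L H) : ∃ g : LE N E, H = g ^ p := by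
  classical
  letI := algebraOL (OE A E) E (LE N E)
  haveI := isScalarTower_OL (OE A E) E (LE N E)
  letI : Algebra (OE A E) L := ((algebraMap E L).comp (algebraMap (OE A E) E)).toAlgebra
  haveI : IsScalarTower (OE A E) E L := IsScalarTower.of_algebraMap_eq (fun _ => rfl)
  haveI : IsScalarTower (OE A E) (LE N E) L := IsScalarTower.of_algebraMap_eq (fun a => by
    rw [IsScalarTower.algebraMap_apply (OE A E) E L, IsScalarTower.algebraMap_apply E (LE N E) L,
      ← IsScalarTower.algebraMap_apply (OE A E) E (LE N E)])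
  have hinj : Function.Injective (algebraMap (OE A E) L) :=
    ChartProv.algebraMap_injective_base (OE A E) E L
  have hOL : ∀ x : L, IsIntegral (OE A E) x → ∃ a : OE A E, algebraMap (OE A E) L a = x := by
    intro x hx
    obtain ⟨c, hc⟩ := hconst x (hx.tower_top (A := E)).isAlgebraic
    have hcint : IsIntegral (OE A E) c := by
      rw [← isIntegral_algebraMap_iff (algebraMap E L).injective, hc]
      exact hx
    obtain ⟨a, ha⟩ := IsIntegrallyClosed.isIntegral_iff.mp hcint
    exact ⟨a, by rw [IsScalarTower.algebraMap_apply (OE A E) E L, ha, hc]⟩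
  have hU' : Transcendental E (algebraMap (LE N E) L U) :=
    (transcendental_algebraMap_iff (algebraMap (LE N E) L).injective).mpr hU
  set K : IntermediateField E (LE N E) := IntermediateField.adjoin E {U} with hK
  set φ : LE N E →ₐ[E] L := IsScalarTower.toAlgHom E (LE N E) L with hφ
  have hKmap : IntermediateField.adjoin E {algebraMap (LE N E) L U} = K.map φ := by
    rw [hK, IntermediateField.adjoin_map, Set.image_singleton]
    rfl
  haveI : Module.Finite K L := Module.Finite.trans (LE N E) L
  have hfd : FiniteDimensional (K.map φ) L :=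
    Module.Finite.of_equiv_equiv (K.equivMap φ).toRingEquiv (RingEquiv.refl L)
      (RingHom.ext fun k => rfl)
  haveI : FiniteDimensional (IntermediateField.adjoin E {algebraMap (LE N E) L U}) L := by
    rw [hKmap]; exact hfd
  have hfin := ChartProv.chart_finite (O := OE A E) (E := E) (algebraMap (LE N E) L U) hU'
  exact exit L hinj hOL hfin z hz

/-- **The Kummer field provider.**  An exit theorem for `p`-th roots over the base `O_E`,
applied to the field `F[X] / (X ^ p - H)`, shows that `H` is a `p`-th power over `ℚ̄`. -/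
theorem exists_upF_pow_of_exit (N : ℕ) [NeZero N] (A : ValuationSubring Qb)
    (E : IntermediateField ℚ Qb) [IsDiscreteValuationRing (OE A E)] (p : ℕ) (hp : p.Prime)
    (U : LE N E) (hU : Transcendental E U)
    [FiniteDimensional (IntermediateField.adjoin E {U}) (LE N E)] (H : LE N E)
    (exit : letI := algebraOL (OE A E) E (LE N E)
      ∀ (L : Type) [Field L] [Algebra (LE N E) L] [Algebra (OE A E) L]
        [IsScalarTower (OE A E) (LE N E) L],
        Function.Injective (algebraMap (OE A E) L) →
        (∀ x : L, IsIntegral (OE A E) x → ∃ a : OE A E, algebraMap (OE A E) L a = x) →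
        Module.Finite (Algebra.adjoin (OE A E) ({algebraMap (LE N E) L U} : Set L))
          (integralClosure (Algebra.adjoin (OE A E) ({algebraMap (LE N E) L U} : Set L)) L) →
        ∀ z : L, z ^ p = algebraMap (LE N E) L H → ∃ g : LE N E, H = g ^ p) :
    ∃ G : Fb N, upF N E H = G ^ p := by
  classical
  set q : (LE N E)[X] := X ^ p - C H with hq
  have hqm : q.Monic := monic_X_pow_sub_C H hp.ne_zero
  have hmap : q.map (upF N E) = X ^ p - C (upF N E H) := by
    rw [hq, Polynomial.map_sub, Polynomial.map_pow, Polynomial.map_X, Polynomial.map_C]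
  by_cases hirr : Irreducible (q.map (upF N E))
  · have hqirr : Irreducible q := hqm.irreducible_of_irreducible_map (upF N E) q hirr
    haveI : Fact (Irreducible q) := ⟨hqirr⟩
    haveI : IsScalarTower E (LE N E) (AdjoinRoot q) :=
      IsScalarTower.of_algebraMap_eq (fun _ => rfl)
    haveI : FiniteDimensional (LE N E) (AdjoinRoot q) :=
      (AdjoinRoot.powerBasis hqm.ne_zero).finite
    have hz : (AdjoinRoot.root q) ^ p = algebraMap (LE N E) (AdjoinRoot q) H := by
      have h := AdjoinRoot.eval₂_root q
      rw [hq, eval₂_sub, eval₂_pow, eval₂_X, eval₂_C, sub_eq_zero] at h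
      exact h
    obtain ⟨g, hg⟩ := exists_pow_of_exit_of_const N A E p U hU H exit (AdjoinRoot q)
      (no_new_constants N E q hqm hirr) (AdjoinRoot.root q) hz
    exact ⟨upF N E g, by rw [hg, map_pow]⟩
  · rw [hmap] at hirr
    by_contra hne
    exact hirr (X_pow_sub_C_irreducible_of_prime hp (fun b hb => hne ⟨b, hb.symm⟩))

/-- **The ramified exit over `ℚ̄`.**  `p = η π ^ p` in `O_E`, reduced fibres at `π` of the two
charts of the coordinate `U`, and the datum `PthPoint.PowAt` for `H` at every maximal ideal over
`p` of the two chart rings: `H` is a `p`-th power in `Fb N`. -/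
theorem exists_upF_pow_of_powAt (N : ℕ) [NeZero N] (A : ValuationSubring Qb)
    (E : IntermediateField ℚ Qb) [IsDiscreteValuationRing (OE A E)] (p : ℕ) (hp : p.Prime)
    (hp3 : 3 ≤ p) (π η : OE A E) (hπ : Irreducible π) (hη : IsUnit η)
    (hpπ : ((p : ℕ) : OE A E) = η * π ^ p)
    (U : LE N E) (hU : Transcendental E U)
    [FiniteDimensional (IntermediateField.adjoin E {U}) (LE N E)] (H : LE N E) :
    letI := algebraOL (OE A E) E (LE N E)
    (∀ x : LE N E, IsIntegral (Algebra.adjoin (OE A E) ({U} : Set (LE N E))) x →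
      IsIntegral (Algebra.adjoin (OE A E) ({U} : Set (LE N E)))
        (x ^ p / algebraMap (OE A E) (LE N E) π) →
      IsIntegral (Algebra.adjoin (OE A E) ({U} : Set (LE N E)))
        (x / algebraMap (OE A E) (LE N E) π)) →
    (∀ x : LE N E, IsIntegral (Algebra.adjoin (OE A E) ({U⁻¹} : Set (LE N E))) x →
      IsIntegral (Algebra.adjoin (OE A E) ({U⁻¹} : Set (LE N E)))
        (x ^ p / algebraMap (OE A E) (LE N E) π) →
      IsIntegral (Algebra.adjoin (OE A E) ({U⁻¹} : Set (LE N E)))
        (x / algebraMap (OE A E) (LE N E) π)) →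
    (∀ 𝔪 : Ideal (integralClosure (Algebra.adjoin (OE A E) ({U} : Set (LE N E))) (LE N E)),
      𝔪.IsMaximal →
      (p : integralClosure (Algebra.adjoin (OE A E) ({U} : Set (LE N E))) (LE N E)) ∈ 𝔪 →
      PthPoint.PowAt (Algebra.adjoin (OE A E) ({U} : Set (LE N E))) p H 𝔪) →
    (∀ 𝔪 : Ideal (integralClosure (Algebra.adjoin (OE A E) ({U⁻¹} : Set (LE N E))) (LE N E)),
      𝔪.IsMaximal →
      (p : integralClosure (Algebra.adjoin (OE A E) ({U⁻¹} : Set (LE N E))) (LE N E)) ∈ 𝔪 →
      PthPoint.PowAt (Algebra.adjoin (OE A E) ({U⁻¹} : Set (LE N E))) p H 𝔪) →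
    ∃ G : Fb N, upF N E H = G ^ p := by
  letI := algebraOL (OE A E) E (LE N E)
  haveI := isScalarTower_OL (OE A E) E (LE N E)
  intro hred0 hredinf h0 hinf
  have hU0 : U ≠ 0 := fun h => hU (h ▸ isAlgebraic_zero)
  refine exists_upF_pow_of_exit N A E p hp U hU H ?_
  intro L _ _ _ _ hinjL hOL hfin z hz
  haveI := hfin
  exact PthRootRam.exists_pow_eq_of_pointwise_ram p hp hp3 π η hπ.prime hη hpπ hinjL hOL U hU0
    hred0 hredinf H z hz h0 hinf

/-- The two extensions of constants `LE N E → Fb N` on main agree. -/
theorem invFun_upF_eq (N : ℕ) [NeZero N] (E : IntermediateField ℚ Qb) (x : LE N E) :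
    Fermat.Agent.S36.InvFun.upF N E x = upF N E x := rfl

/-- From a `p`-th power over `ℚ̄` to the relation `Sim`: `x = upF fs * h ^ p`, `fs = ca * H`,
`upF H = G ^ p` give `x ∼ 1` modulo constants and `p`-th powers. -/
theorem sim_one_of_upF_pow (N : ℕ) [NeZero N] (E : IntermediateField ℚ Qb) (p : ℕ) (hp0 : p ≠ 0)
    {x h G : Fb N} {fs H : LE N E} {ca : E} (hx0 : x ≠ 0)
    (hx : x = Fermat.Agent.S36.InvFun.upF N E fs * h ^ p)
    (hfs : fs = algebraMap E (LE N E) ca * H) (hG : upF N E H = G ^ p) :
    Fermat.Agent.S44.L.IotaCalc.Sim Qb p x 1 := by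
  refine Fermat.Agent.S44.L.IotaCalc.sim_of_eq_mul (c := algebraMap E Qb ca) (g := G * h) hp0 hx0 ?_
  rw [hx, invFun_upF_eq, hfs, map_mul, upF_algebraMap, hG, mul_one, mul_pow, mul_assoc]

end Fermat.Agent.S44.L.NZ.ExitCore
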