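import Mathlib
import Fermat.Agent.S44.L.Slope.Cut
import Fermat.Agent.S44.L.EisDich

/-!
# PROGRAM MR (S44), strand L, (L.NZ) on the cover-free route: the first cut below
`Slope.Cut.NZCoreStatement`

Statement-level file (helper131, L sub-captain) with one compiled assembly.

`Cut.NZCoreStatement` ("both reductions of `ι R` are `p`-th powers ⟹ False") is split along the
dichotomy `EisDich.eisDich` on the Kummer generator `b` of an `EShapeData`:

* `NZEisStatement`   : the EISENSTEIN case (`π = b / c - 1` is a uniformiser of a totally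
  ramified extension of degree `p` of the unramified base): if the reduction of `ι R` at the
  Gauss valuation is a `p`-th power, contradiction.  (Route: generic depth for every `d` over the
  ramified base from the ping-pong `R3All`, closed-point lift `NZ/DepthLift` with the constant of
  the `α`-norm, one crossing point, `DepthHensel` + `PthRootRam`, `IotaCalc.not_sim_one`.)
* `NZSplitStatement` : the SPLIT case after the shift `R ↦ R - i T` (`b` and `R` fixed by the
  inertia group): the same conclusion over the unramified base (`NodeGlue` + `PthPoint`).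
* `SplitRedStatement`: the shift does not change "the reduction is a `p`-th power", because the
  reduction of `ι T` is a constant times a `p`-th power (`EisDichRed.red_R_split`).

Only the reduction of `ι R` itself (the component `∞`) is used: the ping-pong needs depth `≥ 1`
at ONE of the two Gauss primes.  The Atkin–Lehner data of `NZCoreStatement` are not needed.

* `nzCoreStatement_of_bricks : NZEisStatement → NZSplitStatement → SplitRedStatement →
  Cut.NZCoreStatement`.
-/

set_option autoImplicit false

open WeierstrassCurve WeierstrassCurve.Affine WeierstrassCurve.Affine.Point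
open HahnSeries ModularCurve AlgebraicCurve

namespace Fermat.Agent.S44.L.NZ.Bricks

open Fermat.Agent.S30 Fermat.Agent.S30.Producer Fermat.Agent.S44.Contract
open Fermat.Agent.S44.L.Top Fermat.Agent.S44.L

local notation "GQb" => (AlgebraicClosure ℚ ≃ₐ[ℚ] AlgebraicClosure ℚ)

/-- The EISENSTEIN alternative of `EisDich.eisDich` for the Kummer generator `b`: there are a
unit `c` and a unit `w` of `A`, both fixed by the inertia group, with `(b / c) ^ p = 1 + p w`
and `|b / c - 1| ^ p = |p|`. -/
def IsEis (P : FreyPackage) (A : ValuationSubring Qb) (b : Qb) : Prop :=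
  ∃ c w : Qb, (∀ σ : GQb, σ ∈ A.inertiaSubgroupIn ℚ → σ c = c) ∧ A.valuation c = 1 ∧
    (∀ σ : GQb, σ ∈ A.inertiaSubgroupIn ℚ → σ w = w) ∧ A.valuation w = 1 ∧
    (b / c) ^ P.p = 1 + (P.p : Qb) * w ∧
    A.valuation (b / c - 1) ^ P.p = A.valuation (P.p : Qb)

/-- **(NZ.EIS)** The Eisenstein case of (L.NZ): for an `EShape` datum whose Kummer generator
`b` is of Eisenstein type and a `p`-new embedding, the reduction of `ι R` is not a `p`-th power
in the reduced field of level `N'`. -/
def NZEisStatement : Prop :=
  ∀ (P : FreyPackage) (N' : ℕ) [NeZero N'] [NeZero P.p] (W : WeierstrassCurve ℤ),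
    ¬ P.p ∣ N' → Squarefree N' →
    ∀ A : ValuationSubring Qb, A.LiesOverPrime P.p →
    ∀ ι : (P.freyCurve⁄Qb).Point → FN (N' * P.p), IsNewEmb P N' W ι →
    ∀ (T R : (P.freyCurve⁄Qb).Point) (ζ b : Qb), EShapeData P A T R ζ b → IsEis P A b →
    ∀ g : redField N' A,
      RedAt (N' * P.p) A (ι R) ((g : LaurentSeries (IsLocalRing.ResidueField A)) ^ P.p) → False

/-- **(NZ.SPLIT)** The split case of (L.NZ): for an `EShape` datum with `b` and `R` fixed by
the inertia group and a `p`-new embedding, the reduction of `ι R` is not a `p`-th power in the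
reduced field of level `N'`. -/
def NZSplitStatement : Prop :=
  ∀ (P : FreyPackage) (N' : ℕ) [NeZero N'] [NeZero P.p] (W : WeierstrassCurve ℤ),
    ¬ P.p ∣ N' → Squarefree N' →
    ∀ A : ValuationSubring Qb, A.LiesOverPrime P.p →
    ∀ ι : (P.freyCurve⁄Qb).Point → FN (N' * P.p), IsNewEmb P N' W ι →
    ∀ (T R : (P.freyCurve⁄Qb).Point) (ζ b : Qb), EShapeData P A T R ζ b →
    (∀ σ : GQb, σ ∈ A.inertiaSubgroupIn ℚ → σ b = b) →
    (∀ σ : GQb, σ ∈ A.inertiaSubgroupIn ℚ → σ • R = R) →
    ∀ g : redField N' A,
      RedAt (N' * P.p) A (ι R) ((g : LaurentSeries (IsLocalRing.ResidueField A)) ^ P.p) → False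

/-- **(NZ.SHIFT)** The reduction of `ι T` is a constant times a `p`-th power, so "the reduction
of `ι R` is a `p`-th power in the reduced field" is invariant under `R ↦ R - i T`. -/
def SplitRedStatement : Prop :=
  ∀ (P : FreyPackage) (N' : ℕ) [NeZero N'] [NeZero P.p] (W : WeierstrassCurve ℤ),
    ¬ P.p ∣ N' → Squarefree N' →
    ∀ A : ValuationSubring Qb, A.LiesOverPrime P.p →
    ∀ ι : (P.freyCurve⁄Qb).Point → FN (N' * P.p), IsNewEmb P N' W ι →
    ∀ (T R : (P.freyCurve⁄Qb).Point) (ζ b : Qb), EShapeData P A T R ζ b →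
    ∀ (i : ℕ) (g : redField N' A),
      RedAt (N' * P.p) A (ι R) ((g : LaurentSeries (IsLocalRing.ResidueField A)) ^ P.p) →
      ∃ g' : redField N' A,
        RedAt (N' * P.p) A (ι (R - i • T))
          ((g' : LaurentSeries (IsLocalRing.ResidueField A)) ^ P.p)

/-- **`Cut.NZCoreStatement` from the two cases of the dichotomy.** -/
theorem nzCoreStatement_of_bricks (hEis : NZEisStatement) (hSplit : NZSplitStatement)
    (hShift : SplitRedStatement) : Slope.Cut.NZCoreStatement := by
  intro P N' _ _ W hpN' hsq A hA ι hι T R ζ b hdata w _ _ _ g g₀ hg _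
  rcases EisDich.eisDich P A hA T R ζ b hdata with
    ⟨i, b₀, -, hb₀, hfix, hdata'⟩ | ⟨c, w', h1, h2, h3, h4, h5, h6⟩
  · obtain ⟨g', hg'⟩ := hShift P N' W hpN' hsq A hA ι hι T R ζ b hdata i g hg
    exact hSplit P N' W hpN' hsq A hA ι hι T (R - i • T) ζ b₀ hdata' hb₀ hfix g' hg'
  · exact hEis P N' W hpN' hsq A hA ι hι T R ζ b hdata ⟨c, w', h1, h2, h3, h4, h5, h6⟩ g hg

end Fermat.Agent.S44.L.NZ.Bricks
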