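import Mathlib
import Fermat.Agent.S44.L.NZ.Bricks
import Fermat.Agent.S44.L.IotaCalc

/-!
# PROGRAM MR (S44), strand L, (L.NZ) on the cover-free route: the second cut, below
`NZ.Bricks.NZEisStatement` (the Eisenstein case)

Statement-level file (helper131, NZ chain owner) with one compiled assembly.

Notation: `I` the inertia group of `A`; for a number field `K` fixed pointwise by `I`
(`K` unramified at `A`), `Ks = K(b) = K ⊔ ℚ(b)`; in the Eisenstein case `Ks / K` is totally
ramified of degree `p` at `A`, with uniformiser `π = b / c - 1`.  `x ~ y` is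
`IotaCalc.Sim Qb p x y` (equal up to a nonzero constant and a `p`-th power).

* `NZRepStatement`   : (exit of the row DESC, ALT.8 (a)) over every number field `K₀` fixed by
  `I` there are `K ⊇ K₀` fixed by `I` and a representative `f₀ ~ ι R` whose `q`-expansion has
  coefficients in `K(b)` and lies in the function field of level `N' p` over `K(b)`.
* `NZCoreEStatement` : (the geometric core over the ramified base: rows NZ.1 GEN, NZ.2 / NZ.3
  closed-point lift, NZ.5 CP, NZ.6 CROSS, NZ.7 EX) in the Eisenstein case, if the reduction of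
  `ι R` is a `p`-th power, then there is a number field `K₀` fixed by `I` such that EVERY
  representative `f₀ ~ ι R` defined over `K(b)`, `K ⊇ K₀` fixed by `I`, is a constant times a
  `p`-th power: `f₀ ~ 1`.
* `nzEisStatement_of_bricks : NZRepStatement → NZCoreEStatement → Bricks.NZEisStatement`
  (with the landed `IotaCalc.not_sim_one`: `ι R ≁ 1`).
* `nzCoreStatement_of_bricks2` : the whole chain down to `Slope.Cut.NZCoreStatement`.
-/

set_option autoImplicit false

open WeierstrassCurve WeierstrassCurve.Affine WeierstrassCurve.Affine.Point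
open HahnSeries ModularCurve AlgebraicCurve

namespace Fermat.Agent.S44.L.NZ.EisBricks

open Fermat.Agent.S30 Fermat.Agent.S30.Producer Fermat.Agent.S30.E4 Fermat.Agent.S44.Contract
open Fermat.Agent.S44.L.Top Fermat.Agent.S44.L.IotaCalc Fermat.Agent.S44.L
open Fermat.Agent.S44.L.NZ.Bricks

local notation "GQb" => (AlgebraicClosure ℚ ≃ₐ[ℚ] AlgebraicClosure ℚ)

/-- **(NZ.REP)** A representative of the class of `ι R` over `K(b)`, `K` a number field fixed
by the inertia group and containing a prescribed one. -/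
def NZRepStatement : Prop :=
  ∀ (P : FreyPackage) (N' : ℕ) [NeZero N'] [NeZero P.p] (W : WeierstrassCurve ℤ),
    ¬ P.p ∣ N' →
    ∀ A : ValuationSubring Qb, A.LiesOverPrime P.p →
    ∀ ι : (P.freyCurve⁄Qb).Point → FN (N' * P.p), IsNewEmb P N' W ι →
    ∀ (T R : (P.freyCurve⁄Qb).Point) (ζ b : Qb), EShapeData P A T R ζ b →
    ∀ K₀ : IntermediateField ℚ Qb, FiniteDimensional ℚ K₀ →
      (∀ τ : GQb, τ ∈ A.inertiaSubgroupIn ℚ → ∀ x ∈ K₀, τ x = x) →
    ∃ K : IntermediateField ℚ Qb, FiniteDimensional ℚ K ∧ K₀ ≤ K ∧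
      (∀ τ : GQb, τ ∈ A.inertiaSubgroupIn ℚ → ∀ x ∈ K, τ x = x) ∧
      ∃ (f0 : FN (N' * P.p))
        (y : LaurentSeries ↥(K ⊔ IntermediateField.adjoin ℚ ({b} : Set Qb))),
        y ∈ laurentBaseChange ↥(K ⊔ IntermediateField.adjoin ℚ ({b} : Set Qb))
          (modularFunctionFieldFull (N' * P.p)) ∧
        coeffMap (algebraMap ↥(K ⊔ IntermediateField.adjoin ℚ ({b} : Set Qb)) Qb) y
          = (f0 : LaurentSeries Qb) ∧
        Sim Qb P.p (ι R) f0

/-- **(NZ.CORE-E)** The geometric core of (L.NZ) over the ramified base `K(b)`: in the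
Eisenstein case, if the reduction of `ι R` is a `p`-th power in the reduced field, every
representative of the class of `ι R` defined over `K(b)` (`K` fixed by inertia and large enough)
is a constant times a `p`-th power. -/
def NZCoreEStatement : Prop :=
  ∀ (P : FreyPackage) (N' : ℕ) [NeZero N'] [NeZero P.p] (W : WeierstrassCurve ℤ),
    ¬ P.p ∣ N' → Squarefree N' →
    ∀ A : ValuationSubring Qb, A.LiesOverPrime P.p →
    ∀ ι : (P.freyCurve⁄Qb).Point → FN (N' * P.p), IsNewEmb P N' W ι →
    ∀ (T R : (P.freyCurve⁄Qb).Point) (ζ b : Qb), EShapeData P A T R ζ b → IsEis P A b →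
    ∀ g : redField N' A,
      RedAt (N' * P.p) A (ι R) ((g : LaurentSeries (IsLocalRing.ResidueField A)) ^ P.p) →
    ∃ K₀ : IntermediateField ℚ Qb, FiniteDimensional ℚ K₀ ∧
      (∀ τ : GQb, τ ∈ A.inertiaSubgroupIn ℚ → ∀ x ∈ K₀, τ x = x) ∧
      ∀ K : IntermediateField ℚ Qb, FiniteDimensional ℚ K → K₀ ≤ K →
        (∀ τ : GQb, τ ∈ A.inertiaSubgroupIn ℚ → ∀ x ∈ K, τ x = x) →
        ∀ (f0 : FN (N' * P.p))
          (y : LaurentSeries ↥(K ⊔ IntermediateField.adjoin ℚ ({b} : Set Qb))),
          y ∈ laurentBaseChange ↥(K ⊔ IntermediateField.adjoin ℚ ({b} : Set Qb))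
            (modularFunctionFieldFull (N' * P.p)) →
          coeffMap (algebraMap ↥(K ⊔ IntermediateField.adjoin ℚ ({b} : Set Qb)) Qb) y
            = (f0 : LaurentSeries Qb) →
          Sim Qb P.p (ι R) f0 → Sim Qb P.p f0 1

/-- **`NZEisStatement` from the representative and the core.** -/
theorem nzEisStatement_of_bricks (hRep : NZRepStatement) (hCore : NZCoreEStatement) :
    NZEisStatement := by
  intro P N' _ _ W hpN' hsq A hA ι hι T R ζ b hE heis g hg
  obtain ⟨K₀, hK₀fin, hK₀, hcore⟩ := hCore P N' W hpN' hsq A hA ι hι T R ζ b hE heis g hg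
  obtain ⟨K, hKfin, hle, hK, f0, y, hy, hyf, hsim⟩ :=
    hRep P N' W hpN' A hA ι hι T R ζ b hE K₀ hK₀fin hK₀
  exact not_sim_one hι hE (hsim.trans (hcore K hKfin hle hK f0 y hy hyf hsim))

/-- **The NZ chain down to `Slope.Cut.NZCoreStatement`.** -/
theorem nzCoreStatement_of_bricks2 (hRep : NZRepStatement) (hCore : NZCoreEStatement)
    (hSplit : NZSplitStatement) (hShift : SplitRedStatement) : Slope.Cut.NZCoreStatement :=
  nzCoreStatement_of_bricks (nzEisStatement_of_bricks hRep hCore) hSplit hShift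

end Fermat.Agent.S44.L.NZ.EisBricks
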