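import Mathlib
import Fermat.Agent.S44.L.NZ.EisBricks
import Fermat.Agent.S44.L.AltDescW

/-!
# PROGRAM MR (S44), strand L, (L.NZ): ONE CASE — the split case is an instance of the
Eisenstein-case core in its weak form

(helper88.)  The Eisenstein-case core of (L.NZ) uses of an `EShapeData` datum only
`P.p • R = 0` and `AltDescW.FixBy P A R b` (the stabiliser of `b` in inertia fixes `R`).  In the
SPLIT case of `EisDich.eisDich` the shifted point `R - i T` is fixed by the whole inertia group,
so it has the weak shape for EVERY `b'`, in particular for the dummy Eisenstein generator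
`b' = (1 + p)^(1/p)` (`exists_isEis`: `c = w = 1`, `(b')^p = 1 + p`, `|b' - 1|^p = |p|`).

* `NZCoreEWStatement` : `EisBricks.NZCoreEStatement` with the hypotheses `EShapeData` replaced
  by `P.p • R = 0` and `FixBy P A R b` (no `T`, no `ζ`).  THIS is the Prop the E-level assembly
  `NZ/EisCore` should prove.
* `nzCoreStatement_of_coreEW : NZCoreEWStatement → Bricks.SplitRedStatement →
  Slope.Cut.NZCoreStatement` — `NZSplitStatement` is no longer a hypothesis: no unramified twin
  of the core (NZ.8, unramified CP, ExitUnr) is needed.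
-/

set_option autoImplicit false

open WeierstrassCurve WeierstrassCurve.Affine WeierstrassCurve.Affine.Point
open HahnSeries ModularCurve AlgebraicCurve

namespace Fermat.Agent.S44.L.NZ.OneCase

open Fermat.Agent.S30 Fermat.Agent.S30.Producer Fermat.Agent.S30.E4 Fermat.Agent.S44.Contract
open Fermat.Agent.S44.L.Top Fermat.Agent.S44.L.IotaCalc Fermat.Agent.S44.L
open Fermat.Agent.S44.L.NZ.Bricks
open Fermat.Agent.S44.L.AltDescW (FixBy)

local notation "GQb" => (AlgebraicClosure ℚ ≃ₐ[ℚ] AlgebraicClosure ℚ)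

/-- **A dummy Eisenstein generator.**  Over every place `A` above `p` there is `b` of
Eisenstein type: a `p`-th root of `1 + p` (with `c = w = 1`). -/
theorem exists_isEis (P : FreyPackage) (A : ValuationSubring Qb) (hA : A.LiesOverPrime P.p) :
    ∃ b : Qb, IsEis P A b := by
  have hp : P.p.Prime := P.pp
  have hvp : A.valuation (P.p : Qb) < 1 := A.mem_nonunits_iff.mp hA
  obtain ⟨b, hb⟩ := IsAlgClosed.exists_pow_nat_eq (1 + (P.p : Qb)) hp.pos
  have hv1 : A.valuation (1 + (P.p : Qb)) = 1 := by
    have h1 : A.valuation (P.p : Qb) < A.valuation (1 : Qb) := by rw [map_one]; exact hvp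
    rw [A.valuation.map_add_eq_of_lt_left h1, map_one]
  have hb1 : A.valuation b = 1 := by
    have h1 : A.valuation b ^ P.p = 1 := by rw [← map_pow, hb, hv1]
    rcases lt_trichotomy (A.valuation b) 1 with hlt | heq | hgt
    · exact absurd h1 (pow_lt_one₀ zero_le hlt hp.ne_zero).ne
    · exact heq
    · exact absurd h1 (one_lt_pow₀ hgt hp.ne_zero).ne'
  refine ⟨b, 1, 1, fun σ _ => map_one σ, map_one _, fun σ _ => map_one σ, map_one _, ?_, ?_⟩
  · rw [div_one, hb, mul_one]
  · refine KummerSplit.valuation_sub_one_pow_eq A hp hvp b 1 hb1 (map_one _) ?_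
    rw [hb, one_pow, add_sub_cancel_left]

/-- **(NZ.CORE-E), weak form.**  `EisBricks.NZCoreEStatement` with `EShapeData P A T R ζ b`
replaced by `P.p • R = 0` and `FixBy P A R b`: if `b` is of Eisenstein type and the reduction of
`ι R` is a `p`-th power in the reduced field, every representative of the class of `ι R` defined
over `K(b)` (`K` fixed by inertia and large enough) is a constant times a `p`-th power. -/
def NZCoreEWStatement : Prop :=
  ∀ (P : FreyPackage) (N' : ℕ) [NeZero N'] [NeZero P.p] (W : WeierstrassCurve ℤ),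
    ¬ P.p ∣ N' → Squarefree N' →
    ∀ A : ValuationSubring Qb, A.LiesOverPrime P.p →
    ∀ ι : (P.freyCurve⁄Qb).Point → FN (N' * P.p), IsNewEmb P N' W ι →
    ∀ (R : (P.freyCurve⁄Qb).Point) (b : Qb), P.p • R = 0 → FixBy P A R b → IsEis P A b →
    ∀ g : redField N' A,
      RedAt (N' * P.p) A (ι R) ((g : LaurentSeries (IsLocalRing.ResidueField A)) ^ P.p) →
    ∃ K₀ : IntermediateField ℚ Qb, FiniteDimensional ℚ K₀ ∧
      (∀ τ : GQb, τ ∈ A.inertiaSubgroupIn ℚ → ∀ x ∈ K₀, τ x = x) ∧
      ∀ K : IntermediateField ℚ Qb, FiniteDimensional ℚ K → K₀ ≤ K →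
        (∀ τ : GQb, τ ∈ A.inertiaSubgroupIn ℚ → ∀ x ∈ K, τ x = x) →
        ∀ (f0 : FN (N' * P.p))
          (y : LaurentSeries ↥(K ⊔ IntermediateField.adjoin ℚ ({b} : Set Qb))),
          y ∈ laurentBaseChange ↥(K ⊔ IntermediateField.adjoin ℚ ({b} : Set Qb))
            (modularFunctionFieldFull (N' * P.p)) →
          coeffMap (algebraMap ↥(K ⊔ IntermediateField.adjoin ℚ ({b} : Set Qb)) Qb) y
            = (f0 : LaurentSeries Qb) →
          Sim Qb P.p (ι R) f0 → Sim Qb P.p f0 1

/-- **(NZ.EIS), weak form**: a nonzero `p`-torsion point `R` fixed by the stabiliser of an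
Eisenstein-type `b`, with the reduction of `ι R` a `p`-th power: contradiction. -/
def NZEisWStatement : Prop :=
  ∀ (P : FreyPackage) (N' : ℕ) [NeZero N'] [NeZero P.p] (W : WeierstrassCurve ℤ),
    ¬ P.p ∣ N' → Squarefree N' →
    ∀ A : ValuationSubring Qb, A.LiesOverPrime P.p →
    ∀ ι : (P.freyCurve⁄Qb).Point → FN (N' * P.p), IsNewEmb P N' W ι →
    ∀ (R : (P.freyCurve⁄Qb).Point) (b : Qb), P.p • R = 0 → R ≠ 0 → FixBy P A R b →
      IsEis P A b →
    ∀ g : redField N' A,
      RedAt (N' * P.p) A (ι R) ((g : LaurentSeries (IsLocalRing.ResidueField A)) ^ P.p) → False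

/-- The weak Eisenstein statement from the weak core (the descent row is the theorem
`AltDescW.exists_rep`). -/
theorem nzEisWStatement_of_coreEW (hCore : NZCoreEWStatement) : NZEisWStatement := by
  intro P N' _ _ W hpN' hsq A hA ι hι R b hR hR0 hfix heis g hg
  obtain ⟨K₀, hK₀fin, hK₀, hcore⟩ := hCore P N' W hpN' hsq A hA ι hι R b hR hfix heis g hg
  obtain ⟨K, hKfin, hle, hK, f0, y, hy, hyf, hsim⟩ :=
    AltDescW.exists_rep hι hR hfix K₀ hK₀fin hK₀
  exact hR0 (eq_zero_of_sim_one hι hR (hsim.trans (hcore K hKfin hle hK f0 y hy hyf hsim)))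

/-- The weak core gives the landed `EisBricks.NZCoreEStatement`. -/
theorem nzCoreEStatement_of_w (h : NZCoreEWStatement) : EisBricks.NZCoreEStatement := by
  intro P N' _ _ W hpN' hsq A hA ι hι T R ζ b hE heis g hg
  exact h P N' W hpN' hsq A hA ι hι R b hE.2.1 (AltDescW.fixBy_of_eShapeData hE) heis g hg

theorem ne_zero_of_eShapeData {P : FreyPackage} {A : ValuationSubring Qb}
    {T R : (P.freyCurve⁄Qb).Point} {ζ b : Qb} (hE : EShapeData P A T R ζ b) : R ≠ 0 := by
  have h := hE.2.2.2.1 0
  rwa [zero_nsmul] at h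

/-- The Eisenstein case of `NZ/Bricks` from the weak statement. -/
theorem nzEisStatement_of_w (h : NZEisWStatement) : NZEisStatement := by
  intro P N' _ _ W hpN' hsq A hA ι hι T R ζ b hE heis g hg
  exact h P N' W hpN' hsq A hA ι hι R b hE.2.1 (ne_zero_of_eShapeData hE)
    (AltDescW.fixBy_of_eShapeData hE) heis g hg

/-- **The split case of `NZ/Bricks` from the weak Eisenstein statement**: a point fixed by the
whole inertia group is fixed by the stabiliser of the dummy generator. -/
theorem nzSplitStatement_of_w (h : NZEisWStatement) : NZSplitStatement := by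
  intro P N' _ _ W hpN' hsq A hA ι hι T R ζ b hE _ hfixR g hg
  obtain ⟨b', hb'⟩ := exists_isEis P A hA
  exact h P N' W hpN' hsq A hA ι hι R b' hE.2.1 (ne_zero_of_eShapeData hE)
    (AltDescW.fixBy_of_fixed hfixR b') hb' g hg

/-- **`Cut.NZCoreStatement` from the weak Eisenstein statement alone** (plus the shift). -/
theorem nzCoreStatement_of_w (h : NZEisWStatement) (hShift : SplitRedStatement) :
    Slope.Cut.NZCoreStatement :=
  nzCoreStatement_of_bricks (nzEisStatement_of_w h) (nzSplitStatement_of_w h) hShift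

/-- **`Cut.NZCoreStatement` from the weak E-level core alone** (plus the shift). -/
theorem nzCoreStatement_of_coreEW (h : NZCoreEWStatement) (hShift : SplitRedStatement) :
    Slope.Cut.NZCoreStatement :=
  nzCoreStatement_of_w (nzEisWStatement_of_coreEW h) hShift

end Fermat.Agent.S44.L.NZ.OneCase
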