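import Mathlib
import Fermat.Agent.S44.L.Node
import Fermat.Agent.S44.L.NodeNFEmb

/-!
# NZ.3 (branch axioms), quotient half: `A / (π, t) ≅ B / (t)` for `A = B[π]`, `π` Eisenstein

`B` a factorial domain, `t` a prime of `B`, `c` prime to `t`, `A = B[π]` a domain generated over
`B` by a root of `X ^ p - t c κ(X)` (`deg κ < p`, `κ(0)` a unit).  Then evaluation at `π = 0`
followed by reduction modulo `t` is a surjective ring hom `ψ : A → B / (t)` with kernel
`(π, t)` (`exists_quot_hom`).  Consequences, in the binder blocks of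
`NodeNF.exists_eq_first_order` (node, `π ^ p = t₁ t₂ κ(π)`) and
`SmoothNF.exists_eq_first_order_smooth` (smooth point, `π ^ p = ϖ κ(π)`):

* the branch ideals `P = (π, t₁)` (node) and `P = (π)` (smooth point) are prime, and a constant
  `b ∈ B` lies in `P` iff `t₁ ∣ b` (resp. `ϖ ∣ b`);
* `(B3)` `p`-th roots modulo a branch prime:
  `b ∉ P → b ^ p * r - a ^ p ∈ P → ∃ g, r - g ^ p ∈ P`  (`A / P ≅ B / (t)` is a local PID);
* `(B4)` gluing at a node: every non-unit of `A` lies in `P₁ ⊔ P₂`, so two elements of `A`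
  whose difference is a non-unit glue along the two branches.

The second branch of a node is the first one after the swap `t₁ ↔ t₂` (`node_swap`).
-/

set_option autoImplicit false

open Polynomial IsLocalRing

namespace Fermat.Agent.S44.L.NZ.BranchQuot

open Fermat.Agent.S44.L.NodeNFEmb Fermat.Agent.S44.L.Node Fermat.Agent.S44.L.LocalPrincipal

universe u v

/-! ### Generalities on `A = B[π]` -/

section Gen

variable {B : Type u} [CommRing B] {A : Type v} [CommRing A] [Algebra B A]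

/-- Every element of `B[π]` is an element of `B` plus a multiple of `π`. -/
theorem exists_eq_add_mul {π : A} (hgen : Algebra.adjoin B {π} = ⊤) (a : A) :
    ∃ (b : B) (a' : A), a = algebraMap B A b + π * a' := by
  have ha : a ∈ Algebra.adjoin B {π} := by rw [hgen]; exact Algebra.mem_top
  induction ha using Algebra.adjoin_induction with
  | mem x hx =>
    rw [Set.mem_singleton_iff] at hx
    subst hx
    exact ⟨0, 1, by rw [map_zero, zero_add, mul_one]⟩
  | algebraMap r => exact ⟨r, 0, by rw [mul_zero, add_zero]⟩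
  | add x y _ _ hx hy =>
    obtain ⟨b₁, a₁, rfl⟩ := hx
    obtain ⟨b₂, a₂, rfl⟩ := hy
    exact ⟨b₁ + b₂, a₁ + a₂, by rw [map_add]; ring⟩
  | mul x y _ _ hx hy =>
    obtain ⟨b₁, a₁, rfl⟩ := hx
    obtain ⟨b₂, a₂, rfl⟩ := hy
    exact ⟨b₁ * b₂, algebraMap B A b₁ * a₂ + a₁ * algebraMap B A b₂ + π * a₁ * a₂,
      by rw [map_mul]; ring⟩

/-- `A = B[π]` is integral over `B` when `π ^ p = s κ(π)`, `deg κ < p`. -/
theorem isIntegral_of_eis {p : ℕ} {s : B} {κ : B[X]} (hκ : κ.natDegree < p) {π : A}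
    (hπ : π ^ p = algebraMap B A s * aeval π κ) (hgen : Algebra.adjoin B {π} = ⊤) :
    Algebra.IsIntegral B A := by
  have hπint : IsIntegral B π :=
    ⟨eisPoly p s κ, eisPoly_monic s hκ, by
      rw [← aeval_def, aeval_eisPoly, hπ, sub_self]⟩
  refine ⟨fun a => ?_⟩
  have ha : a ∈ Algebra.adjoin B {π} := by rw [hgen]; exact Algebra.mem_top
  exact adjoin_le_integralClosure hπint ha

/-- For `B` local, `A` integral over `B` and `π ^ p ∈ s A` with `s` a non-unit of `B`: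
`b + π a'` is a unit of `A` as soon as `b` is a unit of `B`. -/
theorem isUnit_add_mul [IsLocalRing B] [Algebra.IsIntegral B A] {p : ℕ} {s : B}
    (hs : ¬ IsUnit s) {x π : A} (hπ : π ^ p = algebraMap B A s * x) {b : B} (hb : IsUnit b)
    (a' : A) : IsUnit (algebraMap B A b + π * a') := by
  have hjac : π ∈ Ideal.jacobson (⊥ : Ideal A) := by
    rw [Ideal.jacobson, Ideal.mem_sInf]
    rintro 𝔐 ⟨-, h𝔐⟩
    have hcomap : (𝔐.comap (algebraMap B A)).IsMaximal :=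
      Ideal.isMaximal_comap_of_isIntegral_of_isMaximal 𝔐
    have hs𝔐 : algebraMap B A s ∈ 𝔐 := by
      have hmem : s ∈ 𝔐.comap (algebraMap B A) := by
        rw [IsLocalRing.eq_maximalIdeal hcomap, IsLocalRing.mem_maximalIdeal, mem_nonunits_iff]
        exact hs
      exact hmem
    refine h𝔐.isPrime.mem_of_pow_mem p ?_
    rw [hπ]
    exact 𝔐.mul_mem_right _ hs𝔐
  obtain ⟨u, rfl⟩ := hb
  have hj := Ideal.mem_jacobson_bot.mp hjac (a' * algebraMap B A ((u⁻¹ : Bˣ) : B))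
  have hu : IsUnit (algebraMap B A (u : B)) := u.isUnit.map (algebraMap B A)
  have h1 : algebraMap B A (u : B) * algebraMap B A ((u⁻¹ : Bˣ) : B) = 1 := by
    rw [← map_mul, Units.mul_inv, map_one]
  have heq : algebraMap B A (u : B) + π * a' = algebraMap B A (u : B) *
      (π * (a' * algebraMap B A ((u⁻¹ : Bˣ) : B)) + 1) := by
    linear_combination (-(π * a')) * h1
  rw [heq]
  exact hu.mul hj

/-- `κ(π)` is a unit of `A` (`κ(0)` a unit of the local ring `B`, `π ^ p ∈ s A`). -/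
theorem isUnit_aeval [IsLocalRing B] [Algebra.IsIntegral B A] {p : ℕ} {s : B}
    (hs : ¬ IsUnit s) {κ : B[X]} (hκ0 : IsUnit (κ.eval 0)) {π : A}
    (hπ : π ^ p = algebraMap B A s * aeval π κ) : IsUnit (aeval π κ) := by
  have he : aeval π κ = algebraMap B A (κ.coeff 0) + π * aeval π κ.divX := by
    conv_lhs => rw [← X_mul_divX_add κ]
    rw [map_add, map_mul, aeval_X, aeval_C, add_comm]
  rw [he]
  exact isUnit_add_mul hs hπ (by rwa [coeff_zero_eq_eval_zero]) _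

/-- **(B4), abstract.**  If `𝔪 ≤ P₁ ⊔ P₂`, two elements that agree modulo `𝔪` glue. -/
theorem exists_glue {P₁ P₂ 𝔪 : Ideal A} (h𝔪 : 𝔪 ≤ P₁ ⊔ P₂) {h₁ h₂ : A} (h : h₁ - h₂ ∈ 𝔪) :
    ∃ g : A, g - h₁ ∈ P₁ ∧ g - h₂ ∈ P₂ := by
  obtain ⟨x, hx, y, hy, hxy⟩ := Submodule.mem_sup.mp (h𝔪 h)
  refine ⟨h₁ - x, ?_, ?_⟩
  · have : h₁ - x - h₁ = -x := by ring
    rw [this]
    exact P₁.neg_mem hx
  · have : h₁ - x - h₂ = y := by linear_combination -hxy
    rw [this]
    exact hy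

/-- **(B3), abstract.**  `p`-th roots modulo the kernel of a surjection onto an integrally
closed domain. -/
theorem exists_sub_pow_mem_ker {D : Type*} [CommRing D] [IsDomain D] [IsIntegrallyClosed D]
    (ψ : A →+* D) (hψ : Function.Surjective ψ) {p : ℕ} (hp : p ≠ 0) {a b r : A}
    (hb : b ∉ RingHom.ker ψ) (h : b ^ p * r - a ^ p ∈ RingHom.ker ψ) :
    ∃ g : A, r - g ^ p ∈ RingHom.ker ψ := by
  rw [RingHom.mem_ker] at hb h
  rw [map_sub, map_mul, map_pow, map_pow, sub_eq_zero] at h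
  have hdvd : ψ b ^ p ∣ ψ a ^ p := ⟨ψ r, h.symm⟩
  obtain ⟨d, hd⟩ := (IsIntegrallyClosed.pow_dvd_pow_iff hp).mp hdvd
  obtain ⟨g, rfl⟩ := hψ d
  refine ⟨g, ?_⟩
  rw [RingHom.mem_ker, map_sub, map_pow, sub_eq_zero]
  have h2 : ψ b ^ p * ψ r = ψ b ^ p * ψ g ^ p := by rw [h, hd, mul_pow]
  exact mul_left_cancel₀ (pow_ne_zero p hb) h2

end Gen

/-! ### The quotient map `A → B / (t)` -/

section Quot

variable {B : Type u} [CommRing B] [IsDomain B] {A : Type v} [CommRing A] [IsDomain A]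
  [Algebra B A]

/-- **(Q)** `A = B[π]`, `π ^ p = t c κ(π)` Eisenstein at the prime `t`: evaluation at `π = 0`
modulo `t` is a surjective ring hom `A → B / (t)` with kernel `(π, t)`. -/
theorem exists_quot_hom [UniqueFactorizationMonoid B] {p : ℕ} (hp : p ≠ 0) {t c : B}
    (ht : Prime t) (hc : ¬ t ∣ c) {κ : B[X]} (hκ : κ.natDegree < p) (hκ0 : IsUnit (κ.eval 0))
    (hBA : Function.Injective (algebraMap B A)) {π : A}
    (hπ : π ^ p = algebraMap B A (t * c) * aeval π κ) (hgen : Algebra.adjoin B {π} = ⊤) :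
    ∃ ψ : A →+* B ⧸ Ideal.span {t}, Function.Surjective ψ ∧
      (∀ b : B, ψ (algebraMap B A b) = Ideal.Quotient.mk (Ideal.span {t}) b) ∧ ψ π = 0 ∧
      RingHom.ker ψ = Ideal.span {π, algebraMap B A t} := by
  obtain ⟨E, hE⟩ : ∃ E : B[X], E = eisPoly p (t * c) κ := ⟨_, rfl⟩
  have hEprime : Prime E := hE ▸ eisPoly_prime hp ht hc hκ hκ0
  have hEmonic : E.Monic := hE ▸ eisPoly_monic (t * c) hκ
  have hEA : aeval π E = 0 := by rw [hE, aeval_eisPoly, hπ, sub_self]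
  let φA : AdjoinRoot E →ₐ[B] A := AdjoinRoot.liftAlgHom E (Algebra.ofId B A) π hEA
  have hφA : φA (AdjoinRoot.root E) = π := AdjoinRoot.liftAlgHom_root E _ π hEA
  have hφAinj : Function.Injective φA := algHom_injective_of_prime hEprime hEmonic hBA φA
  have hφAsurj : Function.Surjective φA := by
    rw [← AlgHom.range_eq_top, eq_top_iff, ← hgen]
    refine Algebra.adjoin_le ?_
    rintro x rfl
    exact ⟨AdjoinRoot.root E, hφA⟩
  let e : AdjoinRoot E ≃ₐ[B] A := AlgEquiv.ofBijective φA ⟨hφAinj, hφAsurj⟩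
  have heroot : e.symm π = AdjoinRoot.root E := by
    rw [AlgEquiv.symm_apply_eq]
    exact hφA.symm
  have heof : ∀ b : B, e.symm (algebraMap B A b) = AdjoinRoot.of E b := fun b => by
    rw [e.symm.commutes, AdjoinRoot.algebraMap_eq]
  have hE0 : E.eval₂ (Ideal.Quotient.mk (Ideal.span {t})) 0 = 0 := by
    rw [eval₂_at_zero, hE, eisPoly_coeff _ _ (Nat.pos_of_ne_zero hp), map_neg, neg_eq_zero,
      Ideal.Quotient.eq_zero_iff_mem, Ideal.mem_span_singleton]
    exact ⟨c * κ.coeff 0, by ring⟩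
  let ψ' : AdjoinRoot E →+* B ⧸ Ideal.span {t} :=
    AdjoinRoot.lift (Ideal.Quotient.mk (Ideal.span {t})) 0 hE0
  let ψ : A →+* B ⧸ Ideal.span {t} := ψ'.comp (e.symm : A →+* AdjoinRoot E)
  have hψalg : ∀ b : B, ψ (algebraMap B A b) = Ideal.Quotient.mk (Ideal.span {t}) b := by
    intro b
    show ψ' (e.symm (algebraMap B A b)) = _
    rw [heof]
    exact AdjoinRoot.lift_of hE0
  have hψπ : ψ π = 0 := by
    show ψ' (e.symm π) = 0
    rw [heroot]
    exact AdjoinRoot.lift_root hE0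
  refine ⟨ψ, ?_, hψalg, hψπ, ?_⟩
  · intro x
    obtain ⟨b, rfl⟩ := Ideal.Quotient.mk_surjective x
    exact ⟨algebraMap B A b, hψalg b⟩
  · apply le_antisymm
    · intro a ha
      rw [RingHom.mem_ker] at ha
      obtain ⟨b, a', rfl⟩ := exists_eq_add_mul hgen a
      rw [map_add, map_mul, hψπ, zero_mul, add_zero, hψalg, Ideal.Quotient.eq_zero_iff_mem,
        Ideal.mem_span_singleton] at ha
      obtain ⟨d, rfl⟩ := ha
      rw [map_mul]
      exact Ideal.add_mem _ (Ideal.mul_mem_right _ _ (Ideal.subset_span (by simp)))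
        (Ideal.mul_mem_right _ _ (Ideal.subset_span (by simp)))
    · rw [Ideal.span_le]
      rintro x (rfl | rfl)
      · exact hψπ
      · show ψ (algebraMap B A t) = 0
        rw [hψalg, Ideal.Quotient.eq_zero_iff_mem]
        exact Ideal.mem_span_singleton_self t

end Quot

/-! ### The node block -/

section Node

variable {B : Type u} [CommRing B] [IsDomain B] [IsLocalRing B] [IsNoetherianRing B]
  {A : Type v} [CommRing A] [IsDomain A] [Algebra B A] {p : ℕ} {t₁ t₂ : B} {κ : B[X]} {π : A}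

omit [IsDomain B] [IsNoetherianRing B] [IsDomain A] in
/-- The binder block of a node is symmetric in `(t₁, t₂)`. -/
theorem node_swap (hne : ¬ Associated t₁ t₂) (hm : maximalIdeal B = Ideal.span {t₁, t₂})
    (hπ : π ^ p = algebraMap B A (t₁ * t₂) * aeval π κ) :
    ¬ Associated t₂ t₁ ∧ maximalIdeal B = Ideal.span {t₂, t₁} ∧
      π ^ p = algebraMap B A (t₂ * t₁) * aeval π κ :=
  ⟨fun h => hne h.symm, by rw [hm, Set.pair_comm], by rw [hπ, mul_comm t₁ t₂]⟩

/-- **(Q), node.**  `A / (π, t₁) ≅ B / (t₁)`. -/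
theorem node_quot_hom (hp : p ≠ 0) (ht₁ : Prime t₁) (ht₂ : Prime t₂) (hne : ¬ Associated t₁ t₂)
    (hm : maximalIdeal B = Ideal.span {t₁, t₂}) (hκ : κ.natDegree < p)
    (hκ0 : IsUnit (κ.eval 0)) (hBA : Function.Injective (algebraMap B A))
    (hπ : π ^ p = algebraMap B A (t₁ * t₂) * aeval π κ) (hgen : Algebra.adjoin B {π} = ⊤) :
    ∃ ψ : A →+* B ⧸ Ideal.span {t₁}, Function.Surjective ψ ∧
      (∀ b : B, ψ (algebraMap B A b) = Ideal.Quotient.mk (Ideal.span {t₁}) b) ∧ ψ π = 0 ∧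
      RingHom.ker ψ = Ideal.span {π, algebraMap B A t₁} := by
  have : IsDomain (B ⧸ Ideal.span {t₁}) := isDomain_quot ht₁
  have : IsPrincipalIdealRing (B ⧸ Ideal.span {t₁}) := isPrincipalIdealRing_quot ht₁ hm
  have : UniqueFactorizationMonoid B := quot_ufm ht₁.ne_zero
  exact exists_quot_hom hp ht₁ (not_dvd_of_not_associated ht₁ ht₂ hne) hκ hκ0 hBA hπ hgen

/-- The branch ideal `(π, t₁)` of a node is prime. -/
theorem node_isPrime (hp : p ≠ 0) (ht₁ : Prime t₁) (ht₂ : Prime t₂) (hne : ¬ Associated t₁ t₂)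
    (hm : maximalIdeal B = Ideal.span {t₁, t₂}) (hκ : κ.natDegree < p)
    (hκ0 : IsUnit (κ.eval 0)) (hBA : Function.Injective (algebraMap B A))
    (hπ : π ^ p = algebraMap B A (t₁ * t₂) * aeval π κ) (hgen : Algebra.adjoin B {π} = ⊤) :
    (Ideal.span {π, algebraMap B A t₁}).IsPrime := by
  have : IsDomain (B ⧸ Ideal.span {t₁}) := isDomain_quot ht₁
  obtain ⟨ψ, -, -, -, hker⟩ := node_quot_hom hp ht₁ ht₂ hne hm hκ hκ0 hBA hπ hgen
  rw [← hker]
  exact RingHom.ker_isPrime ψ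

/-- A constant lies in the branch ideal `(π, t₁)` iff `t₁` divides it. -/
theorem node_algebraMap_mem_iff (hp : p ≠ 0) (ht₁ : Prime t₁) (ht₂ : Prime t₂)
    (hne : ¬ Associated t₁ t₂) (hm : maximalIdeal B = Ideal.span {t₁, t₂})
    (hκ : κ.natDegree < p) (hκ0 : IsUnit (κ.eval 0)) (hBA : Function.Injective (algebraMap B A))
    (hπ : π ^ p = algebraMap B A (t₁ * t₂) * aeval π κ) (hgen : Algebra.adjoin B {π} = ⊤)
    (b : B) : algebraMap B A b ∈ Ideal.span {π, algebraMap B A t₁} ↔ t₁ ∣ b := by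
  obtain ⟨ψ, -, hψalg, -, hker⟩ := node_quot_hom hp ht₁ ht₂ hne hm hκ hκ0 hBA hπ hgen
  rw [← hker, RingHom.mem_ker, hψalg, mk_eq_zero_iff]

/-- **(B3), node.**  `p`-th roots modulo the branch prime `P₁ = (π, t₁)`. -/
theorem node_exists_sub_pow_mem (hp : p ≠ 0) (ht₁ : Prime t₁) (ht₂ : Prime t₂)
    (hne : ¬ Associated t₁ t₂) (hm : maximalIdeal B = Ideal.span {t₁, t₂})
    (hκ : κ.natDegree < p) (hκ0 : IsUnit (κ.eval 0)) (hBA : Function.Injective (algebraMap B A))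
    (hπ : π ^ p = algebraMap B A (t₁ * t₂) * aeval π κ) (hgen : Algebra.adjoin B {π} = ⊤)
    {a b r : A} (hb : b ∉ Ideal.span {π, algebraMap B A t₁})
    (h : b ^ p * r - a ^ p ∈ Ideal.span {π, algebraMap B A t₁}) :
    ∃ g : A, r - g ^ p ∈ Ideal.span {π, algebraMap B A t₁} := by
  have : IsDomain (B ⧸ Ideal.span {t₁}) := isDomain_quot ht₁
  have : IsPrincipalIdealRing (B ⧸ Ideal.span {t₁}) := isPrincipalIdealRing_quot ht₁ hm
  obtain ⟨ψ, hψ, -, -, hker⟩ := node_quot_hom hp ht₁ ht₂ hne hm hκ hκ0 hBA hπ hgen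
  rw [← hker] at hb h ⊢
  exact exists_sub_pow_mem_ker ψ hψ hp hb h

omit [IsDomain B] [IsNoetherianRing B] [IsDomain A] in
/-- Every non-unit of `A` lies in `P₁ ⊔ P₂` (`𝔪_A = (π, t₁, t₂)`). -/
theorem node_mem_sup_of_not_isUnit (ht₁ : Prime t₁)
    (hm : maximalIdeal B = Ideal.span {t₁, t₂}) (hκ : κ.natDegree < p)
    (hπ : π ^ p = algebraMap B A (t₁ * t₂) * aeval π κ) (hgen : Algebra.adjoin B {π} = ⊤)
    {a : A} (ha : ¬ IsUnit a) :
    a ∈ Ideal.span {π, algebraMap B A t₁} ⊔ Ideal.span {π, algebraMap B A t₂} := by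
  have : Algebra.IsIntegral B A := isIntegral_of_eis hκ hπ hgen
  obtain ⟨b, a', rfl⟩ := exists_eq_add_mul hgen a
  have hs : ¬ IsUnit (t₁ * t₂) := fun h => ht₁.not_isUnit (isUnit_of_mul_isUnit_left h)
  have hb : ¬ IsUnit b := fun hb => ha (isUnit_add_mul hs hπ hb a')
  have hbm : b ∈ maximalIdeal B := (IsLocalRing.mem_maximalIdeal b).mpr hb
  rw [hm, Ideal.mem_span_pair] at hbm
  obtain ⟨x, y, rfl⟩ := hbm
  have he : algebraMap B A (x * t₁ + y * t₂) + π * a'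
      = (algebraMap B A x * algebraMap B A t₁ + π * a')
        + algebraMap B A y * algebraMap B A t₂ := by
    rw [map_add, map_mul, map_mul]
    ring
  rw [he]
  exact Submodule.add_mem_sup
    (Ideal.add_mem _ (Ideal.mul_mem_left _ _ (Ideal.subset_span (by simp)))
      (Ideal.mul_mem_right _ _ (Ideal.subset_span (by simp))))
    (Ideal.mul_mem_left _ _ (Ideal.subset_span (by simp)))

omit [IsDomain B] [IsNoetherianRing B] [IsDomain A] in
/-- **(B4), node.**  Two elements of `A` whose difference is a non-unit glue along the two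
branches. -/
theorem node_exists_glue (ht₁ : Prime t₁)
    (hm : maximalIdeal B = Ideal.span {t₁, t₂}) (hκ : κ.natDegree < p)
    (hπ : π ^ p = algebraMap B A (t₁ * t₂) * aeval π κ) (hgen : Algebra.adjoin B {π} = ⊤)
    {h₁ h₂ : A} (h : ¬ IsUnit (h₁ - h₂)) :
    ∃ g : A, g - h₁ ∈ Ideal.span {π, algebraMap B A t₁} ∧
      g - h₂ ∈ Ideal.span {π, algebraMap B A t₂} :=
  exists_glue (le_refl _) (node_mem_sup_of_not_isUnit ht₁ hm hκ hπ hgen h)

/-- **(B1), node.**  `P₁ A_{P₁} = π A_{P₁}`, elementwise: `s := t₂ κ(π) ∉ P₁` and `π ∣ s * x`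
for every `x ∈ P₁ = (π, t₁)`. -/
theorem node_exists_notMem_dvd_mul (hp : p ≠ 0) (ht₁ : Prime t₁) (ht₂ : Prime t₂)
    (hne : ¬ Associated t₁ t₂) (hm : maximalIdeal B = Ideal.span {t₁, t₂})
    (hκ : κ.natDegree < p) (hκ0 : IsUnit (κ.eval 0)) (hBA : Function.Injective (algebraMap B A))
    (hπ : π ^ p = algebraMap B A (t₁ * t₂) * aeval π κ) (hgen : Algebra.adjoin B {π} = ⊤) :
    ∃ s : A, s ∉ Ideal.span {π, algebraMap B A t₁} ∧ algebraMap B A t₁ * s = π ^ p ∧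
      ∀ x ∈ Ideal.span {π, algebraMap B A t₁}, π ∣ s * x := by
  have : Algebra.IsIntegral B A := isIntegral_of_eis hκ hπ hgen
  have hprime := node_isPrime hp ht₁ ht₂ hne hm hκ hκ0 hBA hπ hgen
  have hs : ¬ IsUnit (t₁ * t₂) := fun h => ht₁.not_isUnit (isUnit_of_mul_isUnit_left h)
  have hu : IsUnit (aeval π κ) := isUnit_aeval hs hκ0 hπ
  have ht₂P : algebraMap B A t₂ ∉ Ideal.span {π, algebraMap B A t₁} := fun h =>
    not_dvd_of_not_associated ht₁ ht₂ hne
      ((node_algebraMap_mem_iff hp ht₁ ht₂ hne hm hκ hκ0 hBA hπ hgen t₂).mp h)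
  have hκP : aeval π κ ∉ Ideal.span {π, algebraMap B A t₁} := fun h =>
    hprime.ne_top (Ideal.eq_top_of_isUnit_mem _ h hu)
  have hsP : algebraMap B A t₂ * aeval π κ ∉ Ideal.span {π, algebraMap B A t₁} := fun h =>
    (hprime.mem_or_mem h).elim ht₂P hκP
  have hmul : algebraMap B A t₁ * (algebraMap B A t₂ * aeval π κ) = π ^ p := by
    rw [hπ, map_mul, mul_assoc]
  refine ⟨algebraMap B A t₂ * aeval π κ, hsP, hmul, ?_⟩
  intro x hx
  rw [Ideal.mem_span_pair] at hx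
  obtain ⟨c, d, rfl⟩ := hx
  have he : algebraMap B A t₂ * aeval π κ * (c * π + d * algebraMap B A t₁)
      = π * (algebraMap B A t₂ * aeval π κ * c)
        + d * (algebraMap B A t₁ * (algebraMap B A t₂ * aeval π κ)) := by ring
  rw [he, hmul]
  exact dvd_add (dvd_mul_right _ _) (Dvd.dvd.mul_left (dvd_pow_self _ hp) _)

/-- **(B2), node.**  `P₁ ∩ P₂ = π A`. -/
theorem node_dvd_of_mem_of_mem (hp : p ≠ 0) (ht₁ : Prime t₁) (ht₂ : Prime t₂)
    (hne : ¬ Associated t₁ t₂) (hm : maximalIdeal B = Ideal.span {t₁, t₂})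
    (hκ : κ.natDegree < p) (hκ0 : IsUnit (κ.eval 0)) (hBA : Function.Injective (algebraMap B A))
    (hπ : π ^ p = algebraMap B A (t₁ * t₂) * aeval π κ) (hgen : Algebra.adjoin B {π} = ⊤)
    {r : A} (h₁ : r ∈ Ideal.span {π, algebraMap B A t₁})
    (h₂ : r ∈ Ideal.span {π, algebraMap B A t₂}) : π ∣ r := by
  have : Algebra.IsIntegral B A := isIntegral_of_eis hκ hπ hgen
  obtain ⟨hne', hm', hπ'⟩ := node_swap hne hm hπ
  obtain ⟨b, a', rfl⟩ := exists_eq_add_mul hgen r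
  have hb₁ : t₁ ∣ b := by
    refine (node_algebraMap_mem_iff hp ht₁ ht₂ hne hm hκ hκ0 hBA hπ hgen b).mp ?_
    have h := Ideal.sub_mem _ h₁ (Ideal.mul_mem_right a' _
      (Ideal.subset_span (by simp : π ∈ ({π, algebraMap B A t₁} : Set A))))
    rwa [add_sub_cancel_right] at h
  have hb₂ : t₂ ∣ b := by
    refine (node_algebraMap_mem_iff hp ht₂ ht₁ hne' hm' hκ hκ0 hBA hπ' hgen b).mp ?_
    have h := Ideal.sub_mem _ h₂ (Ideal.mul_mem_right a' _
      (Ideal.subset_span (by simp : π ∈ ({π, algebraMap B A t₂} : Set A))))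
    rwa [add_sub_cancel_right] at h
  obtain ⟨b₁, rfl⟩ := hb₁
  have h3 : t₂ ∣ b₁ :=
    (ht₂.dvd_or_dvd hb₂).resolve_left (not_dvd_of_not_associated ht₂ ht₁ hne')
  obtain ⟨b₂, rfl⟩ := h3
  have hs : ¬ IsUnit (t₁ * t₂) := fun h => ht₁.not_isUnit (isUnit_of_mul_isUnit_left h)
  obtain ⟨v, hv⟩ := isUnit_aeval hs hκ0 hπ
  have h4 : algebraMap B A (t₁ * t₂) = π ^ p * ((v⁻¹ : Aˣ) : A) := by
    rw [hπ, ← hv, mul_assoc, Units.mul_inv, mul_one]
  have h5 : algebraMap B A (t₁ * (t₂ * b₂)) = π ^ p * (((v⁻¹ : Aˣ) : A) * algebraMap B A b₂) := by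
    rw [← mul_assoc t₁ t₂ b₂, map_mul, h4, mul_assoc]
  rw [h5]
  exact dvd_add (Dvd.dvd.mul_right (dvd_pow_self _ hp) _) (dvd_mul_right _ _)

/-- **(B5), node, ideal form.**  The class of `t₂` in `A / P₁ ≅ B / (t₁)` is a uniformiser:
`w t₂ ^ m b ^ p ≡ t₂ ^ n a ^ p` modulo `P₁` with `w` a unit and `a, b ∉ P₁` forces
`p ∣ m - n`. -/
theorem node_dvd_sub_of_mem (hp : p ≠ 0) (ht₁ : Prime t₁) (ht₂ : Prime t₂)
    (hne : ¬ Associated t₁ t₂) (hm : maximalIdeal B = Ideal.span {t₁, t₂})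
    (hκ : κ.natDegree < p) (hκ0 : IsUnit (κ.eval 0)) (hBA : Function.Injective (algebraMap B A))
    (hπ : π ^ p = algebraMap B A (t₁ * t₂) * aeval π κ) (hgen : Algebra.adjoin B {π} = ⊤)
    {w a b : A} (hw : IsUnit w) (ha : a ∉ Ideal.span {π, algebraMap B A t₁})
    (hb : b ∉ Ideal.span {π, algebraMap B A t₁}) {m n : ℕ}
    (h : w * algebraMap B A t₂ ^ m * b ^ p - algebraMap B A t₂ ^ n * a ^ p
      ∈ Ideal.span {π, algebraMap B A t₁}) : (p : ℤ) ∣ (m : ℤ) - n := by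
  have : IsDomain (B ⧸ Ideal.span {t₁}) := isDomain_quot ht₁
  have : IsPrincipalIdealRing (B ⧸ Ideal.span {t₁}) := isPrincipalIdealRing_quot ht₁ hm
  obtain ⟨ψ, -, hψalg, -, hker⟩ := node_quot_hom hp ht₁ ht₂ hne hm hκ hκ0 hBA hπ hgen
  rw [← hker, RingHom.mem_ker] at ha hb h
  have hτ : Prime (Ideal.Quotient.mk (Ideal.span {t₁}) t₂) := prime_mk ht₁ ht₂ hne hm
  have hwu : IsUnit (ψ w) := hw.map ψ
  have hw' : ¬ Ideal.Quotient.mk (Ideal.span {t₁}) t₂ ∣ ψ w := fun hd =>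
    hτ.not_isUnit (isUnit_of_dvd_unit hd hwu)
  have h1' : ¬ Ideal.Quotient.mk (Ideal.span {t₁}) t₂ ∣ (1 : B ⧸ Ideal.span {t₁}) := fun hd =>
    hτ.not_isUnit (isUnit_of_dvd_one hd)
  have heq : ψ w * Ideal.Quotient.mk (Ideal.span {t₁}) t₂ ^ m * ψ b ^ p
      = 1 * Ideal.Quotient.mk (Ideal.span {t₁}) t₂ ^ n * ψ a ^ p := by
    rw [map_sub, map_mul, map_mul, map_mul, map_pow, map_pow, map_pow, map_pow, hψalg,
      sub_eq_zero] at h
    rw [h, one_mul]
  obtain ⟨X', Y', α, β, -, -, hαβ, -⟩ := exists_reduced hτ hw' h1' hb ha heq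
  refine ⟨(β : ℤ) - α, ?_⟩
  have : (m : ℤ) + p * α = n + p * β := by exact_mod_cast hαβ
  linear_combination this

end Node

/-! ### The smooth block -/

section Smooth

variable {B : Type u} [CommRing B] [IsDomain B] [IsLocalRing B] [IsNoetherianRing B]
  {A : Type v} [CommRing A] [IsDomain A] [Algebra B A] {p : ℕ} {ϖ z : B} {κ : B[X]} {π : A}

/-- **(Q), smooth point.**  `A / (π) ≅ B / (ϖ)`. -/
theorem smooth_quot_hom (hp : p ≠ 0) (hϖ : Prime ϖ) (hm : maximalIdeal B = Ideal.span {ϖ, z})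
    (hκ : κ.natDegree < p) (hκ0 : IsUnit (κ.eval 0)) (hBA : Function.Injective (algebraMap B A))
    (hπ : π ^ p = algebraMap B A ϖ * aeval π κ) (hgen : Algebra.adjoin B {π} = ⊤) :
    ∃ ψ : A →+* B ⧸ Ideal.span {ϖ}, Function.Surjective ψ ∧
      (∀ b : B, ψ (algebraMap B A b) = Ideal.Quotient.mk (Ideal.span {ϖ}) b) ∧ ψ π = 0 ∧
      RingHom.ker ψ = Ideal.span {π} := by
  have : IsDomain (B ⧸ Ideal.span {ϖ}) := isDomain_quot hϖ
  have : IsPrincipalIdealRing (B ⧸ Ideal.span {ϖ}) := isPrincipalIdealRing_quot hϖ hm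
  have : UniqueFactorizationMonoid B := quot_ufm hϖ.ne_zero
  have : Algebra.IsIntegral B A := isIntegral_of_eis hκ hπ hgen
  have hπ' : π ^ p = algebraMap B A (ϖ * 1) * aeval π κ := by rw [mul_one]; exact hπ
  obtain ⟨ψ, hψ, hψalg, hψπ, hker⟩ := exists_quot_hom hp hϖ
    (fun hd => hϖ.not_isUnit (isUnit_of_dvd_one hd)) hκ hκ0 hBA hπ' hgen
  refine ⟨ψ, hψ, hψalg, hψπ, ?_⟩
  rw [hker]
  obtain ⟨v, hv⟩ := isUnit_aeval hϖ.not_isUnit hκ0 hπ
  have h1 : algebraMap B A ϖ = π ^ p * ((v⁻¹ : Aˣ) : A) := by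
    rw [hπ, ← hv, mul_assoc, Units.mul_inv, mul_one]
  apply le_antisymm
  · rw [Ideal.span_le]
    rintro x (rfl | rfl)
    · exact Ideal.mem_span_singleton_self _
    · rw [SetLike.mem_coe, Ideal.mem_span_singleton, h1]
      exact Dvd.dvd.mul_right (dvd_pow_self _ hp) _
  · exact Ideal.span_mono (by simp)

/-- **(B3), smooth point.**  `p`-th roots modulo the branch prime `P = (π)`. -/
theorem smooth_exists_sub_pow_mem (hp : p ≠ 0) (hϖ : Prime ϖ)
    (hm : maximalIdeal B = Ideal.span {ϖ, z}) (hκ : κ.natDegree < p)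
    (hκ0 : IsUnit (κ.eval 0)) (hBA : Function.Injective (algebraMap B A))
    (hπ : π ^ p = algebraMap B A ϖ * aeval π κ) (hgen : Algebra.adjoin B {π} = ⊤)
    {a b r : A} (hb : b ∉ Ideal.span {π}) (h : b ^ p * r - a ^ p ∈ Ideal.span {π}) :
    ∃ g : A, r - g ^ p ∈ Ideal.span {π} := by
  have : IsDomain (B ⧸ Ideal.span {ϖ}) := isDomain_quot hϖ
  have : IsPrincipalIdealRing (B ⧸ Ideal.span {ϖ}) := isPrincipalIdealRing_quot hϖ hm
  obtain ⟨ψ, hψ, -, -, hker⟩ := smooth_quot_hom hp hϖ hm hκ hκ0 hBA hπ hgen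
  rw [← hker] at hb h ⊢
  exact exists_sub_pow_mem_ker ψ hψ hp hb h

end Smooth

end Fermat.Agent.S44.L.NZ.BranchQuot
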