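import Mathlib

/-!
# PROGRAM MR (S44), strand L, row NZ.2 (DL): the closed-point depth lift with a prescribed
constant (ramified base, level-free, Mathlib only)

helper159.  Setting: `A` a local ring (the local ring of the model over `O_* = O[π]` at a closed
point of the special fibre), `K` a field with `A → K`, `π ∈ A` with `p = η π ^ p`, `η` a unit.

* `IsBranch π W` : a branch through the closed point, as a valuation subring `W` of `K`
  containing `A` whose maximal ideal is `π W` (E-level: the Gauss valuation subrings).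
* `IsConst E π p Oc` : the constants `Oc ⊆ A` (the image of `O_*`), `E` their fraction field:
  every nonzero constant of `E` is `π ^ n * unit`, the residue field is perfect, a constant that
  is not a unit of `A` is `π * constant`.
* `depth_lift_node` / `depth_lift_smooth` : **the lift.**  If `f = unit * π ^ m * x ^ p` (the
  normal form at the closed point), `f = c * g ^ p * (1 + y)` with `y ∈ π ^ (p + 2) W₁` at the
  main branch (the prescribed constant `c`) and the same with SOME constant at the other branch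
  (node case), then `f = c * G ^ p * (1 + π ^ (p + 2) * r)` with `r ∈ A`.  This is the input of
  `DepthHensel.powAt_of_depth` for `f / c`.
* `exists_nf_of_nnf` : the node normal form `unit * π ^ m * t ^ j * x ^ p` has `p ∣ j`, so it is
  of the shape `unit * π ^ m * x ^ p`.

The proof is an induction on the depth `d = 0, …, p + 1` at the closed point (`depth_lift_core`):
on each branch the comparison with the generic datum shows that the `d`-th coefficient `r` is,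
modulo `π W`, zero resp. a constant (`d < p`, `d = p + 1`) or a `p`-th power (`d = 0`, `d = p`);
constants in the maximal ideal are divisible by `π`, `p`-th roots exist in the branch rings and
glue at the closed point.  All of it rests on one identity (`IsConst.exists_eq_one_add`): for a
constant `E₀` and `s, B ∈ W` with `E₀ (1 + π ^ (k + 1) s) = 1 + π ^ k B` there is a constant `ρ`
with `E₀ = 1 + π ^ k ρ` and `B ≡ ρ` modulo `π W`.
-/

set_option autoImplicit false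
set_option linter.unusedSectionVars false

namespace Fermat.Agent.S44.L.NZ.DepthLift

section Aux

variable {K : Type*} [Field K]

/-- The binomial expansion of a `p`-th power inside a subring. -/
theorem exists_add_pow_eq (W : Subring K) {p : ℕ} (hp : p.Prime) {x y : K} (hx : x ∈ W)
    (hy : y ∈ W) : ∃ R ∈ W, (x + y) ^ p = x ^ p + y ^ p + (p : K) * x * y * R := by
  obtain ⟨R, hR⟩ := exists_add_pow_prime_eq hp (⟨x, hx⟩ : W) ⟨y, hy⟩
  refine ⟨R, R.2, ?_⟩
  have h := congrArg (Subtype.val : W → K) hR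
  simp only [Subring.coe_add, Subring.coe_mul, Subring.coe_pow, Subring.coe_natCast] at h
  exact h

/-- Integral powers of a unit of a subring. -/
theorem zpow_mem_of_mem (W : Subring K) {x : K} (hx : x ∈ W) (hx' : x⁻¹ ∈ W) (j : ℤ) :
    x ^ j ∈ W := by
  cases j with
  | ofNat n => rw [Int.ofNat_eq_natCast, zpow_natCast]; exact W.pow_mem hx n
  | negSucc n => rw [zpow_negSucc, ← inv_pow]; exact W.pow_mem hx' _

end Aux

variable {A K : Type*} [CommRing A] [IsLocalRing A] [Field K] [Algebra A K]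

/-- A branch through the closed point: a valuation subring `W` of `K` containing `A` whose
maximal ideal is `π W`. -/
structure IsBranch (π : A) (W : Subring K) : Prop where
  total : ∀ x : K, x ∈ W ∨ x⁻¹ ∈ W
  map_mem : ∀ a : A, algebraMap A K a ∈ W
  inv_notMem : (algebraMap A K π)⁻¹ ∉ W
  div_mem : ∀ x : K, x ∈ W → x⁻¹ ∉ W → x / algebraMap A K π ∈ W

/-- The constants: a subring `Oc` of `A` (the image of the base `O_*`), `E` its field of
fractions inside `K`: every nonzero element of `E` is `π ^ n * unit of Oc`, the residue field of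
`Oc` is perfect, and a constant that is not a unit of `A` is `π * constant`. -/
structure IsConst (E : Type*) [Field E] [Algebra E K] (π : A) (p : ℕ) (Oc : Subring A) :
    Prop where
  pi_mem : π ∈ Oc
  exists_eq : ∀ c : E, c ≠ 0 → ∃ (n : ℤ) (e e' : A), e ∈ Oc ∧ e' ∈ Oc ∧ e * e' = 1 ∧
    algebraMap E K c = algebraMap A K π ^ n * algebraMap A K e
  exists_root : ∀ e ∈ Oc, ∃ ε ∈ Oc, ∃ δ ∈ Oc, e = ε ^ p + π * δ
  dvd_of_not_isUnit : ∀ e ∈ Oc, ¬ IsUnit e → ∃ e' ∈ Oc, e = π * e'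

/-- In a local ring, `1 + π b` is a unit when `π` is not. -/
theorem isUnit_one_add_mul {π : A} (hπ : ¬ IsUnit π) (b : A) : IsUnit (1 + π * b) := by
  by_contra h
  have h2 : -(π * b) ∈ nonunits A := fun hu =>
    hπ (isUnit_of_mul_isUnit_left ((IsUnit.neg_iff _).mp hu))
  have h3 := IsLocalRing.nonunits_add (show 1 + π * b ∈ nonunits A from h) h2
  rw [add_neg_cancel_right] at h3
  exact h3 isUnit_one

/-- In a local ring, if `e = ε ^ p + π δ` is a unit and `π` is not, then `ε` is a unit. -/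
theorem isUnit_of_eq_pow_add {π e ε δ : A} {p : ℕ} (hp : p ≠ 0) (hπ : ¬ IsUnit π)
    (he : IsUnit e) (h : e = ε ^ p + π * δ) : IsUnit ε := by
  have h2 : π * δ ∈ nonunits A := fun hu => hπ (isUnit_of_mul_isUnit_left hu)
  have h3 : IsUnit (ε ^ p) := by
    by_contra hne
    have h4 := IsLocalRing.nonunits_add (show ε ^ p ∈ nonunits A from hne) h2
    rw [← h] at h4
    exact h4 he
  exact (isUnit_pow_iff hp).mp h3

namespace IsBranch

variable {π : A} {W : Subring K}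

theorem pi_ne_zero (hW : IsBranch π W) : algebraMap A K π ≠ 0 := by
  intro h
  apply hW.inv_notMem
  rw [h, inv_zero]
  exact W.zero_mem

theorem pi_mem (hW : IsBranch π W) : algebraMap A K π ∈ W := hW.map_mem π

/-- `x ∈ π W`, in product form. -/
theorem div_mem_iff (hW : IsBranch π W) {x : K} :
    x / algebraMap A K π ∈ W ↔ ∃ v ∈ W, x = algebraMap A K π * v := by
  have hπ0 := hW.pi_ne_zero
  constructor
  · intro h
    exact ⟨_, h, by field_simp⟩
  · rintro ⟨v, hv, rfl⟩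
    have e : algebraMap A K π * v / algebraMap A K π = v := by field_simp
    rwa [e]

/-- `x ∈ π ^ k W`, in product form. -/
theorem div_pow_mem_iff (hW : IsBranch π W) (k : ℕ) {x : K} :
    x / algebraMap A K π ^ k ∈ W ↔ ∃ v ∈ W, x = algebraMap A K π ^ k * v := by
  have hπ0 := hW.pi_ne_zero
  constructor
  · intro h
    exact ⟨_, h, by field_simp⟩
  · rintro ⟨v, hv, rfl⟩
    have e : algebraMap A K π ^ k * v / algebraMap A K π ^ k = v := by field_simp
    rwa [e]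

/-- A nonzero element of `π W` is not a unit of `W`. -/
theorem inv_notMem_of_mem (hW : IsBranch π W) {x v : K} (hx0 : x ≠ 0) (hv : v ∈ W)
    (hx : x = algebraMap A K π * v) : x⁻¹ ∉ W := by
  intro h
  apply hW.inv_notMem
  have e : (algebraMap A K π)⁻¹ = v * x⁻¹ := by
    apply inv_eq_of_mul_eq_one_right
    rw [← mul_assoc, ← hx, mul_inv_cancel₀ hx0]
  rw [e]
  exact W.mul_mem hv h

/-- `W / π W` is a field: an element of `W` outside `π W` is a unit of `W`. -/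
theorem inv_mem_of_notMem (hW : IsBranch π W) {x : K} (hx : x ∈ W)
    (h : ¬ ∃ v ∈ W, x = algebraMap A K π * v) : x⁻¹ ∈ W := by
  by_contra h'
  exact h (hW.div_mem_iff.mp (hW.div_mem x hx h'))

theorem inv_one_add_mem (hW : IsBranch π W) {x v : K} (hv : v ∈ W)
    (hx : x = algebraMap A K π * v) : (1 + x)⁻¹ ∈ W := by
  subst hx
  by_contra h'
  obtain ⟨u, hu, hu'⟩ := hW.div_mem_iff.mp
    (hW.div_mem _ (W.add_mem W.one_mem (W.mul_mem hW.pi_mem hv)) h')
  apply hW.inv_notMem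
  have e : (algebraMap A K π)⁻¹ = u - v := by
    apply inv_eq_of_mul_eq_one_right
    linear_combination -hu'
  rw [e]
  exact W.sub_mem hu hv

theorem one_add_ne_zero (hW : IsBranch π W) {x v : K} (hv : v ∈ W)
    (hx : x = algebraMap A K π * v) : 1 + x ≠ 0 := by
  subst hx
  intro h
  apply hW.inv_notMem
  have e : (algebraMap A K π)⁻¹ = -v := by
    apply inv_eq_of_mul_eq_one_right
    linear_combination -h
  rw [e]
  exact W.neg_mem hv

/-- `W` is integrally closed for `n`-th roots. -/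
theorem mem_of_pow_mem (hW : IsBranch π W) {n : ℕ} (hn : n ≠ 0) {x : K} (hx : x ^ n ∈ W) :
    x ∈ W := by
  rcases hW.total x with h | h
  · exact h
  by_contra hx'
  have hx0 : x ≠ 0 := fun h0 => hx' (h0 ▸ W.zero_mem)
  obtain ⟨v, hv, hxv⟩ := hW.div_mem_iff.mp (hW.div_mem x⁻¹ h (by rwa [inv_inv]))
  obtain ⟨m, rfl⟩ : ∃ m, n = m + 1 := ⟨n - 1, by omega⟩
  apply hW.inv_notMem
  have h3 : x * (algebraMap A K π * v) = 1 := by rw [← hxv, mul_inv_cancel₀ hx0]
  have e : (algebraMap A K π)⁻¹ = x ^ (m + 1) * (algebraMap A K π ^ m * v ^ (m + 1)) := by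
    apply inv_eq_of_mul_eq_one_right
    have h4 : (x * (algebraMap A K π * v)) ^ (m + 1) = 1 := by rw [h3, one_pow]
    rw [← h4]
    ring
  rw [e]
  exact W.mul_mem hx (W.mul_mem (W.pow_mem hW.pi_mem _) (W.pow_mem hv _))

/-- `p ∈ π W`. -/
theorem natCast_eq (hW : IsBranch π W) {p : ℕ} (hp : p ≠ 0) {η : A}
    (hpK : (p : K) = algebraMap A K η * algebraMap A K π ^ p) :
    ∃ v ∈ W, (p : K) = algebraMap A K π * v := by
  obtain ⟨m, rfl⟩ : ∃ m, p = m + 1 := ⟨p - 1, by omega⟩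
  refine ⟨algebraMap A K η * algebraMap A K π ^ m,
    W.mul_mem (hW.map_mem η) (W.pow_mem hW.pi_mem m), ?_⟩
  rw [hpK, pow_succ]
  ring

/-- Frobenius is injective on `W / π W`. -/
theorem sub_eq_of_pow_sub_pow (hW : IsBranch π W) {p : ℕ} (hp : p.Prime) (hp3 : 3 ≤ p)
    (hpW : ∃ v ∈ W, (p : K) = algebraMap A K π * v) {x y : K} (hx : x ∈ W) (hy : y ∈ W)
    (h : ∃ v ∈ W, x ^ p - y ^ p = algebraMap A K π * v) :
    ∃ v ∈ W, x - y = algebraMap A K π * v := by
  by_contra hne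
  have hu : (x - y)⁻¹ ∈ W := hW.inv_mem_of_notMem (W.sub_mem hx hy) hne
  have hxy0 : x - y ≠ 0 := by
    intro h0
    exact hne ⟨0, W.zero_mem, by rw [h0, mul_zero]⟩
  obtain ⟨R, hR, hexp⟩ := exists_add_pow_eq W hp hx (W.neg_mem hy)
  obtain ⟨v, hv, hv'⟩ := h
  obtain ⟨vp, hvp, hvp'⟩ := hpW
  have hodd : Odd p := hp.odd_of_ne_two (by omega)
  have e : (x - y) ^ p = algebraMap A K π * (v - vp * x * y * R) := by
    rw [sub_eq_add_neg, hexp, hodd.neg_pow, hvp']
    linear_combination hv'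
  exact hW.inv_notMem_of_mem (pow_ne_zero p hxy0)
    (W.sub_mem hv (W.mul_mem (W.mul_mem (W.mul_mem hvp hx) hy) hR)) e
    (by rw [← inv_pow]; exact W.pow_mem hu p)

/-- An element of `A` in `π W` is not a unit of `A`. -/
theorem not_isUnit_of_mem (hW : IsBranch π W) {a : A}
    (h : ∃ v ∈ W, algebraMap A K a = algebraMap A K π * v) : ¬ IsUnit a := by
  intro hu
  obtain ⟨a', ha'⟩ := hu.exists_right_inv
  obtain ⟨v, hv, hav⟩ := h
  have h1 : algebraMap A K a * algebraMap A K a' = 1 := by rw [← map_mul, ha', map_one]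
  have ha0 : algebraMap A K a ≠ 0 := left_ne_zero_of_mul_eq_one h1
  refine hW.inv_notMem_of_mem ha0 hv hav ?_
  rw [inv_eq_of_mul_eq_one_right h1]
  exact hW.map_mem a'

theorem pi_not_isUnit (hW : IsBranch π W) : ¬ IsUnit π :=
  hW.not_isUnit_of_mem ⟨1, W.one_mem, by rw [mul_one]⟩

/-- **Orders are divisible by `p`.**  If `z ^ p * π ^ n` is a unit `u` of `W`, then `u` is a
`p`-th power. -/
theorem exists_pow_eq (hW : IsBranch π W) {p : ℕ} (hp : p ≠ 0) {z u : K} {n : ℤ} (hu0 : u ≠ 0)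
    (hu : u ∈ W) (hu' : u⁻¹ ∈ W) (h : z ^ p * algebraMap A K π ^ n = u) :
    ∃ a : K, a ^ p = u := by
  have hπ0 := hW.pi_ne_zero
  have hp' : (0 : ℤ) < p := by exact_mod_cast Nat.pos_of_ne_zero hp
  obtain ⟨q, k, hkp, hn⟩ : ∃ (q : ℤ) (k : ℕ), k < p ∧ n = q * p + k := by
    obtain ⟨k, hk⟩ := Int.eq_ofNat_of_zero_le (Int.emod_nonneg n hp'.ne')
    refine ⟨n / p, k, ?_, ?_⟩
    · have h1 := Int.emod_lt_of_pos n hp'
      rw [hk] at h1
      exact_mod_cast h1
    · rw [← hk, mul_comm]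
      exact (Int.mul_ediv_add_emod n p).symm
  have hz : (z * algebraMap A K π ^ q) ^ p * algebraMap A K π ^ k = u := by
    rw [← h, hn, zpow_add₀ hπ0, zpow_mul, zpow_natCast, zpow_natCast, mul_pow]
    ring
  rcases Nat.eq_zero_or_pos k with rfl | hk0
  · exact ⟨z * algebraMap A K π ^ q, by rw [← hz, pow_zero, mul_one]⟩
  exfalso
  generalize z * algebraMap A K π ^ q = z' at hz
  obtain ⟨k', rfl⟩ : ∃ k', k = k' + 1 := ⟨k - 1, by omega⟩
  obtain ⟨m, rfl⟩ : ∃ m, p = k' + 1 + 1 + m := ⟨p - (k' + 1 + 1), by omega⟩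
  have hz0 : z' ≠ 0 := by
    rintro rfl
    rw [zero_pow hp, zero_mul] at hz
    exact hu0 hz.symm
  have hzz : z' * z'⁻¹ = 1 := mul_inv_cancel₀ hz0
  have huu : u * u⁻¹ = 1 := mul_inv_cancel₀ hu0
  have h1 : (z'⁻¹) ^ (k' + 1 + 1 + m) = algebraMap A K π ^ (k' + 1) * u⁻¹ := by
    have h2 : (z' * z'⁻¹) ^ (k' + 1 + 1 + m) = 1 := by rw [hzz, one_pow]
    rw [mul_pow] at h2
    linear_combination (-(z'⁻¹ ^ (k' + 1 + 1 + m))) * huu
      - (u⁻¹ * z'⁻¹ ^ (k' + 1 + 1 + m)) * hz + (algebraMap A K π ^ (k' + 1) * u⁻¹) * h2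
  have hzi : z'⁻¹ ∈ W := hW.mem_of_pow_mem hp (by
    rw [h1]; exact W.mul_mem (W.pow_mem hW.pi_mem _) hu')
  have hznot : z' ∉ W := by
    intro hzW
    apply hW.inv_notMem
    have e : (algebraMap A K π)⁻¹ = u⁻¹ * z' ^ (k' + 1 + 1 + m) * algebraMap A K π ^ k' := by
      apply inv_eq_of_mul_eq_one_right
      linear_combination u⁻¹ * hz + huu
    rw [e]
    exact W.mul_mem (W.mul_mem hu' (W.pow_mem hzW _)) (W.pow_mem hW.pi_mem _)
  obtain ⟨v, hv, hzv⟩ := hW.div_mem_iff.mp (hW.div_mem z'⁻¹ hzi (by rwa [inv_inv]))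
  have h2 : u⁻¹ = algebraMap A K π * (algebraMap A K π ^ m * v ^ (k' + 1 + 1 + m)) := by
    have h3 : algebraMap A K π ^ (k' + 1) * u⁻¹ = algebraMap A K π ^ (k' + 1) *
        (algebraMap A K π * (algebraMap A K π ^ m * v ^ (k' + 1 + 1 + m))) := by
      rw [← h1, hzv, mul_pow]
      ring
    exact mul_left_cancel₀ (pow_ne_zero _ hπ0) h3
  exact hW.inv_notMem_of_mem (inv_ne_zero hu0)
    (W.mul_mem (W.pow_mem hW.pi_mem _) (W.pow_mem hv _)) h2 (by rwa [inv_inv])

/-- `(1 + π a₁) ^ p = 1 + π ^ p a₁ ^ p + π ^ (p + 1) T`. -/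
theorem one_add_pi_mul_pow (hW : IsBranch π W) {p : ℕ} (hp : p.Prime) {η : A}
    (hpK : (p : K) = algebraMap A K η * algebraMap A K π ^ p) {a₁ : K} (ha₁ : a₁ ∈ W) :
    ∃ T ∈ W, (1 + algebraMap A K π * a₁) ^ p =
      1 + algebraMap A K π ^ p * a₁ ^ p + algebraMap A K π ^ (p + 1) * T := by
  obtain ⟨R, hR, hexp⟩ := exists_add_pow_eq W hp W.one_mem (W.mul_mem hW.pi_mem ha₁)
  refine ⟨algebraMap A K η * a₁ * R, W.mul_mem (W.mul_mem (hW.map_mem η) ha₁) hR, ?_⟩
  rw [hexp, hpK]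
  ring

/-- `(1 + π ^ 2 a₂) ^ p = 1 + π ^ (p + 2) T`. -/
theorem one_add_pi_sq_mul_pow (hW : IsBranch π W) {p : ℕ} (hp : p.Prime) {η : A}
    (hpK : (p : K) = algebraMap A K η * algebraMap A K π ^ p) {a₂ : K} (ha₂ : a₂ ∈ W) :
    ∃ T ∈ W, (1 + algebraMap A K π ^ 2 * a₂) ^ p = 1 + algebraMap A K π ^ (p + 2) * T := by
  obtain ⟨R, hR, hexp⟩ := exists_add_pow_eq W hp W.one_mem
    (W.mul_mem (W.pow_mem hW.pi_mem 2) ha₂)
  obtain ⟨m, hm⟩ : ∃ m, p = m + 2 := ⟨p - 2, by have := hp.two_le; omega⟩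
  subst hm
  refine ⟨algebraMap A K π ^ m * a₂ ^ (m + 2) + algebraMap A K η * a₂ * R,
    W.add_mem (W.mul_mem (W.pow_mem hW.pi_mem m) (W.pow_mem ha₂ _))
      (W.mul_mem (W.mul_mem (hW.map_mem η) ha₂) hR), ?_⟩
  rw [hexp, hpK]
  ring

end IsBranch

namespace IsConst

variable {E : Type*} [Field E] [Algebra E K] {π : A} {p : ℕ} {Oc : Subring A} {W : Subring K}

/-- A constant in `π ^ k W` is `π ^ k * constant`. -/
theorem exists_eq_pow_mul (hOc : IsConst (K := K) E π p Oc) (hW : IsBranch π W) (k : ℕ) {e : A}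
    (he : e ∈ Oc) (h : ∃ v ∈ W, algebraMap A K e = algebraMap A K π ^ k * v) :
    ∃ ρ ∈ Oc, e = π ^ k * ρ := by
  induction k generalizing e with
  | zero => exact ⟨e, he, by rw [pow_zero, one_mul]⟩
  | succ k ih =>
    obtain ⟨v, hv, hev⟩ := h
    have hnu : ¬ IsUnit e := hW.not_isUnit_of_mem
      ⟨algebraMap A K π ^ k * v, W.mul_mem (W.pow_mem hW.pi_mem k) hv, by rw [hev, pow_succ]; ring⟩
    obtain ⟨e', he', rfl⟩ := hOc.dvd_of_not_isUnit e he hnu
    have hπ0 := hW.pi_ne_zero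
    obtain ⟨ρ, hρ, rfl⟩ := ih he' ⟨v, hv, by
      rw [map_mul, pow_succ] at hev
      exact mul_left_cancel₀ hπ0 (by linear_combination hev)⟩
    exact ⟨ρ, hρ, by ring⟩

/-- **The identity behind every step.**  For a constant `E₀` and `s, B ∈ W` with
`E₀ (1 + π ^ (k + 1) s) = 1 + π ^ k B` there is a constant `ρ` with `E₀ = 1 + π ^ k ρ` and
`B ≡ ρ` modulo `π W`. -/
theorem exists_eq_one_add (hOc : IsConst (K := K) E π p Oc) (hW : IsBranch π W) (k : ℕ) {E₀ : A}
    (hE₀ : E₀ ∈ Oc) {s B : K} (hs : s ∈ W) (hB : B ∈ W)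
    (h : algebraMap A K E₀ * (1 + algebraMap A K π ^ (k + 1) * s)
      = 1 + algebraMap A K π ^ k * B) :
    ∃ ρ ∈ Oc, E₀ = 1 + π ^ k * ρ ∧ ∃ v ∈ W, B - algebraMap A K ρ = algebraMap A K π * v := by
  have hπ0 := hW.pi_ne_zero
  obtain ⟨ρ, hρ, hρ'⟩ := hOc.exists_eq_pow_mul hW k (Oc.sub_mem hE₀ Oc.one_mem)
    ⟨B - algebraMap A K E₀ * algebraMap A K π * s,
      W.sub_mem hB (W.mul_mem (W.mul_mem (hW.map_mem E₀) hW.pi_mem) hs), by
        rw [map_sub, map_one]
        linear_combination h⟩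
  refine ⟨ρ, hρ, by linear_combination hρ', algebraMap A K E₀ * s,
    W.mul_mem (hW.map_mem E₀) hs, ?_⟩
  have h0 := congrArg (algebraMap A K) hρ'
  rw [map_sub, map_one, map_mul, map_pow] at h0
  have h1 : algebraMap A K π ^ k * algebraMap A K ρ
      = algebraMap A K π ^ k * (B - algebraMap A K E₀ * algebraMap A K π * s) := by
    linear_combination h - h0
  have h2 := mul_left_cancel₀ (pow_ne_zero k hπ0) h1
  linear_combination -h2

/-- Step for depth `d < p`. -/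
theorem step_low (hOc : IsConst (K := K) E π p Oc) (hW : IsBranch π W) (hp : p.Prime) {η : A}
    (hpK : (p : K) = algebraMap A K η * algebraMap A K π ^ p) {d : ℕ} (hd : d < p) {E₀ : A}
    (hE₀ : E₀ ∈ Oc) {a₁ y' : K} (ha₁ : a₁ ∈ W) (hy' : y' ∈ W) {r : A}
    (h : algebraMap A K E₀ * (1 + algebraMap A K π * a₁) ^ p
        * (1 + algebraMap A K π ^ (p + 2) * y') = 1 + algebraMap A K π ^ d * algebraMap A K r) :
    ∃ ρ ∈ Oc, E₀ = 1 + π ^ d * ρ ∧
      ∃ v ∈ W, algebraMap A K r - algebraMap A K ρ = algebraMap A K π * v := by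
  obtain ⟨T, hT, hexp⟩ := hW.one_add_pi_mul_pow hp hpK ha₁
  have hSW : (1 + algebraMap A K π * a₁) ^ p ∈ W :=
    W.pow_mem (W.add_mem W.one_mem (W.mul_mem hW.pi_mem ha₁)) _
  obtain ⟨m, rfl⟩ : ∃ m, p = d + 1 + m := ⟨p - d - 1, by omega⟩
  generalize (1 + algebraMap A K π * a₁) ^ (d + 1 + m) = S at h hexp hSW
  refine hOc.exists_eq_one_add hW d hE₀ (s := algebraMap A K π ^ m * a₁ ^ (d + 1 + m)
    + algebraMap A K π ^ (m + 1) * T + algebraMap A K π ^ (m + 2) * y' * S) ?_ (hW.map_mem r) ?_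
  · exact W.add_mem (W.add_mem (W.mul_mem (W.pow_mem hW.pi_mem _) (W.pow_mem ha₁ _))
      (W.mul_mem (W.pow_mem hW.pi_mem _) hT))
      (W.mul_mem (W.mul_mem (W.pow_mem hW.pi_mem _) hy') hSW)
  · rw [← h]
    linear_combination (-(algebraMap A K E₀)) * hexp

/-- Step for depth `p` (and the first half of depth `p + 1`). -/
theorem step_mid (hOc : IsConst (K := K) E π p Oc) (hW : IsBranch π W) (hp : p.Prime) {η : A}
    (hpK : (p : K) = algebraMap A K η * algebraMap A K π ^ p) {E₀ : A}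
    (hE₀ : E₀ ∈ Oc) {a₁ y' B₀ : K} (ha₁ : a₁ ∈ W) (hy' : y' ∈ W) (hB₀ : B₀ ∈ W)
    (h : algebraMap A K E₀ * (1 + algebraMap A K π * a₁) ^ p
        * (1 + algebraMap A K π ^ (p + 2) * y') = 1 + algebraMap A K π ^ p * B₀) :
    ∃ ρ ∈ Oc, E₀ = 1 + π ^ p * ρ ∧
      ∃ v ∈ W, B₀ - algebraMap A K ρ - a₁ ^ p = algebraMap A K π * v := by
  obtain ⟨T, hT, hexp⟩ := hW.one_add_pi_mul_pow hp hpK ha₁
  have hSW : (1 + algebraMap A K π * a₁) ^ p ∈ W :=
    W.pow_mem (W.add_mem W.one_mem (W.mul_mem hW.pi_mem ha₁)) _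
  have ha₁p : a₁ ^ p ∈ W := W.pow_mem ha₁ p
  generalize (1 + algebraMap A K π * a₁) ^ p = S at h hexp hSW
  generalize a₁ ^ p = a₁p at h hexp ha₁p ⊢
  obtain ⟨ρ, hρ, hρ', v, hv, hv'⟩ := hOc.exists_eq_one_add hW p hE₀
    (s := T + algebraMap A K π * y' * S) (B := B₀ - algebraMap A K E₀ * a₁p)
    (W.add_mem hT (W.mul_mem (W.mul_mem hW.pi_mem hy') hSW))
    (W.sub_mem hB₀ (W.mul_mem (hW.map_mem E₀) ha₁p))
    (by linear_combination (-(algebraMap A K E₀)) * hexp + h)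
  have h0 := congrArg (algebraMap A K) hρ'
  rw [map_add, map_one, map_mul, map_pow] at h0
  obtain ⟨p', rfl⟩ : ∃ p', p = p' + 1 := ⟨p - 1, by have := hp.pos; omega⟩
  refine ⟨ρ, hρ, hρ', v + algebraMap A K π ^ p' * algebraMap A K ρ * a₁p,
    W.add_mem hv (W.mul_mem (W.mul_mem (W.pow_mem hW.pi_mem _) (hW.map_mem ρ)) ha₁p), ?_⟩
  linear_combination hv' + a₁p * h0

/-- Second half of the step for depth `p + 1`. -/
theorem step_hi (hOc : IsConst (K := K) E π p Oc) (hW : IsBranch π W) (hp : p.Prime) {η : A}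
    (hpK : (p : K) = algebraMap A K η * algebraMap A K π ^ p) {E₀ : A}
    (hE₀ : E₀ ∈ Oc) {a₂ y' : K} (ha₂ : a₂ ∈ W) (hy' : y' ∈ W) {r : A}
    (h : algebraMap A K E₀ * (1 + algebraMap A K π ^ 2 * a₂) ^ p
        * (1 + algebraMap A K π ^ (p + 2) * y')
        = 1 + algebraMap A K π ^ (p + 1) * algebraMap A K r) :
    ∃ ρ ∈ Oc, E₀ = 1 + π ^ (p + 1) * ρ ∧
      ∃ v ∈ W, algebraMap A K r - algebraMap A K ρ = algebraMap A K π * v := by
  obtain ⟨T, hT, hexp⟩ := hW.one_add_pi_sq_mul_pow hp hpK ha₂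
  have hSW : (1 + algebraMap A K π ^ 2 * a₂) ^ p ∈ W :=
    W.pow_mem (W.add_mem W.one_mem (W.mul_mem (W.pow_mem hW.pi_mem 2) ha₂)) _
  generalize (1 + algebraMap A K π ^ 2 * a₂) ^ p = S at h hexp hSW
  exact hOc.exists_eq_one_add hW (p + 1) hE₀ (s := T + y' * S) (W.add_mem hT (W.mul_mem hy' hSW))
    (hW.map_mem r) (by linear_combination (-(algebraMap A K E₀)) * hexp + h)

/-! ### One branch: the relation `e * a ^ p * (1 + π ^ (p + 2) y') = u` -/

/-- Depth `0` on a branch: a unit that is `e * a ^ p * (1 + π ^ (p + 2) y')` is a `p`-th power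
modulo `π W`. -/
theorem branch_zero (hOc : IsConst (K := K) E π p Oc) (hW : IsBranch π W) (hp : p ≠ 0)
    {e e' : A} (he : e ∈ Oc) (hee' : e * e' = 1) {a y' : K} (hy' : y' ∈ W) {ω : A}
    (h : algebraMap A K e * a ^ p * (1 + algebraMap A K π ^ (p + 2) * y') = algebraMap A K ω) :
    ∃ x ∈ W, ∃ v ∈ W, algebraMap A K ω - x ^ p = algebraMap A K π * v := by
  obtain ⟨ε, hε, δ, hδ, hroot⟩ := hOc.exists_root e he
  have hroot' := congrArg (algebraMap A K) hroot
  rw [map_add, map_mul, map_pow] at hroot'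
  have hee := congrArg (algebraMap A K) hee'
  rw [map_mul, map_one] at hee
  have hYv : algebraMap A K π ^ (p + 2) * y' = algebraMap A K π * (algebraMap A K π ^ (p + 1) * y') := by
    ring
  have hYW := W.mul_mem (W.pow_mem hW.pi_mem (p + 1)) hy'
  have hw := mul_inv_cancel₀ (hW.one_add_ne_zero hYW hYv)
  have hwW := hW.inv_one_add_mem hYW hYv
  generalize (1 + algebraMap A K π ^ (p + 2) * y')⁻¹ = w at hw hwW
  have hap : a ^ p = algebraMap A K e' * algebraMap A K ω * w := by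
    linear_combination (algebraMap A K e' * w) * h
      - (a ^ p * (1 + algebraMap A K π ^ (p + 2) * y') * w) * hee - a ^ p * hw
  have haW : a ∈ W := hW.mem_of_pow_mem hp (by
    rw [hap]; exact W.mul_mem (W.mul_mem (hW.map_mem e') (hW.map_mem ω)) hwW)
  refine ⟨algebraMap A K ε * a, W.mul_mem (hW.map_mem ε) haW,
    a ^ p * algebraMap A K δ + algebraMap A K e * a ^ p * (algebraMap A K π ^ (p + 1) * y'),
    W.add_mem (W.mul_mem (W.pow_mem haW p) (hW.map_mem δ))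
      (W.mul_mem (W.mul_mem (hW.map_mem e) (W.pow_mem haW p)) hYW), ?_⟩
  rw [mul_pow]
  linear_combination -h + a ^ p * hroot'

/-- Normalisation on a branch, depth `d ≥ 1`: the relation `e * a ^ p * (1 + π ^ (p + 2) y') =
1 + π ^ d r` can be written with `a = 1 + π a₁` and a constant `E₀`. -/
theorem branch_norm (hOc : IsConst (K := K) E π p Oc) (hW : IsBranch π W) (hp : p.Prime)
    (hp3 : 3 ≤ p) {η : A} (hpK : (p : K) = algebraMap A K η * algebraMap A K π ^ p)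
    {d : ℕ} (hd1 : 1 ≤ d) {e e' : A} (he : e ∈ Oc) (he' : e' ∈ Oc) (hee' : e * e' = 1)
    {a y' : K} (hy' : y' ∈ W) {r : A}
    (h : algebraMap A K e * a ^ p * (1 + algebraMap A K π ^ (p + 2) * y')
      = 1 + algebraMap A K π ^ d * algebraMap A K r) :
    ∃ E₀ ∈ Oc, ∃ a₁ ∈ W, algebraMap A K E₀ * (1 + algebraMap A K π * a₁) ^ p
      * (1 + algebraMap A K π ^ (p + 2) * y') = 1 + algebraMap A K π ^ d * algebraMap A K r := by
  obtain ⟨ε, hε, δ, hδ, hroot⟩ := hOc.exists_root e' he'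
  have hroot' := congrArg (algebraMap A K) hroot
  rw [map_add, map_mul, map_pow] at hroot'
  have hee := congrArg (algebraMap A K) hee'
  rw [map_mul, map_one] at hee
  have hYv : algebraMap A K π ^ (p + 2) * y' = algebraMap A K π * (algebraMap A K π ^ (p + 1) * y') := by
    ring
  have hYW := W.mul_mem (W.pow_mem hW.pi_mem (p + 1)) hy'
  have hw := mul_inv_cancel₀ (hW.one_add_ne_zero hYW hYv)
  have hwW := hW.inv_one_add_mem hYW hYv
  generalize (1 + algebraMap A K π ^ (p + 2) * y')⁻¹ = w at hw hwW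
  obtain ⟨d', rfl⟩ : ∃ d', d = d' + 1 := ⟨d - 1, by omega⟩
  have hap : a ^ p = algebraMap A K e' * (1 + algebraMap A K π ^ (d' + 1) * algebraMap A K r) * w := by
    linear_combination (algebraMap A K e' * w) * h
      - (a ^ p * (1 + algebraMap A K π ^ (p + 2) * y') * w) * hee - a ^ p * hw
  have hrW : 1 + algebraMap A K π ^ (d' + 1) * algebraMap A K r ∈ W :=
    W.add_mem W.one_mem (W.mul_mem (W.pow_mem hW.pi_mem _) (hW.map_mem r))
  have haW : a ∈ W := hW.mem_of_pow_mem hp.ne_zero (by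
    rw [hap]; exact W.mul_mem (W.mul_mem (hW.map_mem e') hrW) hwW)
  -- `a ≡ ε` modulo `π W`
  obtain ⟨a₀, ha₀, ha₀'⟩ := hW.sub_eq_of_pow_sub_pow hp hp3 (hW.natCast_eq hp.ne_zero hpK) haW
    (hW.map_mem ε)
    ⟨algebraMap A K ε ^ p * w * (algebraMap A K π ^ d' * algebraMap A K r
        - algebraMap A K π ^ (p + 1) * y')
      + algebraMap A K δ * (1 + algebraMap A K π ^ (d' + 1) * algebraMap A K r) * w,
      W.add_mem (W.mul_mem (W.mul_mem (W.pow_mem (hW.map_mem ε) p) hwW)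
        (W.sub_mem (W.mul_mem (W.pow_mem hW.pi_mem _) (hW.map_mem r)) hYW))
        (W.mul_mem (W.mul_mem (hW.map_mem δ) hrW) hwW), by
      linear_combination hap
        + ((1 + algebraMap A K π ^ (d' + 1) * algebraMap A K r) * w) * hroot'
        + (algebraMap A K ε ^ p) * hw⟩
  have hεu : IsUnit ε :=
    isUnit_of_eq_pow_add hp.ne_zero hW.pi_not_isUnit (IsUnit.of_mul_eq_one e (by rw [mul_comm]; exact hee')) hroot
  obtain ⟨ε', hεε'⟩ := hεu.exists_right_inv
  have hεε := congrArg (algebraMap A K) hεε'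
  rw [map_mul, map_one] at hεε
  refine ⟨e * ε ^ p, Oc.mul_mem he (Oc.pow_mem hε p), a₀ * algebraMap A K ε',
    W.mul_mem ha₀ (hW.map_mem ε'), ?_⟩
  have key : algebraMap A K ε * (1 + algebraMap A K π * (a₀ * algebraMap A K ε')) = a := by
    linear_combination (algebraMap A K π * a₀) * hεε - ha₀'
  rw [← h, ← key, map_mul, map_pow, mul_pow]
  ring

/-- Other branch, depth `1 ≤ d < p`: `r` is a constant modulo `π W`. -/
theorem other_low (hOc : IsConst (K := K) E π p Oc) (hW : IsBranch π W) (hp : p.Prime)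
    (hp3 : 3 ≤ p) {η : A} (hpK : (p : K) = algebraMap A K η * algebraMap A K π ^ p)
    {d : ℕ} (hd1 : 1 ≤ d) (hd : d < p) {e e' : A} (he : e ∈ Oc) (he' : e' ∈ Oc)
    (hee' : e * e' = 1) {a y' : K} (hy' : y' ∈ W) {r : A}
    (h : algebraMap A K e * a ^ p * (1 + algebraMap A K π ^ (p + 2) * y')
      = 1 + algebraMap A K π ^ d * algebraMap A K r) :
    ∃ ρ ∈ Oc, ∃ v ∈ W, algebraMap A K r - algebraMap A K ρ = algebraMap A K π * v := by
  obtain ⟨E₀, hE₀, a₁, ha₁, hrel⟩ := hOc.branch_norm hW hp hp3 hpK hd1 he he' hee' hy' h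
  obtain ⟨ρ, hρ, -, hv⟩ := hOc.step_low hW hp hpK hd hE₀ ha₁ hy' hrel
  exact ⟨ρ, hρ, hv⟩

/-- Any branch, depth `p`: `r` is a `p`-th power modulo `π W`. -/
theorem branch_mid (hOc : IsConst (K := K) E π p Oc) (hW : IsBranch π W) (hp : p.Prime)
    (hp3 : 3 ≤ p) {η : A} (hpK : (p : K) = algebraMap A K η * algebraMap A K π ^ p)
    {e e' : A} (he : e ∈ Oc) (he' : e' ∈ Oc) (hee' : e * e' = 1) {a y' : K} (hy' : y' ∈ W)
    {r : A}
    (h : algebraMap A K e * a ^ p * (1 + algebraMap A K π ^ (p + 2) * y')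
      = 1 + algebraMap A K π ^ p * algebraMap A K r) :
    ∃ x ∈ W, ∃ v ∈ W, algebraMap A K r - x ^ p = algebraMap A K π * v := by
  obtain ⟨E₀, hE₀, a₁, ha₁, hrel⟩ :=
    hOc.branch_norm hW hp hp3 hpK hp.one_le he he' hee' hy' h
  obtain ⟨ρ, hρ, -, v, hv, hv'⟩ := hOc.step_mid hW hp hpK hE₀ ha₁ hy' (hW.map_mem r) hrel
  obtain ⟨β, hβ, δ, hδ, hroot⟩ := hOc.exists_root ρ hρ
  have hroot' := congrArg (algebraMap A K) hroot
  rw [map_add, map_mul, map_pow] at hroot'
  obtain ⟨R, hR, hexp⟩ := exists_add_pow_eq W hp (hW.map_mem β) ha₁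
  obtain ⟨vp, hvp, hvp'⟩ := hW.natCast_eq hp.ne_zero hpK
  refine ⟨algebraMap A K β + a₁, W.add_mem (hW.map_mem β) ha₁,
    v + algebraMap A K δ - vp * algebraMap A K β * a₁ * R,
    W.sub_mem (W.add_mem hv (hW.map_mem δ))
      (W.mul_mem (W.mul_mem (W.mul_mem hvp (hW.map_mem β)) ha₁) hR), ?_⟩
  rw [hexp, hvp']
  linear_combination hv' + hroot'

/-- Other branch, depth `p + 1`: `r` is a constant modulo `π W`. -/
theorem other_hi (hOc : IsConst (K := K) E π p Oc) (hW : IsBranch π W) (hp : p.Prime)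
    (hp3 : 3 ≤ p) {η : A} (hpK : (p : K) = algebraMap A K η * algebraMap A K π ^ p)
    {e e' : A} (he : e ∈ Oc) (he' : e' ∈ Oc) (hee' : e * e' = 1) {a y' : K} (hy' : y' ∈ W)
    {r : A}
    (h : algebraMap A K e * a ^ p * (1 + algebraMap A K π ^ (p + 2) * y')
      = 1 + algebraMap A K π ^ (p + 1) * algebraMap A K r) :
    ∃ ρ ∈ Oc, ∃ v ∈ W, algebraMap A K r - algebraMap A K ρ = algebraMap A K π * v := by
  obtain ⟨E₀, hE₀, a₁, ha₁, hrel⟩ :=
    hOc.branch_norm hW hp hp3 hpK (Nat.le_add_left 1 p) he he' hee' hy' h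
  obtain ⟨ρ, hρ, -, v, hv, hv'⟩ := hOc.step_mid hW hp hpK hE₀ ha₁ hy'
    (B₀ := algebraMap A K π * algebraMap A K r) (W.mul_mem hW.pi_mem (hW.map_mem r))
    (by rw [hrel, pow_succ]; ring)
  obtain ⟨β, hβ, δ, hδ, hroot⟩ := hOc.exists_root (-ρ) (Oc.neg_mem hρ)
  have hroot' := congrArg (algebraMap A K) hroot
  rw [map_add, map_mul, map_pow, map_neg] at hroot'
  obtain ⟨a₂, ha₂, ha₂'⟩ := hW.sub_eq_of_pow_sub_pow hp hp3 (hW.natCast_eq hp.ne_zero hpK) ha₁
    (hW.map_mem β)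
    ⟨algebraMap A K r - v + algebraMap A K δ,
      W.add_mem (W.sub_mem (hW.map_mem r) hv) (hW.map_mem δ), by
      linear_combination -hv' + hroot'⟩
  have hu := isUnit_one_add_mul hW.pi_not_isUnit β
  obtain ⟨uβ, huβ⟩ := hu.exists_right_inv
  have huβ' := congrArg (algebraMap A K) huβ
  rw [map_mul, map_add, map_one, map_mul] at huβ'
  have key : (1 + algebraMap A K π * algebraMap A K β)
      * (1 + algebraMap A K π ^ 2 * (a₂ * algebraMap A K uβ)) = 1 + algebraMap A K π * a₁ := by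
    linear_combination (algebraMap A K π ^ 2 * a₂) * huβ' - algebraMap A K π * ha₂'
  obtain ⟨ρ', hρ', -, hv''⟩ := hOc.step_hi hW hp hpK
    (E₀ := E₀ * (1 + π * β) ^ p)
    (Oc.mul_mem hE₀ (Oc.pow_mem (Oc.add_mem Oc.one_mem (Oc.mul_mem hOc.pi_mem hβ)) p))
    (a₂ := a₂ * algebraMap A K uβ) (W.mul_mem ha₂ (hW.map_mem uβ)) hy' (r := r) (by
      rw [← hrel, ← key, map_mul, map_pow, map_add, map_one, map_mul, mul_pow]
      ring)
  exact ⟨ρ', hρ', hv''⟩

/-- Main branch (constant `1`), normalisation `a = 1 + π a₁`. -/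
theorem _root_.Fermat.Agent.S44.L.NZ.DepthLift.IsBranch.exists_eq_one_add_mul
    (hW : IsBranch π W) (hp : p.Prime)
    (hp3 : 3 ≤ p) {η : A} (hpK : (p : K) = algebraMap A K η * algebraMap A K π ^ p)
    {d : ℕ} (hd1 : 1 ≤ d) {a y' : K} (hy' : y' ∈ W) {r : A}
    (h : a ^ p * (1 + algebraMap A K π ^ (p + 2) * y')
      = 1 + algebraMap A K π ^ d * algebraMap A K r) :
    ∃ a₁ ∈ W, a = 1 + algebraMap A K π * a₁ := by
  have hYv : algebraMap A K π ^ (p + 2) * y' = algebraMap A K π * (algebraMap A K π ^ (p + 1) * y') := by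
    ring
  have hYW := W.mul_mem (W.pow_mem hW.pi_mem (p + 1)) hy'
  have hw := mul_inv_cancel₀ (hW.one_add_ne_zero hYW hYv)
  have hwW := hW.inv_one_add_mem hYW hYv
  generalize (1 + algebraMap A K π ^ (p + 2) * y')⁻¹ = w at hw hwW
  obtain ⟨d', rfl⟩ : ∃ d', d = d' + 1 := ⟨d - 1, by omega⟩
  have hap : a ^ p = (1 + algebraMap A K π ^ (d' + 1) * algebraMap A K r) * w := by
    linear_combination w * h - a ^ p * hw
  have hrW : 1 + algebraMap A K π ^ (d' + 1) * algebraMap A K r ∈ W :=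
    W.add_mem W.one_mem (W.mul_mem (W.pow_mem hW.pi_mem _) (hW.map_mem r))
  have haW : a ∈ W := hW.mem_of_pow_mem hp.ne_zero (by rw [hap]; exact W.mul_mem hrW hwW)
  obtain ⟨a₁, ha₁, ha₁'⟩ := hW.sub_eq_of_pow_sub_pow hp hp3 (hW.natCast_eq hp.ne_zero hpK) haW
    W.one_mem
    ⟨w * (algebraMap A K π ^ d' * algebraMap A K r - algebraMap A K π ^ (p + 1) * y'),
      W.mul_mem hwW (W.sub_mem (W.mul_mem (W.pow_mem hW.pi_mem _) (hW.map_mem r)) hYW), by
      rw [one_pow, hap]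
      linear_combination hw⟩
  exact ⟨a₁, ha₁, by linear_combination ha₁'⟩

/-- Main branch, depth `1 ≤ d < p`: `r ∈ π W`. -/
theorem main_low (hOc : IsConst (K := K) E π p Oc) (hW : IsBranch π W) (hp : p.Prime)
    (hp3 : 3 ≤ p) {η : A} (hpK : (p : K) = algebraMap A K η * algebraMap A K π ^ p)
    {d : ℕ} (hd1 : 1 ≤ d) (hd : d < p) {a y' : K} (hy' : y' ∈ W) {r : A}
    (h : a ^ p * (1 + algebraMap A K π ^ (p + 2) * y')
      = 1 + algebraMap A K π ^ d * algebraMap A K r) :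
    ∃ v ∈ W, algebraMap A K r = algebraMap A K π * v := by
  have hπ0 := hW.pi_ne_zero
  obtain ⟨a₁, ha₁, rfl⟩ := hW.exists_eq_one_add_mul hp hp3 hpK hd1 hy' h
  obtain ⟨ρ, hρ, hρ', v, hv, hv'⟩ := hOc.step_low hW hp hpK hd Oc.one_mem ha₁ hy' (r := r)
    (by rw [map_one, one_mul]; exact h)
  have h0 := congrArg (algebraMap A K) hρ'
  rw [map_add, map_one, map_mul, map_pow] at h0
  have hρ0 : algebraMap A K ρ = 0 := by
    have h1 : algebraMap A K π ^ d * algebraMap A K ρ = 0 := by linear_combination -h0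
    exact (mul_eq_zero.mp h1).resolve_left (pow_ne_zero d hπ0)
  exact ⟨v, hv, by linear_combination hv' + hρ0⟩

/-- Main branch, depth `p + 1`: `r ∈ π W`. -/
theorem main_hi (hOc : IsConst (K := K) E π p Oc) (hW : IsBranch π W) (hp : p.Prime)
    (hp3 : 3 ≤ p) {η : A} (hpK : (p : K) = algebraMap A K η * algebraMap A K π ^ p)
    {a y' : K} (hy' : y' ∈ W) {r : A}
    (h : a ^ p * (1 + algebraMap A K π ^ (p + 2) * y')
      = 1 + algebraMap A K π ^ (p + 1) * algebraMap A K r) :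
    ∃ v ∈ W, algebraMap A K r = algebraMap A K π * v := by
  have hπ0 := hW.pi_ne_zero
  obtain ⟨a₁, ha₁, rfl⟩ := hW.exists_eq_one_add_mul hp hp3 hpK (Nat.le_add_left 1 p) hy' h
  obtain ⟨ρ, hρ, hρ', v, hv, hv'⟩ := hOc.step_mid hW hp hpK Oc.one_mem ha₁ hy'
    (B₀ := algebraMap A K π * algebraMap A K r) (W.mul_mem hW.pi_mem (hW.map_mem r))
    (by rw [map_one, one_mul, h, pow_succ]; ring)
  have h0 := congrArg (algebraMap A K) hρ'
  rw [map_add, map_one, map_mul, map_pow] at h0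
  have hρ0 : algebraMap A K ρ = 0 := by
    have h1 : algebraMap A K π ^ p * algebraMap A K ρ = 0 := by linear_combination -h0
    exact (mul_eq_zero.mp h1).resolve_left (pow_ne_zero p hπ0)
  obtain ⟨a₂, ha₂, ha₂'⟩ := hW.sub_eq_of_pow_sub_pow hp hp3 (hW.natCast_eq hp.ne_zero hpK) ha₁
    W.zero_mem
    ⟨algebraMap A K r - v, W.sub_mem (hW.map_mem r) hv, by
      rw [zero_pow hp.ne_zero]
      linear_combination -hv' - hρ0⟩
  rw [sub_zero] at ha₂'
  subst ha₂'
  obtain ⟨ρ', hρ', hρ'', v', hv', hv''⟩ := hOc.step_hi hW hp hpK Oc.one_mem ha₂ hy' (r := r)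
    (by rw [map_one, one_mul, ← h]; ring)
  have h0' := congrArg (algebraMap A K) hρ''
  rw [map_add, map_one, map_mul, map_pow] at h0'
  have hρ0' : algebraMap A K ρ' = 0 := by
    have h1 : algebraMap A K π ^ (p + 1) * algebraMap A K ρ' = 0 := by linear_combination -h0'
    exact (mul_eq_zero.mp h1).resolve_left (pow_ne_zero _ hπ0)
  exact ⟨v', hv', by linear_combination hv'' + hρ0'⟩

/-! ### The constants and the orders are normalised away -/

/-- **Other branch.**  From `c * G ^ p * u = c₂ * g ^ p * (1 + π ^ (p + 2) y')` with `u` a unit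
of `A`: `e * a ^ p * (1 + π ^ (p + 2) y') = u` with `e` a unit constant. -/
theorem exists_rel (hOc : IsConst (K := K) E π p Oc) (hW : IsBranch π W) (hp : p ≠ 0)
    {c c₂ : E} (hc : c ≠ 0) (hc₂ : c₂ ≠ 0) {G g y' : K} (hG : G ≠ 0) (hy' : y' ∈ W) {u : A}
    (hu : IsUnit u)
    (h : algebraMap E K c * G ^ p * algebraMap A K u
      = algebraMap E K c₂ * g ^ p * (1 + algebraMap A K π ^ (p + 2) * y')) :
    ∃ e e' : A, e ∈ Oc ∧ e' ∈ Oc ∧ e * e' = 1 ∧ ∃ a : K,
      algebraMap A K e * a ^ p * (1 + algebraMap A K π ^ (p + 2) * y') = algebraMap A K u := by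
  have hc' : algebraMap E K c ≠ 0 := (map_ne_zero _).mpr hc
  obtain ⟨n, e, e', he, he', hee', hn⟩ :=
    hOc.exists_eq (c₂ * c⁻¹) (mul_ne_zero hc₂ (inv_ne_zero hc))
  have hc₂' : algebraMap E K c₂
      = algebraMap E K c * (algebraMap A K π ^ n * algebraMap A K e) := by
    rw [← hn, map_mul, map_inv₀, mul_left_comm, mul_inv_cancel₀ hc', mul_one]
  have hee := congrArg (algebraMap A K) hee'
  rw [map_mul, map_one] at hee
  obtain ⟨u', huu'⟩ := hu.exists_right_inv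
  have huu := congrArg (algebraMap A K) huu'
  rw [map_mul, map_one] at huu
  have hYv : algebraMap A K π ^ (p + 2) * y' = algebraMap A K π * (algebraMap A K π ^ (p + 1) * y') := by
    ring
  have hYW := W.mul_mem (W.pow_mem hW.pi_mem (p + 1)) hy'
  have hw := mul_inv_cancel₀ (hW.one_add_ne_zero hYW hYv)
  have hwW := hW.inv_one_add_mem hYW hYv
  generalize (1 + algebraMap A K π ^ (p + 2) * y')⁻¹ = w at hw hwW
  have h1 : G ^ p * algebraMap A K u
      = algebraMap A K π ^ n * algebraMap A K e * g ^ p * (1 + algebraMap A K π ^ (p + 2) * y') := by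
    apply mul_left_cancel₀ hc'
    rw [hc₂'] at h
    linear_combination h
  have hU : (g / G) ^ p * algebraMap A K π ^ n = algebraMap A K e' * algebraMap A K u * w := by
    rw [div_pow, div_mul_eq_mul_div, div_eq_iff (pow_ne_zero p hG)]
    linear_combination
      (-(g ^ p * algebraMap A K π ^ n * (1 + algebraMap A K π ^ (p + 2) * y') * w)) * hee
      - (g ^ p * algebraMap A K π ^ n) * hw - (algebraMap A K e' * w) * h1
  have hUne : algebraMap A K e' * algebraMap A K u * w ≠ 0 :=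
    mul_ne_zero (mul_ne_zero (right_ne_zero_of_mul_eq_one hee) (left_ne_zero_of_mul_eq_one huu))
      (right_ne_zero_of_mul_eq_one hw)
  have hUinv : (algebraMap A K e' * algebraMap A K u * w)⁻¹
      = algebraMap A K e * algebraMap A K u' * (1 + algebraMap A K π ^ (p + 2) * y') := by
    apply inv_eq_of_mul_eq_one_right
    linear_combination
      (algebraMap A K u * algebraMap A K u' * ((1 + algebraMap A K π ^ (p + 2) * y') * w)) * hee
      + ((1 + algebraMap A K π ^ (p + 2) * y') * w) * huu + hw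
  obtain ⟨a, ha⟩ := hW.exists_pow_eq hp hUne
    (W.mul_mem (W.mul_mem (hW.map_mem e') (hW.map_mem u)) hwW)
    (by
      rw [hUinv]
      exact W.mul_mem (W.mul_mem (hW.map_mem e) (hW.map_mem u'))
        (W.add_mem W.one_mem (W.mul_mem (W.pow_mem hW.pi_mem _) hy'))) hU
  refine ⟨e, e', he, he', hee', a, ?_⟩
  rw [ha]
  linear_combination
    (algebraMap A K u * ((1 + algebraMap A K π ^ (p + 2) * y') * w)) * hee + algebraMap A K u * hw

/-- **Main branch, start.**  From the normal form `f = w * π ^ m * x ^ p` (`w` a unit of `A`) and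
the generic datum `f = c * g ^ p * (1 + π ^ (p + 2) y')`: `a ^ p * (1 + π ^ (p + 2) y') = ω` with
`ω` a unit of `A`. -/
theorem exists_unit_rel (hOc : IsConst (K := K) E π p Oc) (hW : IsBranch π W) (hp : p ≠ 0)
    {c : E} (hc : c ≠ 0) {f g y' x : K} (hg : g ≠ 0) (hy' : y' ∈ W) {w : A} (hw : IsUnit w)
    {m : ℕ} (hf : f = algebraMap E K c * g ^ p * (1 + algebraMap A K π ^ (p + 2) * y'))
    (hNF : f = algebraMap A K w * algebraMap A K π ^ m * x ^ p) :
    ∃ (ω : A) (a : K), IsUnit ω ∧ a ≠ 0 ∧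
      a ^ p * (1 + algebraMap A K π ^ (p + 2) * y') = algebraMap A K ω := by
  have hπ0 := hW.pi_ne_zero
  have hc' : algebraMap E K c ≠ 0 := (map_ne_zero _).mpr hc
  obtain ⟨n, e, e', he, he', hee', hn⟩ := hOc.exists_eq c hc
  have hee := congrArg (algebraMap A K) hee'
  rw [map_mul, map_one] at hee
  obtain ⟨w', hww'⟩ := hw.exists_right_inv
  have hww := congrArg (algebraMap A K) hww'
  rw [map_mul, map_one] at hww
  have hYv : algebraMap A K π ^ (p + 2) * y' = algebraMap A K π * (algebraMap A K π ^ (p + 1) * y') := by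
    ring
  have hYW := W.mul_mem (W.pow_mem hW.pi_mem (p + 1)) hy'
  have hw₁ := mul_inv_cancel₀ (hW.one_add_ne_zero hYW hYv)
  have hw₁W := hW.inv_one_add_mem hYW hYv
  generalize (1 + algebraMap A K π ^ (p + 2) * y')⁻¹ = w₁ at hw₁ hw₁W
  have hf0 : f ≠ 0 := by
    rw [hf]
    exact mul_ne_zero (mul_ne_zero hc' (pow_ne_zero p hg)) (left_ne_zero_of_mul_eq_one hw₁)
  have hx : x ≠ 0 := by
    rintro rfl
    rw [zero_pow hp, mul_zero] at hNF
    exact hf0 hNF
  have h1 : algebraMap A K w * algebraMap A K π ^ m * x ^ p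
      = algebraMap A K π ^ n * algebraMap A K e * g ^ p * (1 + algebraMap A K π ^ (p + 2) * y') := by
    rw [← hNF, hf, hn]
  have hU : (g / x) ^ p * algebraMap A K π ^ (n - (m : ℤ))
      = algebraMap A K w * algebraMap A K e' * w₁ := by
    rw [zpow_sub₀ hπ0, zpow_natCast, div_pow, div_mul_div_comm,
      div_eq_iff (mul_ne_zero (pow_ne_zero p hx) (pow_ne_zero m hπ0))]
    linear_combination
      (-(g ^ p * algebraMap A K π ^ n * (1 + algebraMap A K π ^ (p + 2) * y') * w₁)) * hee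
      - (g ^ p * algebraMap A K π ^ n) * hw₁ - (algebraMap A K e' * w₁) * h1
  have hUne : algebraMap A K w * algebraMap A K e' * w₁ ≠ 0 :=
    mul_ne_zero (mul_ne_zero (left_ne_zero_of_mul_eq_one hww) (right_ne_zero_of_mul_eq_one hee))
      (right_ne_zero_of_mul_eq_one hw₁)
  have hUinv : (algebraMap A K w * algebraMap A K e' * w₁)⁻¹
      = algebraMap A K w' * algebraMap A K e * (1 + algebraMap A K π ^ (p + 2) * y') := by
    apply inv_eq_of_mul_eq_one_right
    linear_combination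
      (algebraMap A K e * algebraMap A K e' * ((1 + algebraMap A K π ^ (p + 2) * y') * w₁)) * hww
      + ((1 + algebraMap A K π ^ (p + 2) * y') * w₁) * hee + hw₁
  obtain ⟨a, ha⟩ := hW.exists_pow_eq hp hUne
    (W.mul_mem (W.mul_mem (hW.map_mem w) (hW.map_mem e')) hw₁W)
    (by
      rw [hUinv]
      exact W.mul_mem (W.mul_mem (hW.map_mem w') (hW.map_mem e))
        (W.add_mem W.one_mem (W.mul_mem (W.pow_mem hW.pi_mem _) hy'))) hU
  refine ⟨w * e', a, hw.mul (IsUnit.of_mul_eq_one e (by rw [mul_comm]; exact hee')), ?_, ?_⟩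
  · rintro rfl
    rw [zero_pow hp] at ha
    exact hUne ha.symm
  · rw [ha, map_mul]
    linear_combination (algebraMap A K w * algebraMap A K e') * hw₁

end IsConst

/-! ### Gluing at the closed point -/

section Glue

variable {E : Type*} [Field E] [Algebra E K] {π : A} {p : ℕ} {Oc : Subring A}
  {W₁ W₂ : Subring K}

/-- `p`-th powers glue: if `r` is a `p`-th power modulo `π W₁` and modulo `π W₂`, then
`r = h ^ p + π s` in `A`. -/
theorem glue_pow (hW₁ : IsBranch π W₁) (hW₂ : IsBranch π W₂)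
    (hB2 : ∀ r : A, (∃ v ∈ W₁, algebraMap A K r = algebraMap A K π * v) →
      (∃ v ∈ W₂, algebraMap A K r = algebraMap A K π * v) → π ∣ r)
    (hB3₁ : ∀ (r : A) (x : K), x ∈ W₁ →
      (∃ v ∈ W₁, algebraMap A K r - x ^ p = algebraMap A K π * v) →
      ∃ h : A, ∃ v ∈ W₁, algebraMap A K (r - h ^ p) = algebraMap A K π * v)
    (hB3₂ : ∀ (r : A) (x : K), x ∈ W₂ →
      (∃ v ∈ W₂, algebraMap A K r - x ^ p = algebraMap A K π * v) →
      ∃ h : A, ∃ v ∈ W₂, algebraMap A K (r - h ^ p) = algebraMap A K π * v)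
    (hB4 : ∀ r h₁ h₂ : A, (∃ v ∈ W₁, algebraMap A K (r - h₁ ^ p) = algebraMap A K π * v) →
      (∃ v ∈ W₂, algebraMap A K (r - h₂ ^ p) = algebraMap A K π * v) →
      ∃ h : A, (∃ v ∈ W₁, algebraMap A K (h - h₁) = algebraMap A K π * v) ∧
        (∃ v ∈ W₂, algebraMap A K (h - h₂) = algebraMap A K π * v))
    {r : A} (h₁ : ∃ x ∈ W₁, ∃ v ∈ W₁, algebraMap A K r - x ^ p = algebraMap A K π * v)
    (h₂ : ∃ x ∈ W₂, ∃ v ∈ W₂, algebraMap A K r - x ^ p = algebraMap A K π * v) :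
    ∃ h s : A, r = h ^ p + π * s := by
  obtain ⟨x₁, hx₁, hv₁⟩ := h₁
  obtain ⟨x₂, hx₂, hv₂⟩ := h₂
  obtain ⟨k₁, hk₁⟩ := hB3₁ r x₁ hx₁ hv₁
  obtain ⟨k₂, hk₂⟩ := hB3₂ r x₂ hx₂ hv₂
  obtain ⟨h, hh₁, hh₂⟩ := hB4 r k₁ k₂ hk₁ hk₂
  have key : ∀ (W : Subring K), IsBranch π W → ∀ k : A,
      (∃ v ∈ W, algebraMap A K (r - k ^ p) = algebraMap A K π * v) →
      (∃ v ∈ W, algebraMap A K (h - k) = algebraMap A K π * v) →
      ∃ v ∈ W, algebraMap A K (r - h ^ p) = algebraMap A K π * v := by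
    rintro W hW k ⟨v, hv, e⟩ ⟨v', hv', e'⟩
    obtain ⟨q, hq⟩ := sub_dvd_pow_sub_pow h k p
    have hq' := congrArg (algebraMap A K) hq
    refine ⟨v - v' * algebraMap A K q, W.sub_mem hv (W.mul_mem hv' (hW.map_mem q)), ?_⟩
    simp only [map_sub, map_pow, map_mul] at e e' hq' ⊢
    linear_combination e - hq' - algebraMap A K q * e'
  obtain ⟨s, hs⟩ := hB2 (r - h ^ p) (key W₁ hW₁ k₁ hk₁ hh₁) (key W₂ hW₂ k₂ hk₂ hh₂)
  exact ⟨h, s, by linear_combination hs⟩

/-- Zero glues: if `r ∈ π W₁` and `r` is a constant modulo `π W₂`, then `π ∣ r` in `A`. -/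
theorem glue_zero (hOc : IsConst (K := K) E π p Oc) (hW₁ : IsBranch π W₁) (hW₂ : IsBranch π W₂)
    (hB2 : ∀ r : A, (∃ v ∈ W₁, algebraMap A K r = algebraMap A K π * v) →
      (∃ v ∈ W₂, algebraMap A K r = algebraMap A K π * v) → π ∣ r)
    {r : A} (h₁ : ∃ v ∈ W₁, algebraMap A K r = algebraMap A K π * v)
    (h₂ : ∃ ρ ∈ Oc, ∃ v ∈ W₂, algebraMap A K r - algebraMap A K ρ = algebraMap A K π * v) :
    π ∣ r := by
  obtain ⟨ρ, hρ, v, hv, e⟩ := h₂
  have n₁ : r ∈ nonunits A := hW₁.not_isUnit_of_mem h₁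
  have n₂ : -(r - ρ) ∈ nonunits A := fun hu =>
    hW₂.not_isUnit_of_mem ⟨v, hv, by rw [map_sub]; exact e⟩ ((IsUnit.neg_iff _).mp hu)
  have n₃ := IsLocalRing.nonunits_add n₁ n₂
  have e3 : r + -(r - ρ) = ρ := by ring
  rw [e3] at n₃
  obtain ⟨ρ', hρ', rfl⟩ := hOc.dvd_of_not_isUnit ρ hρ n₃
  refine hB2 r h₁ ⟨v + algebraMap A K ρ', W₂.add_mem hv (hW₂.map_mem ρ'), ?_⟩
  rw [map_mul] at e
  linear_combination e

/-- **The closed-point lift, core form** (hypotheses in product form; the two branches may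
coincide). -/
theorem depth_lift_core (hp : p.Prime) (hp3 : 3 ≤ p) {η : A} (hpπ : (p : A) = η * π ^ p)
    (hW₁ : IsBranch π W₁) (hW₂ : IsBranch π W₂)
    (hB2 : ∀ r : A, (∃ v ∈ W₁, algebraMap A K r = algebraMap A K π * v) →
      (∃ v ∈ W₂, algebraMap A K r = algebraMap A K π * v) → π ∣ r)
    (hB3₁ : ∀ (r : A) (x : K), x ∈ W₁ →
      (∃ v ∈ W₁, algebraMap A K r - x ^ p = algebraMap A K π * v) →
      ∃ h : A, ∃ v ∈ W₁, algebraMap A K (r - h ^ p) = algebraMap A K π * v)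
    (hB3₂ : ∀ (r : A) (x : K), x ∈ W₂ →
      (∃ v ∈ W₂, algebraMap A K r - x ^ p = algebraMap A K π * v) →
      ∃ h : A, ∃ v ∈ W₂, algebraMap A K (r - h ^ p) = algebraMap A K π * v)
    (hB4 : ∀ r h₁ h₂ : A, (∃ v ∈ W₁, algebraMap A K (r - h₁ ^ p) = algebraMap A K π * v) →
      (∃ v ∈ W₂, algebraMap A K (r - h₂ ^ p) = algebraMap A K π * v) →
      ∃ h : A, (∃ v ∈ W₁, algebraMap A K (h - h₁) = algebraMap A K π * v) ∧
        (∃ v ∈ W₂, algebraMap A K (h - h₂) = algebraMap A K π * v))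
    (hOc : IsConst (K := K) E π p Oc) {f : K} {c c₂ : E} (hc : c ≠ 0) (hc₂ : c₂ ≠ 0)
    {w : A} (hw : IsUnit w) {m : ℕ} {x : K}
    (hNF : f = algebraMap A K w * algebraMap A K π ^ m * x ^ p)
    {g₁ y₁ : K} (hg₁ : g₁ ≠ 0) (hy₁ : y₁ ∈ W₁)
    (hf₁ : f = algebraMap E K c * g₁ ^ p * (1 + algebraMap A K π ^ (p + 2) * y₁))
    {g₂ y₂ : K} (hy₂ : y₂ ∈ W₂)
    (hf₂ : f = algebraMap E K c₂ * g₂ ^ p * (1 + algebraMap A K π ^ (p + 2) * y₂)) :
    ∃ (G : K) (r : A), f = algebraMap E K c * G ^ p *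
      (1 + algebraMap A K π ^ (p + 2) * algebraMap A K r) := by
  have hc' : algebraMap E K c ≠ 0 := (map_ne_zero _).mpr hc
  have hpK : (p : K) = algebraMap A K η * algebraMap A K π ^ p := by
    have h := congrArg (algebraMap A K) hpπ
    rwa [map_natCast, map_mul, map_pow] at h
  have hπu := hW₁.pi_not_isUnit
  -- depth `1`
  have h1 : ∃ (G : K) (r : A), G ≠ 0 ∧ f = algebraMap E K c * G ^ p *
      (1 + algebraMap A K π ^ 1 * algebraMap A K r) := by
    obtain ⟨ω, a, hω, ha0, hrel₁⟩ := hOc.exists_unit_rel hW₁ hp.ne_zero hc hg₁ hy₁ hw hf₁ hNF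
    have hx' : g₁ / a ≠ 0 := div_ne_zero hg₁ ha0
    have hap : (g₁ / a) ^ p * a ^ p = g₁ ^ p := by rw [← mul_pow, div_mul_cancel₀ g₁ ha0]
    have hf0 : f = algebraMap E K c * (g₁ / a) ^ p * algebraMap A K ω := by
      rw [hf₁, ← hrel₁]
      linear_combination
        (-(algebraMap E K c * (1 + algebraMap A K π ^ (p + 2) * y₁))) * hap
    have hm := hOc.branch_zero hW₁ hp.ne_zero (e := 1) (e' := 1) Oc.one_mem (one_mul 1) hy₁
      (ω := ω) (a := a) (by rw [map_one, one_mul]; exact hrel₁)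
    obtain ⟨e, e', he, he', hee', a₂, hrel₂⟩ :=
      hOc.exists_rel hW₂ hp.ne_zero hc hc₂ hx' hy₂ hω (hf0.symm.trans hf₂)
    have ho := hOc.branch_zero hW₂ hp.ne_zero he hee' hy₂ hrel₂
    obtain ⟨h, s, hs⟩ := glue_pow hW₁ hW₂ hB2 hB3₁ hB3₂ hB4 hm ho
    have hhu : IsUnit h := isUnit_of_eq_pow_add hp.ne_zero hπu hω hs
    obtain ⟨h', hhh'⟩ := hhu.exists_right_inv
    have hh := congrArg (algebraMap A K) hhh'
    rw [map_mul, map_one] at hh
    have hs' := congrArg (algebraMap A K) hs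
    rw [map_add, map_mul, map_pow] at hs'
    refine ⟨g₁ / a * algebraMap A K h, s * h' ^ p,
      mul_ne_zero hx' (left_ne_zero_of_mul_eq_one hh), ?_⟩
    have hhp : algebraMap A K h ^ p * algebraMap A K h' ^ p = 1 := by
      rw [← mul_pow, hh, one_pow]
    rw [hf0, hs', map_mul, map_pow, pow_one, mul_pow]
    linear_combination
      (-(algebraMap E K c * (g₁ / a) ^ p * algebraMap A K π * algebraMap A K s)) * hhp
  -- the step `d → d + 1`
  have step : ∀ d : ℕ, 1 ≤ d → d ≤ p + 1 →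
      (∃ (G : K) (r : A), G ≠ 0 ∧ f = algebraMap E K c * G ^ p *
        (1 + algebraMap A K π ^ d * algebraMap A K r)) →
      ∃ (G : K) (r : A), G ≠ 0 ∧ f = algebraMap E K c * G ^ p *
        (1 + algebraMap A K π ^ (d + 1) * algebraMap A K r) := by
    rintro d hd1 hdp ⟨G, r, hG, hfd⟩
    have hm : (g₁ / G) ^ p * (1 + algebraMap A K π ^ (p + 2) * y₁)
        = 1 + algebraMap A K π ^ d * algebraMap A K r := by
      have hGp : (g₁ / G) ^ p * G ^ p = g₁ ^ p := by rw [← mul_pow, div_mul_cancel₀ g₁ hG]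
      apply mul_left_cancel₀ (mul_ne_zero hc' (pow_ne_zero p hG))
      linear_combination
        (algebraMap E K c * (1 + algebraMap A K π ^ (p + 2) * y₁)) * hGp - hf₁ + hfd
    have hu : IsUnit (1 + π ^ d * r) := by
      obtain ⟨d', rfl⟩ : ∃ d', d = d' + 1 := ⟨d - 1, by omega⟩
      have h2 := isUnit_one_add_mul hπu (π ^ d' * r)
      rwa [← mul_assoc, ← pow_succ'] at h2
    obtain ⟨e, e', he, he', hee', a₂, hrel₂⟩ := hOc.exists_rel hW₂ hp.ne_zero hc hc₂ hG hy₂ hu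
      (by rw [map_add, map_one, map_mul, map_pow]; exact hfd.symm.trans hf₂)
    rw [map_add, map_one, map_mul, map_pow] at hrel₂
    have fin : ∀ r' : A, r = π * r' → ∃ (G : K) (r : A), G ≠ 0 ∧
        f = algebraMap E K c * G ^ p * (1 + algebraMap A K π ^ (d + 1) * algebraMap A K r) := by
      rintro r' rfl
      exact ⟨G, r', hG, by rw [hfd, map_mul, pow_succ]; ring⟩
    rcases Nat.lt_or_ge d p with hlt | hge
    · obtain ⟨r', hr'⟩ := glue_zero hOc hW₁ hW₂ hB2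
        (hOc.main_low hW₁ hp hp3 hpK hd1 hlt hy₁ hm)
        (hOc.other_low hW₂ hp hp3 hpK hd1 hlt he he' hee' hy₂ hrel₂)
      exact fin r' hr'
    rcases Nat.eq_or_lt_of_le hge with heq | hgt
    · subst heq
      obtain ⟨h, s, hs⟩ := glue_pow hW₁ hW₂ hB2 hB3₁ hB3₂ hB4
        (hOc.branch_mid hW₁ hp hp3 hpK (e := 1) (e' := 1) Oc.one_mem Oc.one_mem (one_mul 1) hy₁
          (a := g₁ / G) (by rw [map_one, one_mul]; exact hm))
        (hOc.branch_mid hW₂ hp hp3 hpK he he' hee' hy₂ hrel₂)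
      obtain ⟨R, hR⟩ := exists_add_pow_prime_eq hp (1 : A) (π * h)
      obtain ⟨U', hUU'⟩ := (isUnit_one_add_mul hπu h).exists_right_inv
      have hUp : (1 + π * h) ^ p * U' ^ p = 1 := by rw [← mul_pow, hUU', one_pow]
      have hA : 1 + π ^ p * r
          = (1 + π * h) ^ p * (1 + π ^ (p + 1) * ((s - η * h * R) * U' ^ p)) := by
        rw [hs]
        linear_combination (-1 : A) * hR - (π * h * R) * hpπ
          - (π ^ (p + 1) * (s - η * h * R)) * hUp
      generalize (s - η * h * R) * U' ^ p = r'' at hA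
      have hA' := congrArg (algebraMap A K) hA
      simp only [map_add, map_one, map_mul, map_pow] at hA'
      have hU1 := congrArg (algebraMap A K) hUU'
      simp only [map_add, map_one, map_mul] at hU1
      refine ⟨G * (1 + algebraMap A K π * algebraMap A K h), r'',
        mul_ne_zero hG (left_ne_zero_of_mul_eq_one hU1), ?_⟩
      rw [hfd, mul_pow]
      linear_combination (algebraMap E K c * G ^ p) * hA'
    · have hd : d = p + 1 := by omega
      subst hd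
      obtain ⟨r', hr'⟩ := glue_zero hOc hW₁ hW₂ hB2
        (hOc.main_hi hW₁ hp hp3 hpK hy₁ hm)
        (hOc.other_hi hW₂ hp hp3 hpK he he' hee' hy₂ hrel₂)
      exact fin r' hr'
  have all : ∀ d : ℕ, 1 ≤ d → d ≤ p + 2 → ∃ (G : K) (r : A), G ≠ 0 ∧
      f = algebraMap E K c * G ^ p * (1 + algebraMap A K π ^ d * algebraMap A K r) := by
    intro d hd1
    induction d, hd1 using Nat.le_induction with
    | base => intro _; exact h1
    | succ k hk ih => intro hk2; exact step k hk (by omega) (ih (by omega))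
  obtain ⟨G, r, -, h⟩ := all (p + 2) (by omega) le_rfl
  exact ⟨G, r, h⟩

end Glue

/-! ### The public statements -/

variable {E : Type*} [Field E] [Algebra E K]

set_option linter.unusedVariables false in
/-- **NZ.2 (DL), node.**  `A` the local ring at a node of the special fibre, `W₁`, `W₂` its two
branches, `Oc` the constants.  If `f = unit * π ^ m * x ^ p`, `f = c * g ^ p * (1 + y)` with
`y ∈ π ^ (p + 2) W₁` (the prescribed constant `c` at the main branch) and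
`f = c₂ * g' ^ p * (1 + y')` with `y' ∈ π ^ (p + 2) W₂` (some constant at the other branch), then
`f = c * G ^ p * (1 + π ^ (p + 2) * r)` with `r ∈ A`. -/
theorem depth_lift_node (p : ℕ) (hp : p.Prime) (hp3 : 3 ≤ p) (π η : A) (hη : IsUnit η)
    (hpπ : (p : A) = η * π ^ p) (W₁ W₂ : Subring K) (hW₁ : IsBranch π W₁) (hW₂ : IsBranch π W₂)
    (hB2 : ∀ r : A, algebraMap A K r / algebraMap A K π ∈ W₁ →
      algebraMap A K r / algebraMap A K π ∈ W₂ → π ∣ r)
    (hB3₁ : ∀ (r : A) (x : K), x ∈ W₁ → (algebraMap A K r - x ^ p) / algebraMap A K π ∈ W₁ →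
      ∃ h : A, algebraMap A K (r - h ^ p) / algebraMap A K π ∈ W₁)
    (hB3₂ : ∀ (r : A) (x : K), x ∈ W₂ → (algebraMap A K r - x ^ p) / algebraMap A K π ∈ W₂ →
      ∃ h : A, algebraMap A K (r - h ^ p) / algebraMap A K π ∈ W₂)
    (hB4 : ∀ h₁ h₂ : A, h₁ - h₂ ∈ IsLocalRing.maximalIdeal A →
      ∃ h : A, algebraMap A K (h - h₁) / algebraMap A K π ∈ W₁ ∧
        algebraMap A K (h - h₂) / algebraMap A K π ∈ W₂)
    (Oc : Subring A) (hOc : IsConst (K := K) E π p Oc)
    (f : K) (c : E) (hc : c ≠ 0)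
    (hNF : ∃ (w : A) (m : ℕ) (x : K), IsUnit w ∧
      f = algebraMap A K w * algebraMap A K π ^ m * x ^ p)
    (hmain : ∃ g y : K, g ≠ 0 ∧ f = algebraMap E K c * g ^ p * (1 + y) ∧
      y / algebraMap A K π ^ (p + 2) ∈ W₁)
    (hother : ∃ (c₂ : E) (g y : K), c₂ ≠ 0 ∧ g ≠ 0 ∧ f = algebraMap E K c₂ * g ^ p * (1 + y) ∧
      y / algebraMap A K π ^ (p + 2) ∈ W₂) :
    ∃ (G : K) (r : A), f = algebraMap E K c * G ^ p *
      (1 + algebraMap A K π ^ (p + 2) * algebraMap A K r) := by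
  obtain ⟨w, m, x, hw, hNF⟩ := hNF
  obtain ⟨g₁, y₁, hg₁, hf₁, hy₁⟩ := hmain
  obtain ⟨c₂, g₂, y₂, hc₂, -, hf₂, hy₂⟩ := hother
  obtain ⟨y₁', hy₁', rfl⟩ := (hW₁.div_pow_mem_iff (p + 2)).mp hy₁
  obtain ⟨y₂', hy₂', rfl⟩ := (hW₂.div_pow_mem_iff (p + 2)).mp hy₂
  refine depth_lift_core hp hp3 hpπ hW₁ hW₂ ?_ ?_ ?_ ?_ hOc hc hc₂ hw hNF hg₁ hy₁' hf₁ hy₂' hf₂
  · intro r h₁ h₂
    exact hB2 r (hW₁.div_mem_iff.mpr h₁) (hW₂.div_mem_iff.mpr h₂)
  · intro r x hx h
    obtain ⟨k, hk⟩ := hB3₁ r x hx (hW₁.div_mem_iff.mpr h)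
    exact ⟨k, hW₁.div_mem_iff.mp hk⟩
  · intro r x hx h
    obtain ⟨k, hk⟩ := hB3₂ r x hx (hW₂.div_mem_iff.mpr h)
    exact ⟨k, hW₂.div_mem_iff.mp hk⟩
  · intro r h₁ h₂ e₁ e₂
    have n₁ : r - h₁ ^ p ∈ IsLocalRing.maximalIdeal A :=
      (IsLocalRing.mem_maximalIdeal _).mpr (hW₁.not_isUnit_of_mem e₁)
    have n₂ : r - h₂ ^ p ∈ IsLocalRing.maximalIdeal A :=
      (IsLocalRing.mem_maximalIdeal _).mpr (hW₂.not_isUnit_of_mem e₂)
    have hpm : (p : A) ∈ IsLocalRing.maximalIdeal A := by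
      rw [hpπ]
      exact Ideal.mul_mem_left _ _ (Ideal.pow_mem_of_mem _
        ((IsLocalRing.mem_maximalIdeal _).mpr hW₁.pi_not_isUnit) p hp.pos)
    have hsub : h₁ - h₂ ∈ IsLocalRing.maximalIdeal A := by
      obtain ⟨R, hR⟩ := exists_add_pow_prime_eq hp h₁ (-h₂)
      have hodd : Odd p := hp.odd_of_ne_two (by omega)
      have e : (h₁ - h₂) ^ p = (r - h₂ ^ p) - (r - h₁ ^ p) + (p : A) * (h₁ * -h₂ * R) := by
        rw [sub_eq_add_neg h₁ h₂, hR, hodd.neg_pow]
        ring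
      refine Ideal.IsPrime.mem_of_pow_mem (IsLocalRing.maximalIdeal.isMaximal A).isPrime p ?_
      rw [e]
      exact Ideal.add_mem _ (Ideal.sub_mem _ n₂ n₁) (Ideal.mul_mem_right _ _ hpm)
    obtain ⟨h, hh₁, hh₂⟩ := hB4 h₁ h₂ hsub
    exact ⟨h, hW₁.div_mem_iff.mp hh₁, hW₂.div_mem_iff.mp hh₂⟩

set_option linter.unusedVariables false in
/-- **NZ.2 (DL), smooth point.**  The same with one branch. -/
theorem depth_lift_smooth (p : ℕ) (hp : p.Prime) (hp3 : 3 ≤ p) (π η : A) (hη : IsUnit η)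
    (hpπ : (p : A) = η * π ^ p) (W : Subring K) (hW : IsBranch π W)
    (hB2 : ∀ r : A, algebraMap A K r / algebraMap A K π ∈ W → π ∣ r)
    (hB3 : ∀ (r : A) (x : K), x ∈ W → (algebraMap A K r - x ^ p) / algebraMap A K π ∈ W →
      ∃ h : A, algebraMap A K (r - h ^ p) / algebraMap A K π ∈ W)
    (Oc : Subring A) (hOc : IsConst (K := K) E π p Oc)
    (f : K) (c : E) (hc : c ≠ 0)
    (hNF : ∃ (w : A) (m : ℕ) (x : K), IsUnit w ∧
      f = algebraMap A K w * algebraMap A K π ^ m * x ^ p)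
    (hmain : ∃ g y : K, g ≠ 0 ∧ f = algebraMap E K c * g ^ p * (1 + y) ∧
      y / algebraMap A K π ^ (p + 2) ∈ W) :
    ∃ (G : K) (r : A), f = algebraMap E K c * G ^ p *
      (1 + algebraMap A K π ^ (p + 2) * algebraMap A K r) := by
  have hpK : (p : K) = algebraMap A K η * algebraMap A K π ^ p := by
    have h := congrArg (algebraMap A K) hpπ
    rwa [map_natCast, map_mul, map_pow] at h
  obtain ⟨w, m, x, hw, hNF⟩ := hNF
  obtain ⟨g₁, y₁, hg₁, hf₁, hy₁⟩ := hmain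
  obtain ⟨y₁', hy₁', rfl⟩ := (hW.div_pow_mem_iff (p + 2)).mp hy₁
  have hB3' : ∀ (r : A) (x : K), x ∈ W →
      (∃ v ∈ W, algebraMap A K r - x ^ p = algebraMap A K π * v) →
      ∃ h : A, ∃ v ∈ W, algebraMap A K (r - h ^ p) = algebraMap A K π * v := by
    intro r x hx h
    obtain ⟨k, hk⟩ := hB3 r x hx (hW.div_mem_iff.mpr h)
    exact ⟨k, hW.div_mem_iff.mp hk⟩
  refine depth_lift_core hp hp3 hpπ hW hW ?_ hB3' hB3' ?_ hOc hc hc hw hNF hg₁ hy₁' hf₁ hy₁' hf₁
  · intro r h₁ _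
    exact hB2 r (hW.div_mem_iff.mpr h₁)
  · rintro r h₁ h₂ ⟨v₁, hv₁, e₁⟩ ⟨v₂, hv₂, e₂⟩
    refine ⟨h₁, ⟨0, W.zero_mem, by rw [sub_self, map_zero, mul_zero]⟩, ?_⟩
    obtain ⟨v, hv, e⟩ := hW.sub_eq_of_pow_sub_pow hp hp3 (hW.natCast_eq hp.ne_zero hpK)
      (hW.map_mem h₁) (hW.map_mem h₂)
      ⟨v₂ - v₁, W.sub_mem hv₂ hv₁, by
        rw [map_sub, map_pow] at e₁ e₂
        linear_combination e₂ - e₁⟩
    exact ⟨v, hv, by rw [map_sub]; exact e⟩

/-- **NNF front end.**  At a node the normal form is `f = unit * π ^ m * t ^ j * x ^ p` with `t`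
a unit of the main branch `W₁` whose reduction is a uniformiser of the branch ring (`hB5`).
The generic datum at `W₁` forces `p ∣ j`, so `f = unit * π ^ m * x' ^ p`: the input `hNF` of
`depth_lift_node`. -/
theorem exists_nf_of_nnf (p : ℕ) (hp : p.Prime) (π : A) (W₁ : Subring K) (hW₁ : IsBranch π W₁)
    (Oc : Subring A) (hOc : IsConst (K := K) E π p Oc) (t : A)
    (hB5 : ∀ (j : ℤ) (w : A) (x : K), IsUnit w → x ∈ W₁ → x⁻¹ ∈ W₁ →
      (algebraMap A K w * algebraMap A K t ^ j - x ^ p) / algebraMap A K π ∈ W₁ → (p : ℤ) ∣ j)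
    (ht : (algebraMap A K t)⁻¹ ∈ W₁)
    (f : K) (c : E) (hc : c ≠ 0)
    (hmain : ∃ g y : K, g ≠ 0 ∧ f = algebraMap E K c * g ^ p * (1 + y) ∧
      y / algebraMap A K π ^ (p + 2) ∈ W₁)
    (hNNF : ∃ (w : A) (m : ℕ) (j : ℤ) (x : K), IsUnit w ∧
      f = algebraMap A K w * algebraMap A K π ^ m * algebraMap A K t ^ j * x ^ p) :
    ∃ (w : A) (m : ℕ) (x : K), IsUnit w ∧
      f = algebraMap A K w * algebraMap A K π ^ m * x ^ p := by
  have hπ0 := hW₁.pi_ne_zero
  obtain ⟨g, y, hg, hf, hy⟩ := hmain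
  obtain ⟨y', hy', rfl⟩ := (hW₁.div_pow_mem_iff (p + 2)).mp hy
  obtain ⟨w, m, j, x, hw, hNNF⟩ := hNNF
  suffices hj : (p : ℤ) ∣ j by
    obtain ⟨j', rfl⟩ := hj
    have e1 : algebraMap A K t ^ ((p : ℤ) * j') = (algebraMap A K t ^ j') ^ p := by
      rw [mul_comm, zpow_mul, zpow_natCast]
    exact ⟨w, m, algebraMap A K t ^ j' * x, hw, by rw [hNNF, e1]; ring⟩
  by_cases hj0 : j = 0
  · rw [hj0]
    exact dvd_zero _
  have hc' : algebraMap E K c ≠ 0 := (map_ne_zero _).mpr hc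
  obtain ⟨n, e, e', he, he', hee', hn⟩ := hOc.exists_eq c hc
  have hee := congrArg (algebraMap A K) hee'
  rw [map_mul, map_one] at hee
  obtain ⟨w', hww'⟩ := hw.exists_right_inv
  have hww := congrArg (algebraMap A K) hww'
  rw [map_mul, map_one] at hww
  have hYv : algebraMap A K π ^ (p + 2) * y' = algebraMap A K π * (algebraMap A K π ^ (p + 1) * y') := by
    ring
  have hYW := W₁.mul_mem (W₁.pow_mem hW₁.pi_mem (p + 1)) hy'
  have hw₁ := mul_inv_cancel₀ (hW₁.one_add_ne_zero hYW hYv)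
  have hw₁W := hW₁.inv_one_add_mem hYW hYv
  generalize (1 + algebraMap A K π ^ (p + 2) * y')⁻¹ = w₁ at hw₁ hw₁W
  have hf0 : f ≠ 0 := by
    rw [hf]
    exact mul_ne_zero (mul_ne_zero hc' (pow_ne_zero p hg)) (left_ne_zero_of_mul_eq_one hw₁)
  have hx : x ≠ 0 := by
    rintro rfl
    rw [zero_pow hp.ne_zero, mul_zero] at hNNF
    exact hf0 hNNF
  have ht0 : algebraMap A K t ≠ 0 := by
    intro h0
    rw [h0, zero_zpow j hj0, mul_zero, zero_mul] at hNNF
    exact hf0 hNNF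
  have hτ := mul_inv_cancel₀ (zpow_ne_zero j ht0)
  have hτW : algebraMap A K t ^ j ∈ W₁ := zpow_mem_of_mem W₁ (hW₁.map_mem t) ht j
  have hτiW : (algebraMap A K t ^ j)⁻¹ ∈ W₁ := by
    rw [← zpow_neg]
    exact zpow_mem_of_mem W₁ (hW₁.map_mem t) ht (-j)
  generalize (algebraMap A K t ^ j)⁻¹ = τi at hτ hτiW
  have h1 : algebraMap A K w * algebraMap A K π ^ m * algebraMap A K t ^ j * x ^ p
      = algebraMap A K π ^ n * algebraMap A K e * g ^ p * (1 + algebraMap A K π ^ (p + 2) * y') := by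
    rw [← hNNF, hf, hn]
  have hU : (x / g) ^ p * algebraMap A K π ^ ((m : ℤ) - n)
      = algebraMap A K e * (1 + algebraMap A K π ^ (p + 2) * y') * algebraMap A K w' * τi := by
    rw [zpow_sub₀ hπ0, zpow_natCast, div_pow, div_mul_div_comm,
      div_eq_iff (mul_ne_zero (pow_ne_zero p hg) (zpow_ne_zero n hπ0))]
    linear_combination
      (-(x ^ p * algebraMap A K π ^ m * (algebraMap A K t ^ j * τi))) * hww
      - (x ^ p * algebraMap A K π ^ m) * hτ + (algebraMap A K w' * τi) * h1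
  have hUne : algebraMap A K e * (1 + algebraMap A K π ^ (p + 2) * y') * algebraMap A K w' * τi
      ≠ 0 :=
    mul_ne_zero (mul_ne_zero (mul_ne_zero (left_ne_zero_of_mul_eq_one hee)
      (left_ne_zero_of_mul_eq_one hw₁)) (right_ne_zero_of_mul_eq_one hww))
      (right_ne_zero_of_mul_eq_one hτ)
  have hUinv : (algebraMap A K e * (1 + algebraMap A K π ^ (p + 2) * y') * algebraMap A K w'
      * τi)⁻¹ = algebraMap A K e' * w₁ * algebraMap A K w * algebraMap A K t ^ j := by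
    apply inv_eq_of_mul_eq_one_right
    linear_combination
      ((1 + algebraMap A K π ^ (p + 2) * y') * w₁ * (algebraMap A K w * algebraMap A K w')
        * (algebraMap A K t ^ j * τi)) * hee
      + ((algebraMap A K w * algebraMap A K w') * (algebraMap A K t ^ j * τi)) * hw₁
      + (algebraMap A K t ^ j * τi) * hww + hτ
  have hUW : algebraMap A K e * (1 + algebraMap A K π ^ (p + 2) * y') * algebraMap A K w' * τi
      ∈ W₁ :=
    W₁.mul_mem (W₁.mul_mem (W₁.mul_mem (hW₁.map_mem e)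
      (W₁.add_mem W₁.one_mem (W₁.mul_mem (W₁.pow_mem hW₁.pi_mem _) hy'))) (hW₁.map_mem w')) hτiW
  have hUiW : (algebraMap A K e * (1 + algebraMap A K π ^ (p + 2) * y') * algebraMap A K w'
      * τi)⁻¹ ∈ W₁ := by
    rw [hUinv]
    exact W₁.mul_mem (W₁.mul_mem (W₁.mul_mem (hW₁.map_mem e') hw₁W) (hW₁.map_mem w)) hτW
  obtain ⟨a, ha⟩ := hW₁.exists_pow_eq hp.ne_zero hUne hUW hUiW hU
  have ha0 : a ≠ 0 := by
    rintro rfl
    rw [zero_pow hp.ne_zero] at ha
    exact hUne ha.symm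
  have haa : a ^ p * a⁻¹ ^ p = 1 := by rw [← mul_pow, mul_inv_cancel₀ ha0, one_pow]
  have haW : a ∈ W₁ := hW₁.mem_of_pow_mem hp.ne_zero (by rw [ha]; exact hUW)
  have haiW : a⁻¹ ∈ W₁ := hW₁.mem_of_pow_mem hp.ne_zero (by rw [inv_pow, ha]; exact hUiW)
  obtain ⟨ε, hε, δ, hδ, hroot⟩ := hOc.exists_root e he
  have hroot' := congrArg (algebraMap A K) hroot
  rw [map_add, map_mul, map_pow] at hroot'
  have hεu : IsUnit ε :=
    isUnit_of_eq_pow_add hp.ne_zero hW₁.pi_not_isUnit (IsUnit.of_mul_eq_one e' hee') hroot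
  obtain ⟨ε', hεε'⟩ := hεu.exists_right_inv
  have hεε := congrArg (algebraMap A K) hεε'
  rw [map_mul, map_one] at hεε
  have hwτ : algebraMap A K w * algebraMap A K t ^ j * a ^ p
      = algebraMap A K e * (1 + algebraMap A K π ^ (p + 2) * y') := by
    rw [ha]
    linear_combination
      (algebraMap A K e * (1 + algebraMap A K π ^ (p + 2) * y') * (algebraMap A K t ^ j * τi))
        * hww
      + (algebraMap A K e * (1 + algebraMap A K π ^ (p + 2) * y')) * hτ
  refine hB5 j w (algebraMap A K ε * a⁻¹) hw (W₁.mul_mem (hW₁.map_mem ε) haiW) ?_ ?_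
  · rw [mul_inv, inv_inv, inv_eq_of_mul_eq_one_right hεε]
    exact W₁.mul_mem (hW₁.map_mem ε') haW
  · refine hW₁.div_mem_iff.mpr ⟨a⁻¹ ^ p * (algebraMap A K δ
      + algebraMap A K e * (algebraMap A K π ^ (p + 1) * y')),
      W₁.mul_mem (W₁.pow_mem haiW p) (W₁.add_mem (hW₁.map_mem δ)
        (W₁.mul_mem (hW₁.map_mem e) hYW)), ?_⟩
    rw [mul_pow]
    linear_combination (a⁻¹ ^ p) * hroot' + (a⁻¹ ^ p) * hwτ
      - (algebraMap A K w * algebraMap A K t ^ j) * haa

end Fermat.Agent.S44.L.NZ.DepthLift
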