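import Mathlib
import Fermat.Agent.S30.GaussDVR
import Fermat.Agent.S44.L.NodeNF
import Fermat.Agent.S44.L.SmoothNF
import Fermat.Agent.S44.L.NZ.BranchQuot
import Fermat.Agent.S44.L.NZ.DepthLift

/-!
# PROGRAM MR (S44), strand L, NZ-ALT, row NZ.5 (CP), level-free core (helper211)

The closed-point lift with a prescribed constant, in the binder blocks of
`NodeNF.exists_eq_first_order` (node) and `SmoothNF.exists_eq_first_order_smooth` (smooth point),
with the branches given by ABSTRACT Gauss expansions `τ : Ls →+* Ks((q))`: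

* `GaussDepth τ ϖs p d c x` : `x = c g ^ p (1 + y)` with `τ y ∈ ϖs ^ d • V` (Gauss form of the
  generic depth, junction with NZ.1).
* `isBranch_gaussW` : the Gauss subring `(GaussDVR.V Os Ks).comap τ` is a branch
  (`DepthLift.IsBranch`).
* `div_mem_iff`, `exists_div_eq` : its centre on `A` is a prime `P` with `P A_P = π A_P`, and it
  is the localisation of `A` at `P`.
* `isConst_range` : the constants `Oc := range (Os → A)`.
* `node_lift` : at a node, depth `p + 2` at the main branch with the constant `c` and at the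
  other branch with some constant gives `f = c G ^ p (1 + π ^ (p + 2) r)`, `r ∈ A`, and depth
  `p + 2` at the other branch with the SAME constant `c` (step (X)).
* `smooth_lift` : the same at a smooth point (one branch).

Suppliers: `NZ/DepthLift` (NZ.2, the induction), `NZ/BranchQuot` (NZ.3, `A / (π, t) = B / (t)`),
`NodeNF`, `SmoothNF`, `S30/GaussDVR`.
-/

set_option autoImplicit false
set_option linter.unusedSectionVars false
set_option linter.style.haveILetI false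

open Polynomial

noncomputable section

namespace Fermat.Agent.S44.L.NZ.ClosedPointCore

open Fermat.Agent.S30 Fermat.Agent.S44.L.NZ.DepthLift Fermat.Agent.S44.L.NZ.BranchQuot
open Fermat.Agent.S44.L

universe u v

/-! ### Gauss rings -/

section Gauss

variable {Os Ks : Type*} [CommRing Os] [IsDomain Os] [IsDiscreteValuationRing Os] [Field Ks]
  [Algebra Os Ks] [IsFractionRing Os Ks] {Ls : Type*} [Field Ls]

variable (Os) in
/-- The Gauss subring of `Ls` attached to an expansion `τ : Ls →+* Ks((q))`. -/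
def gaussW (τ : Ls →+* LaurentSeries Ks) : Subring Ls := (GaussDVR.V Os Ks).comap τ

theorem mem_gaussW {τ : Ls →+* LaurentSeries Ks} {x : Ls} :
    x ∈ gaussW Os τ ↔ τ x ∈ GaussDVR.V Os Ks := Iff.rfl

/-- An element of `V` whose inverse lies in `V` has nonzero reduction. -/
theorem red_ne_zero_of_inv_mem (x : GaussDVR.V Os Ks)
    (hx : (x : LaurentSeries Ks)⁻¹ ∈ GaussDVR.V Os Ks) (hx0 : (x : LaurentSeries Ks) ≠ 0) :
    GaussDVR.red Os Ks x ≠ 0 := by
  intro h0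
  have h1 : x * ⟨(x : LaurentSeries Ks)⁻¹, hx⟩ = 1 := Subtype.ext (mul_inv_cancel₀ hx0)
  have h2 := congrArg (GaussDVR.red Os Ks) h1
  rw [map_mul, h0, zero_mul, map_one] at h2
  exact zero_ne_one h2

/-- The inverse of the uniformiser is not in `V`. -/
theorem inv_unif_notMem {ϖs : Os} (hϖs : Irreducible ϖs) :
    ((GaussDVR.unif Ks ϖs : GaussDVR.V Os Ks) : LaurentSeries Ks)⁻¹ ∉ GaussDVR.V Os Ks := fun h =>
  red_ne_zero_of_inv_mem _ h (GaussDVR.coe_unif_ne_zero Ks ϖs hϖs) (GaussDVR.red_unif Ks ϖs hϖs)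

/-- **Gauss-form depth** `d` of `x` with the constant `c` at the expansion `τ`:
`x = c g ^ p (1 + y)` with `τ y ∈ ϖs ^ d • V`. -/
def GaussDepth [Algebra Ks Ls] (τ : Ls →+* LaurentSeries Ks) (ϖs : Os) (p d : ℕ) (c : Ks)
    (x : Ls) : Prop :=
  ∃ g y : Ls, g ≠ 0 ∧ x = algebraMap Ks Ls c * g ^ p * (1 + y) ∧
    ∃ v : GaussDVR.V Os Ks,
      τ y = ((GaussDVR.unif Ks ϖs : GaussDVR.V Os Ks) : LaurentSeries Ks) ^ d
        * (v : LaurentSeries Ks)

/-- The Gauss subring of an expansion is a branch. -/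
theorem isBranch_gaussW {A : Type*} [CommRing A] [IsLocalRing A] [Algebra A Ls] {π : A}
    {ϖs : Os} (hϖs : Irreducible ϖs) (τ : Ls →+* LaurentSeries Ks)
    (hτfrac : ∀ x : Ls, τ x ∈ GaussDVR.fracField Os Ks)
    (hτA : ∀ a : A, τ (algebraMap A Ls a) ∈ GaussDVR.V Os Ks)
    (hτπ : τ (algebraMap A Ls π)
      = ((GaussDVR.unif Ks ϖs : GaussDVR.V Os Ks) : LaurentSeries Ks)) :
    IsBranch π (gaussW Os τ) where
  total x := by
    rcases GaussDVR.mem_or_inv_mem Ks ϖs hϖs (τ x) (hτfrac x) with h | h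
    · exact Or.inl h
    · right
      rw [mem_gaussW, map_inv₀]
      exact h
  map_mem := hτA
  inv_notMem := by
    intro h
    rw [mem_gaussW, map_inv₀, hτπ] at h
    exact inv_unif_notMem hϖs h
  div_mem x hx hx' := by
    have hx1 : τ x ∈ GaussDVR.V Os Ks := hx
    have hred : GaussDVR.red Os Ks ⟨τ x, hx1⟩ = 0 := by
      by_contra hne
      apply hx'
      rw [mem_gaussW, map_inv₀]
      exact GaussDVR.inv_mem Os Ks ⟨τ x, hx1⟩ hne
    obtain ⟨y, hy⟩ := GaussDVR.ker Ks ϖs hϖs ⟨τ x, hx1⟩ hred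
    have hy' : τ x = ((GaussDVR.unif Ks ϖs : GaussDVR.V Os Ks) : LaurentSeries Ks)
        * (y : LaurentSeries Ks) := by
      have := congrArg (Subtype.val) hy
      rwa [Subring.coe_mul] at this
    rw [mem_gaussW, map_div₀, hτπ, hy', mul_div_cancel_left₀ _ (GaussDVR.coe_unif_ne_zero Ks ϖs hϖs)]
    exact y.2

end Gauss

/-! ### The centre of a branch -/

section Centre

variable {A : Type*} [CommRing A] [IsDomain A] [IsLocalRing A] {Ls : Type*} [Field Ls]
  [Algebra A Ls] [IsFractionRing A Ls] {π : A} {W : Subring Ls} (hW : IsBranch π W)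
  (P : Ideal A) [hP : P.IsPrime] (hcen : ∀ a : A, a ∉ P → (algebraMap A Ls a)⁻¹ ∈ W)
  (s₀ : A) (hs₀ : s₀ ∉ P) (hPπ : ∀ a ∈ P, π ∣ s₀ * a)

include hW in
theorem algebraMap_pi_ne_zero : algebraMap A Ls π ≠ 0 := by
  intro h0
  apply hW.inv_notMem
  rw [h0, inv_zero]
  exact zero_mem W

omit [IsLocalRing A] in
include hP in
theorem algebraMap_ne_zero_of_notMem {a : A} (ha : a ∉ P) : algebraMap A Ls a ≠ 0 := by
  intro h0
  apply ha
  have : a = 0 := IsFractionRing.injective A Ls (by rw [h0, map_zero])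
  rw [this]
  exact P.zero_mem

include hW hcen hs₀ hPπ in
/-- **The centre**: `a / π ∈ W ↔ a ∈ P`. -/
theorem div_mem_iff (a : A) : algebraMap A Ls a / algebraMap A Ls π ∈ W ↔ a ∈ P := by
  have hπ0 : algebraMap A Ls π ≠ 0 := algebraMap_pi_ne_zero hW
  constructor
  · intro h
    by_contra ha
    have ha0 : algebraMap A Ls a ≠ 0 := algebraMap_ne_zero_of_notMem P ha
    apply hW.inv_notMem
    have e : (algebraMap A Ls π)⁻¹
        = algebraMap A Ls a / algebraMap A Ls π * (algebraMap A Ls a)⁻¹ := by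
      field_simp
    rw [e]
    exact mul_mem h (hcen a ha)
  · intro ha
    obtain ⟨a', ha'⟩ := hPπ a ha
    have hs0 : algebraMap A Ls s₀ ≠ 0 := algebraMap_ne_zero_of_notMem P hs₀
    have e : algebraMap A Ls a / algebraMap A Ls π
        = algebraMap A Ls a' * (algebraMap A Ls s₀)⁻¹ := by
      have h1 : algebraMap A Ls s₀ * algebraMap A Ls a = algebraMap A Ls π * algebraMap A Ls a' := by
        rw [← map_mul, ← map_mul, ha']
      field_simp
      linear_combination h1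
    rw [e]
    exact mul_mem (hW.map_mem a') (hcen s₀ hs₀)

include hW hcen hs₀ hPπ in
/-- Elements of `A` over a power of `π` lying in `W` are fractions with denominator off `P`. -/
theorem exists_div_eq_of_div_pow_mem (l : ℕ) :
    ∀ m : A, algebraMap A Ls m / algebraMap A Ls π ^ l ∈ W →
      ∃ a s : A, s ∉ P ∧ algebraMap A Ls m / algebraMap A Ls π ^ l
        = algebraMap A Ls a / algebraMap A Ls s := by
  have hπ0 : algebraMap A Ls π ≠ 0 := algebraMap_pi_ne_zero hW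
  have hs0 : algebraMap A Ls s₀ ≠ 0 := algebraMap_ne_zero_of_notMem P hs₀
  induction l with
  | zero =>
    intro m _
    exact ⟨m, 1, fun h1 => hP.ne_top ((Ideal.eq_top_iff_one P).mpr h1), by simp⟩
  | succ l ih =>
    intro m hm
    have h1 : algebraMap A Ls m / algebraMap A Ls π ∈ W := by
      have e : algebraMap A Ls m / algebraMap A Ls π
          = algebraMap A Ls π ^ l * (algebraMap A Ls m / algebraMap A Ls π ^ (l + 1)) := by
        field_simp
        ring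
      rw [e]
      exact mul_mem (pow_mem (hW.map_mem π) l) hm
    have hmP : m ∈ P := (div_mem_iff hW P hcen s₀ hs₀ hPπ m).mp h1
    obtain ⟨m', hm'⟩ := hPπ m hmP
    have h2 : algebraMap A Ls s₀ * algebraMap A Ls m = algebraMap A Ls π * algebraMap A Ls m' := by
      rw [← map_mul, ← map_mul, hm']
    have e2 : algebraMap A Ls m' / algebraMap A Ls π ^ l
        = algebraMap A Ls s₀ * (algebraMap A Ls m / algebraMap A Ls π ^ (l + 1)) := by
      field_simp
      linear_combination (-(algebraMap A Ls π ^ l)) * h2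
    obtain ⟨a, s, hs, has⟩ := ih m' (by rw [e2]; exact mul_mem (hW.map_mem s₀) hm)
    have hsne : algebraMap A Ls s ≠ 0 := algebraMap_ne_zero_of_notMem P hs
    refine ⟨a, s * s₀, fun h => (hP.mem_or_mem h).elim hs hs₀, ?_⟩
    have e3 : algebraMap A Ls m / algebraMap A Ls π ^ (l + 1)
        = algebraMap A Ls m' / algebraMap A Ls π ^ l / algebraMap A Ls s₀ := by
      rw [e2]
      field_simp
    rw [e3, has, map_mul]
    field_simp

end Centre

/-! ### The Gauss ring is the localisation at its centre -/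

section Frac

variable {Os Ks : Type*} [CommRing Os] [IsDomain Os] [IsDiscreteValuationRing Os] [Field Ks]
  [Algebra Os Ks] [IsFractionRing Os Ks] {Ls : Type*} [Field Ls]
  {A : Type*} [CommRing A] [IsDomain A] [IsLocalRing A] [Algebra A Ls] [IsFractionRing A Ls]
  {π : A} {ϖs : Os} (hϖs : Irreducible ϖs) (τ : Ls →+* LaurentSeries Ks)
  (hW : IsBranch π (gaussW Os τ))
  (hτπ : τ (algebraMap A Ls π)
    = ((GaussDVR.unif Ks ϖs : GaussDVR.V Os Ks) : LaurentSeries Ks))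
  (P : Ideal A) [hP : P.IsPrime]
  (hcen : ∀ a : A, a ∉ P → (algebraMap A Ls a)⁻¹ ∈ gaussW Os τ)
  (s₀ : A) (hs₀ : s₀ ∉ P) (hPπ : ∀ a ∈ P, π ∣ s₀ * a)

include hϖs hW hτπ hcen hs₀ hPπ in
/-- Discreteness: every nonzero element of `A` is `π ^ k a' / s₀ ^ k` with `a' ∉ P`. -/
theorem exists_pow_mul_eq (a : A) (ha : a ≠ 0) :
    ∃ (k : ℕ) (a' : A), a' ∉ P ∧ s₀ ^ k * a = π ^ k * a' := by
  by_contra hcon0
  have hcon : ∀ (k : ℕ) (a' : A), a' ∉ P → s₀ ^ k * a ≠ π ^ k * a' :=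
    fun k a' h1 h2 => hcon0 ⟨k, a', h1, h2⟩
  have key : ∀ k : ℕ, ∃ a' : A, s₀ ^ k * a = π ^ k * a' := by
    intro k
    induction k with
    | zero => exact ⟨a, by simp⟩
    | succ k ih =>
      obtain ⟨a', ha'⟩ := ih
      have ha'P : a' ∈ P := by
        by_contra h
        exact hcon k a' h ha'
      obtain ⟨a'', ha''⟩ := hPπ a' ha'P
      exact ⟨a'', by linear_combination s₀ * ha' + π ^ k * ha''⟩
  have hτA : ∀ x : A, τ (algebraMap A Ls x) ∈ GaussDVR.V Os Ks := fun x => hW.map_mem x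
  have hτinj : Function.Injective τ := τ.injective
  have hv : (⟨τ (algebraMap A Ls a), hτA a⟩ : GaussDVR.V Os Ks) ≠ 0 := by
    intro h0
    have h1 : τ (algebraMap A Ls a) = 0 := congrArg Subtype.val h0
    have h2 : algebraMap A Ls a = 0 := hτinj (by rw [h1, map_zero])
    exact ha (IsFractionRing.injective A Ls (by rw [h2, map_zero]))
  obtain ⟨n, hn⟩ := GaussDVR.exists_not_pow_dvd Ks ϖs hϖs _ hv
  obtain ⟨a', ha'⟩ := key n
  apply hn
  have hs0 : algebraMap A Ls s₀ ≠ 0 := algebraMap_ne_zero_of_notMem P hs₀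
  have hτs0 : τ (algebraMap A Ls s₀) ≠ 0 := fun h => hs0 (hτinj (by rw [h, map_zero]))
  have hinv : (τ (algebraMap A Ls s₀))⁻¹ ∈ GaussDVR.V Os Ks := by
    have := hcen s₀ hs₀
    rwa [mem_gaussW, map_inv₀] at this
  refine ⟨⟨τ (algebraMap A Ls a'), hτA a'⟩ * ⟨(τ (algebraMap A Ls s₀))⁻¹, hinv⟩ ^ n,
    Subtype.ext ?_⟩
  have h3 : τ (algebraMap A Ls s₀) ^ n * τ (algebraMap A Ls a)
      = ((GaussDVR.unif Ks ϖs : GaussDVR.V Os Ks) : LaurentSeries Ks) ^ n
        * τ (algebraMap A Ls a') := by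
    rw [← hτπ, ← map_pow, ← map_pow, ← map_mul, ← map_mul, ← map_pow, ← map_pow, ← map_mul,
      ← map_mul, ha']
  push_cast
  rw [inv_pow]
  field_simp
  linear_combination h3

include hϖs hW hτπ hcen hs₀ hPπ in
/-- **The Gauss ring is `A_P`**: every element of `W` is `a / s` with `s ∉ P`. -/
theorem exists_div_eq (x : Ls) (hx : x ∈ gaussW Os τ) :
    ∃ a s : A, s ∉ P ∧ x = algebraMap A Ls a / algebraMap A Ls s := by
  obtain ⟨n, d, hd, rfl⟩ := IsFractionRing.div_surjective A x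
  have hd0 : d ≠ 0 := nonZeroDivisors.ne_zero hd
  obtain ⟨l, d', hd', hdd⟩ := exists_pow_mul_eq hϖs τ hW hτπ P hcen s₀ hs₀ hPπ d hd0
  have hπ0 : algebraMap A Ls π ≠ 0 := algebraMap_pi_ne_zero hW
  have hs0 : algebraMap A Ls s₀ ≠ 0 := algebraMap_ne_zero_of_notMem P hs₀
  have hd'0 : algebraMap A Ls d' ≠ 0 := algebraMap_ne_zero_of_notMem P hd'
  have hdK : algebraMap A Ls d ≠ 0 := fun h =>
    hd0 (IsFractionRing.injective A Ls (by rw [h, map_zero]))
  have h1 : algebraMap A Ls s₀ ^ l * algebraMap A Ls d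
      = algebraMap A Ls π ^ l * algebraMap A Ls d' := by
    rw [← map_pow, ← map_pow, ← map_mul, ← map_mul, hdd]
  have e : algebraMap A Ls (n * s₀ ^ l) / algebraMap A Ls π ^ l
      = algebraMap A Ls n / algebraMap A Ls d * algebraMap A Ls d' := by
    rw [map_mul, map_pow]
    field_simp
    linear_combination (algebraMap A Ls n) * h1
  obtain ⟨a, s, hs, has⟩ := exists_div_eq_of_div_pow_mem hW P hcen s₀ hs₀ hPπ l (n * s₀ ^ l)
    (by rw [e]; exact mul_mem hx (hW.map_mem d'))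
  have hsne : algebraMap A Ls s ≠ 0 := algebraMap_ne_zero_of_notMem P hs
  refine ⟨a, s * d', fun h => (hP.mem_or_mem h).elim hs hd', ?_⟩
  have e2 : algebraMap A Ls n / algebraMap A Ls d
      = algebraMap A Ls (n * s₀ ^ l) / algebraMap A Ls π ^ l / algebraMap A Ls d' := by
    rw [e]
    field_simp
  rw [e2, has, map_mul]
  field_simp

end Frac

/-! ### Generators, centre on `A = B[π]`, constants -/

section Gen

variable {Os Ks : Type*} [CommRing Os] [IsDomain Os] [IsDiscreteValuationRing Os] [Field Ks]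
  [Algebra Os Ks] [IsFractionRing Os Ks] {Ls : Type*} [Field Ls] [Algebra Ks Ls]
  {B : Type u} [CommRing B] {A : Type v} [CommRing A] [Algebra B A] [Algebra A Ls]

/-- The image of `π = ιs ϖs` under an expansion is the Gauss uniformiser. -/
theorem tau_pi {π : A} {ϖs : Os} (ιs : Os →+* A)
    (hιs : ∀ r : Os, algebraMap A Ls (ιs r) = algebraMap Ks Ls (algebraMap Os Ks r))
    (hιπ : ιs ϖs = π) (τ : Ls →+* LaurentSeries Ks)
    (hτK : ∀ c : Ks, τ (algebraMap Ks Ls c) = HahnSeries.C c) :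
    τ (algebraMap A Ls π)
      = ((GaussDVR.unif Ks ϖs : GaussDVR.V Os Ks) : LaurentSeries Ks) := by
  rw [← hιπ, hιs, hτK, GaussDVR.coe_unif]

/-- `A = B[π]` lies in the Gauss ring as soon as `B` and `π` do. -/
theorem tau_mem_of_gen {π : A} {ϖs : Os} (hgen : Algebra.adjoin B {π} = ⊤)
    (τ : Ls →+* LaurentSeries Ks)
    (hτπ : τ (algebraMap A Ls π)
      = ((GaussDVR.unif Ks ϖs : GaussDVR.V Os Ks) : LaurentSeries Ks))
    (hτB : ∀ b : B, τ (algebraMap A Ls (algebraMap B A b)) ∈ GaussDVR.V Os Ks) (a : A) :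
    τ (algebraMap A Ls a) ∈ GaussDVR.V Os Ks := by
  have ha : a ∈ Algebra.adjoin B {π} := by rw [hgen]; exact Algebra.mem_top
  induction ha using Algebra.adjoin_induction with
  | mem x hx =>
    rw [Set.mem_singleton_iff] at hx
    subst hx
    rw [hτπ]
    exact (GaussDVR.unif Ks ϖs).2
  | algebraMap r => exact hτB r
  | add x y _ _ hx hy =>
    rw [map_add, map_add]
    exact add_mem hx hy
  | mul x y _ _ hx hy =>
    rw [map_mul, map_mul]
    exact mul_mem hx hy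

/-- A Gauss unit plus a multiple of `π` is a Gauss unit. -/
theorem inv_mem_of_eq_add_mul {π : A} {ϖs : Os} (hϖs : Irreducible ϖs)
    (τ : Ls →+* LaurentSeries Ks)
    (hτA : ∀ a : A, τ (algebraMap A Ls a) ∈ GaussDVR.V Os Ks)
    (hτπ : τ (algebraMap A Ls π)
      = ((GaussDVR.unif Ks ϖs : GaussDVR.V Os Ks) : LaurentSeries Ks))
    (b a' : A) (hb0 : τ (algebraMap A Ls b) ≠ 0)
    (hb : (τ (algebraMap A Ls b))⁻¹ ∈ GaussDVR.V Os Ks) :
    (algebraMap A Ls (b + π * a'))⁻¹ ∈ gaussW Os τ := by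
  rw [mem_gaussW, map_inv₀]
  have e : (⟨τ (algebraMap A Ls (b + π * a')), hτA _⟩ : GaussDVR.V Os Ks)
      = ⟨τ (algebraMap A Ls b), hτA _⟩
        + GaussDVR.unif Ks ϖs * ⟨τ (algebraMap A Ls a'), hτA _⟩ := by
    apply Subtype.ext
    show τ (algebraMap A Ls (b + π * a')) = τ (algebraMap A Ls b)
      + ((GaussDVR.unif Ks ϖs : GaussDVR.V Os Ks) : LaurentSeries Ks) * τ (algebraMap A Ls a')
    rw [map_add, map_add, map_mul, map_mul, hτπ]
  have hred : GaussDVR.red Os Ks ⟨τ (algebraMap A Ls (b + π * a')), hτA _⟩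
      = GaussDVR.red Os Ks ⟨τ (algebraMap A Ls b), hτA _⟩ := by
    rw [e, map_add, map_mul, GaussDVR.red_unif Ks ϖs hϖs, zero_mul, add_zero]
  refine GaussDVR.inv_mem Os Ks ⟨τ (algebraMap A Ls (b + π * a')), hτA _⟩ ?_
  rw [hred]
  exact red_ne_zero_of_inv_mem ⟨τ (algebraMap A Ls b), hτA _⟩ hb hb0

/-- **The constants** `Oc := range (Os → A)`. -/
theorem isConst_range [IsLocalRing A] {p : ℕ} {π : A} {ϖs : Os} (hϖs : Irreducible ϖs)
    (hperf : ∀ x : IsLocalRing.ResidueField Os, ∃ y, y ^ p = x) (ιs : Os →+* A)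
    (hιs : ∀ r : Os, algebraMap A Ls (ιs r) = algebraMap Ks Ls (algebraMap Os Ks r))
    (hιπ : ιs ϖs = π) : IsConst (K := Ls) Ks π p ιs.range where
  pi_mem := ⟨ϖs, hιπ⟩
  exists_eq c hc := by
    obtain ⟨a, b, hb, rfl⟩ := IsFractionRing.div_surjective Os c
    have hb0 : b ≠ 0 := nonZeroDivisors.ne_zero hb
    have ha0 : a ≠ 0 := by
      rintro rfl
      exact hc (by rw [map_zero, zero_div])
    obtain ⟨i, u, rfl⟩ := IsDiscreteValuationRing.eq_unit_mul_pow_irreducible ha0 hϖs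
    obtain ⟨k, w, rfl⟩ := IsDiscreteValuationRing.eq_unit_mul_pow_irreducible hb0 hϖs
    refine ⟨(i : ℤ) - k, ιs ((u : Os) * ((w⁻¹ : Osˣ) : Os)),
      ιs (((u⁻¹ : Osˣ) : Os) * (w : Os)), ⟨_, rfl⟩, ⟨_, rfl⟩, ?_, ?_⟩
    · rw [← map_mul]
      have h1 : (u : Os) * ((w⁻¹ : Osˣ) : Os) * (((u⁻¹ : Osˣ) : Os) * (w : Os)) = 1 := by
        have hu : (u : Os) * ((u⁻¹ : Osˣ) : Os) = 1 := Units.mul_inv u
        have hw : ((w⁻¹ : Osˣ) : Os) * (w : Os) = 1 := Units.inv_mul w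
        linear_combination ((w⁻¹ : Osˣ) : Os) * (w : Os) * hu + hw
      rw [h1, map_one]
    · have hF : ∀ r : Os, algebraMap A Ls (ιs r) = algebraMap Ks Ls (algebraMap Os Ks r) := hιs
      have hPi0 : algebraMap Ks Ls (algebraMap Os Ks ϖs) ≠ 0 := by
        intro h0
        have h1 : algebraMap Os Ks ϖs = 0 :=
          (algebraMap Ks Ls).injective (by rw [h0, map_zero])
        exact hϖs.ne_zero (IsFractionRing.injective Os Ks (by rw [h1, map_zero]))
      have hw : algebraMap Ks Ls (algebraMap Os Ks (w : Os))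
          * algebraMap Ks Ls (algebraMap Os Ks ((w⁻¹ : Osˣ) : Os)) = 1 := by
        rw [← map_mul, ← map_mul, Units.mul_inv, map_one, map_one]
      have hw0 : algebraMap Ks Ls (algebraMap Os Ks (w : Os)) ≠ 0 := left_ne_zero_of_mul_eq_one hw
      have hwinv : algebraMap Ks Ls (algebraMap Os Ks ((w⁻¹ : Osˣ) : Os))
          = (algebraMap Ks Ls (algebraMap Os Ks (w : Os)))⁻¹ := eq_inv_of_mul_eq_one_right hw
      rw [← hιπ, hF, hF, zpow_sub₀ hPi0, zpow_natCast, zpow_natCast, map_div₀, map_mul, map_mul,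
        map_mul, map_mul, map_pow, map_pow, map_pow, map_pow, map_mul, map_mul, hwinv]
      field_simp
  exists_root e he := by
    obtain ⟨r, rfl⟩ := he
    obtain ⟨y, hy⟩ := hperf (IsLocalRing.residue Os r)
    obtain ⟨s, rfl⟩ := IsLocalRing.residue_surjective y
    have h0 : IsLocalRing.residue Os (r - s ^ p) = 0 := by
      rw [map_sub, map_pow, hy, sub_self]
    rw [IsLocalRing.residue_eq_zero_iff, hϖs.maximalIdeal_eq, Ideal.mem_span_singleton] at h0
    obtain ⟨d, hd⟩ := h0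
    refine ⟨ιs s, ⟨s, rfl⟩, ιs d, ⟨d, rfl⟩, ?_⟩
    rw [← hιπ, ← map_pow, ← map_mul, ← map_add, ← hd]
    congr 1
    ring
  dvd_of_not_isUnit e he hu := by
    obtain ⟨r, rfl⟩ := he
    have hr : ¬ IsUnit r := fun h => hu (h.map ιs)
    have hrm : r ∈ IsLocalRing.maximalIdeal Os := (IsLocalRing.mem_maximalIdeal r).mpr hr
    rw [hϖs.maximalIdeal_eq, Ideal.mem_span_singleton] at hrm
    obtain ⟨d, rfl⟩ := hrm
    exact ⟨ιs d, ⟨d, rfl⟩, by rw [map_mul, hιπ]⟩

end Gen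

/-! ### Two auxiliary facts -/

/-- `A = B[π]` is local when `B` is and `π ^ p ∈ s A` with `s` a non-unit. -/
theorem isLocalRing_of_eis {B : Type u} [CommRing B] [IsLocalRing B] {A : Type v} [CommRing A]
    [Nontrivial A] [Algebra B A] {p : ℕ} {s : B} (hs : ¬ IsUnit s) {κ : B[X]}
    (hκ : κ.natDegree < p) {π : A} (hπ : π ^ p = algebraMap B A s * aeval π κ)
    (hgen : Algebra.adjoin B {π} = ⊤) : IsLocalRing A := by
  haveI : Algebra.IsIntegral B A := isIntegral_of_eis hκ hπ hgen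
  refine IsLocalRing.of_isUnit_or_isUnit_one_sub_self fun a => ?_
  obtain ⟨b, a', rfl⟩ := exists_eq_add_mul hgen a
  by_cases hb : IsUnit b
  · exact Or.inl (isUnit_add_mul hs hπ hb a')
  · right
    have h1 : IsUnit (1 - b) := (IsLocalRing.isUnit_or_isUnit_one_sub_self b).resolve_left hb
    have he : 1 - (algebraMap B A b + π * a') = algebraMap B A (1 - b) + π * (-a') := by
      rw [map_sub, map_one]
      ring
    rw [he]
    exact isUnit_add_mul hs hπ h1 _

/-- Multiplicities at a prime `q`: `x ^ p u q ^ n = y ^ p q ^ m` forces `p ∣ n - m`. -/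
theorem dvd_sub_of_pow_mul_eq {D : Type*} [CommRing D] [IsDomain D] [WfDvdMonoid D] {q : D}
    (hq : Prime q) {p n m : ℕ} {x y u : D} (hu : IsUnit u) (hx : x ≠ 0) (hy : y ≠ 0)
    (h : x ^ p * u * q ^ n = y ^ p * q ^ m) : (p : ℤ) ∣ (n : ℤ) - m := by
  have hfx : FiniteMultiplicity q x := FiniteMultiplicity.of_prime_left hq hx
  have hfy : FiniteMultiplicity q y := FiniteMultiplicity.of_prime_left hq hy
  have e := congrArg (emultiplicity q) h
  rw [emultiplicity_mul hq, emultiplicity_mul hq, emultiplicity_mul hq,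
    emultiplicity_pow_self_of_prime hq, emultiplicity_pow_self_of_prime hq, emultiplicity_pow hq,
    emultiplicity_pow hq, emultiplicity_of_isUnit_right hq.not_isUnit hu,
    hfx.emultiplicity_eq_multiplicity, hfy.emultiplicity_eq_multiplicity, add_zero] at e
  have e' : p * multiplicity q x + n = p * multiplicity q y + m := by exact_mod_cast e
  refine ⟨(multiplicity q y : ℤ) - multiplicity q x, ?_⟩
  have e'' := congrArg (Nat.cast : ℕ → ℤ) e'
  push_cast at e''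
  linarith

/-- Integer powers of an element of a subring of a field whose inverse is in the subring. -/
theorem zpow_mem_of_inv_mem {F : Type*} [Field F] (W : Subring F) {T : F} (h1 : T ∈ W)
    (h2 : T⁻¹ ∈ W) (j : ℤ) : T ^ j ∈ W := by
  obtain ⟨n, rfl | rfl⟩ := Int.eq_nat_or_neg j
  · rw [zpow_natCast]
    exact pow_mem h1 n
  · rw [zpow_neg, zpow_natCast, ← inv_pow]
    exact pow_mem h2 n

/-- **(B3) from the centre**: `p`-th roots modulo `π W`, from `p`-th roots modulo `P`. -/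
theorem hB3_of_centre {A : Type*} [CommRing A] [IsDomain A] [IsLocalRing A] {Ls : Type*}
    [Field Ls] [Algebra A Ls] [IsFractionRing A Ls] {π : A} {W : Subring Ls} (hW : IsBranch π W)
    (P : Ideal A) [hP : P.IsPrime] {p : ℕ}
    (hZ : ∀ a : A, algebraMap A Ls a / algebraMap A Ls π ∈ W ↔ a ∈ P)
    (hF : ∀ x : Ls, x ∈ W → ∃ a s : A, s ∉ P ∧ x = algebraMap A Ls a / algebraMap A Ls s)
    (hroot : ∀ {a b r : A}, b ∉ P → b ^ p * r - a ^ p ∈ P → ∃ g : A, r - g ^ p ∈ P) :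
    ∀ (r : A) (x : Ls), x ∈ W → (algebraMap A Ls r - x ^ p) / algebraMap A Ls π ∈ W →
      ∃ h : A, algebraMap A Ls (r - h ^ p) / algebraMap A Ls π ∈ W := by
  intro r x hx hrx
  obtain ⟨a, b, hb, rfl⟩ := hF x hx
  have hbne : algebraMap A Ls b ≠ 0 := algebraMap_ne_zero_of_notMem P hb
  have hπ0 : algebraMap A Ls π ≠ 0 := algebraMap_pi_ne_zero hW
  have h1 : algebraMap A Ls (b ^ p * r - a ^ p) / algebraMap A Ls π ∈ W := by
    have e : algebraMap A Ls (b ^ p * r - a ^ p) / algebraMap A Ls π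
        = algebraMap A Ls (b ^ p) * ((algebraMap A Ls r
          - (algebraMap A Ls a / algebraMap A Ls b) ^ p) / algebraMap A Ls π) := by
      simp only [map_sub, map_mul, map_pow, div_pow]
      field_simp
    rw [e]
    exact mul_mem (hW.map_mem _) hrx
  obtain ⟨g, hg⟩ := hroot hb ((hZ _).mp h1)
  exact ⟨g, (hZ _).mpr hg⟩

/-! ### The node -/

section Node

variable {Os Ks : Type*} [CommRing Os] [IsDomain Os] [IsDiscreteValuationRing Os] [Field Ks]
  [Algebra Os Ks] [IsFractionRing Os Ks] {Ls : Type*} [Field Ls] [Algebra Ks Ls]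

/-- **One branch of a node**: the Gauss ring of `τ` is a branch, its centre on `A` is
`P₁ = (π, t₁)` and it is the localisation of `A` at `P₁`. -/
theorem node_branch
    {B : Type u} [CommRing B] [IsDomain B] [IsLocalRing B] [IsNoetherianRing B]
    {p : ℕ} (hp : p ≠ 0) {t₁ t₂ : B} (ht₁ : Prime t₁) (ht₂ : Prime t₂)
    (hne : ¬ Associated t₁ t₂) (hm : IsLocalRing.maximalIdeal B = Ideal.span {t₁, t₂})
    {κ : B[X]} (hκ : κ.natDegree < p) (hκ0 : IsUnit (κ.eval 0))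
    {A : Type v} [CommRing A] [IsDomain A] [IsLocalRing A] [Algebra B A]
    (hBA : Function.Injective (algebraMap B A)) {π : A}
    (hπ : π ^ p = algebraMap B A (t₁ * t₂) * aeval π κ) (hgen : Algebra.adjoin B {π} = ⊤)
    [Algebra A Ls] [IsFractionRing A Ls]
    (ϖs : Os) (hϖs : Irreducible ϖs) (ιs : Os →+* A)
    (hιs : ∀ r : Os, algebraMap A Ls (ιs r) = algebraMap Ks Ls (algebraMap Os Ks r))
    (hιπ : ιs ϖs = π)
    (τ : Ls →+* LaurentSeries Ks) (hτfrac : ∀ x : Ls, τ x ∈ GaussDVR.fracField Os Ks)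
    (hτK : ∀ c : Ks, τ (algebraMap Ks Ls c) = HahnSeries.C c)
    (hτB : ∀ b : B, τ (algebraMap A Ls (algebraMap B A b)) ∈ GaussDVR.V Os Ks)
    (hcen : ∀ b : B, ¬ t₁ ∣ b →
      (τ (algebraMap A Ls (algebraMap B A b)))⁻¹ ∈ GaussDVR.V Os Ks) :
    IsBranch π (gaussW Os τ) ∧
    (∀ a : A, a ∉ Ideal.span {π, algebraMap B A t₁} → (algebraMap A Ls a)⁻¹ ∈ gaussW Os τ) ∧
    (∀ a : A, algebraMap A Ls a / algebraMap A Ls π ∈ gaussW Os τ ↔
      a ∈ Ideal.span {π, algebraMap B A t₁}) ∧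
    (∀ x : Ls, x ∈ gaussW Os τ → ∃ a s : A, s ∉ Ideal.span {π, algebraMap B A t₁} ∧
      x = algebraMap A Ls a / algebraMap A Ls s) := by
  haveI : Algebra.IsIntegral B A := isIntegral_of_eis hκ hπ hgen
  have hs : ¬ IsUnit (t₁ * t₂) := fun h => ht₁.not_isUnit (isUnit_of_mul_isUnit_left h)
  have hτπ := tau_pi (ϖs := ϖs) ιs hιs hιπ τ hτK
  have hτA := tau_mem_of_gen hgen τ hτπ hτB
  have hW : IsBranch π (gaussW Os τ) := isBranch_gaussW hϖs τ hτfrac hτA hτπ
  haveI hP : (Ideal.span {π, algebraMap B A t₁}).IsPrime :=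
    node_isPrime hp ht₁ ht₂ hne hm hκ hκ0 hBA hπ hgen
  have hmem := node_algebraMap_mem_iff hp ht₁ ht₂ hne hm hκ hκ0 hBA hπ hgen
  have hπP : π ∈ Ideal.span {π, algebraMap B A t₁} := Ideal.subset_span (by simp)
  -- the centre on `A`
  have hcenA : ∀ a : A, a ∉ Ideal.span {π, algebraMap B A t₁} →
      (algebraMap A Ls a)⁻¹ ∈ gaussW Os τ := by
    intro a ha
    obtain ⟨b, a', rfl⟩ := exists_eq_add_mul hgen a
    have hb : ¬ t₁ ∣ b := by
      intro hd
      exact ha (Ideal.add_mem _ ((hmem b).mpr hd) (Ideal.mul_mem_right _ _ hπP))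
    have hb0 : τ (algebraMap A Ls (algebraMap B A b)) ≠ 0 := by
      intro h0
      have h1 : algebraMap A Ls (algebraMap B A b) = 0 := τ.injective (by rw [h0, map_zero])
      have h2 : algebraMap B A b = 0 := IsFractionRing.injective A Ls (by rw [h1, map_zero])
      have h3 : b = 0 := hBA (by rw [h2, map_zero])
      exact hb (h3 ▸ dvd_zero t₁)
    exact inv_mem_of_eq_add_mul hϖs τ hτA hτπ _ a' hb0 (hcen b hb)
  -- `s₀ = t₂ κ(π)`
  have hv : IsUnit (aeval π κ) := isUnit_aeval hs hκ0 hπ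
  have ht₂P : algebraMap B A t₂ ∉ Ideal.span {π, algebraMap B A t₁} := fun h =>
    Node.not_dvd_of_not_associated ht₁ ht₂ hne ((hmem t₂).mp h)
  have hs₀ : algebraMap B A t₂ * aeval π κ ∉ Ideal.span {π, algebraMap B A t₁} := by
    intro h
    rcases hP.mem_or_mem h with h1 | h1
    · exact ht₂P h1
    · exact hP.ne_top (Ideal.eq_top_of_isUnit_mem _ h1 hv)
  have hPπ : ∀ a ∈ Ideal.span {π, algebraMap B A t₁},
      π ∣ algebraMap B A t₂ * aeval π κ * a := by
    intro a ha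
    rw [Ideal.mem_span_pair] at ha
    obtain ⟨x, y, rfl⟩ := ha
    have hpp : π * π ^ (p - 1) = π ^ p := by
      rw [← pow_succ', Nat.sub_add_cancel (Nat.one_le_iff_ne_zero.mpr hp)]
    rw [map_mul] at hπ
    refine ⟨algebraMap B A t₂ * aeval π κ * x + y * π ^ (p - 1), ?_⟩
    linear_combination (-y) * hpp + (-y) * hπ
  exact ⟨hW, hcenA, div_mem_iff hW _ hcenA _ hs₀ hPπ,
    exists_div_eq hϖs τ hW hτπ _ hcenA _ hs₀ hPπ⟩

/-- **(CP) at a node, level-free.**  Depth `p + 2` at the main branch `τ₁` with the constant `c`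
and at the other branch `τ₂` with some constant: `f = c G ^ p (1 + π ^ (p + 2) r)` with `r ∈ A`,
and depth `p + 2` at `τ₂` with the SAME constant `c`. -/
theorem node_lift
    {B : Type u} [CommRing B] [IsDomain B] [IsLocalRing B] [IsNoetherianRing B]
    {p : ℕ} (hp : p.Prime) (hp3 : 3 ≤ p) {t₁ t₂ : B} (ht₁ : Prime t₁) (ht₂ : Prime t₂)
    (hne : ¬ Associated t₁ t₂) (hm : IsLocalRing.maximalIdeal B = Ideal.span {t₁, t₂})
    {κ : B[X]} (hκ : κ.natDegree < p) (hκ0 : IsUnit (κ.eval 0))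
    {A : Type v} [CommRing A] [IsDomain A] [Algebra B A]
    (hBA : Function.Injective (algebraMap B A)) {π : A}
    (hπ : π ^ p = algebraMap B A (t₁ * t₂) * aeval π κ) (hgen : Algebra.adjoin B {π} = ⊤)
    [Algebra A Ls] [IsFractionRing A Ls] {f : Ls} (hf : f ≠ 0)
    (hord : ∀ Q : Ideal A, Q.IsPrime → π ∉ Q → ∃ (a b : A) (τ : Ls), a ∉ Q ∧ b ∉ Q ∧
        algebraMap A Ls b * f = algebraMap A Ls a * τ ^ p)
    (ϖs : Os) (hϖs : Irreducible ϖs) (η : Os) (hη : IsUnit η) (hpη : (p : Os) = η * ϖs ^ p)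
    (hperf : ∀ x : IsLocalRing.ResidueField Os, ∃ y, y ^ p = x)
    (ιs : Os →+* A)
    (hιs : ∀ r : Os, algebraMap A Ls (ιs r) = algebraMap Ks Ls (algebraMap Os Ks r))
    (hιπ : ιs ϖs = π)
    (τ₁ τ₂ : Ls →+* LaurentSeries Ks)
    (hτ₁frac : ∀ x : Ls, τ₁ x ∈ GaussDVR.fracField Os Ks)
    (hτ₂frac : ∀ x : Ls, τ₂ x ∈ GaussDVR.fracField Os Ks)
    (hτ₁K : ∀ c : Ks, τ₁ (algebraMap Ks Ls c) = HahnSeries.C c)
    (hτ₂K : ∀ c : Ks, τ₂ (algebraMap Ks Ls c) = HahnSeries.C c)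
    (hτ₁B : ∀ b : B, τ₁ (algebraMap A Ls (algebraMap B A b)) ∈ GaussDVR.V Os Ks)
    (hτ₂B : ∀ b : B, τ₂ (algebraMap A Ls (algebraMap B A b)) ∈ GaussDVR.V Os Ks)
    (hcen₁ : ∀ b : B, ¬ t₁ ∣ b →
      (τ₁ (algebraMap A Ls (algebraMap B A b)))⁻¹ ∈ GaussDVR.V Os Ks)
    (hcen₂ : ∀ b : B, ¬ t₂ ∣ b →
      (τ₂ (algebraMap A Ls (algebraMap B A b)))⁻¹ ∈ GaussDVR.V Os Ks)
    (c : Ks) (hmain : GaussDepth τ₁ ϖs p (p + 2) c f)
    (hother : ∃ c₂ : Ks, GaussDepth τ₂ ϖs p (p + 2) c₂ f) :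
    (∃ (G : Ls) (r : A),
      f = algebraMap Ks Ls c * G ^ p * (1 + algebraMap A Ls (π ^ (p + 2) * r))) ∧
    GaussDepth τ₂ ϖs p (p + 2) c f := by
  have hp0 : p ≠ 0 := hp.ne_zero
  haveI : Algebra.IsIntegral B A := isIntegral_of_eis hκ hπ hgen
  have hs : ¬ IsUnit (t₁ * t₂) := fun h => ht₁.not_isUnit (isUnit_of_mul_isUnit_left h)
  haveI : IsLocalRing A := isLocalRing_of_eis hs hκ hπ hgen
  obtain ⟨hne', hm', hπ'⟩ := node_swap hne hm hπ
  obtain ⟨hW₁, hcenA₁, hZ₁, hF₁⟩ := node_branch hp0 ht₁ ht₂ hne hm hκ hκ0 hBA hπ hgen ϖs hϖs ιs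
    hιs hιπ τ₁ hτ₁frac hτ₁K hτ₁B hcen₁
  obtain ⟨hW₂, hcenA₂, hZ₂, hF₂⟩ := node_branch hp0 ht₂ ht₁ hne' hm' hκ hκ0 hBA hπ' hgen ϖs hϖs
    ιs hιs hιπ τ₂ hτ₂frac hτ₂K hτ₂B hcen₂
  haveI hP₁ : (Ideal.span {π, algebraMap B A t₁}).IsPrime :=
    node_isPrime hp0 ht₁ ht₂ hne hm hκ hκ0 hBA hπ hgen
  haveI hP₂ : (Ideal.span {π, algebraMap B A t₂}).IsPrime :=
    node_isPrime hp0 ht₂ ht₁ hne' hm' hκ hκ0 hBA hπ' hgen
  have hmem₁ := node_algebraMap_mem_iff hp0 ht₁ ht₂ hne hm hκ hκ0 hBA hπ hgen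
  have hmem₂ := node_algebraMap_mem_iff hp0 ht₂ ht₁ hne' hm' hκ hκ0 hBA hπ' hgen
  have hτ₁π := tau_pi (ϖs := ϖs) ιs hιs hιπ τ₁ hτ₁K
  have hτ₂π := tau_pi (ϖs := ϖs) ιs hιs hιπ τ₂ hτ₂K
  have hu0 : ((GaussDVR.unif Ks ϖs : GaussDVR.V Os Ks) : LaurentSeries Ks) ≠ 0 :=
    GaussDVR.coe_unif_ne_zero Ks ϖs hϖs
  -- (B2)
  have hB2 : ∀ r : A, algebraMap A Ls r / algebraMap A Ls π ∈ gaussW Os τ₁ →
      algebraMap A Ls r / algebraMap A Ls π ∈ gaussW Os τ₂ → π ∣ r := by
    intro r h1 h2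
    have hr1 := (hZ₁ r).mp h1
    have hr2 := (hZ₂ r).mp h2
    obtain ⟨b, a', rfl⟩ := exists_eq_add_mul hgen r
    have hb1 : t₁ ∣ b := by
      refine (hmem₁ b).mp ?_
      have h3 := Ideal.sub_mem _ hr1
        (Ideal.mul_mem_right a' _ (Ideal.subset_span (by simp) :
          π ∈ Ideal.span {π, algebraMap B A t₁}))
      rwa [add_sub_cancel_right] at h3
    have hb2 : t₂ ∣ b := by
      refine (hmem₂ b).mp ?_
      have h3 := Ideal.sub_mem _ hr2
        (Ideal.mul_mem_right a' _ (Ideal.subset_span (by simp) :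
          π ∈ Ideal.span {π, algebraMap B A t₂}))
      rwa [add_sub_cancel_right] at h3
    obtain ⟨b₁, rfl⟩ := hb1
    have hb3 : t₂ ∣ b₁ :=
      (ht₂.dvd_or_dvd hb2).resolve_left (Node.not_dvd_of_not_associated ht₂ ht₁ hne')
    obtain ⟨b₂, rfl⟩ := hb3
    obtain ⟨v', hv'⟩ := (isUnit_aeval hs hκ0 hπ).exists_right_inv
    have hpp : π * π ^ (p - 1) = π ^ p := by
      rw [← pow_succ', Nat.sub_add_cancel hp.one_le]
    have hπe : π ^ p = algebraMap B A t₁ * algebraMap B A t₂ * aeval π κ := by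
      rw [hπ, map_mul]
    refine ⟨π ^ (p - 1) * v' * algebraMap B A b₂ + a', ?_⟩
    rw [map_mul, map_mul]
    linear_combination (-(v' * algebraMap B A b₂)) * hpp + (-(v' * algebraMap B A b₂)) * hπe
      + (-(algebraMap B A t₁ * algebraMap B A t₂ * algebraMap B A b₂)) * hv'
  -- (B3)
  have hB3₁ := hB3_of_centre hW₁ (Ideal.span {π, algebraMap B A t₁}) hZ₁ hF₁
    (fun {a b r} hb h => node_exists_sub_pow_mem hp0 ht₁ ht₂ hne hm hκ hκ0 hBA hπ hgen hb h)
  have hB3₂ := hB3_of_centre hW₂ (Ideal.span {π, algebraMap B A t₂}) hZ₂ hF₂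
    (fun {a b r} hb h => node_exists_sub_pow_mem hp0 ht₂ ht₁ hne' hm' hκ hκ0 hBA hπ' hgen hb h)
  -- (B4)
  have hB4 : ∀ h₁ h₂ : A, h₁ - h₂ ∈ IsLocalRing.maximalIdeal A →
      ∃ h : A, algebraMap A Ls (h - h₁) / algebraMap A Ls π ∈ gaussW Os τ₁ ∧
        algebraMap A Ls (h - h₂) / algebraMap A Ls π ∈ gaussW Os τ₂ := by
    intro h₁ h₂ h
    obtain ⟨g, hg1, hg2⟩ := node_exists_glue ht₁ hm hκ hπ hgen
      ((IsLocalRing.mem_maximalIdeal _).mp h)
    exact ⟨g, (hZ₁ _).mpr hg1, (hZ₂ _).mpr hg2⟩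
  -- the constants
  have hOc : IsConst (K := Ls) Ks π p ιs.range := isConst_range hϖs hperf ιs hιs hιπ
  have hpπ : (p : A) = ιs η * π ^ p := by
    rw [← hιπ, ← map_pow, ← map_mul, ← hpη, map_natCast]
  -- the depth hypotheses
  obtain ⟨g, y, hg, hfy, v, hv⟩ := hmain
  have hc : c ≠ 0 := by
    rintro rfl
    apply hf
    rw [hfy, map_zero, zero_mul, zero_mul]
  have hmain' : ∃ g y : Ls, g ≠ 0 ∧ f = algebraMap Ks Ls c * g ^ p * (1 + y) ∧
      y / algebraMap A Ls π ^ (p + 2) ∈ gaussW Os τ₁ := by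
    refine ⟨g, y, hg, hfy, ?_⟩
    rw [mem_gaussW, map_div₀, map_pow, hτ₁π, hv, mul_div_cancel_left₀ _ (pow_ne_zero _ hu0)]
    exact v.2
  have hother' : ∃ (c₂ : Ks) (g y : Ls), c₂ ≠ 0 ∧ g ≠ 0 ∧
      f = algebraMap Ks Ls c₂ * g ^ p * (1 + y) ∧
      y / algebraMap A Ls π ^ (p + 2) ∈ gaussW Os τ₂ := by
    obtain ⟨c₂, g₂, y₂, hg₂, hfy₂, v₂, hv₂⟩ := hother
    refine ⟨c₂, g₂, y₂, ?_, hg₂, hfy₂, ?_⟩
    · rintro rfl
      apply hf
      rw [hfy₂, map_zero, zero_mul, zero_mul]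
    · rw [mem_gaussW, map_div₀, map_pow, hτ₂π, hv₂, mul_div_cancel_left₀ _ (pow_ne_zero _ hu0)]
      exact v₂.2
  -- the normal form
  obtain ⟨w, m, j, x, hfx⟩ := NodeNF.exists_eq_unit_mul_pow_mul_zpow_mul_pow hp0 ht₁ ht₂ hne hm
    hκ hκ0 hBA hπ hgen hf hord
  have hNNF : ∃ (w : A) (m : ℕ) (j : ℤ) (x : Ls), IsUnit w ∧
      f = algebraMap A Ls w * algebraMap A Ls π ^ m
        * algebraMap A Ls (algebraMap B A t₂) ^ j * x ^ p := ⟨w, m, j, x, w.isUnit, hfx⟩
  have ht₂P : algebraMap B A t₂ ∉ Ideal.span {π, algebraMap B A t₁} := fun h =>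
    Node.not_dvd_of_not_associated ht₁ ht₂ hne ((hmem₁ t₂).mp h)
  have ht : (algebraMap A Ls (algebraMap B A t₂))⁻¹ ∈ gaussW Os τ₁ := hcenA₁ _ ht₂P
  have hπ0 : algebraMap A Ls π ≠ 0 := algebraMap_pi_ne_zero hW₁
  -- (B5)
  have hB5 : ∀ (j : ℤ) (w : A) (x : Ls), IsUnit w → x ∈ gaussW Os τ₁ → x⁻¹ ∈ gaussW Os τ₁ →
      (algebraMap A Ls w * algebraMap A Ls (algebraMap B A t₂) ^ j - x ^ p)
        / algebraMap A Ls π ∈ gaussW Os τ₁ → (p : ℤ) ∣ j := by
    intro j w x hw hx _ hrel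
    obtain ⟨a, b, hb, rfl⟩ := hF₁ x hx
    have hT0 : algebraMap A Ls (algebraMap B A t₂) ≠ 0 :=
      algebraMap_ne_zero_of_notMem (Ideal.span {π, algebraMap B A t₁}) ht₂P
    have hbne : algebraMap A Ls b ≠ 0 :=
      algebraMap_ne_zero_of_notMem (Ideal.span {π, algebraMap B A t₁}) hb
    have hw0 : algebraMap A Ls w ≠ 0 := by
      intro h0
      have : w = 0 := IsFractionRing.injective A Ls (by rw [h0, map_zero])
      exact hw.ne_zero this
    -- `a ∉ P₁`
    have ha : a ∉ Ideal.span {π, algebraMap B A t₁} := by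
      intro haP
      have h1 : algebraMap A Ls a / algebraMap A Ls π ∈ gaussW Os τ₁ := (hZ₁ a).mpr haP
      have h2 : (algebraMap A Ls a / algebraMap A Ls b) ^ p / algebraMap A Ls π
          ∈ gaussW Os τ₁ := by
        have e : (algebraMap A Ls a / algebraMap A Ls b) ^ p / algebraMap A Ls π
            = (algebraMap A Ls a / algebraMap A Ls b) ^ (p - 1)
              * (algebraMap A Ls a / algebraMap A Ls π * (algebraMap A Ls b)⁻¹) := by
          conv_lhs => rw [← Nat.sub_add_cancel hp.one_le, pow_succ]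
          field_simp
        rw [e]
        exact mul_mem (pow_mem hx _) (mul_mem h1 (hcenA₁ b hb))
      have h3 : algebraMap A Ls w * algebraMap A Ls (algebraMap B A t₂) ^ j
          / algebraMap A Ls π ∈ gaussW Os τ₁ := by
        have e : algebraMap A Ls w * algebraMap A Ls (algebraMap B A t₂) ^ j
            / algebraMap A Ls π
            = (algebraMap A Ls w * algebraMap A Ls (algebraMap B A t₂) ^ j
                - (algebraMap A Ls a / algebraMap A Ls b) ^ p) / algebraMap A Ls π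
              + (algebraMap A Ls a / algebraMap A Ls b) ^ p / algebraMap A Ls π := by
          ring
        rw [e]
        exact add_mem hrel h2
      have h4 : (algebraMap A Ls w * algebraMap A Ls (algebraMap B A t₂) ^ j)⁻¹
          ∈ gaussW Os τ₁ := by
        obtain ⟨w', hw'⟩ := hw.exists_right_inv
        have hw'' : (algebraMap A Ls w)⁻¹ = algebraMap A Ls w' :=
          inv_eq_of_mul_eq_one_right (by rw [← map_mul, hw', map_one])
        rw [mul_inv, hw'', ← zpow_neg]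
        exact mul_mem (hW₁.map_mem w') (zpow_mem_of_inv_mem _ (hW₁.map_mem _) ht _)
      apply hW₁.inv_notMem
      have e : (algebraMap A Ls π)⁻¹
          = algebraMap A Ls w * algebraMap A Ls (algebraMap B A t₂) ^ j / algebraMap A Ls π
            * (algebraMap A Ls w * algebraMap A Ls (algebraMap B A t₂) ^ j)⁻¹ := by
        have hz : algebraMap A Ls (algebraMap B A t₂) ^ j ≠ 0 := zpow_ne_zero _ hT0
        field_simp
      rw [e]
      exact mul_mem h3 h4
    -- the quotient `A / P₁ = B / (t₁)`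
    obtain ⟨ψ, -, hψalg, -, hker⟩ := node_quot_hom hp0 ht₁ ht₂ hne hm hκ hκ0 hBA hπ hgen
    have hψa : ψ a ≠ 0 := fun h => ha (by rw [← hker]; exact RingHom.mem_ker.mpr h)
    have hψb : ψ b ≠ 0 := fun h => hb (by rw [← hker]; exact RingHom.mem_ker.mpr h)
    have hψw : IsUnit (ψ w) := hw.map ψ
    obtain ⟨n, m, rfl⟩ : ∃ n m : ℕ, j = (n : ℤ) - m :=
      ⟨j.toNat, (-j).toNat, (Int.toNat_sub_toNat_neg j).symm⟩
    have hrel2 : algebraMap A Ls (b ^ p * w * algebraMap B A t₂ ^ n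
        - a ^ p * algebraMap B A t₂ ^ m) / algebraMap A Ls π ∈ gaussW Os τ₁ := by
      have e : algebraMap A Ls (b ^ p * w * algebraMap B A t₂ ^ n
          - a ^ p * algebraMap B A t₂ ^ m) / algebraMap A Ls π
          = algebraMap A Ls (b ^ p * algebraMap B A t₂ ^ m)
            * ((algebraMap A Ls w * algebraMap A Ls (algebraMap B A t₂) ^ ((n : ℤ) - m)
              - (algebraMap A Ls a / algebraMap A Ls b) ^ p) / algebraMap A Ls π) := by
        rw [zpow_sub₀ hT0, zpow_natCast, zpow_natCast]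
        simp only [map_sub, map_mul, map_pow, div_pow]
        field_simp
      rw [e]
      exact mul_mem (hW₁.map_mem _) hrel
    have hmemP := (hZ₁ _).mp hrel2
    rw [← hker, RingHom.mem_ker, map_sub, map_mul, map_mul, map_mul, map_pow, map_pow, map_pow,
      map_pow, hψalg, sub_eq_zero] at hmemP
    haveI : IsDomain (B ⧸ Ideal.span {t₁}) := Node.isDomain_quot ht₁
    exact dvd_sub_of_pow_mul_eq (Node.prime_mk ht₁ ht₂ hne hm) hψw hψb hψa hmemP
  have hNF := exists_nf_of_nnf p hp π (gaussW Os τ₁) hW₁ ιs.range hOc (algebraMap B A t₂) hB5 ht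
    f c hc hmain' hNNF
  obtain ⟨G, r, hG⟩ := depth_lift_node p hp hp3 π (ιs η) (hη.map ιs) hpπ (gaussW Os τ₁)
    (gaussW Os τ₂) hW₁ hW₂ hB2 hB3₁ hB3₂ hB4 ιs.range hOc f c hc hNF hmain' hother'
  refine ⟨⟨G, r, by rw [hG, map_mul, map_pow]⟩, ?_⟩
  have hG0 : G ≠ 0 := by
    rintro rfl
    apply hf
    rw [hG, zero_pow hp0, mul_zero, zero_mul]
  have hτ₂A := tau_mem_of_gen hgen τ₂ hτ₂π hτ₂B
  exact ⟨G, algebraMap A Ls π ^ (p + 2) * algebraMap A Ls r, hG0, hG,
    ⟨τ₂ (algebraMap A Ls r), hτ₂A r⟩, by rw [map_mul, map_pow, hτ₂π]⟩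

end Node

/-! ### The smooth point -/

section Smooth

variable {Os Ks : Type*} [CommRing Os] [IsDomain Os] [IsDiscreteValuationRing Os] [Field Ks]
  [Algebra Os Ks] [IsFractionRing Os Ks] {Ls : Type*} [Field Ls] [Algebra Ks Ls]

/-- **(CP) at a smooth point, level-free.**  Depth `p + 2` at the branch `τ` with the constant
`c`: `f = c G ^ p (1 + π ^ (p + 2) r)` with `r ∈ A`. -/
theorem smooth_lift
    {B : Type u} [CommRing B] [IsDomain B] [IsLocalRing B] [IsNoetherianRing B]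
    {p : ℕ} (hp : p.Prime) (hp3 : 3 ≤ p) {ϖ z : B} (hϖ : Prime ϖ)
    (hm : IsLocalRing.maximalIdeal B = Ideal.span {ϖ, z})
    {κ : B[X]} (hκ : κ.natDegree < p) (hκ0 : IsUnit (κ.eval 0))
    {A : Type v} [CommRing A] [IsDomain A] [Algebra B A]
    (hBA : Function.Injective (algebraMap B A)) {π : A}
    (hπ : π ^ p = algebraMap B A ϖ * aeval π κ) (hgen : Algebra.adjoin B {π} = ⊤)
    [Algebra A Ls] [IsFractionRing A Ls] {f : Ls} (hf : f ≠ 0)
    (hord : ∀ Q : Ideal A, Q.IsPrime → π ∉ Q → ∃ (a b : A) (τ : Ls), a ∉ Q ∧ b ∉ Q ∧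
        algebraMap A Ls b * f = algebraMap A Ls a * τ ^ p)
    (ϖs : Os) (hϖs : Irreducible ϖs) (η : Os) (hη : IsUnit η) (hpη : (p : Os) = η * ϖs ^ p)
    (hperf : ∀ x : IsLocalRing.ResidueField Os, ∃ y, y ^ p = x)
    (ιs : Os →+* A)
    (hιs : ∀ r : Os, algebraMap A Ls (ιs r) = algebraMap Ks Ls (algebraMap Os Ks r))
    (hιπ : ιs ϖs = π)
    (τ : Ls →+* LaurentSeries Ks)
    (hτfrac : ∀ x : Ls, τ x ∈ GaussDVR.fracField Os Ks)
    (hτK : ∀ c : Ks, τ (algebraMap Ks Ls c) = HahnSeries.C c)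
    (hτB : ∀ b : B, τ (algebraMap A Ls (algebraMap B A b)) ∈ GaussDVR.V Os Ks)
    (hcen : ∀ b : B, ¬ ϖ ∣ b →
      (τ (algebraMap A Ls (algebraMap B A b)))⁻¹ ∈ GaussDVR.V Os Ks)
    (c : Ks) (hmain : GaussDepth τ ϖs p (p + 2) c f) :
    ∃ (G : Ls) (r : A),
      f = algebraMap Ks Ls c * G ^ p * (1 + algebraMap A Ls (π ^ (p + 2) * r)) := by
  have hp0 : p ≠ 0 := hp.ne_zero
  haveI : Algebra.IsIntegral B A := isIntegral_of_eis hκ hπ hgen
  have hs : ¬ IsUnit ϖ := hϖ.not_isUnit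
  haveI : IsLocalRing A := isLocalRing_of_eis hs hκ hπ hgen
  have hτπ := tau_pi (ϖs := ϖs) ιs hιs hιπ τ hτK
  have hτA := tau_mem_of_gen hgen τ hτπ hτB
  have hW : IsBranch π (gaussW Os τ) := isBranch_gaussW hϖs τ hτfrac hτA hτπ
  haveI : IsDomain (B ⧸ Ideal.span {ϖ}) := Node.isDomain_quot hϖ
  obtain ⟨ψ, -, hψalg, -, hker⟩ := smooth_quot_hom hp0 hϖ hm hκ hκ0 hBA hπ hgen
  haveI hP : (Ideal.span {π}).IsPrime := by
    rw [← hker]
    exact RingHom.ker_isPrime ψ
  have hmem : ∀ b : B, algebraMap B A b ∈ Ideal.span {π} ↔ ϖ ∣ b := by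
    intro b
    rw [← hker, RingHom.mem_ker, hψalg, Node.mk_eq_zero_iff]
  have hπP : π ∈ Ideal.span {π} := Ideal.mem_span_singleton_self π
  have hu0 : ((GaussDVR.unif Ks ϖs : GaussDVR.V Os Ks) : LaurentSeries Ks) ≠ 0 :=
    GaussDVR.coe_unif_ne_zero Ks ϖs hϖs
  -- the centre on `A`
  have hcenA : ∀ a : A, a ∉ Ideal.span {π} → (algebraMap A Ls a)⁻¹ ∈ gaussW Os τ := by
    intro a ha
    obtain ⟨b, a', rfl⟩ := exists_eq_add_mul hgen a
    have hb : ¬ ϖ ∣ b := by
      intro hd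
      exact ha (Ideal.add_mem _ ((hmem b).mpr hd) (Ideal.mul_mem_right _ _ hπP))
    have hb0 : τ (algebraMap A Ls (algebraMap B A b)) ≠ 0 := by
      intro h0
      have h1 : algebraMap A Ls (algebraMap B A b) = 0 := τ.injective (by rw [h0, map_zero])
      have h2 : algebraMap B A b = 0 := IsFractionRing.injective A Ls (by rw [h1, map_zero])
      have h3 : b = 0 := hBA (by rw [h2, map_zero])
      exact hb (h3 ▸ dvd_zero ϖ)
    exact inv_mem_of_eq_add_mul hϖs τ hτA hτπ _ a' hb0 (hcen b hb)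
  have hs₀ : (1 : A) ∉ Ideal.span {π} := fun h => hP.ne_top ((Ideal.eq_top_iff_one _).mpr h)
  have hPπ : ∀ a ∈ Ideal.span {π}, π ∣ 1 * a := by
    intro a ha
    rw [one_mul]
    exact Ideal.mem_span_singleton.mp ha
  have hZ := div_mem_iff hW _ hcenA _ hs₀ hPπ
  have hF := exists_div_eq hϖs τ hW hτπ _ hcenA _ hs₀ hPπ
  have hB2 : ∀ r : A, algebraMap A Ls r / algebraMap A Ls π ∈ gaussW Os τ → π ∣ r :=
    fun r h => Ideal.mem_span_singleton.mp ((hZ r).mp h)
  have hB3 := hB3_of_centre hW (Ideal.span {π}) hZ hF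
    (fun {a b r} hb h => smooth_exists_sub_pow_mem hp0 hϖ hm hκ hκ0 hBA hπ hgen hb h)
  have hOc : IsConst (K := Ls) Ks π p ιs.range := isConst_range hϖs hperf ιs hιs hιπ
  have hpπ : (p : A) = ιs η * π ^ p := by
    rw [← hιπ, ← map_pow, ← map_mul, ← hpη, map_natCast]
  obtain ⟨g, y, hg, hfy, v, hv⟩ := hmain
  have hc : c ≠ 0 := by
    rintro rfl
    apply hf
    rw [hfy, map_zero, zero_mul, zero_mul]
  have hmain' : ∃ g y : Ls, g ≠ 0 ∧ f = algebraMap Ks Ls c * g ^ p * (1 + y) ∧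
      y / algebraMap A Ls π ^ (p + 2) ∈ gaussW Os τ := by
    refine ⟨g, y, hg, hfy, ?_⟩
    rw [mem_gaussW, map_div₀, map_pow, hτπ, hv, mul_div_cancel_left₀ _ (pow_ne_zero _ hu0)]
    exact v.2
  -- the normal form
  obtain ⟨w₀, c', g', m, x, hfx⟩ := SmoothNF.exists_eq_first_order_smooth hp0 hϖ hm hκ hκ0 hBA
    hπ hgen hf hord
  have hNF : ∃ (w : A) (m : ℕ) (x : Ls), IsUnit w ∧
      f = algebraMap A Ls w * algebraMap A Ls π ^ m * x ^ p := by
    refine ⟨_, m, x, ?_, hfx⟩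
    have e : algebraMap B A w₀ * (1 + algebraMap B A c' * π) + π ^ 2 * g'
        = algebraMap B A (w₀ : B)
          + π * (algebraMap B A w₀ * algebraMap B A c' + π * g') := by
      ring
    rw [e]
    exact isUnit_add_mul hs hπ w₀.isUnit _
  obtain ⟨G, r, hG⟩ := depth_lift_smooth p hp hp3 π (ιs η) (hη.map ιs) hpπ (gaussW Os τ) hW hB2
    hB3 ιs.range hOc f c hc hNF hmain'
  exact ⟨G, r, by rw [hG, map_mul, map_pow]⟩

end Smooth

end Fermat.Agent.S44.L.NZ.ClosedPointCore
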