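import Mathlib
import Fermat.Agent.S44.L.Alt.NodeAltBinders
import Fermat.Agent.S44.L.DepthHenselExit
import Fermat.Agent.S44.L.NZ.ClosedPointCore

/-!
# PROGRAM MR (S44), strand L, NZ-ALT, row NZ.5 (CP), chart-generic form (helper211)

The closed-point lift of `NZ/ClosedPointCore` in the binder block of `Alt/NodeAlt`
(`C = Chart O u` over the unramified base `O`, two `q`-expansions `σ₁`, `σ₂` of `L` with
reductions `r₁`, `r₂`, the extension `φ : O → Os`, `ψ : E → Ks`, `β : L → Ls`, `σs`, `ws`,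
`πs = algebraMap Os Ls ϖs`, `ϖs ^ p = φ ϖ * θ(ϖs)`), together with a base change of chart rings
`bc : Chart O u →+* Chart Os us` (`us = β u`), and the exit to `PthPoint.PowAt` at the closed
points `𝔪` of the big chart `Chart Os us`, through the contraction `y = 𝔪.comap bc`.

* `tau_algebraMap` : an expansion which is `C` on `Os` is `C` on `Ks = Frac Os`.
* `algLoc`, `algLoc_algebraMap` : `C_y` acts on `Ls` through `β`.
* `inv_mem_of_not_dvd` : the centre of the Gauss ring of `τ` on `B = C_y`.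
* `algebraMap_mem_adjoin_loc` : `Os ⊆ B[πs]`.
* `node_lift_chart`, `smooth_lift_chart` : `ClosedPointCore.node_lift` / `smooth_lift` at
  `B = C_y`, `A = B[πs]`.
* `isIntegral_bc`, `piC_mem_comap` : the base change of chart rings is integral; the contraction
  of a point of the fibre `p = 0` contains `ϖ`.
* `powAt_of_lift` : from `x = c G ^ p (1 + πs ^ (p + 2) r)`, `r ∈ B[πs]`, to `PthPoint.PowAt`.
* `powAt_chart` : **all closed points of a chart with two transversal components** (hypotheses: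
  the statements of `NodeC1Inst.mem_or_mem_u4`, `node_u4`, `smooth_inf_u4`, `smooth_zero_u4`,
  a crossing point, `hord`, depth `p + 2` at both expansions) and step (X) (the constant of the
  second expansion).
* `powAt_chart_cusp` : the closed points over the coordinate `u = 0` of a chart where they lie on
  exactly one component (hypothesis: the statement of `NodeC1InstInf.cusp_s4`).
-/

set_option autoImplicit false
set_option linter.unusedSectionVars false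
set_option linter.unusedVariables false
set_option linter.style.haveILetI false
set_option maxHeartbeats 1000000

open ModularCurve Polynomial

noncomputable section

namespace Fermat.Agent.S44.L.NZ.ClosedPointChart

open Fermat.Agent.S30 Fermat.Agent.S34 Fermat.Agent.S34.TwoPrimesGauss
open Fermat.Agent.S44.L.Alt.NodeAlt Fermat.Agent.S44.L.Alt.NodeAltCore
open Fermat.Agent.S44.L.Alt.NodeAltBinders
open Fermat.Agent.S44.L.NZ.ClosedPointCore
open Fermat.Agent.S44.L.DepthHenselExit Fermat.Agent.S44.L.PthPoint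

/-! ### Constants -/

section Const

variable {Os Ks : Type*} [CommRing Os] [IsDomain Os] [Field Ks] [Algebra Os Ks]
  [IsFractionRing Os Ks] {Ls : Type*} [Field Ls] [Algebra Os Ls] [Algebra Ks Ls]
  [IsScalarTower Os Ks Ls]

/-- An expansion which is `C` on `Os` is `C` on its fraction field `Ks`. -/
theorem tau_algebraMap (τ : Ls →+* LaurentSeries Ks)
    (hτO : ∀ r : Os, τ (algebraMap Os Ls r) = HahnSeries.C (algebraMap Os Ks r)) (c : Ks) :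
    τ (algebraMap Ks Ls c) = HahnSeries.C c := by
  obtain ⟨a, b, hb, rfl⟩ := IsFractionRing.div_surjective (A := Os) c
  rw [map_div₀, map_div₀, ← IsScalarTower.algebraMap_apply, ← IsScalarTower.algebraMap_apply,
    hτO, hτO]
  exact (map_div₀ (HahnSeries.C : Ks →+* LaurentSeries Ks) _ _).symm

end Const

/-! ### The local ring `C_y` acting on `Ls` -/

section Loc

variable {C L Ls : Type*} [CommRing C] [IsDomain C] [Field L] [Algebra C L] [IsFractionRing C L]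
  [Field Ls] (y : Ideal C) [y.IsPrime] (β : L →+* Ls)

theorem isUnit_beta_primeCompl (s : y.primeCompl) :
    IsUnit ((β.comp (algebraMap C L)) (s : C)) := by
  have hs0 : (s : C) ≠ 0 := fun h => s.2 (h ▸ y.zero_mem)
  exact ((map_ne_zero β).mpr ((map_ne_zero_iff _ (IsFractionRing.injective C L)).mpr hs0)).isUnit

/-- The local ring `C_y` acts on `Ls` through `β`. -/
@[reducible] def algLoc : Algebra (Localization.AtPrime y) Ls :=
  (IsLocalization.lift (M := y.primeCompl) (g := β.comp (algebraMap C L))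
    (isUnit_beta_primeCompl y β)).toAlgebra

theorem algLoc_algebraMap (c : C) :
    letI := algLoc y β
    algebraMap (Localization.AtPrime y) Ls (algebraMap C (Localization.AtPrime y) c)
      = β (algebraMap C L c) :=
  IsLocalization.lift_eq (isUnit_beta_primeCompl y β) c

end Loc

/-! ### The lifts at `B = C_y`, `A = B[πs]`, generic `C` -/

section Alg

variable {C L Ls : Type*} [CommRing C] [IsDomain C] [Field L] [Algebra C L] [IsFractionRing C L]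
  (y : Ideal C) [y.IsPrime] [Field Ls] (β : L →+* Ls) [Algebra (Localization.AtPrime y) Ls]
  (hBβ : ∀ c : C, algebraMap (Localization.AtPrime y) Ls
    (algebraMap C (Localization.AtPrime y) c) = β (algebraMap C L c))
  {Os Ks : Type*} [CommRing Os] [IsDomain Os] [IsDiscreteValuationRing Os] [Field Ks]
  [Algebra Os Ks] [IsFractionRing Os Ks] [Algebra Os Ls] [Algebra Ks Ls] [IsScalarTower Os Ks Ls]

include hBβ in
/-- **(CP) at a node, `B = C_y`, `A = B[πs]`** (binder block of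
`NodeAlt.exists_node_fraction`; the branches are abstract expansions `τ₁`, `τ₂`). -/
theorem node_lift_loc [IsNoetherianRing (Localization.AtPrime y)] {p : ℕ} (hp : p.Prime)
    (hp3 : 3 ≤ p)
    (P₁ P₂ : Ideal C) [P₁.IsPrime] [P₂.IsPrime] (hP₁ : P₁ ≤ y) (hP₂ : P₂ ≤ y)
    (ϖC t₁ t₂ g : C) (hϖC : ϖC ≠ 0) (hg : g ∉ y) (hmul : t₁ * t₂ = ϖC * g)
    (ht₁ : t₁ ∈ P₁) (hgen₁ : ∀ x ∈ P₁, ∃ s, s ∉ y ∧ s * x ∈ Ideal.span {t₁})
    (ht₂ : t₂ ∈ P₂) (hgen₂ : ∀ x ∈ P₂, ∃ s, s ∉ y ∧ s * x ∈ Ideal.span {t₂})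
    (hne : t₁ ∉ P₂)
    (hm : ∀ m ∈ y, ∃ s, s ∉ y ∧ s * m ∈ Ideal.span {t₁, t₂})
    (κ₀ : C[X]) (hκdeg : κ₀.natDegree < p) (hκ0 : κ₀.eval 0 ∉ y)
    {ϖs : Os}
    (hπs : algebraMap Os Ls ϖs ^ p = β (algebraMap C L ϖC)
      * κ₀.eval₂ (β.comp (algebraMap C L)) (algebraMap Os Ls ϖs))
    (hspan : ∀ x : Ls, ∃ P : L[X], x = P.eval₂ β (algebraMap Os Ls ϖs))
    {x : Ls} (hx : x ≠ 0)
    (hord : ∀ Q : Ideal (Algebra.adjoin (Localization.AtPrime y)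
        ({algebraMap Os Ls ϖs} : Set Ls)), Q.IsPrime →
      (⟨algebraMap Os Ls ϖs, Algebra.self_mem_adjoin_singleton _ _⟩ :
        Algebra.adjoin (Localization.AtPrime y) ({algebraMap Os Ls ϖs} : Set Ls)) ∉ Q →
      ∃ (a b : Algebra.adjoin (Localization.AtPrime y) ({algebraMap Os Ls ϖs} : Set Ls))
        (τ : Ls), a ∉ Q ∧ b ∉ Q ∧
        algebraMap (Algebra.adjoin (Localization.AtPrime y) ({algebraMap Os Ls ϖs} : Set Ls))
            Ls b * x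
          = algebraMap (Algebra.adjoin (Localization.AtPrime y)
            ({algebraMap Os Ls ϖs} : Set Ls)) Ls a * τ ^ p)
    (hϖs : Irreducible ϖs) (η : Os) (hη : IsUnit η) (hpη : (p : Os) = η * ϖs ^ p)
    (hperf : ∀ x : IsLocalRing.ResidueField Os, ∃ y, y ^ p = x)
    (hOsA : ∀ r : Os, algebraMap Os Ls r
      ∈ Algebra.adjoin (Localization.AtPrime y) ({algebraMap Os Ls ϖs} : Set Ls))
    (τ₁ τ₂ : Ls →+* LaurentSeries Ks)
    (hτ₁frac : ∀ x : Ls, τ₁ x ∈ GaussDVR.fracField Os Ks)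
    (hτ₂frac : ∀ x : Ls, τ₂ x ∈ GaussDVR.fracField Os Ks)
    (hτ₁O : ∀ r : Os, τ₁ (algebraMap Os Ls r) = HahnSeries.C (algebraMap Os Ks r))
    (hτ₂O : ∀ r : Os, τ₂ (algebraMap Os Ls r) = HahnSeries.C (algebraMap Os Ks r))
    (hτ₁B : ∀ b : Localization.AtPrime y,
      τ₁ (algebraMap (Localization.AtPrime y) Ls b) ∈ GaussDVR.V Os Ks)
    (hτ₂B : ∀ b : Localization.AtPrime y,
      τ₂ (algebraMap (Localization.AtPrime y) Ls b) ∈ GaussDVR.V Os Ks)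
    (hcen₁ : ∀ b : Localization.AtPrime y, ¬ algebraMap C (Localization.AtPrime y) t₁ ∣ b →
      (τ₁ (algebraMap (Localization.AtPrime y) Ls b))⁻¹ ∈ GaussDVR.V Os Ks)
    (hcen₂ : ∀ b : Localization.AtPrime y, ¬ algebraMap C (Localization.AtPrime y) t₂ ∣ b →
      (τ₂ (algebraMap (Localization.AtPrime y) Ls b))⁻¹ ∈ GaussDVR.V Os Ks)
    (c : Ks) (hmain : GaussDepth τ₁ ϖs p (p + 2) c x)
    (hother : ∃ c₂ : Ks, GaussDepth τ₂ ϖs p (p + 2) c₂ x) :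
    (∃ G r : Ls,
      r ∈ Algebra.adjoin (Localization.AtPrime y) ({algebraMap Os Ls ϖs} : Set Ls) ∧
      x = algebraMap Ks Ls c * G ^ p * (1 + algebraMap Os Ls ϖs ^ (p + 2) * r)) ∧
    GaussDepth τ₂ ϖs p (p + 2) c x := by
  classical
  obtain ⟨κ, hκ, hκ0', hpr₁, hpr₂, hna, hmax, hinj, hπ, hgen, -⟩ :=
    node_binders y β hBβ (algebraMap Os Ls ϖs) P₁ P₂ hP₁ hP₂ ϖC t₁ t₂ g hϖC hg hmul ht₁ hgen₁
      ht₂ hgen₂ hne hm κ₀ hκdeg hκ0 hπs
  haveI : IsFractionRing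
      (Algebra.adjoin (Localization.AtPrime y) ({algebraMap Os Ls ϖs} : Set Ls)) Ls :=
    isFractionRing_adjoin y β hBβ (algebraMap Os Ls ϖs) hspan
  obtain ⟨ιs, hιs⟩ : ∃ ιs : Os →+*
      Algebra.adjoin (Localization.AtPrime y) ({algebraMap Os Ls ϖs} : Set Ls),
      ∀ r : Os, ((ιs r : Algebra.adjoin (Localization.AtPrime y)
        ({algebraMap Os Ls ϖs} : Set Ls)) : Ls) = algebraMap Os Ls r :=
    ⟨RingHom.codRestrict (algebraMap Os Ls)
      (Algebra.adjoin (Localization.AtPrime y) ({algebraMap Os Ls ϖs} : Set Ls)) hOsA,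
      fun r => rfl⟩
  have hιs' : ∀ r : Os, algebraMap (Algebra.adjoin (Localization.AtPrime y)
      ({algebraMap Os Ls ϖs} : Set Ls)) Ls (ιs r) = algebraMap Ks Ls (algebraMap Os Ks r) :=
    fun r => (hιs r).trans (IsScalarTower.algebraMap_apply Os Ks Ls r)
  have hιπ : ιs ϖs = (⟨algebraMap Os Ls ϖs, Algebra.self_mem_adjoin_singleton _ _⟩ :
      Algebra.adjoin (Localization.AtPrime y) ({algebraMap Os Ls ϖs} : Set Ls)) :=
    Subtype.ext (hιs ϖs)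
  obtain ⟨⟨G, r, hG⟩, hX⟩ := node_lift hp hp3 hpr₁ hpr₂ hna hmax hκ hκ0' hinj hπ hgen hx hord
    ϖs hϖs η hη hpη hperf ιs hιs' hιπ τ₁ τ₂ hτ₁frac hτ₂frac (tau_algebraMap τ₁ hτ₁O)
    (tau_algebraMap τ₂ hτ₂O) hτ₁B hτ₂B hcen₁ hcen₂ c hmain hother
  refine ⟨⟨G, (r : Ls), r.2, ?_⟩, hX⟩
  rw [hG, map_mul, map_pow]
  rfl

include hBβ in
/-- **(CP) at a smooth point, `B = C_y`, `A = B[πs]`** (binder block of
`NodeAlt.exists_smooth_fraction`; the branch is an abstract expansion `τ`). -/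
theorem smooth_lift_loc [IsNoetherianRing (Localization.AtPrime y)] {p : ℕ} (hp : p.Prime)
    (hp3 : 3 ≤ p)
    (P : Ideal C) [P.IsPrime] (hP : P ≤ y) (ϖC : C) (hϖC : ϖC ≠ 0) (hϖP : ϖC ∈ P)
    (hgen₁ : ∀ x ∈ P, ∃ s, s ∉ y ∧ s * x ∈ Ideal.span {ϖC})
    (z : C) (hz : z ∈ y) (hm : ∀ m ∈ y, ∃ s, s ∉ y ∧ s * m ∈ Ideal.span {ϖC, z})
    (κ₀ : C[X]) (hκdeg : κ₀.natDegree < p) (hκ0 : κ₀.eval 0 ∉ y)
    {ϖs : Os}
    (hπs : algebraMap Os Ls ϖs ^ p = β (algebraMap C L ϖC)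
      * κ₀.eval₂ (β.comp (algebraMap C L)) (algebraMap Os Ls ϖs))
    (hspan : ∀ x : Ls, ∃ P : L[X], x = P.eval₂ β (algebraMap Os Ls ϖs))
    {x : Ls} (hx : x ≠ 0)
    (hord : ∀ Q : Ideal (Algebra.adjoin (Localization.AtPrime y)
        ({algebraMap Os Ls ϖs} : Set Ls)), Q.IsPrime →
      (⟨algebraMap Os Ls ϖs, Algebra.self_mem_adjoin_singleton _ _⟩ :
        Algebra.adjoin (Localization.AtPrime y) ({algebraMap Os Ls ϖs} : Set Ls)) ∉ Q →
      ∃ (a b : Algebra.adjoin (Localization.AtPrime y) ({algebraMap Os Ls ϖs} : Set Ls))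
        (τ : Ls), a ∉ Q ∧ b ∉ Q ∧
        algebraMap (Algebra.adjoin (Localization.AtPrime y) ({algebraMap Os Ls ϖs} : Set Ls))
            Ls b * x
          = algebraMap (Algebra.adjoin (Localization.AtPrime y)
            ({algebraMap Os Ls ϖs} : Set Ls)) Ls a * τ ^ p)
    (hϖs : Irreducible ϖs) (η : Os) (hη : IsUnit η) (hpη : (p : Os) = η * ϖs ^ p)
    (hperf : ∀ x : IsLocalRing.ResidueField Os, ∃ y, y ^ p = x)
    (hOsA : ∀ r : Os, algebraMap Os Ls r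
      ∈ Algebra.adjoin (Localization.AtPrime y) ({algebraMap Os Ls ϖs} : Set Ls))
    (τ : Ls →+* LaurentSeries Ks)
    (hτfrac : ∀ x : Ls, τ x ∈ GaussDVR.fracField Os Ks)
    (hτO : ∀ r : Os, τ (algebraMap Os Ls r) = HahnSeries.C (algebraMap Os Ks r))
    (hτB : ∀ b : Localization.AtPrime y,
      τ (algebraMap (Localization.AtPrime y) Ls b) ∈ GaussDVR.V Os Ks)
    (hcen : ∀ b : Localization.AtPrime y, ¬ algebraMap C (Localization.AtPrime y) ϖC ∣ b →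
      (τ (algebraMap (Localization.AtPrime y) Ls b))⁻¹ ∈ GaussDVR.V Os Ks)
    (c : Ks) (hmain : GaussDepth τ ϖs p (p + 2) c x) :
    ∃ G r : Ls,
      r ∈ Algebra.adjoin (Localization.AtPrime y) ({algebraMap Os Ls ϖs} : Set Ls) ∧
      x = algebraMap Ks Ls c * G ^ p * (1 + algebraMap Os Ls ϖs ^ (p + 2) * r) := by
  classical
  obtain ⟨hpr, hmax, hκ, hκ0', hinj, hπ, hgen⟩ :=
    smooth_binders y β hBβ (algebraMap Os Ls ϖs) P hP ϖC hϖC hϖP hgen₁ z hz hm κ₀ hκdeg hκ0 hπs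
  haveI : IsFractionRing
      (Algebra.adjoin (Localization.AtPrime y) ({algebraMap Os Ls ϖs} : Set Ls)) Ls :=
    isFractionRing_adjoin y β hBβ (algebraMap Os Ls ϖs) hspan
  obtain ⟨ιs, hιs⟩ : ∃ ιs : Os →+*
      Algebra.adjoin (Localization.AtPrime y) ({algebraMap Os Ls ϖs} : Set Ls),
      ∀ r : Os, ((ιs r : Algebra.adjoin (Localization.AtPrime y)
        ({algebraMap Os Ls ϖs} : Set Ls)) : Ls) = algebraMap Os Ls r :=
    ⟨RingHom.codRestrict (algebraMap Os Ls)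
      (Algebra.adjoin (Localization.AtPrime y) ({algebraMap Os Ls ϖs} : Set Ls)) hOsA,
      fun r => rfl⟩
  have hιs' : ∀ r : Os, algebraMap (Algebra.adjoin (Localization.AtPrime y)
      ({algebraMap Os Ls ϖs} : Set Ls)) Ls (ιs r) = algebraMap Ks Ls (algebraMap Os Ks r) :=
    fun r => (hιs r).trans (IsScalarTower.algebraMap_apply Os Ks Ls r)
  have hιπ : ιs ϖs = (⟨algebraMap Os Ls ϖs, Algebra.self_mem_adjoin_singleton _ _⟩ :
      Algebra.adjoin (Localization.AtPrime y) ({algebraMap Os Ls ϖs} : Set Ls)) :=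
    Subtype.ext (hιs ϖs)
  obtain ⟨G, r, hG⟩ := smooth_lift hp hp3 hpr hmax hκ hκ0' hinj hπ hgen hx hord ϖs hϖs η hη hpη
    hperf ιs hιs' hιπ τ hτfrac (tau_algebraMap τ hτO) hτB hcen c hmain
  refine ⟨G, (r : Ls), r.2, ?_⟩
  rw [hG, map_mul, map_pow]
  rfl

end Alg

/-! ### The Gauss level -/

section Gauss

variable {O E : Type*} [CommRing O] [IsDomain O] [IsDiscreteValuationRing O] [Field E]
  [Algebra O E] [FaithfulSMul O E] {L : Type*} [Field L] [Algebra O L]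
  {Os Ks : Type*} [CommRing Os] [IsDomain Os] [IsDiscreteValuationRing Os] [Field Ks]
  [Algebra Os Ks] [IsFractionRing Os Ks]
  (φ : O →+* Os) [IsLocalHom φ] (ψ : E →+* Ks)
  (hφψ : ∀ a : O, ψ (algebraMap O E a) = algebraMap Os Ks (φ a))

include hφψ in
/-- **The centre on `B = C_y`**: if `ker (redHom σ) = (t)` locally at `y`, an element of `C_y`
prime to `t` is a unit of the Gauss ring of any expansion `τ` of `Ls` over `σ`. -/
theorem inv_mem_of_not_dvd (ϖ : O) (hϖ : Irreducible ϖ) (u : L)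
    (σ : L →+* LaurentSeries E)
    (hσO : ∀ r : O, σ (algebraMap O L r) = HahnSeries.C (algebraMap O E r))
    (hσfrac : ∀ x : L, σ x ∈ GaussDVR.fracField O E)
    (U : LaurentSeries O) (hσu : σ u = GaussDVR.iota O E U)
    [IsFractionRing (Chart O u) L] (y : Ideal (Chart O u)) [y.IsPrime]
    (hker : RingHom.ker (redHom σ hσO ϖ hϖ hσfrac u U hσu) ≤ y) (t : Chart O u)
    (hgen : ∀ x ∈ RingHom.ker (redHom σ hσO ϖ hϖ hσfrac u U hσu),
      ∃ s, s ∉ y ∧ s * x ∈ Ideal.span {t})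
    {Ls : Type*} [Field Ls] (β : L →+* Ls) [Algebra (Localization.AtPrime y) Ls]
    (hBβ : ∀ c : Chart O u, algebraMap (Localization.AtPrime y) Ls
      (algebraMap (Chart O u) (Localization.AtPrime y) c) = β (c : L))
    (τ : Ls →+* LaurentSeries Ks) (hτβ : ∀ x : L, τ (β x) = coeffMap ψ (σ x))
    (b : Localization.AtPrime y)
    (hb : ¬ algebraMap (Chart O u) (Localization.AtPrime y) t ∣ b) :
    (τ (algebraMap (Localization.AtPrime y) Ls b))⁻¹ ∈ GaussDVR.V Os Ks := by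
  obtain ⟨c, s, hs, hbe, -⟩ := exists_frac y β hBβ b
  have hs0 : β ((s : Chart O u) : L) ≠ 0 := by
    have hs1 : s ≠ 0 := fun h => hs (h ▸ y.zero_mem)
    exact beta_ne_zero β hs1
  have hc : c ∉ RingHom.ker (redHom σ hσO ϖ hϖ hσfrac u U hσu) := by
    intro hmem
    obtain ⟨s', hs', hsx⟩ := hgen c hmem
    rw [Ideal.mem_span_singleton] at hsx
    obtain ⟨d, hd⟩ := hsx
    apply hb
    have h1 : algebraMap (Chart O u) (Localization.AtPrime y) s * b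
        = algebraMap (Chart O u) (Localization.AtPrime y) c := by
      apply algebraMap_loc_injective y β hBβ
      rw [map_mul, hBβ, hBβ, hbe]
      show β (s : L) * (β (c : L) / β (s : L)) = β (c : L)
      field_simp
    have h2 : algebraMap (Chart O u) (Localization.AtPrime y) t
        ∣ algebraMap (Chart O u) (Localization.AtPrime y) s'
          * (algebraMap (Chart O u) (Localization.AtPrime y) s * b) := by
      refine ⟨algebraMap (Chart O u) (Localization.AtPrime y) d, ?_⟩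
      rw [h1, ← map_mul, hd, map_mul]
    exact (IsUnit.dvd_mul_left (Fermat.Agent.S44.L.NodeLoc.isUnit_algebraMap_of_notMem y hs)).mp
      ((IsUnit.dvd_mul_left (Fermat.Agent.S44.L.NodeLoc.isUnit_algebraMap_of_notMem y hs')).mp
        h2)
  have hcr : GaussDVR.red Os Ks (baseV φ ψ hφψ (toV σ hσO ϖ hϖ hσfrac u U hσu c)) ≠ 0 := by
    rw [red_baseV]
    exact resL_ne_zero φ (fun h0 => hc (RingHom.mem_ker.mpr h0))
  have h1 := (baseV φ ψ hφψ (toV σ hσO ϖ hϖ hσfrac u U hσu s)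
    * invV (baseV φ ψ hφψ (toV σ hσO ϖ hϖ hσfrac u U hσu c)) hcr).2
  have h2 : (τ (algebraMap (Localization.AtPrime y) Ls b))⁻¹
      = ((baseV φ ψ hφψ (toV σ hσO ϖ hϖ hσfrac u U hσu s)
        * invV (baseV φ ψ hφψ (toV σ hσO ϖ hϖ hσfrac u U hσu c)) hcr : GaussDVR.V Os Ks) :
          LaurentSeries Ks) := by
    rw [hbe, map_div₀, inv_div, Subring.coe_mul, coe_invV, coe_baseV, coe_baseV, div_eq_mul_inv]
    show τ (β (s : L)) * (τ (β (c : L)))⁻¹ = _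
    rw [hτβ, hτβ]
    rfl
  rw [h2]
  exact h1

/-- `Os ⊆ B[πs]`, `B = C_y`, when `Os = ⊕ φ(O) ϖs ^ i`. -/
theorem algebraMap_mem_adjoin_loc (u : L) (y : Ideal (Chart O u)) [y.IsPrime]
    {ϖs : Os} {p : ℕ}
    (hOs : ∀ r : Os, ∃ a : ℕ → O, r = ∑ i ∈ Finset.range p, φ (a i) * ϖs ^ i)
    {Ls : Type*} [Field Ls] [Algebra Os Ls] (β : L →+* Ls)
    (hβO : ∀ r : O, β (algebraMap O L r) = algebraMap Os Ls (φ r))
    [Algebra (Localization.AtPrime y) Ls]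
    (hBβ : ∀ c : Chart O u, algebraMap (Localization.AtPrime y) Ls
      (algebraMap (Chart O u) (Localization.AtPrime y) c) = β (c : L)) (r : Os) :
    algebraMap Os Ls r
      ∈ Algebra.adjoin (Localization.AtPrime y) ({algebraMap Os Ls ϖs} : Set Ls) := by
  obtain ⟨a, rfl⟩ := hOs r
  rw [map_sum]
  refine Subalgebra.sum_mem _ fun i _ => ?_
  rw [map_mul, map_pow]
  refine Subalgebra.mul_mem _ ?_
    (Subalgebra.pow_mem _ (Algebra.self_mem_adjoin_singleton _ _) _)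
  have h1 : algebraMap Os Ls (φ (a i)) = algebraMap (Localization.AtPrime y) Ls
      (algebraMap (Chart O u) (Localization.AtPrime y) (piC u (a i))) := by
    rw [hBβ, coe_piC, hβO]
  rw [h1]
  exact Subalgebra.algebraMap_mem _ _

include hφψ in
/-- **(CP) at a node of the chart** (binder block of `NodeAlt.node_alt`): depth `p + 2` at `σs`
with the constant `c` and at `σs ∘ ws` with some constant give
`x = c G ^ p (1 + πs ^ (p + 2) r)`, `r ∈ C_y[πs]`, and depth `p + 2` at `σs ∘ ws` with the SAME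
constant `c`. -/
theorem node_lift_chart (ϖ : O) (hϖ : Irreducible ϖ) (u : L)
    (σ₁ : L →+* LaurentSeries E)
    (hσO₁ : ∀ r : O, σ₁ (algebraMap O L r) = HahnSeries.C (algebraMap O E r))
    (hσfrac₁ : ∀ x : L, σ₁ x ∈ GaussDVR.fracField O E)
    (U₁ : LaurentSeries O) (hσu₁ : σ₁ u = GaussDVR.iota O E U₁)
    (σ₂ : L →+* LaurentSeries E)
    (hσO₂ : ∀ r : O, σ₂ (algebraMap O L r) = HahnSeries.C (algebraMap O E r))
    (hσfrac₂ : ∀ x : L, σ₂ x ∈ GaussDVR.fracField O E)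
    (U₂ : LaurentSeries O) (hσu₂ : σ₂ u = GaussDVR.iota O E U₂)
    [IsFractionRing (Chart O u) L] (y : Ideal (Chart O u)) [y.IsPrime]
    [IsNoetherianRing (Localization.AtPrime y)]
    (hI : RingHom.ker (redHom σ₁ hσO₁ ϖ hϖ hσfrac₁ u U₁ hσu₁) ≤ y)
    (hZ : RingHom.ker (redHom σ₂ hσO₂ ϖ hϖ hσfrac₂ u U₂ hσu₂) ≤ y)
    (t₁ t₂ g : Chart O u) (hg : g ∉ y) (hmul : t₁ * t₂ = piC u ϖ * g)
    (hp₁ : t₁ ∈ RingHom.ker (redHom σ₁ hσO₁ ϖ hϖ hσfrac₁ u U₁ hσu₁) ∧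
      ∀ x ∈ RingHom.ker (redHom σ₁ hσO₁ ϖ hϖ hσfrac₁ u U₁ hσu₁),
        ∃ s, s ∉ y ∧ s * x ∈ Ideal.span {t₁})
    (hp₂ : t₂ ∈ RingHom.ker (redHom σ₂ hσO₂ ϖ hϖ hσfrac₂ u U₂ hσu₂) ∧
      ∀ x ∈ RingHom.ker (redHom σ₂ hσO₂ ϖ hϖ hσfrac₂ u U₂ hσu₂),
        ∃ s, s ∉ y ∧ s * x ∈ Ideal.span {t₂})
    (hne : t₁ ∉ RingHom.ker (redHom σ₂ hσO₂ ϖ hϖ hσfrac₂ u U₂ hσu₂))
    (hm : ∀ m ∈ y, ∃ s, s ∉ y ∧ s * m ∈ Ideal.span {t₁, t₂})
    {ϖs : Os} (hϖs : Irreducible ϖs) {p : ℕ} (hp : p.Prime) (hp3 : 3 ≤ p)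
    (η : Os) (hη : IsUnit η) (hpη : (p : Os) = η * ϖs ^ p)
    (hperf : ∀ x : IsLocalRing.ResidueField Os, ∃ y, y ^ p = x)
    (θ : O[X]) (hθdeg : θ.natDegree < p) (hθ0 : IsUnit (θ.eval 0))
    (hθ : ϖs ^ p = φ ϖ * θ.eval₂ φ ϖs)
    (hOs : ∀ r : Os, ∃ a : ℕ → O, r = ∑ i ∈ Finset.range p, φ (a i) * ϖs ^ i)
    {Ls : Type*} [Field Ls] [Algebra Os Ls] [Algebra Ks Ls] [IsScalarTower Os Ks Ls]
    (β : L →+* Ls)
    (hβO : ∀ r : O, β (algebraMap O L r) = algebraMap Os Ls (φ r))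
    (σs : Ls →+* LaurentSeries Ks)
    (hσsO : ∀ r : Os, σs (algebraMap Os Ls r) = HahnSeries.C (algebraMap Os Ks r))
    (hσsfrac : ∀ x : Ls, σs x ∈ GaussDVR.fracField Os Ks)
    (ws : Ls →+* Ls) (hwsO : ∀ r : Os, ws (algebraMap Os Ls r) = algebraMap Os Ls r)
    (hσβ₁ : ∀ x : L, σs (β x) = coeffMap ψ (σ₁ x))
    (hσβ₂ : ∀ x : L, σs (ws (β x)) = coeffMap ψ (σ₂ x))
    (hspan : ∀ x : Ls, ∃ P : L[X], x = P.eval₂ β (algebraMap Os Ls ϖs))
    [Algebra (Localization.AtPrime y) Ls]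
    (hBβ : ∀ c : Chart O u, algebraMap (Localization.AtPrime y) Ls
      (algebraMap (Chart O u) (Localization.AtPrime y) c) = β (c : L))
    {x : Ls} (hx : x ≠ 0)
    (hord : ∀ Q : Ideal (Algebra.adjoin (Localization.AtPrime y)
        ({algebraMap Os Ls ϖs} : Set Ls)), Q.IsPrime →
      (⟨algebraMap Os Ls ϖs, Algebra.self_mem_adjoin_singleton _ _⟩ :
        Algebra.adjoin (Localization.AtPrime y) ({algebraMap Os Ls ϖs} : Set Ls)) ∉ Q →
      ∃ (a b : Algebra.adjoin (Localization.AtPrime y) ({algebraMap Os Ls ϖs} : Set Ls))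
        (τ : Ls), a ∉ Q ∧ b ∉ Q ∧
        algebraMap (Algebra.adjoin (Localization.AtPrime y) ({algebraMap Os Ls ϖs} : Set Ls))
            Ls b * x
          = algebraMap (Algebra.adjoin (Localization.AtPrime y)
            ({algebraMap Os Ls ϖs} : Set Ls)) Ls a * τ ^ p)
    (c : Ks) (hmain : GaussDepth σs ϖs p (p + 2) c x)
    (hother : ∃ c₂ : Ks, GaussDepth (σs.comp ws) ϖs p (p + 2) c₂ x) :
    (∃ G r : Ls,
      r ∈ Algebra.adjoin (Localization.AtPrime y) ({algebraMap Os Ls ϖs} : Set Ls) ∧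
      x = algebraMap Ks Ls c * G ^ p * (1 + algebraMap Os Ls ϖs ^ (p + 2) * r)) ∧
    GaussDepth (σs.comp ws) ϖs p (p + 2) c x := by
  classical
  haveI : (RingHom.ker (redHom σ₁ hσO₁ ϖ hϖ hσfrac₁ u U₁ hσu₁)).IsPrime := RingHom.ker_isPrime _
  haveI : (RingHom.ker (redHom σ₂ hσO₂ ϖ hϖ hσfrac₂ u U₂ hσu₂)).IsPrime := RingHom.ker_isPrime _
  obtain ⟨κ₀, hκdeg, hκ0, hπs⟩ := exists_kappa φ ϖ u y θ hθdeg hθ0 hθ β hβO
  have hσπ : σs (algebraMap Os Ls ϖs)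
      = ((GaussDVR.unif Ks ϖs : GaussDVR.V Os Ks) : LaurentSeries Ks) := by
    rw [hσsO, GaussDVR.coe_unif]
  have hσsO₂ : ∀ r : Os, (σs.comp ws) (algebraMap Os Ls r)
      = HahnSeries.C (algebraMap Os Ks r) := fun r => by
    rw [RingHom.comp_apply, hwsO, hσsO]
  have hτ₁B : ∀ b : Localization.AtPrime y,
      σs (algebraMap (Localization.AtPrime y) Ls b) ∈ GaussDVR.V Os Ks := fun b =>
    mem_V_of_mem_adjoin φ ψ hφψ ϖ hϖ u σ₁ hσO₁ hσfrac₁ U₁ hσu₁ y hI β hBβ σs hσβ₁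
      (algebraMap Os Ls ϖs) (by rw [hσπ]; exact Subtype.coe_prop _)
      (Subalgebra.algebraMap_mem _ b)
  have hτ₂B : ∀ b : Localization.AtPrime y,
      (σs.comp ws) (algebraMap (Localization.AtPrime y) Ls b) ∈ GaussDVR.V Os Ks := fun b =>
    mem_V_of_mem_adjoin φ ψ hφψ ϖ hϖ u σ₂ hσO₂ hσfrac₂ U₂ hσu₂ y hZ β hBβ (σs.comp ws) hσβ₂
      (algebraMap Os Ls ϖs) (by rw [RingHom.comp_apply, hwsO, hσπ]; exact Subtype.coe_prop _)
      (Subalgebra.algebraMap_mem _ b)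
  have hcen₁ : ∀ b : Localization.AtPrime y,
      ¬ algebraMap (Chart O u) (Localization.AtPrime y) t₁ ∣ b →
      (σs (algebraMap (Localization.AtPrime y) Ls b))⁻¹ ∈ GaussDVR.V Os Ks := fun b hb =>
    inv_mem_of_not_dvd φ ψ hφψ ϖ hϖ u σ₁ hσO₁ hσfrac₁ U₁ hσu₁ y hI t₁ hp₁.2 β hBβ σs hσβ₁ b hb
  have hcen₂ : ∀ b : Localization.AtPrime y,
      ¬ algebraMap (Chart O u) (Localization.AtPrime y) t₂ ∣ b →
      ((σs.comp ws) (algebraMap (Localization.AtPrime y) Ls b))⁻¹ ∈ GaussDVR.V Os Ks :=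
    fun b hb =>
    inv_mem_of_not_dvd φ ψ hφψ ϖ hϖ u σ₂ hσO₂ hσfrac₂ U₂ hσu₂ y hZ t₂ hp₂.2 β hBβ
      (σs.comp ws) hσβ₂ b hb
  exact node_lift_loc y β hBβ hp hp3
    (RingHom.ker (redHom σ₁ hσO₁ ϖ hϖ hσfrac₁ u U₁ hσu₁))
    (RingHom.ker (redHom σ₂ hσO₂ ϖ hϖ hσfrac₂ u U₂ hσu₂)) hI hZ (piC u ϖ) t₁ t₂ g
    (piC_ne_zero ϖ hϖ u σ₁ hσO₁) hg hmul hp₁.1 hp₁.2 hp₂.1 hp₂.2 hne hm κ₀ hκdeg hκ0 hπs hspan hx
    hord hϖs η hη hpη hperf (algebraMap_mem_adjoin_loc φ u y hOs β hβO hBβ) σs (σs.comp ws)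
    hσsfrac (fun z => hσsfrac (ws z)) hσsO hσsO₂ hτ₁B hτ₂B hcen₁ hcen₂ c hmain hother

include hφψ in
/-- **(CP) at a smooth point of the chart** (binder block of `NodeAlt.smooth_alt`, the branch
any expansion `τ` of `Ls` over `σ₁`): depth `p + 2` at `τ` with the constant `c` gives
`x = c G ^ p (1 + πs ^ (p + 2) r)`, `r ∈ C_y[πs]`. -/
theorem smooth_lift_chart (ϖ : O) (hϖ : Irreducible ϖ) (u : L)
    (σ₁ : L →+* LaurentSeries E)
    (hσO₁ : ∀ r : O, σ₁ (algebraMap O L r) = HahnSeries.C (algebraMap O E r))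
    (hσfrac₁ : ∀ x : L, σ₁ x ∈ GaussDVR.fracField O E)
    (U₁ : LaurentSeries O) (hσu₁ : σ₁ u = GaussDVR.iota O E U₁)
    [IsFractionRing (Chart O u) L] (y : Ideal (Chart O u)) [y.IsPrime]
    [IsNoetherianRing (Localization.AtPrime y)]
    (hI : RingHom.ker (redHom σ₁ hσO₁ ϖ hϖ hσfrac₁ u U₁ hσu₁) ≤ y)
    (hp₁ : piC u ϖ ∈ RingHom.ker (redHom σ₁ hσO₁ ϖ hϖ hσfrac₁ u U₁ hσu₁) ∧
      ∀ x ∈ RingHom.ker (redHom σ₁ hσO₁ ϖ hϖ hσfrac₁ u U₁ hσu₁),
        ∃ s, s ∉ y ∧ s * x ∈ Ideal.span {piC u ϖ})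
    (z : Chart O u) (hz : z ∈ y)
    (hm : ∀ m ∈ y, ∃ s, s ∉ y ∧ s * m ∈ Ideal.span {piC u ϖ, z})
    {ϖs : Os} (hϖs : Irreducible ϖs) {p : ℕ} (hp : p.Prime) (hp3 : 3 ≤ p)
    (η : Os) (hη : IsUnit η) (hpη : (p : Os) = η * ϖs ^ p)
    (hperf : ∀ x : IsLocalRing.ResidueField Os, ∃ y, y ^ p = x)
    (θ : O[X]) (hθdeg : θ.natDegree < p) (hθ0 : IsUnit (θ.eval 0))
    (hθ : ϖs ^ p = φ ϖ * θ.eval₂ φ ϖs)
    (hOs : ∀ r : Os, ∃ a : ℕ → O, r = ∑ i ∈ Finset.range p, φ (a i) * ϖs ^ i)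
    {Ls : Type*} [Field Ls] [Algebra Os Ls] [Algebra Ks Ls] [IsScalarTower Os Ks Ls]
    (β : L →+* Ls)
    (hβO : ∀ r : O, β (algebraMap O L r) = algebraMap Os Ls (φ r))
    (τ : Ls →+* LaurentSeries Ks)
    (hτO : ∀ r : Os, τ (algebraMap Os Ls r) = HahnSeries.C (algebraMap Os Ks r))
    (hτfrac : ∀ x : Ls, τ x ∈ GaussDVR.fracField Os Ks)
    (hτβ : ∀ x : L, τ (β x) = coeffMap ψ (σ₁ x))
    (hspan : ∀ x : Ls, ∃ P : L[X], x = P.eval₂ β (algebraMap Os Ls ϖs))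
    [Algebra (Localization.AtPrime y) Ls]
    (hBβ : ∀ c : Chart O u, algebraMap (Localization.AtPrime y) Ls
      (algebraMap (Chart O u) (Localization.AtPrime y) c) = β (c : L))
    {x : Ls} (hx : x ≠ 0)
    (hord : ∀ Q : Ideal (Algebra.adjoin (Localization.AtPrime y)
        ({algebraMap Os Ls ϖs} : Set Ls)), Q.IsPrime →
      (⟨algebraMap Os Ls ϖs, Algebra.self_mem_adjoin_singleton _ _⟩ :
        Algebra.adjoin (Localization.AtPrime y) ({algebraMap Os Ls ϖs} : Set Ls)) ∉ Q →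
      ∃ (a b : Algebra.adjoin (Localization.AtPrime y) ({algebraMap Os Ls ϖs} : Set Ls))
        (τ : Ls), a ∉ Q ∧ b ∉ Q ∧
        algebraMap (Algebra.adjoin (Localization.AtPrime y) ({algebraMap Os Ls ϖs} : Set Ls))
            Ls b * x
          = algebraMap (Algebra.adjoin (Localization.AtPrime y)
            ({algebraMap Os Ls ϖs} : Set Ls)) Ls a * τ ^ p)
    (c : Ks) (hmain : GaussDepth τ ϖs p (p + 2) c x) :
    ∃ G r : Ls,
      r ∈ Algebra.adjoin (Localization.AtPrime y) ({algebraMap Os Ls ϖs} : Set Ls) ∧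
      x = algebraMap Ks Ls c * G ^ p * (1 + algebraMap Os Ls ϖs ^ (p + 2) * r) := by
  classical
  haveI : (RingHom.ker (redHom σ₁ hσO₁ ϖ hϖ hσfrac₁ u U₁ hσu₁)).IsPrime := RingHom.ker_isPrime _
  obtain ⟨κ₀, hκdeg, hκ0, hπs⟩ := exists_kappa φ ϖ u y θ hθdeg hθ0 hθ β hβO
  have hτπ : τ (algebraMap Os Ls ϖs)
      = ((GaussDVR.unif Ks ϖs : GaussDVR.V Os Ks) : LaurentSeries Ks) := by
    rw [hτO, GaussDVR.coe_unif]
  have hτB : ∀ b : Localization.AtPrime y,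
      τ (algebraMap (Localization.AtPrime y) Ls b) ∈ GaussDVR.V Os Ks := fun b =>
    mem_V_of_mem_adjoin φ ψ hφψ ϖ hϖ u σ₁ hσO₁ hσfrac₁ U₁ hσu₁ y hI β hBβ τ hτβ
      (algebraMap Os Ls ϖs) (by rw [hτπ]; exact Subtype.coe_prop _)
      (Subalgebra.algebraMap_mem _ b)
  have hcen : ∀ b : Localization.AtPrime y,
      ¬ algebraMap (Chart O u) (Localization.AtPrime y) (piC u ϖ) ∣ b →
      (τ (algebraMap (Localization.AtPrime y) Ls b))⁻¹ ∈ GaussDVR.V Os Ks := fun b hb =>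
    inv_mem_of_not_dvd φ ψ hφψ ϖ hϖ u σ₁ hσO₁ hσfrac₁ U₁ hσu₁ y hI (piC u ϖ) hp₁.2 β hBβ τ hτβ
      b hb
  exact smooth_lift_loc y β hBβ hp hp3
    (RingHom.ker (redHom σ₁ hσO₁ ϖ hϖ hσfrac₁ u U₁ hσu₁)) hI (piC u ϖ)
    (piC_ne_zero ϖ hϖ u σ₁ hσO₁) hp₁.1 hp₁.2 z hz hm κ₀ hκdeg hκ0 hπs hspan hx hord hϖs η hη hpη
    hperf (algebraMap_mem_adjoin_loc φ u y hOs β hβO hBβ) τ hτfrac hτO hτB hcen c hmain

end Gauss

/-! ### The base change of chart rings -/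

section BC

variable {O L Os Ls : Type*} [CommRing O] [IsDomain O] [IsDiscreteValuationRing O] [Field L]
  [Algebra O L] [CommRing Os] [Field Ls] [Algebra Os Ls] (φ : O →+* Os)

/-- **The base change of chart rings is integral**: `Os = ⊕ φ(O) ϖs ^ i` with `ϖs` a root of
the monic polynomial `X ^ p - ϖ θ`, and `us = β u`. -/
theorem isIntegral_bc (u : L) {ϖs : Os} {p : ℕ} (ϖ : O) (θ : O[X]) (hθdeg : θ.natDegree < p)
    (hθ : ϖs ^ p = φ ϖ * θ.eval₂ φ ϖs)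
    (hOs : ∀ r : Os, ∃ a : ℕ → O, r = ∑ i ∈ Finset.range p, φ (a i) * ϖs ^ i)
    (β : L →+* Ls) (hβO : ∀ r : O, β (algebraMap O L r) = algebraMap Os Ls (φ r))
    (us : Ls) (hus : β u = us) (bc : Chart O u →+* Chart Os us)
    (hbc : ∀ c : Chart O u, ((bc c : Chart Os us) : Ls) = β (c : L)) :
    bc.IsIntegral := by
  classical
  subst hus
  letI : Algebra (Chart O u) Ls := (β.comp (algebraMap (Chart O u) L)).toAlgebra
  have hfa : ∀ c : Chart O u, algebraMap (Chart O u) Ls c = β (c : L) := fun _ => rfl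
  -- the uniformiser is integral
  have hπs : IsIntegral (Chart O u) (algebraMap Os Ls ϖs) := by
    obtain ⟨oC, hoC⟩ : ∃ oC : O →+* Chart O u,
        ∀ r : O, algebraMap (Chart O u) Ls (oC r) = algebraMap Os Ls (φ r) :=
      ⟨(algebraMap (Algebra.adjoin O {u}) (Chart O u)).comp
        (algebraMap O (Algebra.adjoin O {u})), fun r => by
          rw [hfa]
          exact hβO r⟩
    have hcomp : (algebraMap (Chart O u) Ls).comp oC = (algebraMap Os Ls).comp φ :=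
      RingHom.ext hoC
    have hmon : (X ^ p - C ϖ * θ : O[X]).Monic := by
      refine (monic_X_pow p).sub_of_left ?_
      rw [degree_X_pow]
      calc (C ϖ * θ).degree ≤ ((C ϖ * θ).natDegree : WithBot ℕ) := degree_le_natDegree
        _ ≤ (θ.natDegree : WithBot ℕ) := by exact_mod_cast natDegree_C_mul_le _ _
        _ < (p : WithBot ℕ) := by exact_mod_cast hθdeg
    refine ⟨(X ^ p - C ϖ * θ : O[X]).map oC, hmon.map oC, ?_⟩
    rw [eval₂_map, hcomp, ← Polynomial.hom_eval₂, eval₂_sub, eval₂_pow, eval₂_X, eval₂_mul,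
      eval₂_C, hθ, sub_self, map_zero]
  have hO : ∀ r : Os, IsIntegral (Chart O u) (algebraMap Os Ls r) := by
    intro r
    obtain ⟨a, rfl⟩ := hOs r
    rw [map_sum]
    refine IsIntegral.sum _ fun i _ => ?_
    rw [map_mul, map_pow]
    refine IsIntegral.mul ?_ (hπs.pow i)
    have h1 : algebraMap Os Ls (φ (a i)) = algebraMap (Chart O u) Ls (piC u (a i)) := by
      rw [hfa, coe_piC, hβO]
    rw [h1]
    exact isIntegral_algebraMap
  -- `Os[β u]` is integral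
  have hT : ∀ t : Ls, t ∈ Algebra.adjoin Os ({β u} : Set Ls) → IsIntegral (Chart O u) t := by
    intro t ht
    refine Algebra.adjoin_induction (p := fun z _ => IsIntegral (Chart O u) z) ?_ ?_ ?_ ?_ ht
    · intro z hz
      rw [Set.mem_singleton_iff] at hz
      have h1 : z = algebraMap (Chart O u) Ls (algebraMap (Algebra.adjoin O {u}) (Chart O u)
          ⟨u, Algebra.self_mem_adjoin_singleton O u⟩) := by
        rw [hz, hfa]
        rfl
      rw [h1]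
      exact isIntegral_algebraMap
    · exact hO
    · intro a b _ _ ha hb
      exact ha.add hb
    · intro a b _ _ ha hb
      exact ha.mul hb
  -- transitivity
  obtain ⟨j, hj⟩ : ∃ j : Algebra.adjoin Os ({β u} : Set Ls) →+* integralClosure (Chart O u) Ls,
      ∀ t, ((j t : integralClosure (Chart O u) Ls) : Ls) = (t : Ls) :=
    ⟨(algebraMap (Algebra.adjoin Os ({β u} : Set Ls)) Ls).codRestrict
      (integralClosure (Chart O u) Ls) (fun t => hT _ t.2), fun t => rfl⟩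
  have hjcomp : (algebraMap (integralClosure (Chart O u) Ls) Ls).comp j
      = algebraMap (Algebra.adjoin Os ({β u} : Set Ls)) Ls := RingHom.ext hj
  have hbcomp : (algebraMap (Chart Os (β u)) Ls).comp bc = algebraMap (Chart O u) Ls :=
    RingHom.ext fun c => (hbc c).trans (hfa c).symm
  intro x
  have hx : IsIntegral (Algebra.adjoin Os ({β u} : Set Ls)) (x : Ls) := x.2
  obtain ⟨q, hq, hqx⟩ := hx
  have hx1 : IsIntegral (integralClosure (Chart O u) Ls) (x : Ls) :=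
    ⟨q.map j, hq.map j, by rw [eval₂_map, hjcomp]; exact hqx⟩
  have hx2 : IsIntegral (Chart O u) (x : Ls) := isIntegral_trans (x : Ls) hx1
  obtain ⟨q', hq', hqx'⟩ := hx2
  refine ⟨q', hq', Subtype.ext ?_⟩
  have h1 := Polynomial.hom_eval₂ q' bc (algebraMap (Chart Os (β u)) Ls) x
  rw [hbcomp] at h1
  exact h1.trans hqx'

omit [Algebra Os Ls] in
/-- The contraction of a prime of the big chart containing `p` contains `ϖ`
(`p = ϖ * unit` in `O`). -/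
theorem piC_mem_comap (u : L) (ϖ e : O) (he : IsUnit e) {p : ℕ} (hpe : ((p : ℕ) : O) = ϖ * e)
    {Cs : Type*} [CommRing Cs] (bc : Chart O u →+* Cs) (𝔪 : Ideal Cs) [𝔪.IsPrime]
    (hp𝔪 : ((p : ℕ) : Cs) ∈ 𝔪) : piC u ϖ ∈ 𝔪.comap bc := by
  have h1 : piC u ϖ * piC u e = ((p : ℕ) : Chart O u) := by
    have h2 : piC u (ϖ * e) = piC u ϖ * piC u e := by
      simp only [piC, map_mul]
    rw [← h2, ← hpe]
    simp only [piC, map_natCast]
  have h3 : piC u ϖ * piC u e ∈ 𝔪.comap bc := by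
    rw [h1, Ideal.mem_comap, map_natCast]
    exact hp𝔪
  have hu : IsUnit (piC u e) :=
    (he.map (algebraMap O (Algebra.adjoin O ({u} : Set L)))).map
      (algebraMap (Algebra.adjoin O ({u} : Set L)) (Chart O u))
  rcases (Ideal.IsPrime.mem_or_mem inferInstance h3) with h | h
  · exact h
  · exact absurd (Ideal.eq_top_of_isUnit_mem _ h hu) (Ideal.IsPrime.ne_top inferInstance)

end BC

/-! ### The exit to `PthPoint.PowAt` -/

section Exit

variable {O L Os Ks Ls : Type*} [CommRing O] [IsDomain O] [IsDiscreteValuationRing O] [Field L]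
  [Algebra O L] [CommRing Os] [Field Ks] [Field Ls] [Algebra Os Ls] [Algebra Ks Ls]

/-- **From the lift to `PowAt`**: `x = c G ^ p (1 + πs ^ (p + 2) r)` with `r ∈ C_y[πs]`,
`y ⊇ 𝔪.comap bc`, gives `PowAt` for `x / c` at the point `𝔪` of the big chart. -/
theorem powAt_of_lift (u : L) [IsFractionRing (Chart O u) L]
    {ϖs : Os} {p : ℕ} (hp : p.Prime) (hp3 : 3 ≤ p) (η : Os) (hη : IsUnit η)
    (hpη : (p : Os) = η * ϖs ^ p) (β : L →+* Ls) (us : Ls)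
    (bc : Chart O u →+* Chart Os us)
    (hbc : ∀ c : Chart O u, ((bc c : Chart Os us) : Ls) = β (c : L))
    (𝔪 : Ideal (Chart Os us)) [𝔪.IsPrime] (hp𝔪 : ((p : ℕ) : Chart Os us) ∈ 𝔪)
    (y : Ideal (Chart O u)) [y.IsPrime] (hy : ∀ s : Chart O u, s ∉ y → bc s ∉ 𝔪)
    [Algebra (Localization.AtPrime y) Ls]
    (hBβ : ∀ c : Chart O u, algebraMap (Localization.AtPrime y) Ls
      (algebraMap (Chart O u) (Localization.AtPrime y) c) = β (c : L))
    {x : Ls} (c : Ks) (hc : algebraMap Ks Ls c ≠ 0)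
    (h : ∃ G r : Ls,
      r ∈ Algebra.adjoin (Localization.AtPrime y) ({algebraMap Os Ls ϖs} : Set Ls) ∧
      x = algebraMap Ks Ls c * G ^ p * (1 + algebraMap Os Ls ϖs ^ (p + 2) * r)) :
    PowAt (Algebra.adjoin Os ({us} : Set Ls)) p (x / algebraMap Ks Ls c) 𝔪 := by
  obtain ⟨G, r, hr, hx⟩ := h
  have h𝔪 : 𝔪.IsPrime := inferInstance
  have hO : ∀ a : Os, IsIntegral (Algebra.adjoin Os ({us} : Set Ls)) (algebraMap Os Ls a) :=
    fun a => by
      rw [IsScalarTower.algebraMap_apply Os (Algebra.adjoin Os ({us} : Set Ls)) Ls]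
      exact isIntegral_algebraMap
  have hrloc : r ∈ locAt (Algebra.adjoin Os ({us} : Set Ls)) 𝔪 h𝔪 := by
    refine Algebra.adjoin_induction
      (p := fun z _ => z ∈ locAt (Algebra.adjoin Os ({us} : Set Ls)) 𝔪 h𝔪) ?_ ?_ ?_ ?_ hr
    · intro z hz
      rw [Set.mem_singleton_iff] at hz
      rw [hz]
      exact coe_mem_locAt _ 𝔪 h𝔪 ⟨algebraMap Os Ls ϖs, hO ϖs⟩
    · intro b
      obtain ⟨c', s, hs, hbe, -⟩ := exists_frac y β hBβ b
      have hs0 : β ((s : Chart O u) : L) ≠ 0 := by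
        have hs1 : s ≠ 0 := fun h => hs (h ▸ y.zero_mem)
        exact beta_ne_zero β hs1
      have hbe' : algebraMap (Localization.AtPrime y) Ls b
          = β ((c' : Chart O u) : L) * (β ((s : Chart O u) : L))⁻¹ := by
        rw [hbe, div_eq_mul_inv]
        rfl
      rw [hbe']
      refine Subring.mul_mem _ ?_ ?_
      · have h1 := coe_mem_locAt (Algebra.adjoin Os ({us} : Set Ls)) 𝔪 h𝔪 (bc c')
        rw [hbc] at h1
        exact h1
      · refine ⟨bc s, hy s hs, ?_⟩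
        rw [hbc, mul_inv_cancel₀ hs0]
        exact isIntegral_one
    · intro a b _ _ ha hb
      exact Subring.add_mem _ ha hb
    · intro a b _ _ ha hb
      exact Subring.mul_mem _ ha hb
  obtain ⟨s, hs, hsr⟩ := hrloc
  refine powAt_of_powAtDepth (Algebra.adjoin Os ({us} : Set Ls)) p hp hp3 ϖs η hη hpη (p + 2)
    le_rfl _ 𝔪 h𝔪 hp𝔪 ⟨s, G, r, hs, hsr, ?_⟩
  rw [hx, mul_assoc, mul_div_cancel_left₀ _ hc]

end Exit

/-! ### All closed points -/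

section Points

variable {O E : Type*} [CommRing O] [IsDomain O] [IsDiscreteValuationRing O] [Field E]
  [Algebra O E] [FaithfulSMul O E] {L : Type*} [Field L] [Algebra O L]
  {Os Ks : Type*} [CommRing Os] [IsDomain Os] [IsDiscreteValuationRing Os] [Field Ks]
  [Algebra Os Ks] [IsFractionRing Os Ks]
  (φ : O →+* Os) [IsLocalHom φ] (ψ : E →+* Ks)
  (hφψ : ∀ a : O, ψ (algebraMap O E a) = algebraMap Os Ks (φ a))

omit [IsDomain O] [IsDiscreteValuationRing O] [Field E] [Algebra O E] [FaithfulSMul O E]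
  [IsDomain Os] [IsDiscreteValuationRing Os] [IsFractionRing Os Ks] [IsLocalHom φ]
  [Algebra Os Ks] in
/-- The constant of a depth datum of a nonzero element is nonzero. -/
theorem algebraMap_ne_zero_of_eq {Ls : Type*} [Field Ls] [Algebra Ks Ls] {x : Ls} (hx : x ≠ 0)
    {c : Ks} {g y : Ls} {p : ℕ} (h : x = algebraMap Ks Ls c * g ^ p * (1 + y)) :
    algebraMap Ks Ls c ≠ 0 := by
  intro h0
  apply hx
  rw [h, h0, zero_mul, zero_mul]

include hφψ in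
/-- **(CP) at all closed points of a chart with two transversal components, and step (X).**
Hypotheses on the chart `C = Chart O u` over the unramified base: `hcls` (the statement of
`NodeC1Inst.mem_or_mem_u4`), `hnode` (`node_u4`), `hsm₁`, `hsm₂` (`smooth_inf_u4`,
`smooth_zero_u4`), `hcross` (a crossing point), `hord` (exit shape of `Alt/HordInst`); depth
`p + 2` at `σs` with the constant `ca` and at `σs ∘ ws` with the constant `cb`.  Then `x / ca`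
is a local `p`-th power (`PthPoint.PowAt`) at every closed point `𝔪 ∋ p` of the big chart
`Chart Os us`, and the depth `p + 2` at `σs ∘ ws` holds with the constant `ca`. -/
theorem powAt_chart (ϖ : O) (hϖ : Irreducible ϖ) (e : O) (he : IsUnit e) {p : ℕ}
    (hpe : ((p : ℕ) : O) = ϖ * e) (u : L)
    (σ₁ : L →+* LaurentSeries E)
    (hσO₁ : ∀ r : O, σ₁ (algebraMap O L r) = HahnSeries.C (algebraMap O E r))
    (hσfrac₁ : ∀ x : L, σ₁ x ∈ GaussDVR.fracField O E)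
    (U₁ : LaurentSeries O) (hσu₁ : σ₁ u = GaussDVR.iota O E U₁)
    (σ₂ : L →+* LaurentSeries E)
    (hσO₂ : ∀ r : O, σ₂ (algebraMap O L r) = HahnSeries.C (algebraMap O E r))
    (hσfrac₂ : ∀ x : L, σ₂ x ∈ GaussDVR.fracField O E)
    (U₂ : LaurentSeries O) (hσu₂ : σ₂ u = GaussDVR.iota O E U₂)
    [IsFractionRing (Chart O u) L] (hnoeth : IsNoetherianRing (Chart O u))
    (hcls : ∀ y : Ideal (Chart O u), y.IsPrime → piC u ϖ ∈ y →
      RingHom.ker (redHom σ₁ hσO₁ ϖ hϖ hσfrac₁ u U₁ hσu₁) ≤ y ∨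
      RingHom.ker (redHom σ₂ hσO₂ ϖ hϖ hσfrac₂ u U₂ hσu₂) ≤ y)
    (t₁ t₂ : Chart O u)
    (hne : t₁ ∉ RingHom.ker (redHom σ₂ hσO₂ ϖ hϖ hσfrac₂ u U₂ hσu₂))
    (hnode : ∀ y : Ideal (Chart O u), y.IsMaximal →
      RingHom.ker (redHom σ₁ hσO₁ ϖ hϖ hσfrac₁ u U₁ hσu₁) ≤ y →
      RingHom.ker (redHom σ₂ hσO₂ ϖ hϖ hσfrac₂ u U₂ hσu₂) ≤ y →
      ∃ g : Chart O u, g ∉ y ∧ t₁ * t₂ = piC u ϖ * g ∧
        (t₁ ∈ RingHom.ker (redHom σ₁ hσO₁ ϖ hϖ hσfrac₁ u U₁ hσu₁) ∧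
          ∀ x ∈ RingHom.ker (redHom σ₁ hσO₁ ϖ hϖ hσfrac₁ u U₁ hσu₁),
            ∃ s, s ∉ y ∧ s * x ∈ Ideal.span {t₁}) ∧
        (t₂ ∈ RingHom.ker (redHom σ₂ hσO₂ ϖ hϖ hσfrac₂ u U₂ hσu₂) ∧
          ∀ x ∈ RingHom.ker (redHom σ₂ hσO₂ ϖ hϖ hσfrac₂ u U₂ hσu₂),
            ∃ s, s ∉ y ∧ s * x ∈ Ideal.span {t₂}) ∧
        ∀ m ∈ y, ∃ s, s ∉ y ∧ s * m ∈ Ideal.span {t₁, t₂})
    (hsm₁ : ∀ y : Ideal (Chart O u), y.IsMaximal →
      RingHom.ker (redHom σ₁ hσO₁ ϖ hϖ hσfrac₁ u U₁ hσu₁) ≤ y →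
      ¬ RingHom.ker (redHom σ₂ hσO₂ ϖ hϖ hσfrac₂ u U₂ hσu₂) ≤ y →
      (piC u ϖ ∈ RingHom.ker (redHom σ₁ hσO₁ ϖ hϖ hσfrac₁ u U₁ hσu₁) ∧
        ∀ x ∈ RingHom.ker (redHom σ₁ hσO₁ ϖ hϖ hσfrac₁ u U₁ hσu₁),
          ∃ s, s ∉ y ∧ s * x ∈ Ideal.span {piC u ϖ}) ∧
      ∃ z ∈ y, ∀ m ∈ y, ∃ s, s ∉ y ∧ s * m ∈ Ideal.span {piC u ϖ, z})
    (hsm₂ : ∀ y : Ideal (Chart O u), y.IsMaximal →
      RingHom.ker (redHom σ₂ hσO₂ ϖ hϖ hσfrac₂ u U₂ hσu₂) ≤ y →
      ¬ RingHom.ker (redHom σ₁ hσO₁ ϖ hϖ hσfrac₁ u U₁ hσu₁) ≤ y →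
      (piC u ϖ ∈ RingHom.ker (redHom σ₂ hσO₂ ϖ hϖ hσfrac₂ u U₂ hσu₂) ∧
        ∀ x ∈ RingHom.ker (redHom σ₂ hσO₂ ϖ hϖ hσfrac₂ u U₂ hσu₂),
          ∃ s, s ∉ y ∧ s * x ∈ Ideal.span {piC u ϖ}) ∧
      ∃ z ∈ y, ∀ m ∈ y, ∃ s, s ∉ y ∧ s * m ∈ Ideal.span {piC u ϖ, z})
    (hcross : ∃ y : Ideal (Chart O u), y.IsMaximal ∧
      RingHom.ker (redHom σ₁ hσO₁ ϖ hϖ hσfrac₁ u U₁ hσu₁) ≤ y ∧
      RingHom.ker (redHom σ₂ hσO₂ ϖ hϖ hσfrac₂ u U₂ hσu₂) ≤ y)
    {ϖs : Os} (hϖs : Irreducible ϖs) (hp : p.Prime) (hp3 : 3 ≤ p)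
    (η : Os) (hη : IsUnit η) (hpη : (p : Os) = η * ϖs ^ p)
    (hperf : ∀ x : IsLocalRing.ResidueField Os, ∃ y, y ^ p = x)
    (θ : O[X]) (hθdeg : θ.natDegree < p) (hθ0 : IsUnit (θ.eval 0))
    (hθ : ϖs ^ p = φ ϖ * θ.eval₂ φ ϖs)
    (hOs : ∀ r : Os, ∃ a : ℕ → O, r = ∑ i ∈ Finset.range p, φ (a i) * ϖs ^ i)
    {Ls : Type*} [Field Ls] [Algebra Os Ls] [Algebra Ks Ls] [IsScalarTower Os Ks Ls]
    (β : L →+* Ls)
    (hβO : ∀ r : O, β (algebraMap O L r) = algebraMap Os Ls (φ r))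
    (σs : Ls →+* LaurentSeries Ks)
    (hσsO : ∀ r : Os, σs (algebraMap Os Ls r) = HahnSeries.C (algebraMap Os Ks r))
    (hσsfrac : ∀ x : Ls, σs x ∈ GaussDVR.fracField Os Ks)
    (ws : Ls →+* Ls) (hwsO : ∀ r : Os, ws (algebraMap Os Ls r) = algebraMap Os Ls r)
    (hσβ₁ : ∀ x : L, σs (β x) = coeffMap ψ (σ₁ x))
    (hσβ₂ : ∀ x : L, σs (ws (β x)) = coeffMap ψ (σ₂ x))
    (hspan : ∀ x : Ls, ∃ P : L[X], x = P.eval₂ β (algebraMap Os Ls ϖs))
    (us : Ls) (hus : β u = us) (bc : Chart O u →+* Chart Os us)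
    (hbc : ∀ c : Chart O u, ((bc c : Chart Os us) : Ls) = β (c : L))
    {x : Ls} (hx : x ≠ 0)
    (hord : ∀ (y : Ideal (Chart O u)) [y.IsPrime] [Algebra (Localization.AtPrime y) Ls]
      (hBβ : ∀ c : Chart O u, algebraMap (Localization.AtPrime y) Ls
        (algebraMap (Chart O u) (Localization.AtPrime y) c) = β (c : L))
      (Q : Ideal (Algebra.adjoin (Localization.AtPrime y) ({algebraMap Os Ls ϖs} : Set Ls))),
      Q.IsPrime →
      (⟨algebraMap Os Ls ϖs, Algebra.self_mem_adjoin_singleton _ _⟩ :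
        Algebra.adjoin (Localization.AtPrime y) ({algebraMap Os Ls ϖs} : Set Ls)) ∉ Q →
      ∃ (a b : Algebra.adjoin (Localization.AtPrime y) ({algebraMap Os Ls ϖs} : Set Ls))
        (τ : Ls), a ∉ Q ∧ b ∉ Q ∧
        algebraMap (Algebra.adjoin (Localization.AtPrime y) ({algebraMap Os Ls ϖs} : Set Ls))
            Ls b * x
          = algebraMap (Algebra.adjoin (Localization.AtPrime y)
            ({algebraMap Os Ls ϖs} : Set Ls)) Ls a * τ ^ p)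
    (ca cb : Ks) (hmain : GaussDepth σs ϖs p (p + 2) ca x)
    (hother : GaussDepth (σs.comp ws) ϖs p (p + 2) cb x) :
    (∀ 𝔪 : Ideal (Chart Os us), 𝔪.IsMaximal → ((p : ℕ) : Chart Os us) ∈ 𝔪 →
      PowAt (Algebra.adjoin Os ({us} : Set Ls)) p (x / algebraMap Ks Ls ca) 𝔪) ∧
    GaussDepth (σs.comp ws) ϖs p (p + 2) ca x := by
  classical
  haveI := hnoeth
  have hca : algebraMap Ks Ls ca ≠ 0 := by
    obtain ⟨g, y, -, hxe, -⟩ := hmain
    exact algebraMap_ne_zero_of_eq hx hxe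
  have hσsO₂ : ∀ r : Os, (σs.comp ws) (algebraMap Os Ls r)
      = HahnSeries.C (algebraMap Os Ks r) := fun r => by
    rw [RingHom.comp_apply, hwsO, hσsO]
  -- the lift at a node
  have hnodeL : ∀ y : Ideal (Chart O u), y.IsMaximal →
      RingHom.ker (redHom σ₁ hσO₁ ϖ hϖ hσfrac₁ u U₁ hσu₁) ≤ y →
      RingHom.ker (redHom σ₂ hσO₂ ϖ hϖ hσfrac₂ u U₂ hσu₂) ≤ y →
      ∀ (hyp : y.IsPrime),
      letI := algLoc (L := L) y β
      (∃ G r : Ls,
        r ∈ Algebra.adjoin (Localization.AtPrime y) ({algebraMap Os Ls ϖs} : Set Ls) ∧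
        x = algebraMap Ks Ls ca * G ^ p * (1 + algebraMap Os Ls ϖs ^ (p + 2) * r)) ∧
      GaussDepth (σs.comp ws) ϖs p (p + 2) ca x := by
    intro y hy hI hZ hyp
    letI := algLoc (L := L) y β
    haveI : IsNoetherianRing (Localization.AtPrime y) :=
      Fermat.Agent.S44.L.NodeLoc.isNoetherianRing_localization y
    obtain ⟨g, hg, hmul, hp₁, hp₂, hm⟩ := hnode y hy hI hZ
    exact node_lift_chart φ ψ hφψ ϖ hϖ u σ₁ hσO₁ hσfrac₁ U₁ hσu₁ σ₂ hσO₂ hσfrac₂ U₂ hσu₂ y hI hZ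
      t₁ t₂ g hg hmul hp₁ hp₂ hne hm hϖs hp hp3 η hη hpη hperf θ hθdeg hθ0 hθ hOs β hβO σs hσsO
      hσsfrac ws hwsO hσβ₁ hσβ₂ hspan (algLoc_algebraMap y β) hx
      (hord y (algLoc_algebraMap y β)) ca hmain ⟨cb, hother⟩
  -- step (X)
  have hX : GaussDepth (σs.comp ws) ϖs p (p + 2) ca x := by
    obtain ⟨y₀, hy₀, hI₀, hZ₀⟩ := hcross
    exact (hnodeL y₀ hy₀ hI₀ hZ₀ hy₀.isPrime).2
  refine ⟨?_, hX⟩
  have hint : bc.IsIntegral := isIntegral_bc φ u ϖ θ hθdeg hθ hOs β hβO us hus bc hbc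
  intro 𝔪 h𝔪 hp𝔪
  haveI := h𝔪
  haveI h𝔪p : 𝔪.IsPrime := h𝔪.isPrime
  have hymax : (𝔪.comap bc).IsMaximal :=
    Ideal.isMaximal_comap_of_isIntegral_of_isMaximal' bc hint 𝔪
  have hπy : piC u ϖ ∈ 𝔪.comap bc := piC_mem_comap u ϖ e he hpe bc 𝔪 hp𝔪
  obtain ⟨y, hyd⟩ : ∃ y : Ideal (Chart O u), y = 𝔪.comap bc := ⟨_, rfl⟩
  rw [← hyd] at hymax hπy
  have hyp : y.IsPrime := hymax.isPrime
  haveI := hyp
  have hy𝔪 : ∀ s : Chart O u, s ∉ y → bc s ∉ 𝔪 := by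
    intro s hs hmem
    apply hs
    rw [hyd]
    exact hmem
  letI := algLoc (L := L) y β
  haveI : IsNoetherianRing (Localization.AtPrime y) :=
    Fermat.Agent.S44.L.NodeLoc.isNoetherianRing_localization y
  have hBβ := algLoc_algebraMap (L := L) y β
  by_cases hI : RingHom.ker (redHom σ₁ hσO₁ ϖ hϖ hσfrac₁ u U₁ hσu₁) ≤ y
  · by_cases hZ : RingHom.ker (redHom σ₂ hσO₂ ϖ hϖ hσfrac₂ u U₂ hσu₂) ≤ y
    · exact powAt_of_lift u hp hp3 η hη hpη β us bc hbc 𝔪 hp𝔪 y hy𝔪 hBβ ca hca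
        (hnodeL y hymax hI hZ hyp).1
    · obtain ⟨hp₁, z, hz, hm⟩ := hsm₁ y hymax hI hZ
      exact powAt_of_lift u hp hp3 η hη hpη β us bc hbc 𝔪 hp𝔪 y hy𝔪 hBβ ca hca
        (smooth_lift_chart φ ψ hφψ ϖ hϖ u σ₁ hσO₁ hσfrac₁ U₁ hσu₁ y hI hp₁ z hz hm hϖs hp hp3 η
          hη hpη hperf θ hθdeg hθ0 hθ hOs β hβO σs hσsO hσsfrac hσβ₁ hspan hBβ hx
          (hord y hBβ) ca hmain)
  · have hZ : RingHom.ker (redHom σ₂ hσO₂ ϖ hϖ hσfrac₂ u U₂ hσu₂) ≤ y :=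
      (hcls y hyp hπy).resolve_left hI
    obtain ⟨hp₂, z, hz, hm⟩ := hsm₂ y hymax hZ hI
    exact powAt_of_lift u hp hp3 η hη hpη β us bc hbc 𝔪 hp𝔪 y hy𝔪 hBβ ca hca
      (smooth_lift_chart φ ψ hφψ ϖ hϖ u σ₂ hσO₂ hσfrac₂ U₂ hσu₂ y hZ hp₂ z hz hm hϖs hp hp3 η
        hη hpη hperf θ hθdeg hθ0 hθ hOs β hβO (σs.comp ws) hσsO₂ (fun z => hσsfrac (ws z))
        hσβ₂ hspan hBβ hx (hord y hBβ) ca hX)

include hφψ in
/-- **(CP) at the closed points over the coordinate `u = 0`** of a chart where these points lie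
on exactly one component (hypothesis `hcusp`: the statement of `NodeC1InstInf.cusp_s4`; `xC` the
coordinate as an element of the chart).  Depth `p + 2` at `σs` and at `σs ∘ ws` with the same
constant `c` gives `PthPoint.PowAt` for `x / c` at every closed point `𝔪 ∋ p, us` of the big
chart `Chart Os us`. -/
theorem powAt_chart_cusp (ϖ : O) (hϖ : Irreducible ϖ) (e : O) (he : IsUnit e) {p : ℕ}
    (hpe : ((p : ℕ) : O) = ϖ * e) (u : L)
    (σ₁ : L →+* LaurentSeries E)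
    (hσO₁ : ∀ r : O, σ₁ (algebraMap O L r) = HahnSeries.C (algebraMap O E r))
    (hσfrac₁ : ∀ x : L, σ₁ x ∈ GaussDVR.fracField O E)
    (U₁ : LaurentSeries O) (hσu₁ : σ₁ u = GaussDVR.iota O E U₁)
    (σ₂ : L →+* LaurentSeries E)
    (hσO₂ : ∀ r : O, σ₂ (algebraMap O L r) = HahnSeries.C (algebraMap O E r))
    (hσfrac₂ : ∀ x : L, σ₂ x ∈ GaussDVR.fracField O E)
    (U₂ : LaurentSeries O) (hσu₂ : σ₂ u = GaussDVR.iota O E U₂)
    [IsFractionRing (Chart O u) L] (hnoeth : IsNoetherianRing (Chart O u))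
    (xC : Chart O u) (hxC : ((xC : Chart O u) : L) = u)
    (hcusp : ∀ y : Ideal (Chart O u), y.IsMaximal → piC u ϖ ∈ y → xC ∈ y →
      (RingHom.ker (redHom σ₁ hσO₁ ϖ hϖ hσfrac₁ u U₁ hσu₁) ≤ y ∧
        ¬ RingHom.ker (redHom σ₂ hσO₂ ϖ hϖ hσfrac₂ u U₂ hσu₂) ≤ y ∧
        (piC u ϖ ∈ RingHom.ker (redHom σ₁ hσO₁ ϖ hϖ hσfrac₁ u U₁ hσu₁) ∧
          ∀ x ∈ RingHom.ker (redHom σ₁ hσO₁ ϖ hϖ hσfrac₁ u U₁ hσu₁),
            ∃ s, s ∉ y ∧ s * x ∈ Ideal.span {piC u ϖ}) ∧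
        ∃ z ∈ y, ∀ m ∈ y, ∃ s, s ∉ y ∧ s * m ∈ Ideal.span {piC u ϖ, z}) ∨
      (RingHom.ker (redHom σ₂ hσO₂ ϖ hϖ hσfrac₂ u U₂ hσu₂) ≤ y ∧
        ¬ RingHom.ker (redHom σ₁ hσO₁ ϖ hϖ hσfrac₁ u U₁ hσu₁) ≤ y ∧
        (piC u ϖ ∈ RingHom.ker (redHom σ₂ hσO₂ ϖ hϖ hσfrac₂ u U₂ hσu₂) ∧
          ∀ x ∈ RingHom.ker (redHom σ₂ hσO₂ ϖ hϖ hσfrac₂ u U₂ hσu₂),
            ∃ s, s ∉ y ∧ s * x ∈ Ideal.span {piC u ϖ}) ∧
        ∃ z ∈ y, ∀ m ∈ y, ∃ s, s ∉ y ∧ s * m ∈ Ideal.span {piC u ϖ, z}))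
    {ϖs : Os} (hϖs : Irreducible ϖs) (hp : p.Prime) (hp3 : 3 ≤ p)
    (η : Os) (hη : IsUnit η) (hpη : (p : Os) = η * ϖs ^ p)
    (hperf : ∀ x : IsLocalRing.ResidueField Os, ∃ y, y ^ p = x)
    (θ : O[X]) (hθdeg : θ.natDegree < p) (hθ0 : IsUnit (θ.eval 0))
    (hθ : ϖs ^ p = φ ϖ * θ.eval₂ φ ϖs)
    (hOs : ∀ r : Os, ∃ a : ℕ → O, r = ∑ i ∈ Finset.range p, φ (a i) * ϖs ^ i)
    {Ls : Type*} [Field Ls] [Algebra Os Ls] [Algebra Ks Ls] [IsScalarTower Os Ks Ls]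
    (β : L →+* Ls)
    (hβO : ∀ r : O, β (algebraMap O L r) = algebraMap Os Ls (φ r))
    (σs : Ls →+* LaurentSeries Ks)
    (hσsO : ∀ r : Os, σs (algebraMap Os Ls r) = HahnSeries.C (algebraMap Os Ks r))
    (hσsfrac : ∀ x : Ls, σs x ∈ GaussDVR.fracField Os Ks)
    (ws : Ls →+* Ls) (hwsO : ∀ r : Os, ws (algebraMap Os Ls r) = algebraMap Os Ls r)
    (hσβ₁ : ∀ x : L, σs (β x) = coeffMap ψ (σ₁ x))
    (hσβ₂ : ∀ x : L, σs (ws (β x)) = coeffMap ψ (σ₂ x))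
    (hspan : ∀ x : Ls, ∃ P : L[X], x = P.eval₂ β (algebraMap Os Ls ϖs))
    (us : Ls) (hus : β u = us) (bc : Chart O u →+* Chart Os us)
    (hbc : ∀ c : Chart O u, ((bc c : Chart Os us) : Ls) = β (c : L))
    {x : Ls} (hx : x ≠ 0)
    (hord : ∀ (y : Ideal (Chart O u)) [y.IsPrime] [Algebra (Localization.AtPrime y) Ls]
      (hBβ : ∀ c : Chart O u, algebraMap (Localization.AtPrime y) Ls
        (algebraMap (Chart O u) (Localization.AtPrime y) c) = β (c : L))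
      (Q : Ideal (Algebra.adjoin (Localization.AtPrime y) ({algebraMap Os Ls ϖs} : Set Ls))),
      Q.IsPrime →
      (⟨algebraMap Os Ls ϖs, Algebra.self_mem_adjoin_singleton _ _⟩ :
        Algebra.adjoin (Localization.AtPrime y) ({algebraMap Os Ls ϖs} : Set Ls)) ∉ Q →
      ∃ (a b : Algebra.adjoin (Localization.AtPrime y) ({algebraMap Os Ls ϖs} : Set Ls))
        (τ : Ls), a ∉ Q ∧ b ∉ Q ∧
        algebraMap (Algebra.adjoin (Localization.AtPrime y) ({algebraMap Os Ls ϖs} : Set Ls))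
            Ls b * x
          = algebraMap (Algebra.adjoin (Localization.AtPrime y)
            ({algebraMap Os Ls ϖs} : Set Ls)) Ls a * τ ^ p)
    (c : Ks) (hmain₁ : GaussDepth σs ϖs p (p + 2) c x)
    (hmain₂ : GaussDepth (σs.comp ws) ϖs p (p + 2) c x) :
    ∀ 𝔪 : Ideal (Chart Os us), 𝔪.IsMaximal → ((p : ℕ) : Chart Os us) ∈ 𝔪 →
      (∃ t : Chart Os us, (t : Ls) = us ∧ t ∈ 𝔪) →
      PowAt (Algebra.adjoin Os ({us} : Set Ls)) p (x / algebraMap Ks Ls c) 𝔪 := by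
  classical
  haveI := hnoeth
  have hca : algebraMap Ks Ls c ≠ 0 := by
    obtain ⟨g, y, -, hxe, -⟩ := hmain₁
    exact algebraMap_ne_zero_of_eq hx hxe
  have hσsO₂ : ∀ r : Os, (σs.comp ws) (algebraMap Os Ls r)
      = HahnSeries.C (algebraMap Os Ks r) := fun r => by
    rw [RingHom.comp_apply, hwsO, hσsO]
  have hint : bc.IsIntegral := isIntegral_bc φ u ϖ θ hθdeg hθ hOs β hβO us hus bc hbc
  intro 𝔪 h𝔪 hp𝔪 ht
  haveI := h𝔪
  haveI h𝔪p : 𝔪.IsPrime := h𝔪.isPrime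
  have hymax : (𝔪.comap bc).IsMaximal :=
    Ideal.isMaximal_comap_of_isIntegral_of_isMaximal' bc hint 𝔪
  have hπy : piC u ϖ ∈ 𝔪.comap bc := piC_mem_comap u ϖ e he hpe bc 𝔪 hp𝔪
  have hxy : xC ∈ 𝔪.comap bc := by
    obtain ⟨t, htu, htm⟩ := ht
    rw [Ideal.mem_comap]
    have h1 : bc xC = t := Subtype.ext (by rw [hbc, hxC, hus, htu])
    rw [h1]
    exact htm
  obtain ⟨y, hyd⟩ : ∃ y : Ideal (Chart O u), y = 𝔪.comap bc := ⟨_, rfl⟩
  rw [← hyd] at hymax hπy hxy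
  have hyp : y.IsPrime := hymax.isPrime
  haveI := hyp
  have hy𝔪 : ∀ s : Chart O u, s ∉ y → bc s ∉ 𝔪 := by
    intro s hs hmem
    apply hs
    rw [hyd]
    exact hmem
  letI := algLoc (L := L) y β
  haveI : IsNoetherianRing (Localization.AtPrime y) :=
    Fermat.Agent.S44.L.NodeLoc.isNoetherianRing_localization y
  have hBβ := algLoc_algebraMap (L := L) y β
  rcases hcusp y hymax hπy hxy with ⟨hI, -, hp₁, z, hz, hm⟩ | ⟨hZ, -, hp₂, z, hz, hm⟩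
  · exact powAt_of_lift u hp hp3 η hη hpη β us bc hbc 𝔪 hp𝔪 y hy𝔪 hBβ c hca
      (smooth_lift_chart φ ψ hφψ ϖ hϖ u σ₁ hσO₁ hσfrac₁ U₁ hσu₁ y hI hp₁ z hz hm hϖs hp hp3 η
        hη hpη hperf θ hθdeg hθ0 hθ hOs β hβO σs hσsO hσsfrac hσβ₁ hspan hBβ hx
        (hord y hBβ) c hmain₁)
  · exact powAt_of_lift u hp hp3 η hη hpη β us bc hbc 𝔪 hp𝔪 y hy𝔪 hBβ c hca
      (smooth_lift_chart φ ψ hφψ ϖ hϖ u σ₂ hσO₂ hσfrac₂ U₂ hσu₂ y hZ hp₂ z hz hm hϖs hp hp3 η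
        hη hpη hperf θ hθdeg hθ0 hθ hOs β hβO (σs.comp ws) hσsO₂ (fun z => hσsfrac (ws z))
        hσβ₂ hspan hBβ hx (hord y hBβ) c hmain₂)

end Points

end Fermat.Agent.S44.L.NZ.ClosedPointChart
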