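import Mathlib

/-!
# PROGRAM MR (S44), strand L, NZ-ALT, row NZ.5 (CP): the hypothesis `hord`, from an arbitrary
`C`-algebra `B` to the local ring `C_y` (level-free, helper211)

The exits of `Alt/HordInst` are stated for ANY `C`-algebra `B` acting on `Ls` (`C` a chart ring),
the consumers (`Alt/NodeAlt`, `NZ/ClosedPointChart`) ask for `B = Localization.AtPrime y`.  Over
the concrete chart rings the instance problems of that instantiation are expensive; here it is done
once, for a generic commutative ring `C`.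

* `HordB C g π x p` : the exit shape of `Alt/HordInst` (`g : C → Ls` the action of `C` on `Ls`,
  `π` the uniformiser, exponent `p`): for every `C`-algebra `B` acting on `Ls` through `g`, at
  every prime `Q ∌ π` of `B[π]`, `b * x = a * τ ^ p` with `a, b ∉ Q`.
* `hord_loc` : `HordB` at `B = Localization.AtPrime y`.
-/

set_option autoImplicit false

universe u v

namespace Fermat.Agent.S44.L.NZ.HordLoc

variable (C : Type u) [CommRing C] {Ls : Type v} [Field Ls]

/-- The exit shape of `Alt/HordInst`: for every `C`-algebra `B` acting on `Ls` through `g`, at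
every prime `Q ∌ π` of `B[π]`, `b * x = a * τ ^ p` with `a, b ∉ Q`. -/
def HordB (g : C → Ls) (π x : Ls) (p : ℕ) : Prop :=
  ∀ {B : Type u} [CommRing B] [Algebra C B] [Algebra B Ls]
    (_ : ∀ c : C, algebraMap B Ls (algebraMap C B c) = g c)
    (Q : Ideal (Algebra.adjoin B ({π} : Set Ls))), Q.IsPrime →
    (⟨π, Algebra.self_mem_adjoin_singleton _ _⟩ : Algebra.adjoin B ({π} : Set Ls)) ∉ Q →
    ∃ (a b : Algebra.adjoin B ({π} : Set Ls)) (τ : Ls), a ∉ Q ∧ b ∉ Q ∧
      algebraMap (Algebra.adjoin B ({π} : Set Ls)) Ls b * x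
        = algebraMap (Algebra.adjoin B ({π} : Set Ls)) Ls a * τ ^ p

variable {C}

/-- `HordB` at the local ring `B = C_y`. -/
theorem hord_loc {g : C → Ls} {π x : Ls} {p : ℕ} (hordB : HordB C g π x p)
    (y : Ideal C) [y.IsPrime] [Algebra (Localization.AtPrime y) Ls]
    (hBβ : ∀ c : C, algebraMap (Localization.AtPrime y) Ls
      (algebraMap C (Localization.AtPrime y) c) = g c)
    (Q : Ideal (Algebra.adjoin (Localization.AtPrime y) ({π} : Set Ls))) (hQ : Q.IsPrime)
    (hπ : (⟨π, Algebra.self_mem_adjoin_singleton _ _⟩ :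
      Algebra.adjoin (Localization.AtPrime y) ({π} : Set Ls)) ∉ Q) :
    ∃ (a b : Algebra.adjoin (Localization.AtPrime y) ({π} : Set Ls)) (τ : Ls), a ∉ Q ∧ b ∉ Q ∧
      algebraMap (Algebra.adjoin (Localization.AtPrime y) ({π} : Set Ls)) Ls b * x
        = algebraMap (Algebra.adjoin (Localization.AtPrime y) ({π} : Set Ls)) Ls a * τ ^ p :=
  hordB hBβ Q hQ hπ

end Fermat.Agent.S44.L.NZ.HordLoc
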