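import Mathlib
import Fermat.Agent.S44.L.NZ.ClosedPointChart
import Fermat.Agent.S44.L.NodeC1Inst
import Fermat.Agent.S44.L.NodeLocInst
import Fermat.Agent.S44.L.NZ.HordLoc

/-!
# PROGRAM MR (S44), strand L, NZ-ALT, row NZ.5 (CP): the chart of `α u₄`, generic unramified base
(helper211)

`NZ/ClosedPointChart.powAt_chart` at the objects of `NodeC1Inst` (chart `Chart O (α u₄)` of level
`M q` over the unramified base `O`, `E ⊆ ℚ̄` concrete, `r₁ = redInf`, `r₂ = redZero`,
`t₁ = V - U ^ q`, `t₂ = U - V ^ q`), generic `Os`, `Ks`, `Ls` (pattern of `Alt/NodeAltU4`).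

* `powAt_u4` : the chart hypotheses of `powAt_chart` are discharged by
  `NodeC1Inst.mem_or_mem_u4`, `node_u4`, `smooth_inf_u4`, `smooth_zero_u4`,
  `NodeLocInst.isNoetherianRing_chart'`, `NodeLocInst.t1_notMem_ker_redZero`.  The hypothesis
  `hordB` is asked for ANY `Chart O (α u₄)`-algebra `B` acting on `Ls` compatibly with `β`
  (`NZ/HordLoc.HordB`, the exit shape of `Alt/HordInst`), so that no consumer has to mention a
  localisation.
-/

set_option autoImplicit false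
set_option linter.unusedSectionVars false
set_option linter.unusedVariables false
set_option linter.style.haveILetI false
set_option synthInstance.maxHeartbeats 400000
set_option maxHeartbeats 1000000

open ModularCurve Polynomial IntermediateField

noncomputable section

namespace Fermat.Agent.S44.L.NZ.ClosedPointU4

open Fermat.Agent.S30 Fermat.Agent.S34 Fermat.Agent.S34.TwoPrimesGauss
open Fermat.Agent.S36.PrinAt Fermat.Agent.S30.Model
open Fermat.Agent.S18.K1Defs Fermat.Agent.S18.K1Main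
open Fermat.Agent.S34.TwoPrimesRank Fermat.Agent.S34.HauptU.Plug
open Fermat.Agent.S34.HauptU.LevelMAux
open Fermat.Agent.S36.Haupt4 Fermat.Agent.S36.LevelQInstAlt
open Fermat.Agent.S44.L.Alt.NodeAltCore
open Fermat.Agent.S44.L.NZ.ClosedPointCore Fermat.Agent.S44.L.PthPoint

local notation "Qb" => AlgebraicClosure ℚ

/-! ### Generic unramified base -/

section Generic

variable (M q : ℕ) [NeZero M] [NeZero q] (E : IntermediateField ℚ Qb)
  {O : Type} [CommRing O] [IsDomain O] [IsDiscreteValuationRing O]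
  [Algebra O E] [IsFractionRing O E]
  {Os Ks : Type*} [CommRing Os] [IsDomain Os] [IsDiscreteValuationRing Os] [Field Ks]
  [Algebra Os Ks] [IsFractionRing Os Ks]
  (φ : O →+* Os) [IsLocalHom φ] (ψ : E →+* Ks)
  (hφψ : ∀ a : O, ψ (algebraMap O E a) = algebraMap Os Ks (φ a))
  (hq : q.Prime) (hodd : q ≠ 2) (hqM : ¬ q ∣ M) (h4 : 4 ∣ M)
  (h2 : IsUnit (2 : O)) (hFG : FinGaussC M O E) (π : O) (hπ : Irreducible π)
  (e : O) (he : IsUnit e) (hqe : ((q : ℕ) : O) = π * e)
  (hσfrac : ∀ x : LE (M * q) E, sigmaHom (M * q) E x ∈ GaussDVR.fracField O E)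

local notation "CU" => Chart O (alphaHom M q E (u4E M E h4))
local notation "rI" => redInf π hπ (alphaHom M q E) (sigmaHom (M * q) E)
  (sigmaHom_algebraMap (M * q) E) hσfrac (u4E M E h4) (u4 O) (hσu_u4 M q E h4)
local notation "rZ" => redZero π hπ (alphaHom M q E) (sigmaHom (M * q) E)
  (sigmaHom_algebraMap (M * q) E) hσfrac (u4E M E h4) (u4 O) (hσu_u4 M q E h4)
  (wHom M q E hq hqM) (wHom_algebraMap M q E hq hqM) q (sigmaHom_wHom_alpha M q E hq hqM)

include hφψ hodd h2 hFG he hqe in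
/-- **(CP) at all closed points of the chart of `α u₄`, and step (X)**, generic unramified base:
`ClosedPointChart.powAt_chart` with the chart hypotheses discharged by `NodeC1Inst`. -/
theorem powAt_u4 (hq3 : 3 ≤ q) {ϖs : Os} (hϖs : Irreducible ϖs) (η : Os) (hη : IsUnit η)
    (hqη : ((q : ℕ) : Os) = η * ϖs ^ q)
    (hperf : ∀ x : IsLocalRing.ResidueField Os, ∃ y, y ^ q = x)
    (θ : O[X]) (hθdeg : θ.natDegree < q) (hθ0 : IsUnit (θ.eval 0))
    (hθ : ϖs ^ q = φ π * θ.eval₂ φ ϖs)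
    (hOs : ∀ r : Os, ∃ a : ℕ → O, r = ∑ i ∈ Finset.range q, φ (a i) * ϖs ^ i)
    {Ls : Type*} [Field Ls] [Algebra Os Ls] [Algebra Ks Ls] [IsScalarTower Os Ks Ls] :
    letI := algebraOL O E (LE M E)
    letI := algebraOL O E (LE (M * q) E)
    haveI := isScalarTower_OL O E (LE M E)
    haveI := isScalarTower_OL O E (LE (M * q) E)
    ∀ (β : LE (M * q) E →+* Ls)
      (hβO : ∀ r : O, β (algebraMap O (LE (M * q) E) r) = algebraMap Os Ls (φ r))
      (σs : Ls →+* LaurentSeries Ks)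
      (hσsO : ∀ r : Os, σs (algebraMap Os Ls r) = HahnSeries.C (algebraMap Os Ks r))
      (hσsfrac : ∀ x : Ls, σs x ∈ GaussDVR.fracField Os Ks)
      (ws : Ls →+* Ls) (hwsO : ∀ r : Os, ws (algebraMap Os Ls r) = algebraMap Os Ls r)
      (hσβ₁ : ∀ x : LE (M * q) E, σs (β x) = coeffMap ψ (sigmaHom (M * q) E x))
      (hσβ₂ : ∀ x : LE (M * q) E,
        σs (ws (β x)) = coeffMap ψ (sigmaHom (M * q) E (wHom M q E hq hqM x)))
      (hspan : ∀ x : Ls, ∃ P : (LE (M * q) E)[X], x = P.eval₂ β (algebraMap Os Ls ϖs))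
      (us : Ls) (hus : β (alphaHom M q E (u4E M E h4)) = us) (bc : CU →+* Chart Os us)
      (hbc : ∀ c : CU, ((bc c : Chart Os us) : Ls) = β (c : LE (M * q) E))
      (x : Ls) (hx : x ≠ 0)
      (hordB : Fermat.Agent.S44.L.NZ.HordLoc.HordB CU (fun c : CU => β (c : LE (M * q) E))
        (algebraMap Os Ls ϖs) x q)
      (ca cb : Ks) (hmain : GaussDepth σs ϖs q (q + 2) ca x)
      (hother : GaussDepth (σs.comp ws) ϖs q (q + 2) cb x)
      (hcross : ∃ y : Ideal CU, y.IsMaximal ∧ RingHom.ker rI ≤ y ∧ RingHom.ker rZ ≤ y),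
      (∀ 𝔪 : Ideal (Chart Os us), 𝔪.IsMaximal → ((q : ℕ) : Chart Os us) ∈ 𝔪 →
        PowAt (Algebra.adjoin Os ({us} : Set Ls)) q (x / algebraMap Ks Ls ca) 𝔪) ∧
      GaussDepth (σs.comp ws) ϖs q (q + 2) ca x := by
  classical
  letI := algebraOL O E (LE M E)
  letI := algebraOL O E (LE (M * q) E)
  haveI := isScalarTower_OL O E (LE M E)
  haveI := isScalarTower_OL O E (LE (M * q) E)
  intro β hβO σs hσsO hσsfrac ws hwsO hσβ₁ hσβ₂ hspan us hus bc hbc x hx hordB ca cb hmain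
    hother hcross
  haveI : Fact q.Prime := ⟨hq⟩
  haveI : CharP (IsLocalRing.ResidueField O) q :=
    Fermat.Agent.S36.DerUnram.charP_residue π hπ q ⟨e, hqe⟩
  have hwu := hwu_u4 M q E (O := O) h2 hq hodd hqM h4
  haveI := Fermat.Agent.S36.Haupt4.LevelQ.finiteDimensional_alpha_u4E M q E h4
  haveI : IsFractionRing CU (LE (M * q) E) :=
    Fermat.Agent.S44.L.NodeLocInst.isFractionRing_chart_u4 (O := O) M q E h4
  have hNoeth : IsNoetherianRing CU :=
    Fermat.Agent.S44.L.NodeLocInst.isNoetherianRing_chart' (O := O) (E := E)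
      (alphaHom M q E (u4E M E h4))
      (Fermat.Agent.S36.A2.transcendental_alpha (O := O) (alphaHom M q E)
        (alphaHom_algebraMap M q E)
        (u4E M E h4) (transcendental_u4E M E h4))
  have hne := Fermat.Agent.S44.L.NodeLocInst.t1_notMem_ker_redZero π hπ (alphaHom M q E)
    (alphaHom_algebraMap M q E) (sigmaHom (M * q) E) (sigmaHom_algebraMap (M * q) E) hσfrac
    (u4E M E h4) (u4 O) (hσu_u4 M q E h4) (wHom M q E hq hqM) (wHom_algebraMap M q E hq hqM) q
    (sigmaHom_wHom_alpha M q E hq hqM) (wHom_wHom M q E hq hqM) hord_u4 hq.two_le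
    (hfrob_u4 q hq) hwu
  have hcls := Fermat.Agent.S44.L.NodeC1Inst.mem_or_mem_u4 M q E hq hodd hqM h4 h2 hFG π hπ e he
    hqe hσfrac
  have hnode := Fermat.Agent.S44.L.NodeC1Inst.node_u4 M q E hq hodd hqM h4 h2 hFG π hπ e he
    hqe hσfrac
  have hsm₁ := Fermat.Agent.S44.L.NodeC1Inst.smooth_inf_u4 M q E hq hodd hqM h4 h2 hFG π hπ e he
    hqe hσfrac
  have hsm₂ := Fermat.Agent.S44.L.NodeC1Inst.smooth_zero_u4 M q E hq hodd hqM h4 h2 hFG π hπ e he
    hqe hσfrac
  exact Fermat.Agent.S44.L.NZ.ClosedPointChart.powAt_chart φ ψ hφψ π hπ e he hqe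
    (alphaHom M q E (u4E M E h4))
    (sigmaHom (M * q) E) (sigmaHom_algebraMap (M * q) E) hσfrac (u4 O) (hσu_u4 M q E h4)
    ((sigmaHom (M * q) E).comp (wHom M q E hq hqM : LE (M * q) E →+* LE (M * q) E))
    (sigmaW_O (sigmaHom (M * q) E) (sigmaHom_algebraMap (M * q) E) (wHom M q E hq hqM)
      (wHom_algebraMap M q E hq hqM))
    (fun x => hσfrac (wHom M q E hq hqM x)) (qExpand O q (u4 O))
    (sigmaW_u (alphaHom M q E) (sigmaHom (M * q) E) (u4E M E h4) (u4 O) (hσu_u4 M q E h4)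
      (wHom M q E hq hqM) q (sigmaHom_wHom_alpha M q E hq hqM))
    hNoeth hcls _ _ hne hnode hsm₁ hsm₂ hcross hϖs hq hq3 η hη hqη hperf θ hθdeg hθ0 hθ hOs
    β hβO σs hσsO hσsfrac ws hwsO hσβ₁ hσβ₂ hspan us hus bc hbc hx
    (fun y _ _ hBβ => Fermat.Agent.S44.L.NZ.HordLoc.hord_loc hordB y hBβ) ca cb hmain hother

end Generic

end Fermat.Agent.S44.L.NZ.ClosedPointU4
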