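import Mathlib
import Fermat.Agent.S44.L.NZ.EisBricks
import Fermat.Agent.S44.L.NZ.OneCase
import Fermat.Agent.S36.Haupt4.Horiz
import Fermat.Agent.S36.HorizAdapter
import Fermat.Agent.S34.TwoPrimesGauss
import Fermat.Agent.S34.HauptU.Plug
import Fermat.Agent.S44.L.PthPoint
import Fermat.Agent.S36.CycloBase
import Fermat.Agent.S36.StableBase
import Fermat.Agent.S44.L.SimLvl
import Fermat.Agent.S36.LevelQInstAlt
import Fermat.Agent.S18.LevelDescent

/-!
# PROGRAM MR (S44), strand L, (L.NZ) cover-free route, row NZ.10: the rows below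
`NZ.EisBricks.NZCoreEStatement` (contract v3) and the E-level assembly

Statement-level file (helper268, owner of NZ.10) with one compiled assembly.

Notation: `p = P.p`, `M = N' * 4`, `K` a number field fixed by the inertia group `I` of `A`,
stable under the decomposition group, containing a primitive `M`-th root of unity and the `c`, `w`
of `IsEis`; `Ks = K ⊔ ℚ(b)`, `ϖs` a uniformiser of `Os = A ∩ Ks`, `p = η ϖs ^ p`.

* `GDepth τ ϖs p d c x` : `x = c g ^ p (1 + y)` with `τ y ∈ ϖs ^ d V` (`V` the Gauss ring of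
  `Ks((q))`); the junction shape of rows NZ.1 / NZ.5.
* `KummerStatement` (ALT.1): the ramified base `Os`.
* `GenStatement` (NZ.1 GEN): generic depth for every `d` at both Gauss places, directly at level
  `(M, p)`, for the level pull of a representative of the class of `ι R`.
* `HorizStatement` (ALT.8b): horizontal `p`-divisibility on both charts of `α u₄`.
* `CrossStatement` (NZ.6): a crossing point of the two components on the chart of `α u₄`.
* `ClosedPointStatement` (NZ.5): the closed-point lift + step (X).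
* `ExitStatement` (NZ.7): pointwise `p`-th powers give `f₀ ~ 1` at level `N' p`.
* `nzCoreEStatement_of_rows` : the six rows give `EisBricks.NZCoreEStatement`.
-/

set_option autoImplicit false
set_option linter.unusedSectionVars false
set_option linter.unusedVariables false
set_option linter.style.haveILetI false
set_option synthInstance.maxHeartbeats 400000
set_option maxHeartbeats 1000000

open WeierstrassCurve WeierstrassCurve.Affine WeierstrassCurve.Affine.Point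
open HahnSeries ModularCurve AlgebraicCurve Polynomial

noncomputable section

namespace Fermat.Agent.S44.L.NZ.EisRows

open Fermat.Agent.S30 Fermat.Agent.S30.Producer Fermat.Agent.S30.E4 Fermat.Agent.S44.Contract
open Fermat.Agent.S44.L.Top Fermat.Agent.S44.L.IotaCalc Fermat.Agent.S44.L
open Fermat.Agent.S44.L.NZ.Bricks Fermat.Agent.S44.L.NZ.EisBricks
open Fermat.Agent.S34 Fermat.Agent.S34.TwoPrimesGauss Fermat.Agent.S30.Model
open Fermat.Agent.S18.K1Defs Fermat.Agent.S18.K1Main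
open Fermat.Agent.S34.TwoPrimesRank Fermat.Agent.S34.HauptU.Plug
open Fermat.Agent.S36.Haupt4 Fermat.Agent.S36.LevelQInstAlt
open Fermat.Agent.S36

local notation "GQb" => (AlgebraicClosure ℚ ≃ₐ[ℚ] AlgebraicClosure ℚ)

/-! ### The junction shape of NZ.1 / NZ.5 -/

section Junction

variable {Os Ks : Type*} [CommRing Os] [IsDomain Os] [IsDiscreteValuationRing Os] [Field Ks]
  [Algebra Os Ks] [IsFractionRing Os Ks] {Ls : Type*} [Field Ls] [Algebra Ks Ls]

/-- `x = c * g ^ p * (1 + y)` with `τ y` in `ϖs ^ d` times the Gauss ring. -/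
def GDepth (τ : Ls →+* LaurentSeries Ks) (ϖs : Os) (p d : ℕ) (c : Ks) (x : Ls) : Prop :=
  ∃ g y : Ls, g ≠ 0 ∧ x = algebraMap Ks Ls c * g ^ p * (1 + y) ∧
    ∃ v : GaussDVR.V Os Ks,
      τ y = ((GaussDVR.unif Ks ϖs : GaussDVR.V Os Ks) : LaurentSeries Ks) ^ d
        * (v : LaurentSeries Ks)

end Junction

/-! ### The rows -/

/-- **(ALT.1, KummerBase)** the ramified base: for `K` a number field fixed by inertia containing
`c`, `w`, the ring `A ∩ K(b)` has the uniformiser `ϖs = b / c - 1`, `p = η ϖs ^ p`,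
`ϖs ^ p = p θ(ϖs)`, and is free over `A ∩ K` on `1, ϖs, …, ϖs ^ (p - 1)`. -/
def KummerStatement : Prop :=
  ∀ (A : ValuationSubring Qb) (p : ℕ), p.Prime → A.LiesOverPrime p →
  ∀ (K : IntermediateField ℚ Qb) [FiniteDimensional ℚ K],
    A.inertiaSubgroupIn ℚ ≤ K.fixingSubgroup →
  ∀ (b c w : Qb), c ∈ K → A.valuation c = 1 → w ∈ K → A.valuation w = 1 →
    (b / c) ^ p = 1 + (p : Qb) * w →
    A.valuation (b / c - 1) ^ p = A.valuation (p : Qb) →
    ∃ (ϖs η : OE A (CycloBase.cyclo K b)) (θ : (OE A K)[X]),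
      Irreducible ϖs ∧ IsUnit η ∧ ((p : ℕ) : OE A (CycloBase.cyclo K b)) = η * ϖs ^ p ∧
      θ.natDegree < p ∧ IsUnit (θ.eval 0) ∧
      ϖs ^ p = ((p : ℕ) : OE A (CycloBase.cyclo K b)) *
        θ.eval₂ (CycloBase.inclOE A (CycloBase.le_cyclo K b)) ϖs ∧
      (∀ y : OE A (CycloBase.cyclo K b), ∃ a : ℕ → OE A K, y = ∑ i ∈ Finset.range p,
        CycloBase.inclOE A (CycloBase.le_cyclo K b) (a i) * ϖs ^ i)

/-- **(NZ.1, GEN)** generic depth for every `d`, at both Gauss places, at level `(N' * 4, p)`,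
over the ramified base `Ks ⊇ K`, for every `f` of level `N' * 4 * p` over `Ks` in the class of
the level pull of `ι R`. -/
def GenStatement : Prop :=
  ∀ (P : FreyPackage) (N' : ℕ) [NeZero N'] [NeZero P.p] (W : WeierstrassCurve ℤ)
    (hpN : ¬ P.p ∣ N') (hpM : ¬ P.p ∣ N' * 4), Squarefree N' →
  ∀ (A : ValuationSubring Qb), A.LiesOverPrime P.p →
  ∀ ι : (P.freyCurve⁄Qb).Point → FN (N' * P.p), IsNewEmb P N' W ι →
  ∀ R : (P.freyCurve⁄Qb).Point, P.p • R = 0 →
  ∀ g : redField N' A,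
    RedAt (N' * P.p) A (ι R) ((g : LaurentSeries (IsLocalRing.ResidueField A)) ^ P.p) →
  ∀ (K Ks : IntermediateField ℚ Qb) (h : K ≤ Ks) [FiniteDimensional ℚ K]
    [FiniteDimensional ℚ Ks] [IsDiscreteValuationRing (OE A K)]
    [IsDiscreteValuationRing (OE A Ks)],
    A.inertiaSubgroupIn ℚ ≤ K.fixingSubgroup →
    (∀ τ : GQb, τ ∈ A.decompositionSubgroup ℚ → StableBase.Stable K τ) →
  ∀ z : Qb, IsPrimitiveRoot z (N' * 4) → z ∈ K →
  ∀ (ϖs η : OE A Ks), Irreducible ϖs → IsUnit η → ((P.p : ℕ) : OE A Ks) = η * ϖs ^ P.p →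
    (∀ y : OE A Ks, ∃ a : ℕ → OE A K, y = ∑ i ∈ Finset.range P.p,
      CycloBase.inclOE A h (a i) * ϖs ^ i) →
  ∀ (hN : N' * P.p ∣ N' * 4 * P.p) (f : LE (N' * 4 * P.p) Ks),
    Sim Qb P.p (Fermat.Agent.S37.LevelPull.lvl hN (ι R)) (InvFun.upF (N' * 4 * P.p) Ks f) →
    ∃ ca cb : Ks, ∀ d : ℕ,
      GDepth (sigmaHom (N' * 4 * P.p) Ks) ϖs P.p d ca f ∧
      GDepth ((sigmaHom (N' * 4 * P.p) Ks).comp
        (wHom (N' * 4) P.p Ks P.pp hpM : LE (N' * 4 * P.p) Ks →+* LE (N' * 4 * P.p) Ks))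
        ϖs P.p d cb f

/-- **(ALT.8b, DescHoriz)** horizontal divisibility on the two charts of `α u₄`
(literal of `Alt.DescHoriz.horiz_desc`). -/
def HorizStatement : Prop :=
  ∀ (M q : ℕ) [NeZero M] [NeZero q] (A : ValuationSubring Qb) (Ks : IntermediateField ℚ Qb)
    [IsDiscreteValuationRing (OE A Ks)] (hq : q.Prime) (hqM : ¬ q ∣ M) (h4 : 4 ∣ M)
    (πs : OE A Ks) (hπs : Irreducible πs) (m : ℕ) (fs : LE (M * q) Ks) (hfs : fs ≠ 0)
    (hdiv : E4.DivBy (M * q) m (InvFun.upF (M * q) Ks fs)),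
    letI := algebraOL (OE A Ks) Ks (LE (M * q) Ks)
    haveI := isScalarTower_OL (OE A Ks) Ks (LE (M * q) Ks)
    HorizAdapter.Horiz πs m (alphaHom M q Ks (u4E M Ks h4)) fs ∧
    HorizAdapter.Horiz πs m (alphaHom M q Ks (u4E M Ks h4))⁻¹ fs ∧
    HorizAdapter.Horiz πs m (alphaHom M q Ks (u4E M Ks h4)) (wHom M q Ks hq hqM fs) ∧
    HorizAdapter.Horiz πs m (alphaHom M q Ks (u4E M Ks h4))⁻¹ (wHom M q Ks hq hqM fs)

/-- **(NZ.6, CrossingInst)** a crossing point of the two components on the chart of `α u₄` over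
the unramified base (literal of `CrossingInst.exists_crossing_u4_OE`). -/
def CrossStatement : Prop :=
  ∀ (A : ValuationSubring Qb) (M q : ℕ) [NeZero M] [NeZero q]
    (hq : q.Prime) (hodd : q ≠ 2) (hqM : ¬ q ∣ M) (h4 : 4 ∣ M) (hA : A.LiesOverPrime q)
    (K : IntermediateField ℚ Qb) [FiniteDimensional ℚ K] [IsDiscreteValuationRing (OE A K)]
    (hK : A.inertiaSubgroupIn ℚ ≤ K.fixingSubgroup)
    (z : Qb) (hz : IsPrimitiveRoot z M) (hzK : z ∈ K) (π : OE A K) (hπ : Irreducible π),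
    letI := algebraOL (OE A K) K (LE M K)
    letI := algebraOL (OE A K) K (LE (M * q) K)
    haveI := isScalarTower_OL (OE A K) K (LE M K)
    haveI := isScalarTower_OL (OE A K) K (LE (M * q) K)
    ∃ y : Ideal (Chart (OE A K) (alphaHom M q K (u4E M K h4))), y.IsMaximal ∧
      RingHom.ker (redInf π hπ (alphaHom M q K) (sigmaHom (M * q) K)
        (sigmaHom_algebraMap (M * q) K) (sigmaHom_mem_fracField (M * q) K A) (u4E M K h4)
        (u4 (OE A K)) (hσu_u4 M q K h4)) ≤ y ∧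
      RingHom.ker (redZero π hπ (alphaHom M q K) (sigmaHom (M * q) K)
        (sigmaHom_algebraMap (M * q) K) (sigmaHom_mem_fracField (M * q) K A) (u4E M K h4)
        (u4 (OE A K)) (hσu_u4 M q K h4) (wHom M q K hq hqM) (wHom_algebraMap M q K hq hqM) q
        (sigmaHom_wHom_alpha M q K hq hqM)) ≤ y

/-- The conclusion of NZ.5 = the hypothesis of NZ.7: pointwise `p`-th powers on both charts. -/
def PowBoth (A : ValuationSubring Qb) (M p : ℕ) [NeZero M] [NeZero p] (h4 : 4 ∣ M)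
    (Ks : IntermediateField ℚ Qb) (f : LE (M * p) Ks) (ca : Ks) : Prop :=
  letI := algebraOL (OE A Ks) Ks (LE (M * p) Ks)
  (∀ 𝔪 : Ideal (integralClosure (Algebra.adjoin (OE A Ks)
        ({alphaHom M p Ks (u4E M Ks h4)} : Set (LE (M * p) Ks))) (LE (M * p) Ks)),
      𝔪.IsMaximal →
      ((p : ℕ) : integralClosure (Algebra.adjoin (OE A Ks)
        ({alphaHom M p Ks (u4E M Ks h4)} : Set (LE (M * p) Ks))) (LE (M * p) Ks)) ∈ 𝔪 →
      PthPoint.PowAt (Algebra.adjoin (OE A Ks)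
        ({alphaHom M p Ks (u4E M Ks h4)} : Set (LE (M * p) Ks))) p
        (f / algebraMap Ks (LE (M * p) Ks) ca) 𝔪) ∧
  (∀ 𝔪 : Ideal (integralClosure (Algebra.adjoin (OE A Ks)
        ({(alphaHom M p Ks (u4E M Ks h4))⁻¹} : Set (LE (M * p) Ks))) (LE (M * p) Ks)),
      𝔪.IsMaximal →
      ((p : ℕ) : integralClosure (Algebra.adjoin (OE A Ks)
        ({(alphaHom M p Ks (u4E M Ks h4))⁻¹} : Set (LE (M * p) Ks))) (LE (M * p) Ks)) ∈ 𝔪 →
      PthPoint.PowAt (Algebra.adjoin (OE A Ks)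
        ({(alphaHom M p Ks (u4E M Ks h4))⁻¹} : Set (LE (M * p) Ks))) p
        (f / algebraMap Ks (LE (M * p) Ks) ca) 𝔪)

/-- **(NZ.5, ClosedPoint)** the closed-point lift with step (X) (literal (C) of helper211). -/
def ClosedPointStatement : Prop :=
  ∀ (A : ValuationSubring Qb) (M p : ℕ) [NeZero M] [NeZero p] (hp : p.Prime) (hp3 : 3 ≤ p)
    (hpM : ¬ p ∣ M) (h4 : 4 ∣ M) (hA : A.LiesOverPrime p) (K Ks : IntermediateField ℚ Qb)
    (h : K ≤ Ks) [FiniteDimensional ℚ K] [FiniteDimensional ℚ Ks]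
    [IsDiscreteValuationRing (OE A K)] [IsDiscreteValuationRing (OE A Ks)]
    (z : Qb) (hz : IsPrimitiveRoot z M) (hzK : z ∈ K) (h2 : IsUnit (2 : OE A K))
    (ϖ : OE A K) (hϖ : Irreducible ϖ) (e : OE A K) (he : IsUnit e)
    (hpe : ((p : ℕ) : OE A K) = ϖ * e)
    (ϖs η : OE A Ks) (hϖs : Irreducible ϖs) (hη : IsUnit η)
    (hpη : ((p : ℕ) : OE A Ks) = η * ϖs ^ p) (θ : (OE A K)[X]) (hθd : θ.natDegree < p)
    (hθ0 : IsUnit (θ.eval 0))
    (hθ : ϖs ^ p = ((p : ℕ) : OE A Ks) * θ.eval₂ (CycloBase.inclOE A h) ϖs)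
    (hexp : ∀ y : OE A Ks, ∃ a : ℕ → OE A K, y = ∑ i ∈ Finset.range p,
      CycloBase.inclOE A h (a i) * ϖs ^ i)
    (f : LE (M * p) Ks) (hf : f ≠ 0) (ca cb : Ks),
    letI := algebraOL (OE A K) K (LE M K)
    letI := algebraOL (OE A K) K (LE (M * p) K)
    haveI := isScalarTower_OL (OE A K) K (LE M K)
    haveI := isScalarTower_OL (OE A K) K (LE (M * p) K)
    letI := algebraOL (OE A Ks) Ks (LE (M * p) Ks)
    haveI := isScalarTower_OL (OE A Ks) Ks (LE (M * p) Ks)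
    HorizAdapter.Horiz ϖs p (alphaHom M p Ks (u4E M Ks h4)) f →
    HorizAdapter.Horiz ϖs p (alphaHom M p Ks (u4E M Ks h4))⁻¹ f →
    GDepth (sigmaHom (M * p) Ks) ϖs p (p + 2) ca f →
    GDepth ((sigmaHom (M * p) Ks).comp
      (wHom M p Ks hp hpM : LE (M * p) Ks →+* LE (M * p) Ks)) ϖs p (p + 2) cb f →
    (∃ y : Ideal (Chart (OE A K) (alphaHom M p K (u4E M K h4))), y.IsMaximal ∧
      RingHom.ker (redInf ϖ hϖ (alphaHom M p K) (sigmaHom (M * p) K)
        (sigmaHom_algebraMap (M * p) K) (sigmaHom_mem_fracField (M * p) K A) (u4E M K h4)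
        (u4 (OE A K)) (hσu_u4 M p K h4)) ≤ y ∧
      RingHom.ker (redZero ϖ hϖ (alphaHom M p K) (sigmaHom (M * p) K)
        (sigmaHom_algebraMap (M * p) K) (sigmaHom_mem_fracField (M * p) K A) (u4E M K h4)
        (u4 (OE A K)) (hσu_u4 M p K h4) (wHom M p K hp hpM) (wHom_algebraMap M p K hp hpM) p
        (sigmaHom_wHom_alpha M p K hp hpM)) ≤ y) →
    PowBoth A M p h4 Ks f ca

/-- **(NZ.7, Exit)** pointwise `p`-th powers on both charts give `f₀ ~ 1` at level `N`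
(literal (E2) of helper293, `Exit.sim_one_of_powAt_lvl`). -/
def ExitStatement : Prop :=
  ∀ (A : ValuationSubring Qb) (M p : ℕ) [NeZero M] [NeZero p] (hp : p.Prime) (hp3 : 3 ≤ p)
    (hpM : ¬ p ∣ M) (h4 : 4 ∣ M) (hA : A.LiesOverPrime p) (Ks : IntermediateField ℚ Qb)
    [FiniteDimensional ℚ Ks] [IsDiscreteValuationRing (OE A Ks)] (z : Qb)
    (hz : IsPrimitiveRoot z M) (hzK : z ∈ Ks) (ϖs η : OE A Ks) (hϖs : Irreducible ϖs)
    (hη : IsUnit η) (hpη : ((p : ℕ) : OE A Ks) = η * ϖs ^ p) (f : LE (M * p) Ks) (hf : f ≠ 0)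
    (ca : Ks) (hca : ca ≠ 0) (hp5 : 5 ≤ p) {N : ℕ} [NeZero N] (hMN : M * p = 4 * N)
    (hN : N ∣ M * p) (f0 : Fb N)
    (hf0 : Fermat.Agent.S37.LevelPull.lvl hN f0 = InvFun.upF (M * p) Ks f),
    PowBoth A M p h4 Ks f ca → Sim Qb p f0 1

/-! ### Glue -/

/-- `m ∣ div` passes through `~` (constants of `ℚ̄` are `p`-th powers). -/
theorem divBy_of_sim {N p : ℕ} [NeZero N] (hp : p ≠ 0) {x y : Fb N} (hx0 : x ≠ 0)
    (hx : E4.DivBy N p x) (h : Sim Qb p x y) : E4.DivBy N p y := by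
  obtain ⟨k, hk, hxy⟩ := h.exists_eq_mul_pow hp
  have hkp : k ^ p ≠ 0 := pow_ne_zero p hk
  have hy : y = x * (k ^ p)⁻¹ := by
    rw [hxy, mul_assoc, mul_inv_cancel₀ hkp, mul_one]
  rw [hy]
  exact E4.DivBy.mul hx0 (inv_ne_zero hkp) hx (E4.divBy_pow_self N p k).inv

/-- `~` passes through the level inclusion. -/
theorem sim_lvl {N M p : ℕ} [NeZero N] [NeZero M] (hNM : N ∣ M) {x y : Fb N}
    (h : Sim Qb p x y) :
    Sim Qb p (Fermat.Agent.S37.LevelPull.lvl hNM x) (Fermat.Agent.S37.LevelPull.lvl hNM y) := by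
  obtain ⟨c, k, hc, hk, hxy⟩ := h
  refine ⟨c, Fermat.Agent.S37.LevelPull.lvl hNM k, hc, (_root_.map_ne_zero _).2 hk, ?_⟩
  rw [hxy, map_mul, map_mul, map_pow, AlgHom.commutes]

/-! ### The assembly -/

/-- **`NZCoreEStatement` from the rows.** -/
theorem nzCoreEStatement_of_rows (hKum : KummerStatement) (hGen : GenStatement)
    (hHor : HorizStatement) (hCross : CrossStatement)
    (hCP : ClosedPointStatement) (hExit : ExitStatement) : OneCase.NZCoreEWStatement := by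
  classical
  intro P N' _ _ W hpN' hsq A hA ι hι R b hR hfix heis g hg
  obtain ⟨c, w, hcfix, hcval, hwfix, hwval, hbc, hval⟩ := heis
  have hp : P.p.Prime := P.pp
  have hp5 : 5 ≤ P.p := P.hp5
  have hp3 : 3 ≤ P.p := by omega
  have hodd : P.p ≠ 2 := by omega
  have hN0 : N' ≠ 0 := NeZero.ne N'
  have hpM : ¬ P.p ∣ N' * 4 := by
    intro h
    rcases (Nat.Prime.dvd_mul hp).mp h with hN | h4
    · exact hpN' hN
    · have := Nat.le_of_dvd (by norm_num) h4
      omega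
  have h4 : 4 ∣ N' * 4 := dvd_mul_left 4 N'
  -- a primitive `N' * 4`-th root of unity, fixed by inertia
  haveI : NeZero ((N' * 4 : ℕ) : Qb) := ⟨Nat.cast_ne_zero.mpr (by omega)⟩
  obtain ⟨z, hz⟩ := HasEnoughRootsOfUnity.exists_primitiveRoot Qb (N' * 4)
  have hzfix : ∀ τ ∈ A.inertiaSubgroupIn ℚ, τ z = z :=
    UnramBase.rootOfUnity_fixed A hp hA hpM hz.pow_eq_one
  obtain ⟨K₀, hK₀fin, hK₀fix, -, hK₀S⟩ :=
    StableBase.exists_stable_field A ({z, c, w} : Finset Qb) (by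
      intro s hs τ hτ
      simp only [Finset.mem_insert, Finset.mem_singleton] at hs
      rcases hs with rfl | rfl | rfl
      · exact hzfix τ hτ
      · exact hcfix τ hτ
      · exact hwfix τ hτ)
  refine ⟨K₀, hK₀fin, fun τ hτ x hx => hK₀fix τ hτ x hx, ?_⟩
  intro K hKfin hK₀K hKfix f0 y hy hyf hsim
  haveI := hKfin
  obtain ⟨K', hK'fin, hKK', hK'fix, hK'st, -⟩ :=
    StableBase.exists_stable_field_ge A K (fun τ hτ x hx => hKfix τ hτ x hx) ∅ (by simp)
  haveI := hK'fin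
  have hzK' : z ∈ K' := hKK' (hK₀K (hK₀S z (by simp)))
  have hcK' : c ∈ K' := hKK' (hK₀K (hK₀S c (by simp)))
  have hwK' : w ∈ K' := hKK' (hK₀K (hK₀S w (by simp)))
  have hK'le : A.inertiaSubgroupIn ℚ ≤ K'.fixingSubgroup :=
    UnramBase.le_fixingSubgroup_of_forall _ K' hK'fix
  -- the ramified base `Ks = K'(b)`
  obtain ⟨ϖs, η, θ, hϖs, hη, hpη, hθd, hθ0, hθ, hexp⟩ :=
    hKum A P.p hp hA K' hK'le b c w hcK' hcval hwK' hwval hbc hval
  haveI : IsDiscreteValuationRing (OE A K') :=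
    GaussDescent.isDiscreteValuationRing_OE A K' hp hA
  haveI : IsDiscreteValuationRing (OE A (CycloBase.cyclo K' b)) :=
    GaussDescent.isDiscreteValuationRing_OE A (CycloBase.cyclo K' b) hp hA
  -- extension of the coefficients of `y` from `K(b)` to `K'(b)`, read at level `N' * 4 * p`
  have hKsle : K ⊔ IntermediateField.adjoin ℚ ({b} : Set Qb) ≤ CycloBase.cyclo K' b :=
    sup_le_sup_right hKK' _
  have hN : N' * P.p ∣ N' * 4 * P.p := ⟨4, by ring⟩
  have hy' : coeffMap ((IntermediateField.inclusion hKsle : _ →ₐ[ℚ] _) : _ →+* _) y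
      ∈ LE (N' * 4 * P.p) (CycloBase.cyclo K' b) :=
    Fermat.Agent.S18.LevelDescent.LE_mono hN _
      (Fermat.Agent.S18.K1Top.coeffMap_mem_laurentBaseChange_hom _ hy)
  obtain ⟨f, hf⟩ : ∃ f : LE (N' * 4 * P.p) (CycloBase.cyclo K' b),
      (f : LaurentSeries (CycloBase.cyclo K' b))
        = coeffMap ((IntermediateField.inclusion hKsle : _ →ₐ[ℚ] _) : _ →+* _) y :=
    ⟨⟨_, hy'⟩, rfl⟩
  have hup : Fermat.Agent.S37.LevelPull.lvl hN f0
      = InvFun.upF (N' * 4 * P.p) (CycloBase.cyclo K' b) f := by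
    apply Subtype.ext
    rw [Fermat.Agent.S37.LevelPull.coe_lvl, InvFun.coe_upF, hf, ← hyf, coeffMap_coeffMap]
    exact coeffMap_congr (RingHom.ext fun _ => rfl) y
  have hιR : ι R ≠ 0 := hι.ne_zero R hR
  have hf00 : f0 ≠ 0 := hsim.ne_zero' hιR
  have hf0 : f ≠ 0 := by
    intro h0
    have h1 : Fermat.Agent.S37.LevelPull.lvl hN f0 = 0 := by rw [hup, h0, _root_.map_zero]
    exact hf00 ((map_eq_zero _).1 h1)
  -- (R1) generic depth at level `(N' * 4, p)`
  obtain ⟨ca, cb, hgen⟩ := hGen P N' W hpN' hpM hsq A hA ι hι R hR g hg K'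
    (CycloBase.cyclo K' b) (CycloBase.le_cyclo K' b) hK'le (fun τ hτ => hK'st τ hτ) z hz hzK'
    ϖs η hϖs hη hpη hexp hN f (by rw [← hup]; exact sim_lvl hN hsim)
  have hca : ca ≠ 0 := by
    obtain ⟨g0, y0, -, hx, -⟩ := (hgen 0).1
    rintro rfl
    apply hf0
    rw [hx, _root_.map_zero, zero_mul, zero_mul]
  have hMN : N' * 4 * P.p = 4 * (N' * P.p) := by ring
  -- (R3) horizontal divisibility
  have hdiv0 : E4.DivBy (N' * P.p) P.p f0 :=
    divBy_of_sim hp.ne_zero hιR (hι.divBy R hR) hsim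
  have hdiv : E4.DivBy (N' * 4 * P.p) P.p
      (InvFun.upF (N' * 4 * P.p) (CycloBase.cyclo K' b) f) := by
    rw [← hup]
    exact InvAux.divBy_lvl hN hdiv0
  have hhor := hHor (N' * 4) P.p A (CycloBase.cyclo K' b) hp hpM h4 ϖs hϖs P.p f hf0 hdiv
  -- the unramified base
  obtain ⟨ϖ, hϖ⟩ := IsDiscreteValuationRing.exists_irreducible (OE A K')
  obtain ⟨e, he, hpe⟩ := LevelQInstAlt.exists_unit_natCast_eq A K' hp hA hK'le ϖ hϖ
  have h2 : IsUnit (2 : OE A K') := by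
    have h := Fermat.Agent.S18.K1Main.isUnit_natCast_OE A K' hA 2
      ((Nat.coprime_primes Nat.prime_two hp).mpr (Ne.symm hodd))
    exact_mod_cast h
  -- (R4) the crossing point, (R5) the closed-point lift, (R6) the exit
  have hcross := hCross A (N' * 4) P.p hp hodd hpM h4 hA K' hK'le z hz hzK' ϖ hϖ
  have hcp := hCP A (N' * 4) P.p hp hp3 hpM h4 hA K' (CycloBase.cyclo K' b)
    (CycloBase.le_cyclo K' b) z hz hzK' h2 ϖ hϖ e he hpe ϖs η hϖs hη hpη θ hθd hθ0 hθ hexp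
    f hf0 ca cb hhor.1 hhor.2.1 (hgen (P.p + 2)).1 (hgen (P.p + 2)).2 hcross
  exact hExit A (N' * 4) P.p hp hp3 hpM h4 hA (CycloBase.cyclo K' b) z hz
    (CycloBase.le_cyclo K' b hzK') ϖs η hϖs hη hpη f hf0 ca hca hp5 hMN hN f0 hup hcp

end Fermat.Agent.S44.L.NZ.EisRows
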