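import Mathlib
import Fermat.Prelude.Thm_ModularCurve_coeffMap_qExpand

/-!
# S44 / strand L (NZ.1): transfer of the Frobenius stability `hfr` along a base change

The binder `hfr` of `R3Chart.r3_chart` (`FierceChart.hfierce_alpha` / `hfierce_beta`) says that
the reduced chart `r₀ (C₀) ⊆ κ₀((q))` is stable under the Frobenius up to fractions:
`∀ a, ∃ s r, r₀ s ≠ 0 ∧ (r₀ s)(q^ℓ) * (r₀ a)^ℓ = (r₀ r)(q^ℓ)`.
Over an unramified base it comes from a Frobenius lift (`FierceFrob.hfr_of_frob`); over a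
ramified base `O₁ ⊇ O₀` there is no such lift, and one transfers instead:

`hfr_transfer` : if `ι : C₀ → C₁` is compatible with the reductions (`r₁ ∘ ι = coeffMap φ ∘ r₀`,
`φ : κ₀ → κ₁` the map of residue fields) and every reduction `r₁ a` is a fraction of reductions
coming from `C₀` (`hT`, the conclusion of `GaussBC.exists_red_eq`), then `hfr` for `r₀` implies
`hfr` for `r₁`.

Abstract: no Gauss valuation, no chart; `Mathlib` + the frozen `coeffMap` / `qExpand` only.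
-/

set_option autoImplicit false

namespace Fermat.Agent.S44.L.NZ.HfrTransfer

open ModularCurve

/-- Coefficientwise extension along a field homomorphism is injective. -/
theorem coeffMap_inj {κ₀ κ₁ : Type*} [Field κ₀] [Field κ₁] (φ : κ₀ →+* κ₁) :
    Function.Injective (coeffMap φ) := by
  intro x y h
  ext k
  have hk := congrArg (fun z : LaurentSeries κ₁ => z.coeff k) h
  simp only [coeffMap_coeff] at hk
  exact φ.injective hk

/-- **Transfer of `hfr` along a base change.** -/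
theorem hfr_transfer {C₀ C₁ κ₀ κ₁ : Type*} [CommRing C₀] [CommRing C₁] [Field κ₀] [Field κ₁]
    (ℓ : ℕ) [NeZero ℓ] (φ : κ₀ →+* κ₁)
    (r₀ : C₀ →+* LaurentSeries κ₀) (r₁ : C₁ →+* LaurentSeries κ₁) (ι : C₀ →+* C₁)
    (hι : ∀ c : C₀, r₁ (ι c) = coeffMap φ (r₀ c))
    (hT : ∀ a : C₁, ∃ t a0 : C₀, r₀ t ≠ 0 ∧
      coeffMap φ (r₀ t) * r₁ a = coeffMap φ (r₀ a0))
    (hfr : ∀ a : C₀, ∃ s r : C₀, r₀ s ≠ 0 ∧
      qExpand κ₀ ℓ (r₀ s) * r₀ a ^ ℓ = qExpand κ₀ ℓ (r₀ r)) :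
    ∀ a : C₁, ∃ s r : C₁, r₁ s ≠ 0 ∧
      qExpand κ₁ ℓ (r₁ s) * r₁ a ^ ℓ = qExpand κ₁ ℓ (r₁ r) := by
  intro a
  obtain ⟨t, a0, ht, hta⟩ := hT a
  obtain ⟨s0, r0, hs0, h0⟩ := hfr a0
  obtain ⟨st, rt, hst, h1⟩ := hfr t
  have hrt : r₀ rt ≠ 0 := by
    intro h
    rw [h, map_zero] at h1
    rcases mul_eq_zero.mp h1 with h2 | h2
    · exact hst (qExpand_injective (R := κ₀) ℓ (h2.trans (map_zero _).symm))
    · exact ht ((pow_eq_zero_iff (NeZero.ne ℓ)).mp h2)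
  have e2 : qExpand κ₁ ℓ (coeffMap φ (r₀ s0)) * coeffMap φ (r₀ a0) ^ ℓ =
      qExpand κ₁ ℓ (coeffMap φ (r₀ r0)) := by
    have h := congrArg (coeffMap φ) h0
    rwa [map_mul, map_pow, coeffMap_qExpand, coeffMap_qExpand] at h
  have e3 : qExpand κ₁ ℓ (coeffMap φ (r₀ st)) * coeffMap φ (r₀ t) ^ ℓ =
      qExpand κ₁ ℓ (coeffMap φ (r₀ rt)) := by
    have h := congrArg (coeffMap φ) h1
    rwa [map_mul, map_pow, coeffMap_qExpand, coeffMap_qExpand] at h
  refine ⟨ι (s0 * rt), ι (r0 * st), ?_, ?_⟩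
  · rw [hι, map_mul]
    intro h
    exact mul_ne_zero hs0 hrt (coeffMap_inj φ (h.trans (map_zero _).symm))
  · simp only [hι, map_mul]
    rw [← e3, ← e2, ← hta]
    ring

end Fermat.Agent.S44.L.NZ.HfrTransfer
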