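import Mathlib
import Fermat.Agent.S34.TwoPrimesGauss
import Fermat.Agent.S44.L.NZ.HfrTransfer

/-!
# S44 / strand L (NZ.1): the Frobenius stability `hfr` over a ramified base, level-free core

Two copies of the variable block of `S34/TwoPrimesGauss` (index `₀`: the base `O₀`, in the
applications unramified; index `₁`: a base `O₁ ⊇ O₀`, possibly ramified, with the same residue
field), linked by

* `j : O₀ →+* O₁` local, `f : E₀ →+* E₁` on the fraction fields (`hfj`),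
* `lv : L'₀ →+* L'₁` on the level-`M` function fields, over `j` (`hlvO`), mapping the coordinate
  `u₀` to `u₁` (`hlvu`) and compatible with the `q`-expansions (`hlvσ`).

Results:

* `coeffMap_mem_V`, `red_coeffMap` : the coefficientwise extension `coeffMap f` maps the Gauss
  ring of `O₀` into the Gauss ring of `O₁`, compatibly with the reductions;
* `chartMap` : the induced map of chart rings `Chart O₀ u₀ → Chart O₁ u₁`, `redM_chartMap`;
* `hfr_of_base` : **transfer of `hfr`** (the binder of `R3Chart.r3_chart`,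
  `FierceChart.hfierce_alpha` / `hfierce_beta`).  If every element of the chart over `O₁` is
  `∑ k, b k * lv (c k)` with the `c k` in the chart over `O₀` (`hcoords`: the base change (BC)
  of the chart ring, `S19/Cech/BCChart`) and the residue field does not grow (`hres`), then `hfr`
  for the chart over `O₀` implies `hfr` for the chart over `O₁`.
  (`NZ/HfrTransfer.hfr_transfer` with `t = 1`.)
-/

set_option autoImplicit false
set_option linter.unusedSectionVars false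
set_option linter.style.haveILetI false

noncomputable section

namespace Fermat.Agent.S44.L.NZ.HfrRamCore

open ModularCurve Polynomial
open Fermat.Agent.S30 Fermat.Agent.S34.TwoPrimesGauss

/-! ### Base change of the Gauss ring -/

section Gauss

variable {O₀ E₀ O₁ E₁ : Type*}
  [CommRing O₀] [IsDomain O₀] [IsDiscreteValuationRing O₀] [Field E₀] [Algebra O₀ E₀]
  [FaithfulSMul O₀ E₀]
  [CommRing O₁] [IsDomain O₁] [IsDiscreteValuationRing O₁] [Field E₁] [Algebra O₁ E₁]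
  [FaithfulSMul O₁ E₁]
  (j : O₀ →+* O₁) [IsLocalHom j] (f : E₀ →+* E₁)
  (hfj : ∀ a : O₀, f (algebraMap O₀ E₀ a) = algebraMap O₁ E₁ (j a))

include hfj in
/-- `coeffMap f ∘ ι₀ = ι₁ ∘ coeffMap j`. -/
theorem coeffMap_iota (a : LaurentSeries O₀) :
    coeffMap f (GaussDVR.iota O₀ E₀ a) = GaussDVR.iota O₁ E₁ (coeffMap j a) := by
  ext k
  simp only [coeffMap_coeff]
  exact hfj _

/-- `ρ₁ ∘ coeffMap j = coeffMap (residue map) ∘ ρ₀`. -/
theorem rho_coeffMap (a : LaurentSeries O₀) :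
    GaussDVR.rho O₁ (coeffMap j a) =
      coeffMap (IsLocalRing.ResidueField.map j) (GaussDVR.rho O₀ a) := by
  ext k
  simp only [coeffMap_coeff]
  exact (IsLocalRing.ResidueField.map_residue j _).symm

theorem rho_coeffMap_ne_zero {b : LaurentSeries O₀} (hb : GaussDVR.rho O₀ b ≠ 0) :
    GaussDVR.rho O₁ (coeffMap j b) ≠ 0 := by
  rw [rho_coeffMap]
  exact fun h0 => hb (HfrTransfer.coeffMap_inj _ (h0.trans (map_zero _).symm))

include hfj in
/-- The coefficientwise extension maps the Gauss ring of `O₀` into the Gauss ring of `O₁`. -/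
theorem coeffMap_mem_V {x : LaurentSeries E₀} (hx : x ∈ GaussDVR.V O₀ E₀) :
    coeffMap f x ∈ GaussDVR.V O₁ E₁ := by
  obtain ⟨a, b, hb, h⟩ := hx
  refine ⟨coeffMap j a, coeffMap j b, rho_coeffMap_ne_zero j hb, ?_⟩
  rw [← coeffMap_iota j f hfj, ← coeffMap_iota j f hfj, ← map_mul, h]

include hfj in
/-- **The reduction commutes with the base change.** -/
theorem red_coeffMap (x : GaussDVR.V O₀ E₀) (y : GaussDVR.V O₁ E₁)
    (hxy : (y : LaurentSeries E₁) = coeffMap f (x : LaurentSeries E₀)) :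
    GaussDVR.red O₁ E₁ y =
      coeffMap (IsLocalRing.ResidueField.map j) (GaussDVR.red O₀ E₀ x) := by
  obtain ⟨a, b, hb, h⟩ := (GaussDVR.mem_V O₀ E₀).mp x.2
  rw [GaussDVR.red_eq O₁ E₁ y (coeffMap j a) (coeffMap j b) (rho_coeffMap_ne_zero j hb)
      (by rw [hxy, ← coeffMap_iota j f hfj, ← coeffMap_iota j f hfj, ← map_mul, h]),
    GaussDVR.red_eq O₀ E₀ x a b hb h, map_div₀, rho_coeffMap, rho_coeffMap]

/-- `coeffMap` on constants. -/
theorem coeffMap_C {κ₀ κ₁ : Type*} [Field κ₀] [Field κ₁] (φ : κ₀ →+* κ₁) (c : κ₀) :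
    coeffMap φ (HahnSeries.C c : LaurentSeries κ₀) = HahnSeries.C (φ c) := by
  rw [HahnSeries.C_apply, HahnSeries.C_apply, coeffMap_single]

end Gauss

/-! ### Constants of a chart ring -/

section Const

variable {O E : Type*} [CommRing O] [IsDomain O] [IsDiscreteValuationRing O] [Field E]
  [Algebra O E] [FaithfulSMul O E]
  {L' L : Type*} [Field L'] [Field L] [Algebra O L'] [Algebra O L]

/-- The constants `O → Chart O u`. -/
def constC (u : L') : O →+* Chart O u :=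
  (algebraMap (Algebra.adjoin O {u}) (Chart O u)).comp (algebraMap O (Algebra.adjoin O {u}))

theorem coe_constC (u : L') (r : O) : ((constC u r : Chart O u) : L') = algebraMap O L' r := rfl

variable (ϖ : O) (hϖ : Irreducible ϖ)
  (α : L' →+* L) (hαO : ∀ r : O, α (algebraMap O L' r) = algebraMap O L r)
  (σ : L →+* LaurentSeries E)
  (hσO : ∀ r : O, σ (algebraMap O L r) = HahnSeries.C (algebraMap O E r))
  (hσfrac : ∀ x : L, σ x ∈ GaussDVR.fracField O E)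
  (u' : L') (U : LaurentSeries O) (hσu : σ (α u') = GaussDVR.iota O E U)

/-- The level-`M` reduction of a constant. -/
theorem redM_constC (r : O) :
    redM ϖ hϖ α hαO σ hσO hσfrac u' U hσu (constC u' r) =
      HahnSeries.C (IsLocalRing.residue O r) := by
  rw [redM, redHom_of_int (σ.comp α) (sigmaM_O α hαO σ hσO) ϖ hϖ (fun x => hσfrac (α x)) u' U hσu
    (constC u' r) (HahnSeries.C r)
    (by rw [coe_constC, sigmaM_O α hαO σ hσO, GaussDVR.iota_C]),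
    GaussDVR.rho_C]

end Const

/-! ### Two bases -/

section Chart

variable {O₀ E₀ O₁ E₁ : Type*}
  [CommRing O₀] [IsDomain O₀] [IsDiscreteValuationRing O₀] [Field E₀] [Algebra O₀ E₀]
  [FaithfulSMul O₀ E₀]
  [CommRing O₁] [IsDomain O₁] [IsDiscreteValuationRing O₁] [Field E₁] [Algebra O₁ E₁]
  [FaithfulSMul O₁ E₁]
  (j : O₀ →+* O₁) [IsLocalHom j] (f : E₀ →+* E₁)
  (hfj : ∀ a : O₀, f (algebraMap O₀ E₀ a) = algebraMap O₁ E₁ (j a))
  {L'₀ L₀ : Type*} [Field L'₀] [Field L₀] [Algebra O₀ L'₀] [Algebra O₀ L₀]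
  {L'₁ L₁ : Type*} [Field L'₁] [Field L₁] [Algebra O₁ L'₁] [Algebra O₁ L₁]
  (ϖ₀ : O₀) (hϖ₀ : Irreducible ϖ₀)
  (α₀ : L'₀ →+* L₀) (hαO₀ : ∀ r : O₀, α₀ (algebraMap O₀ L'₀ r) = algebraMap O₀ L₀ r)
  (σ₀ : L₀ →+* LaurentSeries E₀)
  (hσO₀ : ∀ r : O₀, σ₀ (algebraMap O₀ L₀ r) = HahnSeries.C (algebraMap O₀ E₀ r))
  (hσfrac₀ : ∀ x : L₀, σ₀ x ∈ GaussDVR.fracField O₀ E₀)
  (u₀ : L'₀) (U₀ : LaurentSeries O₀) (hσu₀ : σ₀ (α₀ u₀) = GaussDVR.iota O₀ E₀ U₀)
  (ϖ₁ : O₁) (hϖ₁ : Irreducible ϖ₁)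
  (α₁ : L'₁ →+* L₁) (hαO₁ : ∀ r : O₁, α₁ (algebraMap O₁ L'₁ r) = algebraMap O₁ L₁ r)
  (σ₁ : L₁ →+* LaurentSeries E₁)
  (hσO₁ : ∀ r : O₁, σ₁ (algebraMap O₁ L₁ r) = HahnSeries.C (algebraMap O₁ E₁ r))
  (hσfrac₁ : ∀ x : L₁, σ₁ x ∈ GaussDVR.fracField O₁ E₁)
  (u₁ : L'₁) (U₁ : LaurentSeries O₁) (hσu₁ : σ₁ (α₁ u₁) = GaussDVR.iota O₁ E₁ U₁)
  (lv : L'₀ →+* L'₁)
  (hlvO : ∀ a : O₀, lv (algebraMap O₀ L'₀ a) = algebraMap O₁ L'₁ (j a))
  (hlvu : lv u₀ = u₁)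
  (hlvσ : ∀ x : L'₀, σ₁ (α₁ (lv x)) = coeffMap f (σ₀ (α₀ x)))

local notation "rM₀" => redM ϖ₀ hϖ₀ α₀ hαO₀ σ₀ hσO₀ hσfrac₀ u₀ U₀ hσu₀
local notation "rM₁" => redM ϖ₁ hϖ₁ α₁ hαO₁ σ₁ hσO₁ hσfrac₁ u₁ U₁ hσu₁

include hlvO hlvu in
theorem aeval_lv :
    lv.comp ((aeval u₀ : O₀[X] →ₐ[O₀] L'₀) : O₀[X] →+* L'₀) =
      ((aeval u₁ : O₁[X] →ₐ[O₁] L'₁) : O₁[X] →+* L'₁).comp (Polynomial.mapRingHom j) := by
  refine Polynomial.ringHom_ext (fun r => ?_) ?_
  · simp [hlvO]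
  · simp [hlvu]

include hlvO hlvu in
/-- `lv` maps the chart over `O₀` into the chart over `O₁`. -/
theorem isIntegral_lv {x : L'₀} (hx : IsIntegral (Algebra.adjoin O₀ {u₀}) x) :
    IsIntegral (Algebra.adjoin O₁ {u₁}) (lv x) := by
  rw [isIntegral_adjoin_iff] at hx ⊢
  obtain ⟨q, hq, hqx⟩ := hx
  refine ⟨q.map (Polynomial.mapRingHom j), hq.map _, ?_⟩
  rw [Polynomial.eval₂_map, ← aeval_lv j u₀ u₁ lv hlvO hlvu, ← Polynomial.hom_eval₂, hqx,
    map_zero]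

/-- The base change of chart rings `Chart O₀ u₀ → Chart O₁ u₁`. -/
def chartMap : Chart O₀ u₀ →+* Chart O₁ u₁ where
  toFun x := ⟨lv (x : L'₀), isIntegral_lv j u₀ u₁ lv hlvO hlvu x.2⟩
  map_one' := Subtype.ext (map_one lv)
  map_mul' _ _ := Subtype.ext (map_mul lv _ _)
  map_zero' := Subtype.ext (map_zero lv)
  map_add' _ _ := Subtype.ext (map_add lv _ _)

theorem coe_chartMap (x : Chart O₀ u₀) :
    ((chartMap j u₀ u₁ lv hlvO hlvu x : Chart O₁ u₁) : L'₁) = lv (x : L'₀) := rfl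

include hfj hlvσ in
/-- The level-`M` reductions commute with the base change of chart rings. -/
theorem redM_chartMap (c : Chart O₀ u₀) :
    rM₁ (chartMap j u₀ u₁ lv hlvO hlvu c) =
      coeffMap (IsLocalRing.ResidueField.map j) (rM₀ c) := by
  show GaussDVR.red O₁ E₁ (toV (σ₁.comp α₁) (sigmaM_O α₁ hαO₁ σ₁ hσO₁) ϖ₁ hϖ₁
      (fun x => hσfrac₁ (α₁ x)) u₁ U₁ hσu₁ (chartMap j u₀ u₁ lv hlvO hlvu c)) =
    coeffMap (IsLocalRing.ResidueField.map j) (GaussDVR.red O₀ E₀ (toV (σ₀.comp α₀)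
      (sigmaM_O α₀ hαO₀ σ₀ hσO₀) ϖ₀ hϖ₀ (fun x => hσfrac₀ (α₀ x)) u₀ U₀ hσu₀ c))
  exact red_coeffMap j f hfj _ _ (hlvσ (c : L'₀))

include hfj hlvO hlvu hlvσ in
/-- **Transfer of the Frobenius stability `hfr` to a (ramified) base with the same residue
field.**  `hcoords` is the base change of the level-`M` chart ring, `hres` says that the residue
field does not grow. -/
theorem hfr_of_base (ℓ : ℕ) [NeZero ℓ] {r : ℕ} (b : Fin r → O₁)
    (hres : ∀ a : O₁, ∃ a' : O₀, ¬ IsUnit (a - j a'))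
    (hcoords : ∀ x : L'₁, IsIntegral (Algebra.adjoin O₁ {u₁}) x → ∃ c : Fin r → L'₀,
      (∀ k, IsIntegral (Algebra.adjoin O₀ {u₀}) (c k)) ∧
        x = ∑ k, algebraMap O₁ L'₁ (b k) * lv (c k))
    (hfr : ∀ a : Chart O₀ u₀, ∃ s t : Chart O₀ u₀, rM₀ s ≠ 0 ∧
      qExpand (IsLocalRing.ResidueField O₀) ℓ (rM₀ s) * rM₀ a ^ ℓ =
        qExpand (IsLocalRing.ResidueField O₀) ℓ (rM₀ t)) :
    ∀ a : Chart O₁ u₁, ∃ s t : Chart O₁ u₁, rM₁ s ≠ 0 ∧
      qExpand (IsLocalRing.ResidueField O₁) ℓ (rM₁ s) * rM₁ a ^ ℓ =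
        qExpand (IsLocalRing.ResidueField O₁) ℓ (rM₁ t) := by
  refine HfrTransfer.hfr_transfer ℓ (IsLocalRing.ResidueField.map j) rM₀ rM₁
    (chartMap j u₀ u₁ lv hlvO hlvu)
    (redM_chartMap j f hfj ϖ₀ hϖ₀ α₀ hαO₀ σ₀ hσO₀ hσfrac₀ u₀ U₀ hσu₀ ϖ₁ hϖ₁ α₁ hαO₁ σ₁ hσO₁
      hσfrac₁ u₁ U₁ hσu₁ lv hlvO hlvu hlvσ) ?_ hfr
  intro a
  obtain ⟨c, hc, hac⟩ := hcoords (a : L'₁) a.2
  choose b' hb' using fun k => hres (b k)
  have hbres : ∀ k, IsLocalRing.residue O₁ (b k) =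
      IsLocalRing.ResidueField.map j (IsLocalRing.residue O₀ (b' k)) := by
    intro k
    have h0 : IsLocalRing.residue O₁ (b k - j (b' k)) = 0 :=
      (IsLocalRing.residue_eq_zero_iff _).mpr ((IsLocalRing.mem_maximalIdeal _).mpr (hb' k))
    rw [map_sub, sub_eq_zero] at h0
    rw [h0, IsLocalRing.ResidueField.map_residue]
  refine ⟨1, ∑ k, constC u₀ (b' k) * (⟨c k, hc k⟩ : Chart O₀ u₀), ?_, ?_⟩
  · rw [map_one]
    exact one_ne_zero
  · have ha : a = ∑ k, constC u₁ (b k) *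
        chartMap j u₀ u₁ lv hlvO hlvu (⟨c k, hc k⟩ : Chart O₀ u₀) :=
      Subtype.ext (hac.trans (by rw [AddSubmonoidClass.coe_finsetSum]; rfl))
    rw [map_one, map_one, one_mul, ha, map_sum, map_sum, map_sum]
    refine Finset.sum_congr rfl fun k _ => ?_
    rw [map_mul, map_mul, map_mul,
      redM_chartMap j f hfj ϖ₀ hϖ₀ α₀ hαO₀ σ₀ hσO₀ hσfrac₀ u₀ U₀ hσu₀ ϖ₁ hϖ₁ α₁ hαO₁ σ₁ hσO₁
        hσfrac₁ u₁ U₁ hσu₁ lv hlvO hlvu hlvσ,
      redM_constC, redM_constC, coeffMap_C, hbres k]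

end Chart

end Fermat.Agent.S44.L.NZ.HfrRamCore
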