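import Mathlib
import Fermat.Agent.S34.Sat
import Fermat.Agent.S19.Cech.BCChart
import Fermat.Agent.S44.L.NZ.HfrRamCore

/-!
# S44 / strand L (NZ.1): the Frobenius stability `hfr` over a ramified base, `E`-level

`Qb = AlgebraicClosure ℚ`, `A` a valuation subring of `Qb`, `K ≤ Ks` intermediate fields with
`O = OE A K`, `Os = OE A Ks` discrete valuation rings (in the applications `K` is unramified and
`Ks = K(b)` is ramified with the same residue field), levels `(M, M ℓ)`, coordinate `j`: the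
objects of `S34/Sat.sat_j` over `K` and over `Ks`.

The binder `hfr` of `R3Chart.r3_chart` (`FierceChart.hfierce_alpha` / `hfierce_beta`) over the
unramified base comes from a Frobenius lift (`FierceFrob.hfr_of_frob`); over `Os` there is no
such lift and it is transferred instead:

* `lvl_jE`, `sigma_alpha_lvl` : the coefficientwise inclusion `lvl M h : LE M K → LE M Ks` maps
  `j` to `j` and commutes with the `q`-expansions of level `M ℓ`;
* `exists_coords_jE` : the base change (BC) of the level-`M` chart of `j`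
  (`S19/Cech/BCChart.isIntegral_iff_inSpan_lvl` at `S' = {j}`), in coordinates;
* `hfr_jE_of_base_OL` : the transfer for the canonical algebra structures `algebraOL`;
* `hfr_jE_of_base` : **the transfer in the instance-binder form of `Sat.sat_j`** — `hfr` over
  `OE A Ks` (any uniformiser `πs`) from `hfr` over `OE A K`, for every family `b` with the
  binder block of `BCChart.isIntegral_iff_inSpan_lvl` at level `M` and `π` prime in the level-`M`
  chart over `OE A K`.
-/

set_option autoImplicit false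
set_option linter.unusedSectionVars false
set_option linter.unusedVariables false
set_option linter.style.haveILetI false
set_option synthInstance.maxHeartbeats 400000
set_option maxHeartbeats 1600000

open ModularCurve Polynomial

noncomputable section

namespace Fermat.Agent.S44.L.NZ.HfrRam

open Fermat.Agent.S18.K1Defs Fermat.Agent.S30 Fermat.Agent.S30.E2Deg
open Fermat.Agent.S34 Fermat.Agent.S34.Sat
open Fermat.Agent.S34.TwoPrimesRank Fermat.Agent.S34.HauptU.Plug Fermat.Agent.S34.TwoPrimesGauss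
open Fermat.Agent.S36.CycloBase Fermat.Agent.Lib.ChartBaseChange Fermat.Agent.S19.Cech.BCChart

local notation "Qb" => AlgebraicClosure ℚ

/-! ### The level map and the coordinate `j` -/

section Lvl

variable (M ℓ : ℕ) [NeZero M] [NeZero ℓ] {K Ks : IntermediateField ℚ Qb} (h : K ≤ Ks)

/-- `lvl` maps `j` over `K` to `j` over `Ks`. -/
theorem lvl_jE : lvl M h (jE M K) = jE M Ks :=
  lvl_eq_of_coeffEmb M h (coe_jE M K) (coe_jE M Ks)

/-- `lvl` commutes with the `q`-expansions of level `M ℓ` (through `α`). -/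
theorem sigma_alpha_lvl (x : LE M K) :
    sigmaHom (M * ℓ) Ks (alphaHom M ℓ Ks (lvl M h x)) =
      coeffMap (IntermediateField.inclusion h : K →+* Ks)
        (sigmaHom (M * ℓ) K (alphaHom M ℓ K x)) := by
  rw [sigma_alpha, sigma_alpha, coe_lvl]

end Lvl

/-! ### The base change of the level-`M` chart of `j` -/

section Arithmetic

variable (M ℓ : ℕ) [NeZero M] [NeZero ℓ] (A : ValuationSubring Qb)
  {K Ks : IntermediateField ℚ Qb} (h : K ≤ Ks)
  [IsDiscreteValuationRing (OE A K)] [IsDiscreteValuationRing (OE A Ks)]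

/-- **(BC) for the level-`M` chart of `j`, in coordinates.**  Every element of the chart over
`OE A Ks` is `∑ k, b k * lvl (c k)` with the `c k` in the chart over `OE A K`. -/
theorem exists_coords_jE (π : OE A K) (hπ : Irreducible π) {r : ℕ} (b : Fin r → OE A Ks)
    (hspanO : ∀ a : OE A Ks, ∃ a' : Fin r → OE A K, a = ∑ k, inclOE A h (a' k) * b k)
    (hres : ∀ a : OE A Ks, ∃ a' : OE A K, ¬ IsUnit (a - inclOE A h a'))
    (hindL : ∀ c : Fin r → LaurentSeries K,
      ∑ k, algebraMap Ks (LaurentSeries Ks) ((b k : OE A Ks) : Ks) *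
        coeffMap (IntermediateField.inclusion h : K →+* Ks) (c k) = 0 → ∀ k, c k = 0)
    (hspanL : ∀ x : LaurentSeries Ks, x ∈ LE M Ks → ∃ c : Fin r → LaurentSeries K,
      (∀ k, c k ∈ LE M K) ∧ x = ∑ k, algebraMap Ks (LaurentSeries Ks) ((b k : OE A Ks) : Ks) *
        coeffMap (IntermediateField.inclusion h : K →+* Ks) (c k)) :
    letI := Fermat.Agent.S18.K1Main.algebraOL (OE A K) K (LE M K)
    letI := Fermat.Agent.S18.K1Main.algebraOL (OE A Ks) Ks (LE M Ks)
    Prime (piC (jE M K) π) →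
    ∀ x : LE M Ks, IsIntegral (Algebra.adjoin (OE A Ks) ({jE M Ks} : Set (LE M Ks))) x →
      ∃ c : Fin r → LE M K,
        (∀ k, IsIntegral (Algebra.adjoin (OE A K) ({jE M K} : Set (LE M K))) (c k)) ∧
        x = ∑ k, algebraMap (OE A Ks) (LE M Ks) (b k) * lvl M h (c k) := by
  letI := Fermat.Agent.S18.K1Main.algebraOL (OE A K) K (LE M K)
  letI := Fermat.Agent.S18.K1Main.algebraOL (OE A Ks) Ks (LE M Ks)
  letI := (inclOE A h).toAlgebra
  intro hprime x hx
  have key := isIntegral_iff_inSpan_lvl M A h b hspanO hres hindL hspanL π hπ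
    ({jE M K} : Set (LE M K))
    (hrad_of_prime (Algebra.adjoin (OE A K) ({jE M K} : Set (LE M K))) π hprime) x
  rw [Set.image_singleton, lvl_jE M h] at key
  exact key.mp hx

/-- **Transfer of `hfr` from `OE A K` to `OE A Ks`**, for the canonical algebra structures
`algebraOL` at the two levels. -/
theorem hfr_jE_of_base_OL (π : OE A K) (hπ : Irreducible π) (πs : OE A Ks)
    (hπs : Irreducible πs) {r : ℕ} (b : Fin r → OE A Ks)
    (hspanO : ∀ a : OE A Ks, ∃ a' : Fin r → OE A K, a = ∑ k, inclOE A h (a' k) * b k)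
    (hres : ∀ a : OE A Ks, ∃ a' : OE A K, ¬ IsUnit (a - inclOE A h a'))
    (hindL : ∀ c : Fin r → LaurentSeries K,
      ∑ k, algebraMap Ks (LaurentSeries Ks) ((b k : OE A Ks) : Ks) *
        coeffMap (IntermediateField.inclusion h : K →+* Ks) (c k) = 0 → ∀ k, c k = 0)
    (hspanL : ∀ x : LaurentSeries Ks, x ∈ LE M Ks → ∃ c : Fin r → LaurentSeries K,
      (∀ k, c k ∈ LE M K) ∧ x = ∑ k, algebraMap Ks (LaurentSeries Ks) ((b k : OE A Ks) : Ks) *
        coeffMap (IntermediateField.inclusion h : K →+* Ks) (c k)) :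
    letI := Fermat.Agent.S18.K1Main.algebraOL (OE A K) K (LE M K)
    haveI := Fermat.Agent.S18.K1Main.isScalarTower_OL (OE A K) K (LE M K)
    letI := Fermat.Agent.S18.K1Main.algebraOL (OE A K) K (LE (M * ℓ) K)
    haveI := Fermat.Agent.S18.K1Main.isScalarTower_OL (OE A K) K (LE (M * ℓ) K)
    letI := Fermat.Agent.S18.K1Main.algebraOL (OE A Ks) Ks (LE M Ks)
    haveI := Fermat.Agent.S18.K1Main.isScalarTower_OL (OE A Ks) Ks (LE M Ks)
    letI := Fermat.Agent.S18.K1Main.algebraOL (OE A Ks) Ks (LE (M * ℓ) Ks)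
    haveI := Fermat.Agent.S18.K1Main.isScalarTower_OL (OE A Ks) Ks (LE (M * ℓ) Ks)
    Prime (piC (jE M K) π) →
    (∀ a : Chart (OE A K) (jE M K), ∃ s t : Chart (OE A K) (jE M K),
      redM π hπ (alphaHom M ℓ K) (alphaHom_algebraMap M ℓ K) (sigmaHom (M * ℓ) K)
        (sigmaHom_algebraMap (M * ℓ) K) (sigmaHom_mem_fracField (M * ℓ) K A) (jE M K)
        (jqModC (OE A K)) (hσu_j M ℓ K) s ≠ 0 ∧
      qExpand (IsLocalRing.ResidueField (OE A K)) ℓ
          (redM π hπ (alphaHom M ℓ K) (alphaHom_algebraMap M ℓ K) (sigmaHom (M * ℓ) K)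
            (sigmaHom_algebraMap (M * ℓ) K) (sigmaHom_mem_fracField (M * ℓ) K A) (jE M K)
            (jqModC (OE A K)) (hσu_j M ℓ K) s) *
        redM π hπ (alphaHom M ℓ K) (alphaHom_algebraMap M ℓ K) (sigmaHom (M * ℓ) K)
          (sigmaHom_algebraMap (M * ℓ) K) (sigmaHom_mem_fracField (M * ℓ) K A) (jE M K)
          (jqModC (OE A K)) (hσu_j M ℓ K) a ^ ℓ =
      qExpand (IsLocalRing.ResidueField (OE A K)) ℓ
          (redM π hπ (alphaHom M ℓ K) (alphaHom_algebraMap M ℓ K) (sigmaHom (M * ℓ) K)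
            (sigmaHom_algebraMap (M * ℓ) K) (sigmaHom_mem_fracField (M * ℓ) K A) (jE M K)
            (jqModC (OE A K)) (hσu_j M ℓ K) t)) →
    ∀ a : Chart (OE A Ks) (jE M Ks), ∃ s t : Chart (OE A Ks) (jE M Ks),
      redM πs hπs (alphaHom M ℓ Ks) (alphaHom_algebraMap M ℓ Ks) (sigmaHom (M * ℓ) Ks)
        (sigmaHom_algebraMap (M * ℓ) Ks) (sigmaHom_mem_fracField (M * ℓ) Ks A) (jE M Ks)
        (jqModC (OE A Ks)) (hσu_j M ℓ Ks) s ≠ 0 ∧
      qExpand (IsLocalRing.ResidueField (OE A Ks)) ℓ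
          (redM πs hπs (alphaHom M ℓ Ks) (alphaHom_algebraMap M ℓ Ks) (sigmaHom (M * ℓ) Ks)
            (sigmaHom_algebraMap (M * ℓ) Ks) (sigmaHom_mem_fracField (M * ℓ) Ks A) (jE M Ks)
            (jqModC (OE A Ks)) (hσu_j M ℓ Ks) s) *
        redM πs hπs (alphaHom M ℓ Ks) (alphaHom_algebraMap M ℓ Ks) (sigmaHom (M * ℓ) Ks)
          (sigmaHom_algebraMap (M * ℓ) Ks) (sigmaHom_mem_fracField (M * ℓ) Ks A) (jE M Ks)
          (jqModC (OE A Ks)) (hσu_j M ℓ Ks) a ^ ℓ =
      qExpand (IsLocalRing.ResidueField (OE A Ks)) ℓ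
          (redM πs hπs (alphaHom M ℓ Ks) (alphaHom_algebraMap M ℓ Ks) (sigmaHom (M * ℓ) Ks)
            (sigmaHom_algebraMap (M * ℓ) Ks) (sigmaHom_mem_fracField (M * ℓ) Ks A) (jE M Ks)
            (jqModC (OE A Ks)) (hσu_j M ℓ Ks) t) := by
  letI := Fermat.Agent.S18.K1Main.algebraOL (OE A K) K (LE M K)
  haveI := Fermat.Agent.S18.K1Main.isScalarTower_OL (OE A K) K (LE M K)
  letI := Fermat.Agent.S18.K1Main.algebraOL (OE A K) K (LE (M * ℓ) K)
  haveI := Fermat.Agent.S18.K1Main.isScalarTower_OL (OE A K) K (LE (M * ℓ) K)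
  letI := Fermat.Agent.S18.K1Main.algebraOL (OE A Ks) Ks (LE M Ks)
  haveI := Fermat.Agent.S18.K1Main.isScalarTower_OL (OE A Ks) Ks (LE M Ks)
  letI := Fermat.Agent.S18.K1Main.algebraOL (OE A Ks) Ks (LE (M * ℓ) Ks)
  haveI := Fermat.Agent.S18.K1Main.isScalarTower_OL (OE A Ks) Ks (LE (M * ℓ) Ks)
  intro hprime hfr
  have hco := exists_coords_jE M A h π hπ b hspanO hres hindL hspanL hprime
  exact HfrRamCore.hfr_of_base (inclOE A h) (IntermediateField.inclusion h : K →+* Ks)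
    (fun _ => rfl)
    π hπ (alphaHom M ℓ K) (alphaHom_algebraMap M ℓ K) (sigmaHom (M * ℓ) K)
    (sigmaHom_algebraMap (M * ℓ) K) (sigmaHom_mem_fracField (M * ℓ) K A) (jE M K)
    (jqModC (OE A K)) (hσu_j M ℓ K)
    πs hπs (alphaHom M ℓ Ks) (alphaHom_algebraMap M ℓ Ks) (sigmaHom (M * ℓ) Ks)
    (sigmaHom_algebraMap (M * ℓ) Ks) (sigmaHom_mem_fracField (M * ℓ) Ks A) (jE M Ks)
    (jqModC (OE A Ks)) (hσu_j M ℓ Ks)
    (lvl M h) (fun a => lvl_algebraMap M h (a : K)) (lvl_jE M h) (sigma_alpha_lvl M ℓ h)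
    ℓ b hres hco hfr

end Arithmetic

/-! ### The exit, in the instance-binder form of `Sat.sat_j` -/

/-- Any `O`-algebra structure on `L ⊆ E((q))` compatible with the tower `O → E → L` is the
canonical one. -/
theorem algebraOL_eq' (O E : Type*) [CommRing O] [Field E] [Algebra O E]
    (L : IntermediateField E (LaurentSeries E)) [i : Algebra O L] [IsScalarTower O E L] :
    Fermat.Agent.S18.K1Main.algebraOL O E L = i :=
  Algebra.algebra_ext _ _ (fun r => (IsScalarTower.algebraMap_apply O E L r).symm)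

/-- **(NZ.1, `hfr` over the ramified base.)**  The binder `hfr` of `R3Chart.r3_chart` at the
objects of `Sat.sat_j` over `OE A Ks` (any uniformiser `πs`) from the same binder over
`OE A K`, `K ≤ Ks`: for every family `b : Fin r → OE A Ks` which spans `OE A Ks` over `OE A K`
and is a basis of `LE M Ks` over `lvl (LE M K)`, with residue degree one (the binder block of
`BCChart.isIntegral_iff_inSpan_lvl` at level `M`), and `π` prime in the level-`M` chart of `j`
over `OE A K`. -/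
theorem hfr_jE_of_base (M ℓ : ℕ) [NeZero M] [NeZero ℓ] (A : ValuationSubring Qb)
    {K Ks : IntermediateField ℚ Qb} (h : K ≤ Ks)
    [IsDiscreteValuationRing (OE A K)] [IsDiscreteValuationRing (OE A Ks)]
    [i₀ : Algebra (OE A K) (LE M K)] [IsScalarTower (OE A K) K (LE M K)]
    [i₀' : Algebra (OE A K) (LE (M * ℓ) K)] [IsScalarTower (OE A K) K (LE (M * ℓ) K)]
    [i₁ : Algebra (OE A Ks) (LE M Ks)] [IsScalarTower (OE A Ks) Ks (LE M Ks)]
    [i₁' : Algebra (OE A Ks) (LE (M * ℓ) Ks)] [IsScalarTower (OE A Ks) Ks (LE (M * ℓ) Ks)]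
    (π : OE A K) (hπ : Irreducible π) (πs : OE A Ks) (hπs : Irreducible πs)
    (hprime : Prime (piC (jE M K) π))
    {r : ℕ} (b : Fin r → OE A Ks)
    (hspanO : ∀ a : OE A Ks, ∃ a' : Fin r → OE A K, a = ∑ k, inclOE A h (a' k) * b k)
    (hres : ∀ a : OE A Ks, ∃ a' : OE A K, ¬ IsUnit (a - inclOE A h a'))
    (hindL : ∀ c : Fin r → LaurentSeries K,
      ∑ k, algebraMap Ks (LaurentSeries Ks) ((b k : OE A Ks) : Ks) *
        coeffMap (IntermediateField.inclusion h : K →+* Ks) (c k) = 0 → ∀ k, c k = 0)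
    (hspanL : ∀ x : LaurentSeries Ks, x ∈ LE M Ks → ∃ c : Fin r → LaurentSeries K,
      (∀ k, c k ∈ LE M K) ∧ x = ∑ k, algebraMap Ks (LaurentSeries Ks) ((b k : OE A Ks) : Ks) *
        coeffMap (IntermediateField.inclusion h : K →+* Ks) (c k))
    (hfr : ∀ a : Chart (OE A K) (jE M K), ∃ s t : Chart (OE A K) (jE M K),
      redM π hπ (alphaHom M ℓ K) (alphaHom_algebraMap M ℓ K) (sigmaHom (M * ℓ) K)
        (sigmaHom_algebraMap (M * ℓ) K) (sigmaHom_mem_fracField (M * ℓ) K A) (jE M K)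
        (jqModC (OE A K)) (hσu_j M ℓ K) s ≠ 0 ∧
      qExpand (IsLocalRing.ResidueField (OE A K)) ℓ
          (redM π hπ (alphaHom M ℓ K) (alphaHom_algebraMap M ℓ K) (sigmaHom (M * ℓ) K)
            (sigmaHom_algebraMap (M * ℓ) K) (sigmaHom_mem_fracField (M * ℓ) K A) (jE M K)
            (jqModC (OE A K)) (hσu_j M ℓ K) s) *
        redM π hπ (alphaHom M ℓ K) (alphaHom_algebraMap M ℓ K) (sigmaHom (M * ℓ) K)
          (sigmaHom_algebraMap (M * ℓ) K) (sigmaHom_mem_fracField (M * ℓ) K A) (jE M K)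
          (jqModC (OE A K)) (hσu_j M ℓ K) a ^ ℓ =
      qExpand (IsLocalRing.ResidueField (OE A K)) ℓ
          (redM π hπ (alphaHom M ℓ K) (alphaHom_algebraMap M ℓ K) (sigmaHom (M * ℓ) K)
            (sigmaHom_algebraMap (M * ℓ) K) (sigmaHom_mem_fracField (M * ℓ) K A) (jE M K)
            (jqModC (OE A K)) (hσu_j M ℓ K) t)) :
    ∀ a : Chart (OE A Ks) (jE M Ks), ∃ s t : Chart (OE A Ks) (jE M Ks),
      redM πs hπs (alphaHom M ℓ Ks) (alphaHom_algebraMap M ℓ Ks) (sigmaHom (M * ℓ) Ks)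
        (sigmaHom_algebraMap (M * ℓ) Ks) (sigmaHom_mem_fracField (M * ℓ) Ks A) (jE M Ks)
        (jqModC (OE A Ks)) (hσu_j M ℓ Ks) s ≠ 0 ∧
      qExpand (IsLocalRing.ResidueField (OE A Ks)) ℓ
          (redM πs hπs (alphaHom M ℓ Ks) (alphaHom_algebraMap M ℓ Ks) (sigmaHom (M * ℓ) Ks)
            (sigmaHom_algebraMap (M * ℓ) Ks) (sigmaHom_mem_fracField (M * ℓ) Ks A) (jE M Ks)
            (jqModC (OE A Ks)) (hσu_j M ℓ Ks) s) *
        redM πs hπs (alphaHom M ℓ Ks) (alphaHom_algebraMap M ℓ Ks) (sigmaHom (M * ℓ) Ks)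
          (sigmaHom_algebraMap (M * ℓ) Ks) (sigmaHom_mem_fracField (M * ℓ) Ks A) (jE M Ks)
          (jqModC (OE A Ks)) (hσu_j M ℓ Ks) a ^ ℓ =
      qExpand (IsLocalRing.ResidueField (OE A Ks)) ℓ
          (redM πs hπs (alphaHom M ℓ Ks) (alphaHom_algebraMap M ℓ Ks) (sigmaHom (M * ℓ) Ks)
            (sigmaHom_algebraMap (M * ℓ) Ks) (sigmaHom_mem_fracField (M * ℓ) Ks A) (jE M Ks)
            (jqModC (OE A Ks)) (hσu_j M ℓ Ks) t) := by
  have e₀ : Fermat.Agent.S18.K1Main.algebraOL (OE A K) K (LE M K) = i₀ := algebraOL_eq' _ _ _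
  have e₀' : Fermat.Agent.S18.K1Main.algebraOL (OE A K) K (LE (M * ℓ) K) = i₀' :=
    algebraOL_eq' _ _ _
  have e₁ : Fermat.Agent.S18.K1Main.algebraOL (OE A Ks) Ks (LE M Ks) = i₁ := algebraOL_eq' _ _ _
  have e₁' : Fermat.Agent.S18.K1Main.algebraOL (OE A Ks) Ks (LE (M * ℓ) Ks) = i₁' :=
    algebraOL_eq' _ _ _
  subst e₀
  subst e₀'
  subst e₁
  subst e₁'
  exact hfr_jE_of_base_OL M ℓ A h π hπ πs hπs b hspanO hres hindL hspanL hprime hfr

end Fermat.Agent.S44.L.NZ.HfrRam
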