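import Mathlib
import Fermat.Agent.S19.Cech.BCData
import Fermat.Agent.S44.L.NZ.HfrRam

/-!
# S44 / strand L (NZ.1): `hfr` over the ramified base, from the `ϖs`-adic expansion

The base block of the Eisenstein case (`NZ/EisRows`, rows (R0)/(R1)): `K ≤ Ks` with
`O = OE A K` unramified (`p = ϖ e`), `Os = OE A Ks` with uniformiser `ϖs`, `p = η ϖs ^ p`, and
every element of `Os` is `∑ i < p, a i * ϖs ^ i` with `a i ∈ O` (`hexp`).  From these alone:

* `dvd_of_sum_pow_eq_zero`, `eq_zero_of_sum_pow_eq_zero` (level-free): `1, ϖs, …, ϖs ^ (p - 1)`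
  are linearly independent over `O`;
* `hspanO_of_expansion`, `hres_of_expansion`, `hind_of_expansion` : the family
  `powFam k = ϖs ^ k` satisfies the binder block of `BCChart.isIntegral_iff_inSpan_lvl`
  (spanning, residue degree one, independence over `K`);
* `hfr_jE_of_expansion` : **the binder `hfr` of `R3Chart.r3_chart` at the objects of `Sat.sat_j`
  over `OE A Ks`** from the same binder over `OE A K` (`HfrRam.hfr_jE_of_base`).
-/

set_option autoImplicit false
set_option linter.unusedSectionVars false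
set_option linter.unusedVariables false
set_option linter.style.haveILetI false
set_option synthInstance.maxHeartbeats 400000
set_option maxHeartbeats 1600000

open ModularCurve Polynomial

noncomputable section

namespace Fermat.Agent.S44.L.NZ.HfrRamInst

/-! ### Level-free: independence of the powers of a uniformiser -/

section DVR

variable {O Os : Type*} [CommRing O] [IsDomain O] [IsDiscreteValuationRing O]
  [CommRing Os] [IsDomain Os] [IsDiscreteValuationRing Os]

/-- One step: if `ϖs ^ p ∣ j ϖ`, the coefficients of a vanishing expansion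
`∑ k < p, j (a k) * ϖs ^ k = 0` are all divisible by `ϖ`. -/
theorem dvd_of_sum_pow_eq_zero (j : O →+* Os) (ϖ : O) (hϖ : Irreducible ϖ) (ϖs : Os)
    (hϖs : Irreducible ϖs) (p : ℕ) (hjϖ : ϖs ^ p ∣ j ϖ) (a : Fin p → O)
    (h0 : ∑ k, j (a k) * ϖs ^ (k : ℕ) = 0) : ∀ k, ϖ ∣ a k := by
  have key : ∀ n : ℕ, ∀ k : Fin p, (k : ℕ) = n → ϖ ∣ a k := by
    intro n
    induction n using Nat.strong_induction_on with
    | _ n ih =>
      intro k hk
      by_contra hnd
      have hunit : IsUnit (a k) := by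
        by_contra hu
        have hm : a k ∈ IsLocalRing.maximalIdeal O := (IsLocalRing.mem_maximalIdeal _).mpr hu
        rw [hϖ.maximalIdeal_eq, Ideal.mem_span_singleton] at hm
        exact hnd hm
      have hsplit : j (a k) * ϖs ^ (k : ℕ) +
          ∑ k' ∈ Finset.univ.erase k, j (a k') * ϖs ^ (k' : ℕ) = 0 :=
        (Finset.add_sum_erase Finset.univ (fun k' : Fin p => j (a k') * ϖs ^ (k' : ℕ))
          (Finset.mem_univ k)).trans h0
      have hdvd : ϖs ^ ((k : ℕ) + 1) ∣
          ∑ k' ∈ Finset.univ.erase k, j (a k') * ϖs ^ (k' : ℕ) := by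
        refine Finset.dvd_sum fun k' hk' => ?_
        have hne : (k' : ℕ) ≠ (k : ℕ) := fun h => Finset.ne_of_mem_erase hk' (Fin.ext h)
        rcases lt_or_gt_of_ne hne with hlt | hgt
        · obtain ⟨c, hc⟩ := ih (k' : ℕ) (by omega) k' rfl
          rw [hc, map_mul]
          exact Dvd.dvd.mul_right (Dvd.dvd.mul_right
            ((pow_dvd_pow ϖs (Nat.succ_le_of_lt k.2)).trans hjϖ) _) _
        · exact Dvd.dvd.mul_left (pow_dvd_pow ϖs (Nat.succ_le_of_lt hgt)) _
      have hdvd' : ϖs * ϖs ^ (k : ℕ) ∣ j (a k) * ϖs ^ (k : ℕ) := by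
        rw [eq_neg_of_add_eq_zero_left hsplit, ← pow_succ']
        exact (dvd_neg).mpr hdvd
      have h1 : ϖs ∣ j (a k) := (mul_dvd_mul_iff_right (pow_ne_zero _ hϖs.ne_zero)).mp hdvd'
      exact hϖs.not_isUnit (isUnit_of_dvd_unit h1 (hunit.map j))
  exact fun k => key k k rfl

/-- **Independence of the powers of the uniformiser.**  `j : O → Os` injective, `ϖs ^ p ∣ j ϖ`:
a vanishing expansion `∑ k < p, j (a k) * ϖs ^ k = 0` has all coefficients zero. -/
theorem eq_zero_of_sum_pow_eq_zero (j : O →+* Os) (hj : Function.Injective j) (ϖ : O)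
    (hϖ : Irreducible ϖ) (ϖs : Os) (hϖs : Irreducible ϖs) (p : ℕ) (hjϖ : ϖs ^ p ∣ j ϖ)
    (a : Fin p → O) (h0 : ∑ k, j (a k) * ϖs ^ (k : ℕ) = 0) : ∀ k, a k = 0 := by
  have key : ∀ n : ℕ, ∀ a : Fin p → O, ∑ k, j (a k) * ϖs ^ (k : ℕ) = 0 →
      ∀ k, ϖ ^ n ∣ a k := by
    intro n
    induction n with
    | zero =>
      intro a _ k
      rw [pow_zero]
      exact one_dvd _
    | succ n ih =>
      intro a h0 k
      have h1 : ∀ k, ∃ c, a k = ϖ * c := dvd_of_sum_pow_eq_zero j ϖ hϖ ϖs hϖs p hjϖ a h0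
      choose c hc using h1
      have h0' : ∑ k, j (c k) * ϖs ^ (k : ℕ) = 0 := by
        have h2 : j ϖ * ∑ k, j (c k) * ϖs ^ (k : ℕ) = 0 := by
          rw [Finset.mul_sum]
          refine Eq.trans (Finset.sum_congr rfl fun k _ => ?_) h0
          rw [hc k, map_mul, mul_assoc]
        rcases mul_eq_zero.mp h2 with h3 | h3
        · exact absurd (hj (h3.trans (map_zero j).symm)) hϖ.ne_zero
        · exact h3
      obtain ⟨d, hd⟩ := ih c h0' k
      exact ⟨d, by rw [hc k, hd, pow_succ]; ring⟩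
  intro k
  by_contra hne
  obtain ⟨n, hn⟩ := FiniteMultiplicity.of_not_isUnit hϖ.not_isUnit hne
  exact hn (key (n + 1) a h0 k)

end DVR

/-! ### The `b`-data of the base change from the expansion -/

open Fermat.Agent.S18.K1Defs Fermat.Agent.S30 Fermat.Agent.S30.E2Deg
open Fermat.Agent.S34 Fermat.Agent.S34.Sat
open Fermat.Agent.S34.TwoPrimesRank Fermat.Agent.S34.HauptU.Plug Fermat.Agent.S34.TwoPrimesGauss
open Fermat.Agent.S36.CycloBase Fermat.Agent.S19.Cech.BCChart

local notation "Qb" => AlgebraicClosure ℚ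

section Data

variable (A : ValuationSubring Qb) {K Ks : IntermediateField ℚ Qb} (h : K ≤ Ks)
  [IsDiscreteValuationRing (OE A K)] [IsDiscreteValuationRing (OE A Ks)]

/-- The family `1, ϖs, …, ϖs ^ (p - 1)`. -/
def powFam (p : ℕ) (ϖs : OE A Ks) : Fin p → OE A Ks := fun k => ϖs ^ (k : ℕ)

theorem powFam_apply (p : ℕ) (ϖs : OE A Ks) (k : Fin p) : powFam A p ϖs k = ϖs ^ (k : ℕ) := rfl

/-- `hspanO` for the powers of `ϖs`. -/
theorem hspanO_of_expansion (p : ℕ) (ϖs : OE A Ks)
    (hexp : ∀ y : OE A Ks, ∃ a : ℕ → OE A K,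
      y = ∑ i ∈ Finset.range p, inclOE A h (a i) * ϖs ^ i) :
    ∀ a : OE A Ks, ∃ a' : Fin p → OE A K, a = ∑ k, inclOE A h (a' k) * powFam A p ϖs k := by
  intro y
  obtain ⟨a, ha⟩ := hexp y
  exact ⟨fun k : Fin p => a (k : ℕ), ha.trans (Finset.sum_range _)⟩

/-- `hres` (residue degree one) from the expansion. -/
theorem hres_of_expansion (p : ℕ) [NeZero p] (ϖs : OE A Ks) (hϖs : Irreducible ϖs)
    (hexp : ∀ y : OE A Ks, ∃ a : ℕ → OE A K,
      y = ∑ i ∈ Finset.range p, inclOE A h (a i) * ϖs ^ i) :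
    ∀ a : OE A Ks, ∃ a' : OE A K, ¬ IsUnit (a - inclOE A h a') := by
  intro y
  obtain ⟨a, ha⟩ := hexp y
  refine ⟨a 0, fun hu => ?_⟩
  have hy : y = inclOE A h (a 0) * ϖs ^ 0 +
      ∑ i ∈ (Finset.range p).erase 0, inclOE A h (a i) * ϖs ^ i :=
    ha.trans (Finset.add_sum_erase (Finset.range p) (fun i => inclOE A h (a i) * ϖs ^ i)
      (Finset.mem_range.mpr (NeZero.pos p))).symm
  have hdvd : ϖs ∣ y - inclOE A h (a 0) := by
    rw [hy, pow_zero, mul_one, add_sub_cancel_left]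
    exact Finset.dvd_sum fun i hi =>
      Dvd.dvd.mul_left (dvd_pow_self ϖs (Finset.ne_of_mem_erase hi)) _
  exact hϖs.not_isUnit (isUnit_of_dvd_unit hdvd hu)

/-- `ϖs ^ p` divides the image of the uniformiser of the unramified base. -/
theorem pow_dvd_inclOE (p : ℕ) (ϖ e : OE A K) (he : IsUnit e)
    (hpe : ((p : ℕ) : OE A K) = ϖ * e) (ϖs η : OE A Ks)
    (hpη : ((p : ℕ) : OE A Ks) = η * ϖs ^ p) : ϖs ^ p ∣ inclOE A h ϖ := by
  have h1 : inclOE A h ϖ * inclOE A h e = η * ϖs ^ p := by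
    rw [← map_mul, ← hpe, map_natCast, hpη]
  obtain ⟨u, hu⟩ := he.map (inclOE A h)
  refine ⟨η * ((u⁻¹ : (OE A Ks)ˣ) : OE A Ks), ?_⟩
  have h2 : inclOE A h ϖ =
      inclOE A h ϖ * inclOE A h e * ((u⁻¹ : (OE A Ks)ˣ) : OE A Ks) := by
    rw [mul_assoc, ← hu, Units.mul_inv, mul_one]
  rw [h2, h1]
  ring

/-- Independence of the powers of `ϖs` over `K` (field level). -/
theorem hind_of_expansion (p : ℕ) (ϖ : OE A K) (hϖ : Irreducible ϖ) (e : OE A K)
    (he : IsUnit e) (hpe : ((p : ℕ) : OE A K) = ϖ * e) (ϖs η : OE A Ks)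
    (hϖs : Irreducible ϖs) (hpη : ((p : ℕ) : OE A Ks) = η * ϖs ^ p) (c : Fin p → K)
    (hc : ∑ k, ((powFam A p ϖs k : OE A Ks) : Ks) * IntermediateField.inclusion h (c k) = 0) :
    ∀ k, c k = 0 := by
  obtain ⟨D, hD⟩ := IsLocalization.exist_integer_multiples (nonZeroDivisors (OE A K))
    (Finset.univ : Finset (Fin p)) c
  have hD' : ∀ k, ∃ r : OE A K, algebraMap (OE A K) K r = (D : OE A K) • c k :=
    fun k => hD k (Finset.mem_univ k)
  choose a ha using hD'
  have hD0 : ((D : OE A K) : K) ≠ 0 := fun h0 =>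
    nonZeroDivisors.coe_ne_zero D (Subtype.ext h0)
  have ha' : ∀ k, ((a k : OE A K) : K) = ((D : OE A K) : K) * c k := by
    intro k
    have h1 := ha k
    rw [Algebra.smul_def] at h1
    exact h1
  have hsum : ∑ k : Fin p, inclOE A h (a k) * ϖs ^ (k : ℕ) = 0 := by
    have h2 : ∑ k, IntermediateField.inclusion h ((D : OE A K) : K) *
        (((powFam A p ϖs k : OE A Ks) : Ks) * IntermediateField.inclusion h (c k)) = 0 := by
      rw [← Finset.mul_sum, hc, mul_zero]
    apply FaithfulSMul.algebraMap_injective (OE A Ks) Ks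
    rw [map_sum, map_zero]
    refine Eq.trans (Finset.sum_congr rfl fun k _ => ?_) h2
    have e1 : algebraMap (OE A Ks) Ks (inclOE A h (a k)) =
        IntermediateField.inclusion h ((a k : OE A K) : K) := rfl
    have e2 : ((powFam A p ϖs k : OE A Ks) : Ks) = algebraMap (OE A Ks) Ks ϖs ^ (k : ℕ) := rfl
    rw [map_mul, e1, ha' k, map_mul, e2, map_pow]
    ring
  have hzero := eq_zero_of_sum_pow_eq_zero (inclOE A h) (inclOE_injective A h) ϖ hϖ ϖs hϖs p
    (pow_dvd_inclOE A h p ϖ e he hpe ϖs η hpη) a hsum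
  intro k
  have h3 : ((D : OE A K) : K) * c k = 0 :=
    (ha' k).symm.trans (congrArg (fun z : OE A K => (z : K)) (hzero k))
  rcases mul_eq_zero.mp h3 with h4 | h4
  · exact absurd h4 hD0
  · exact h4

end Data

/-! ### The exit -/

/-- **(NZ.1, `hfr` over the ramified base, expansion form.)**  `K ≤ Ks`, `OE A K` unramified
(`p = ϖ e`), `ϖs` a uniformiser of `OE A Ks` with `p = η ϖs ^ p`, and every element of `OE A Ks`
is `∑ i < p, a i * ϖs ^ i` with coefficients in `OE A K`.  Then the binder `hfr` of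
`R3Chart.r3_chart` at the objects of `Sat.sat_j` (level `(M, M p)`, coordinate `j`) over
`OE A Ks` follows from the same binder over `OE A K`, as soon as `ϖ` is prime in the level-`M`
chart of `j` over `OE A K`. -/
theorem hfr_jE_of_expansion (M p : ℕ) [NeZero M] [NeZero p] (hp : p.Prime)
    (A : ValuationSubring Qb) (hA : A.LiesOverPrime p)
    {K Ks : IntermediateField ℚ Qb} (h : K ≤ Ks)
    [IsDiscreteValuationRing (OE A K)] [IsDiscreteValuationRing (OE A Ks)]
    [Algebra (OE A K) (LE M K)] [IsScalarTower (OE A K) K (LE M K)]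
    [Algebra (OE A K) (LE (M * p) K)] [IsScalarTower (OE A K) K (LE (M * p) K)]
    [Algebra (OE A Ks) (LE M Ks)] [IsScalarTower (OE A Ks) Ks (LE M Ks)]
    [Algebra (OE A Ks) (LE (M * p) Ks)] [IsScalarTower (OE A Ks) Ks (LE (M * p) Ks)]
    (ϖ : OE A K) (hϖ : Irreducible ϖ) (e : OE A K) (he : IsUnit e)
    (hpe : ((p : ℕ) : OE A K) = ϖ * e)
    (ϖs η : OE A Ks) (hϖs : Irreducible ϖs) (hη : IsUnit η)
    (hpη : ((p : ℕ) : OE A Ks) = η * ϖs ^ p)
    (hexp : ∀ y : OE A Ks, ∃ a : ℕ → OE A K,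
      y = ∑ i ∈ Finset.range p, inclOE A h (a i) * ϖs ^ i)
    (hprime : Prime (piC (jE M K) ϖ))
    (hfr : ∀ a : Chart (OE A K) (jE M K), ∃ s t : Chart (OE A K) (jE M K),
      redM ϖ hϖ (alphaHom M p K) (alphaHom_algebraMap M p K) (sigmaHom (M * p) K)
        (sigmaHom_algebraMap (M * p) K) (sigmaHom_mem_fracField (M * p) K A) (jE M K)
        (jqModC (OE A K)) (hσu_j M p K) s ≠ 0 ∧
      qExpand (IsLocalRing.ResidueField (OE A K)) p
          (redM ϖ hϖ (alphaHom M p K) (alphaHom_algebraMap M p K) (sigmaHom (M * p) K)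
            (sigmaHom_algebraMap (M * p) K) (sigmaHom_mem_fracField (M * p) K A) (jE M K)
            (jqModC (OE A K)) (hσu_j M p K) s) *
        redM ϖ hϖ (alphaHom M p K) (alphaHom_algebraMap M p K) (sigmaHom (M * p) K)
          (sigmaHom_algebraMap (M * p) K) (sigmaHom_mem_fracField (M * p) K A) (jE M K)
          (jqModC (OE A K)) (hσu_j M p K) a ^ p =
      qExpand (IsLocalRing.ResidueField (OE A K)) p
          (redM ϖ hϖ (alphaHom M p K) (alphaHom_algebraMap M p K) (sigmaHom (M * p) K)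
            (sigmaHom_algebraMap (M * p) K) (sigmaHom_mem_fracField (M * p) K A) (jE M K)
            (jqModC (OE A K)) (hσu_j M p K) t)) :
    ∀ a : Chart (OE A Ks) (jE M Ks), ∃ s t : Chart (OE A Ks) (jE M Ks),
      redM ϖs hϖs (alphaHom M p Ks) (alphaHom_algebraMap M p Ks) (sigmaHom (M * p) Ks)
        (sigmaHom_algebraMap (M * p) Ks) (sigmaHom_mem_fracField (M * p) Ks A) (jE M Ks)
        (jqModC (OE A Ks)) (hσu_j M p Ks) s ≠ 0 ∧
      qExpand (IsLocalRing.ResidueField (OE A Ks)) p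
          (redM ϖs hϖs (alphaHom M p Ks) (alphaHom_algebraMap M p Ks) (sigmaHom (M * p) Ks)
            (sigmaHom_algebraMap (M * p) Ks) (sigmaHom_mem_fracField (M * p) Ks A) (jE M Ks)
            (jqModC (OE A Ks)) (hσu_j M p Ks) s) *
        redM ϖs hϖs (alphaHom M p Ks) (alphaHom_algebraMap M p Ks) (sigmaHom (M * p) Ks)
          (sigmaHom_algebraMap (M * p) Ks) (sigmaHom_mem_fracField (M * p) Ks A) (jE M Ks)
          (jqModC (OE A Ks)) (hσu_j M p Ks) a ^ p =
      qExpand (IsLocalRing.ResidueField (OE A Ks)) p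
          (redM ϖs hϖs (alphaHom M p Ks) (alphaHom_algebraMap M p Ks) (sigmaHom (M * p) Ks)
            (sigmaHom_algebraMap (M * p) Ks) (sigmaHom_mem_fracField (M * p) Ks A) (jE M Ks)
            (jqModC (OE A Ks)) (hσu_j M p Ks) t) := by
  have hspanO := hspanO_of_expansion A h p ϖs hexp
  have hres := hres_of_expansion A h p ϖs hϖs hexp
  have hind := hind_of_expansion A h p ϖ hϖ e he hpe ϖs η hϖs hpη
  exact HfrRam.hfr_jE_of_base M p A h ϖ hϖ ϖs hϖs hprime (powFam A p ϖs) hspanO hres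
    (fun c hc => Fermat.Agent.S19.Cech.LaurentBC.coords_unique h
      (fun k => ((powFam A p ϖs k : OE A Ks) : Ks)) hind c hc)
    (fun x hx => Fermat.Agent.S19.Cech.LaurentBC.exists_coords M h
      (fun k => ((powFam A p ϖs k : OE A Ks) : Ks))
      (Fermat.Agent.S19.Cech.BCData.exists_field_coords A hp hA h (powFam A p ϖs) hspanO) x hx)
    hfr

end Fermat.Agent.S44.L.NZ.HfrRamInst
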