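import Mathlib
import Fermat.Agent.S44.L.NZ.ClosedPointU4
import Fermat.Agent.S44.L.Alt.HordInst
import Fermat.Agent.S44.L.Alt.SeamField
import Fermat.Agent.S44.L.NZ.HfrRamInst
import Fermat.Agent.S44.L.KummerPerf
import Fermat.Agent.S44.L.NZ.EisRows

/-!
# PROGRAM MR (S44), strand L, NZ-ALT, row NZ.5 (CP): the chart of `α u₄`, E-level instance
(helper211)

`NZ/ClosedPointU4.powAt_u4` at `O = OE A K`, `Os = OE A Ks`, in the binder block of
`EisRows.ClosedPointStatement`.

* `exists_eval₂_lvl`, `sigmaHom_wHom_lvl` : the seam binders `hspan`, `hσβ₂` (as in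
  `Alt/NodeAltInst`).
* `h0_u4` : the first half of `EisRows.PowBoth` and step (X) (depth `p + 2` at the second
  expansion with the constant `ca`).  The coordinates `b j = ϖs ^ j` come from `hexp`
  (`NZ/HfrRamInst`), `hordB` from `Alt/HordInst.hord_u4_of_horiz`, the base change of charts from
  `Alt/SeamField.chartBC`.
-/

set_option autoImplicit false
set_option linter.unusedSectionVars false
set_option linter.unusedVariables false
set_option linter.style.haveILetI false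
set_option synthInstance.maxHeartbeats 400000
set_option maxHeartbeats 1000000

open ModularCurve Polynomial IntermediateField

noncomputable section

namespace Fermat.Agent.S44.L.NZ.ClosedPointInst

open Fermat.Agent.S30 Fermat.Agent.S34 Fermat.Agent.S34.TwoPrimesGauss
open Fermat.Agent.S36.PrinAt Fermat.Agent.S30.Model
open Fermat.Agent.S18.K1Defs Fermat.Agent.S18.K1Main
open Fermat.Agent.S34.TwoPrimesRank Fermat.Agent.S34.HauptU.Plug
open Fermat.Agent.S34.HauptU.LevelMAux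
open Fermat.Agent.S36.Haupt4 Fermat.Agent.S36.LevelQInstAlt
open Fermat.Agent.S36.CycloBase Fermat.Agent.S19.Cech.BCChart
open Fermat.Agent.S44.L.Alt.NodeAltCore
open Fermat.Agent.S44.L.NZ.ClosedPointCore Fermat.Agent.S44.L.PthPoint

local notation "Qb" => AlgebraicClosure ℚ

/-! ### The seam binders -/

section Seam

variable (A : ValuationSubring Qb) {K K' : IntermediateField ℚ Qb} (h : K ≤ K')

/-- `Ls = lvl(L)[πs]`, polynomial form (binder `hspan`), from the Laurent-level coordinates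
`hspanL` for a family `b` of powers of `ϖs`. -/
theorem exists_eval₂_lvl (N : ℕ) {r : ℕ} (b : Fin r → OE A K') (ϖs : OE A K')
    (hbpow : ∀ j, ∃ n : ℕ, b j = ϖs ^ n)
    (hspanL : ∀ x : LaurentSeries K', x ∈ LE N K' → ∃ c : Fin r → LaurentSeries K,
      (∀ j, c j ∈ LE N K) ∧ x = ∑ j, algebraMap K' (LaurentSeries K') ((b j : OE A K') : K') *
        coeffMap (IntermediateField.inclusion h : K →+* K') (c j)) :
    letI := algebraOL (OE A K') K' (LE N K')
    ∀ x : LE N K', ∃ P : (LE N K)[X],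
      x = P.eval₂ (lvl N h) (algebraMap (OE A K') (LE N K') ϖs) := by
  letI := algebraOL (OE A K') K' (LE N K')
  intro x
  obtain ⟨c, hc, hx⟩ := hspanL (x : LaurentSeries K') x.2
  choose n hn using hbpow
  refine ⟨∑ j : Fin r, C (⟨c j, hc j⟩ : LE N K) * X ^ (n j), Subtype.ext ?_⟩
  rw [eval₂_finsetSum, hx, AddSubmonoidClass.coe_finsetSum]
  refine Finset.sum_congr rfl fun j _ => ?_
  rw [eval₂_mul, eval₂_C, eval₂_X_pow, hn j, ← map_pow, mul_comm]
  rfl

/-- `σs ∘ ws ∘ lvl = (coefficientwise inclusion) ∘ σ ∘ w` (binder `hσβ₂`). -/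
theorem sigmaHom_wHom_lvl (M q : ℕ) [NeZero M] [NeZero q] (hq : q.Prime) (hqM : ¬ q ∣ M)
    (x : LE (M * q) K) :
    sigmaHom (M * q) K' (wHom M q K' hq hqM (lvl (M * q) h x))
      = coeffMap (IntermediateField.inclusion h : K →+* K')
        (sigmaHom (M * q) K (wHom M q K hq hqM x)) := by
  rw [← Fermat.Agent.S44.L.Alt.SeamField.lvl_wHom h M q hq hqM x]
  rfl

end Seam

/-! ### The E-level instance -/

open Fermat.Agent.S44.L.NZ.EisRows Fermat.Agent.S44.L.NZ.HfrRamInst in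
/-- **(NZ.5, chart of `α u₄`)** binder block of `EisRows.ClosedPointStatement`: `f / ca` is a local
`p`-th power at every closed point `𝔪 ∋ p` of `Chart (OE A Ks) (α u₄)` (first half of
`EisRows.PowBoth`), and the depth `p + 2` at the second expansion holds with the constant `ca`
(step (X)). -/
theorem h0_u4 (A : ValuationSubring Qb) (M p : ℕ) [NeZero M] [NeZero p] (hp : p.Prime)
    (hp3 : 3 ≤ p) (hpM : ¬ p ∣ M) (h4 : 4 ∣ M) (hA : A.LiesOverPrime p)
    (K Ks : IntermediateField ℚ Qb) (h : K ≤ Ks) [FiniteDimensional ℚ K]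
    [FiniteDimensional ℚ Ks] [IsDiscreteValuationRing (OE A K)]
    [IsDiscreteValuationRing (OE A Ks)]
    (z : Qb) (hz : IsPrimitiveRoot z M) (hzK : z ∈ K) (h2 : IsUnit (2 : OE A K))
    (ϖ : OE A K) (hϖ : Irreducible ϖ) (e : OE A K) (he : IsUnit e)
    (hpe : ((p : ℕ) : OE A K) = ϖ * e)
    (ϖs η : OE A Ks) (hϖs : Irreducible ϖs) (hη : IsUnit η)
    (hpη : ((p : ℕ) : OE A Ks) = η * ϖs ^ p) (θ : (OE A K)[X]) (hθd : θ.natDegree < p)
    (hθ0 : IsUnit (θ.eval 0))
    (hθ : ϖs ^ p = ((p : ℕ) : OE A Ks) * θ.eval₂ (inclOE A h) ϖs)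
    (hexp : ∀ y : OE A Ks, ∃ a : ℕ → OE A K, y = ∑ i ∈ Finset.range p,
      inclOE A h (a i) * ϖs ^ i)
    (f : LE (M * p) Ks) (hf : f ≠ 0) (ca cb : Ks) :
    letI := algebraOL (OE A K) K (LE M K)
    letI := algebraOL (OE A K) K (LE (M * p) K)
    haveI := isScalarTower_OL (OE A K) K (LE M K)
    haveI := isScalarTower_OL (OE A K) K (LE (M * p) K)
    letI := algebraOL (OE A Ks) Ks (LE (M * p) Ks)
    haveI := isScalarTower_OL (OE A Ks) Ks (LE (M * p) Ks)
    Fermat.Agent.S36.HorizAdapter.Horiz ϖs p (alphaHom M p Ks (u4E M Ks h4)) f →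
    GDepth (sigmaHom (M * p) Ks) ϖs p (p + 2) ca f →
    GDepth ((sigmaHom (M * p) Ks).comp
      (wHom M p Ks hp hpM : LE (M * p) Ks →+* LE (M * p) Ks)) ϖs p (p + 2) cb f →
    (∃ y : Ideal (Chart (OE A K) (alphaHom M p K (u4E M K h4))), y.IsMaximal ∧
      RingHom.ker (redInf ϖ hϖ (alphaHom M p K) (sigmaHom (M * p) K)
        (sigmaHom_algebraMap (M * p) K) (sigmaHom_mem_fracField (M * p) K A) (u4E M K h4)
        (u4 (OE A K)) (hσu_u4 M p K h4)) ≤ y ∧
      RingHom.ker (redZero ϖ hϖ (alphaHom M p K) (sigmaHom (M * p) K)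
        (sigmaHom_algebraMap (M * p) K) (sigmaHom_mem_fracField (M * p) K A) (u4E M K h4)
        (u4 (OE A K)) (hσu_u4 M p K h4) (wHom M p K hp hpM) (wHom_algebraMap M p K hp hpM) p
        (sigmaHom_wHom_alpha M p K hp hpM)) ≤ y) →
    (∀ 𝔪 : Ideal (integralClosure (Algebra.adjoin (OE A Ks)
          ({alphaHom M p Ks (u4E M Ks h4)} : Set (LE (M * p) Ks))) (LE (M * p) Ks)),
        𝔪.IsMaximal →
        ((p : ℕ) : integralClosure (Algebra.adjoin (OE A Ks)
          ({alphaHom M p Ks (u4E M Ks h4)} : Set (LE (M * p) Ks))) (LE (M * p) Ks)) ∈ 𝔪 →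
        PowAt (Algebra.adjoin (OE A Ks)
          ({alphaHom M p Ks (u4E M Ks h4)} : Set (LE (M * p) Ks))) p
          (f / algebraMap Ks (LE (M * p) Ks) ca) 𝔪) ∧
    GDepth ((sigmaHom (M * p) Ks).comp
      (wHom M p Ks hp hpM : LE (M * p) Ks →+* LE (M * p) Ks)) ϖs p (p + 2) ca f := by
  classical
  letI := algebraOL (OE A K) K (LE M K)
  letI := algebraOL (OE A K) K (LE (M * p) K)
  haveI := isScalarTower_OL (OE A K) K (LE M K)
  haveI := isScalarTower_OL (OE A K) K (LE (M * p) K)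
  letI := algebraOL (OE A Ks) Ks (LE (M * p) Ks)
  haveI := isScalarTower_OL (OE A Ks) Ks (LE (M * p) Ks)
  intro hH hmain hother hcross
  have hodd : p ≠ 2 := by omega
  -- the Eisenstein relation over `ϖ`
  have hθ' : ϖs ^ p = inclOE A h ϖ * (C e * θ).eval₂ (inclOE A h) ϖs := by
    rw [eval₂_mul, eval₂_C, ← mul_assoc, ← map_mul, ← hpe, map_natCast]
    exact hθ
  have hθ'deg : (C e * θ).natDegree < p := lt_of_le_of_lt (natDegree_C_mul_le e θ) hθd
  have hθ'0 : IsUnit ((C e * θ).eval 0) := by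
    rw [eval_mul, eval_C]
    exact he.mul hθ0
  -- the coordinates `b j = ϖs ^ j`
  have hspanO := hspanO_of_expansion A h p ϖs hexp
  have hres := hres_of_expansion A h p ϖs hϖs hexp
  have hind := hind_of_expansion A h p ϖ hϖ e he hpe ϖs η hϖs hpη
  have hindL : ∀ c : Fin p → LaurentSeries K,
      ∑ j, algebraMap Ks (LaurentSeries Ks) ((powFam A p ϖs j : OE A Ks) : Ks) *
        coeffMap (IntermediateField.inclusion h : K →+* Ks) (c j) = 0 → ∀ j, c j = 0 :=
    fun c hc => Fermat.Agent.S19.Cech.LaurentBC.coords_unique h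
      (fun k => ((powFam A p ϖs k : OE A Ks) : Ks)) hind c hc
  have hspanL : ∀ x : LaurentSeries Ks, x ∈ LE (M * p) Ks → ∃ c : Fin p → LaurentSeries K,
      (∀ j, c j ∈ LE (M * p) K) ∧
      x = ∑ j, algebraMap Ks (LaurentSeries Ks) ((powFam A p ϖs j : OE A Ks) : Ks) *
        coeffMap (IntermediateField.inclusion h : K →+* Ks) (c j) :=
    fun x hx => Fermat.Agent.S19.Cech.LaurentBC.exists_coords (M * p) h
      (fun k => ((powFam A p ϖs k : OE A Ks) : Ks))
      (Fermat.Agent.S19.Cech.BCData.exists_field_coords A hp hA h (powFam A p ϖs) hspanO) x hx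
  have hbpow : ∀ j, ∃ n : ℕ, powFam A p ϖs j = ϖs ^ n := fun j => ⟨j, rfl⟩
  have hlu := Fermat.Agent.S44.L.Alt.SeamField.lvl_alpha_u4E h M p h4
  haveI : Fact p.Prime := ⟨hp⟩
  have hFG := Fermat.Agent.S36.Haupt4.Fibre.finGaussC_OE A M hpM hA K z hz hzK
  have hperf := Fermat.Agent.S44.L.KummerPerf.exists_residue_pow_eq_OE A hp hA Ks
  have hspan := exists_eval₂_lvl A h (M * p) (powFam A p ϖs) ϖs hbpow hspanL
  have key := Fermat.Agent.S44.L.NZ.ClosedPointU4.powAt_u4 (O := OE A K) M p K (inclOE A h)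
    (IntermediateField.inclusion h : K →+* Ks) (fun a => rfl) hp hodd hpM h4 h2 hFG ϖ hϖ e he hpe
    (sigmaHom_mem_fracField (M * p) K A) hp3 hϖs η hη hpη hperf (C e * θ) hθ'deg hθ'0 hθ' hexp
    (Ls := LE (M * p) Ks)
    (lvl (M * p) h) (fun r => lvl_algebraMap (M * p) h (r : K))
    (sigmaHom (M * p) Ks) (sigmaHom_algebraMap (M * p) Ks)
    (sigmaHom_mem_fracField (M * p) Ks A)
    (wHom M p Ks hp hpM : LE (M * p) Ks →+* LE (M * p) Ks)
    (fun r => wHom_algebraMap M p Ks hp hpM r)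
    (fun x => rfl) (fun x => sigmaHom_wHom_lvl h M p hp hpM x) hspan
    (alphaHom M p Ks (u4E M Ks h4)) hlu
    (Fermat.Agent.S44.L.Alt.SeamField.chartBC A h (M * p) _ _ hlu)
    (Fermat.Agent.S44.L.Alt.SeamField.coe_chartBC A h (M * p) _ _ hlu)
    f hf
  have hordB : Fermat.Agent.S44.L.NZ.HordLoc.HordB
      (Chart (OE A K) (alphaHom M p K (u4E M K h4)))
      (fun c : Chart (OE A K) (alphaHom M p K (u4E M K h4)) => lvl (M * p) h (c : LE (M * p) K))
      (algebraMap (OE A Ks) (LE (M * p) Ks) ϖs) f p :=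
    fun {B} _ _ _ hBβ => Fermat.Agent.S44.L.Alt.HordInst.hord_u4_of_horiz M p A hp hodd hpM h4
      hA h z hz hzK ϖ hϖ e he hpe (powFam A p ϖs) hspanO hres hindL hspanL ϖs hbpow p (C e * θ)
      hθ'deg hθ' hBβ p f hH
  exact key hordB ca cb hmain hother hcross

end Fermat.Agent.S44.L.NZ.ClosedPointInst
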