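import Mathlib
import Fermat.Agent.S44.L.NZ.ClosedPointChart
import Fermat.Agent.S44.L.NodeC1InstInf
import Fermat.Agent.S44.L.NodeLocInstInf
import Fermat.Agent.S44.L.NZ.HordLoc

/-!
# PROGRAM MR (S44), strand L, NZ-ALT, row NZ.5 (CP): the points over `u₄ = ∞`, generic unramified
base (helper211)

`NZ/ClosedPointChart.powAt_chart_cusp` at the objects of `NodeC1InstInf` (chart
`Chart O (α u₄⁻¹)` of level `M q` over the unramified base `O`, `E ⊆ ℚ̄` concrete, `r₁ = redInf`,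
`r₂ = redZero` at the coordinate `u₄⁻¹`), generic `Os`, `Ks`, `Ls` (pattern of `Alt/NodeAltS4`).

* `powAt_s4` : the chart hypotheses of `powAt_chart_cusp` are discharged by
  `NodeC1InstInf.cusp_s4` and `NodeLocInst.isNoetherianRing_chart'`.  The hypothesis `hordB` is
  asked for ANY `Chart O (α u₄⁻¹)`-algebra `B` acting on `Ls` compatibly with `β`
  (`NZ/HordLoc.HordB`, the exit shape of `Alt/HordInst`).
-/

set_option autoImplicit false
set_option linter.unusedSectionVars false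
set_option linter.unusedVariables false
set_option linter.style.haveILetI false
set_option synthInstance.maxHeartbeats 400000
set_option maxHeartbeats 1000000

open ModularCurve Polynomial IntermediateField

noncomputable section

namespace Fermat.Agent.S44.L.NZ.ClosedPointS4

open Fermat.Agent.S30 Fermat.Agent.S34 Fermat.Agent.S34.TwoPrimesGauss
open Fermat.Agent.S36.PrinAt Fermat.Agent.S30.Model
open Fermat.Agent.S18.K1Defs Fermat.Agent.S18.K1Main
open Fermat.Agent.S34.TwoPrimesRank Fermat.Agent.S34.HauptU.Plug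
open Fermat.Agent.S34.HauptU.LevelMAux
open Fermat.Agent.S36.Haupt4 Fermat.Agent.S36.LevelQInstAlt
open Fermat.Agent.S44.L.Alt.NodeAltCore
open Fermat.Agent.S44.L.NZ.ClosedPointCore Fermat.Agent.S44.L.PthPoint

local notation "Qb" => AlgebraicClosure ℚ

/-! ### Generic unramified base -/

section Generic

variable (M q : ℕ) [NeZero M] [NeZero q] (E : IntermediateField ℚ Qb)
  {O : Type} [CommRing O] [IsDomain O] [IsDiscreteValuationRing O]
  [Algebra O E] [IsFractionRing O E]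
  {Os Ks : Type*} [CommRing Os] [IsDomain Os] [IsDiscreteValuationRing Os] [Field Ks]
  [Algebra Os Ks] [IsFractionRing Os Ks]
  (φ : O →+* Os) [IsLocalHom φ] (ψ : E →+* Ks)
  (hφψ : ∀ a : O, ψ (algebraMap O E a) = algebraMap Os Ks (φ a))
  (hq : q.Prime) (hodd : q ≠ 2) (hqM : ¬ q ∣ M) (h4 : 4 ∣ M)
  (h2 : IsUnit (2 : O)) (hFG : FinGaussC M O E) (π : O) (hπ : Irreducible π)
  (e : O) (he : IsUnit e) (hqe : ((q : ℕ) : O) = π * e)
  (hσfrac : ∀ x : LE (M * q) E, sigmaHom (M * q) E x ∈ GaussDVR.fracField O E)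

local notation "CS" => Chart O (alphaHom M q E (u4E M E h4)⁻¹)

include hφψ hodd h2 hFG hπ he hqe hσfrac in
/-- **(CP) at the closed points over `u₄ = ∞`**, generic unramified base:
`ClosedPointChart.powAt_chart_cusp` with the chart hypotheses discharged by `NodeC1InstInf`. -/
theorem powAt_s4 (hq3 : 3 ≤ q) {ϖs : Os} (hϖs : Irreducible ϖs) (η : Os) (hη : IsUnit η)
    (hqη : ((q : ℕ) : Os) = η * ϖs ^ q)
    (hperf : ∀ x : IsLocalRing.ResidueField Os, ∃ y, y ^ q = x)
    (θ : O[X]) (hθdeg : θ.natDegree < q) (hθ0 : IsUnit (θ.eval 0))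
    (hθ : ϖs ^ q = φ π * θ.eval₂ φ ϖs)
    (hOs : ∀ r : Os, ∃ a : ℕ → O, r = ∑ i ∈ Finset.range q, φ (a i) * ϖs ^ i)
    {Ls : Type*} [Field Ls] [Algebra Os Ls] [Algebra Ks Ls] [IsScalarTower Os Ks Ls] :
    letI := algebraOL O E (LE M E)
    letI := algebraOL O E (LE (M * q) E)
    haveI := isScalarTower_OL O E (LE M E)
    haveI := isScalarTower_OL O E (LE (M * q) E)
    ∀ (β : LE (M * q) E →+* Ls)
      (hβO : ∀ r : O, β (algebraMap O (LE (M * q) E) r) = algebraMap Os Ls (φ r))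
      (σs : Ls →+* LaurentSeries Ks)
      (hσsO : ∀ r : Os, σs (algebraMap Os Ls r) = HahnSeries.C (algebraMap Os Ks r))
      (hσsfrac : ∀ x : Ls, σs x ∈ GaussDVR.fracField Os Ks)
      (ws : Ls →+* Ls) (hwsO : ∀ r : Os, ws (algebraMap Os Ls r) = algebraMap Os Ls r)
      (hσβ₁ : ∀ x : LE (M * q) E, σs (β x) = coeffMap ψ (sigmaHom (M * q) E x))
      (hσβ₂ : ∀ x : LE (M * q) E,
        σs (ws (β x)) = coeffMap ψ (sigmaHom (M * q) E (wHom M q E hq hqM x)))
      (hspan : ∀ x : Ls, ∃ P : (LE (M * q) E)[X], x = P.eval₂ β (algebraMap Os Ls ϖs))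
      (us : Ls) (hus : β (alphaHom M q E (u4E M E h4)⁻¹) = us) (bc : CS →+* Chart Os us)
      (hbc : ∀ c : CS, ((bc c : Chart Os us) : Ls) = β (c : LE (M * q) E))
      (x : Ls) (hx : x ≠ 0)
      (hordB : Fermat.Agent.S44.L.NZ.HordLoc.HordB CS (fun c : CS => β (c : LE (M * q) E))
        (algebraMap Os Ls ϖs) x q)
      (c : Ks) (hmain₁ : GaussDepth σs ϖs q (q + 2) c x)
      (hmain₂ : GaussDepth (σs.comp ws) ϖs q (q + 2) c x),
      ∀ 𝔪 : Ideal (Chart Os us), 𝔪.IsMaximal → ((q : ℕ) : Chart Os us) ∈ 𝔪 →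
        (∃ t : Chart Os us, (t : Ls) = us ∧ t ∈ 𝔪) →
        PowAt (Algebra.adjoin Os ({us} : Set Ls)) q (x / algebraMap Ks Ls c) 𝔪 := by
  classical
  letI := algebraOL O E (LE M E)
  letI := algebraOL O E (LE (M * q) E)
  haveI := isScalarTower_OL O E (LE M E)
  haveI := isScalarTower_OL O E (LE (M * q) E)
  intro β hβO σs hσsO hσsfrac ws hwsO hσβ₁ hσβ₂ hspan us hus bc hbc x hx hordB c hmain₁ hmain₂
  haveI : Fact q.Prime := ⟨hq⟩
  have hchar : CharP (IsLocalRing.ResidueField O) q :=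
    Fermat.Agent.S36.DerUnram.charP_residue π hπ q ⟨e, hqe⟩
  have hfg := u4_fin_gauss M E h4 hFG
  have hfin : FiniteDimensional (IntermediateField.adjoin E {u4E M E h4}) (LE M E) := hfg.1
  haveI := hfin
  haveI hfin' : FiniteDimensional (IntermediateField.adjoin E {(u4E M E h4)⁻¹}) (LE M E) :=
    Fermat.Agent.S36.SqChart.Coord4.finite_u4E_inv M E h4
  have hcf := Fermat.Agent.S36.Haupt4.Fibre.chartFacts_u4 M E h4 h2 hFG π hπ
  haveI := hchar
  have hT : Transcendental E (u4E M E h4)⁻¹ := hcf.transcendental_inv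
  haveI := Fermat.Agent.S44.L.NodeLocInstInf.finiteDimensional_alpha_s4 M q E h4
  haveI : IsFractionRing CS (LE (M * q) E) :=
    Fermat.Agent.S44.L.NodeLocInstInf.isFractionRing_chart_s4 (O := O) M q E h4
  have hNoeth : IsNoetherianRing CS :=
    Fermat.Agent.S44.L.NodeLocInst.isNoetherianRing_chart' (O := O) (E := E)
      (alphaHom M q E (u4E M E h4)⁻¹)
      (Fermat.Agent.S36.A2.transcendental_alpha (O := O) (alphaHom M q E)
        (alphaHom_algebraMap M q E)
        (u4E M E h4)⁻¹ hT)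
  have hcusp := Fermat.Agent.S44.L.NodeC1InstInf.cusp_s4 M q E hq hodd hqM h4 h2 hFG π hπ hchar
    hσfrac
  have hxC : ((incl (alphaHom M q E) (alphaHom_algebraMap M q E) (u4E M E h4)⁻¹
      (polyChart (u4E M E h4)⁻¹ X) : CS) : LE (M * q) E) = alphaHom M q E (u4E M E h4)⁻¹ := by
    rw [coe_incl, coe_polyChart, aeval_X]
  exact Fermat.Agent.S44.L.NZ.ClosedPointChart.powAt_chart_cusp φ ψ hφψ π hπ e he hqe
    (alphaHom M q E (u4E M E h4)⁻¹)
    (sigmaHom (M * q) E) (sigmaHom_algebraMap (M * q) E) hσfrac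
    (HauptU.E.posO O Fermat.Agent.S36.SqChart.Coord4.s4Z)
    (Fermat.Agent.S36.SqChart.Coord4.hσ1u_s4 M E q h4)
    ((sigmaHom (M * q) E).comp (wHom M q E hq hqM : LE (M * q) E →+* LE (M * q) E))
    (sigmaW_O (sigmaHom (M * q) E) (sigmaHom_algebraMap (M * q) E) (wHom M q E hq hqM)
      (wHom_algebraMap M q E hq hqM))
    (fun x => hσfrac (wHom M q E hq hqM x))
    (qExpand O q (HauptU.E.posO O Fermat.Agent.S36.SqChart.Coord4.s4Z))
    (sigmaW_u (alphaHom M q E) (sigmaHom (M * q) E) (u4E M E h4)⁻¹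
      (HauptU.E.posO O Fermat.Agent.S36.SqChart.Coord4.s4Z)
      (Fermat.Agent.S36.SqChart.Coord4.hσ1u_s4 M E q h4)
      (wHom M q E hq hqM) q (sigmaHom_wHom_alpha M q E hq hqM))
    hNoeth
    (incl (alphaHom M q E) (alphaHom_algebraMap M q E) (u4E M E h4)⁻¹
      (polyChart (u4E M E h4)⁻¹ X))
    hxC hcusp hϖs hq hq3 η hη hqη hperf θ hθdeg hθ0 hθ hOs
    β hβO σs hσsO hσsfrac ws hwsO hσβ₁ hσβ₂ hspan us hus bc hbc hx
    (fun y _ _ hBβ => Fermat.Agent.S44.L.NZ.HordLoc.hord_loc hordB y hBβ) c hmain₁ hmain₂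

end Generic

end Fermat.Agent.S44.L.NZ.ClosedPointS4
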