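import Mathlib
import Fermat.Agent.S44.L.NZ.ClosedPointS4
import Fermat.Agent.S44.L.NZ.ClosedPointInst
import Fermat.Agent.S44.L.AltChartBCInf

/-!
# PROGRAM MR (S44), strand L, NZ-ALT, row NZ.5 (CP): the points over `u₄ = ∞`, E-level instance
(helper211; statement = the literal of helper161)

`NZ/ClosedPointS4.powAt_s4` at `O = OE A K`, `Os = OE A Ks`, in the binder block of
`EisRows.ClosedPointStatement` (without `cb`).

* `powAt_inf_cusp` : depth `p + 2` at both expansions with the SAME constant `ca` gives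
  `PthPoint.PowAt` for `f / ca` at every closed point `𝔪 ∋ p, (α u₄)⁻¹` of the chart
  `Chart (OE A Ks) (α u₄)⁻¹` (the binder `hcusp` of `NZ/ChartChange.hinf_of_h0`).  The coordinates
  `b j = ϖs ^ j` come from `hexp` (`NZ/HfrRamInst`), `hordB` from
  `Alt/HordInst.hord_lvl_of_horiz` with `AltChartBCInf.exists_coords_s4`, the base change of
  charts from `Alt/SeamField.chartBC`.
-/

set_option autoImplicit false
set_option linter.unusedSectionVars false
set_option linter.unusedVariables false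
set_option linter.style.haveILetI false
set_option synthInstance.maxHeartbeats 400000
set_option maxHeartbeats 1000000

open ModularCurve Polynomial IntermediateField

noncomputable section

namespace Fermat.Agent.S44.L.NZ.ClosedPointInstInf

open Fermat.Agent.S30 Fermat.Agent.S34 Fermat.Agent.S34.TwoPrimesGauss
open Fermat.Agent.S36.PrinAt Fermat.Agent.S30.Model
open Fermat.Agent.S18.K1Defs Fermat.Agent.S18.K1Main
open Fermat.Agent.S34.TwoPrimesRank Fermat.Agent.S34.HauptU.Plug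
open Fermat.Agent.S34.HauptU.LevelMAux
open Fermat.Agent.S36.Haupt4 Fermat.Agent.S36.LevelQInstAlt
open Fermat.Agent.S36.CycloBase Fermat.Agent.S19.Cech.BCChart
open Fermat.Agent.S44.L.Alt.NodeAltCore
open Fermat.Agent.S44.L.NZ.ClosedPointCore Fermat.Agent.S44.L.PthPoint

local notation "Qb" => AlgebraicClosure ℚ

open Fermat.Agent.S44.L.NZ.HfrRamInst in
/-- **(NZ.5, the points over `u₄ = ∞`)** binder block of `EisRows.ClosedPointStatement`: with the
depth `p + 2` at both expansions and the same constant `ca`, `f / ca` is a local `p`-th power at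
every closed point `𝔪 ∋ p, (α u₄)⁻¹` of `Chart (OE A Ks) (α u₄)⁻¹`. -/
theorem powAt_inf_cusp (A : ValuationSubring Qb) (M p : ℕ) [NeZero M] [NeZero p] (hp : p.Prime)
    (hp3 : 3 ≤ p) (hpM : ¬ p ∣ M) (h4 : 4 ∣ M) (hA : A.LiesOverPrime p)
    (K Ks : IntermediateField ℚ Qb) (h : K ≤ Ks) [FiniteDimensional ℚ K]
    [FiniteDimensional ℚ Ks] [IsDiscreteValuationRing (OE A K)]
    [IsDiscreteValuationRing (OE A Ks)]
    (z : Qb) (hz : IsPrimitiveRoot z M) (hzK : z ∈ K) (h2 : IsUnit (2 : OE A K))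
    (ϖ : OE A K) (hϖ : Irreducible ϖ) (e : OE A K) (he : IsUnit e)
    (hpe : ((p : ℕ) : OE A K) = ϖ * e)
    (ϖs η : OE A Ks) (hϖs : Irreducible ϖs) (hη : IsUnit η)
    (hpη : ((p : ℕ) : OE A Ks) = η * ϖs ^ p) (θ : (OE A K)[X]) (hθd : θ.natDegree < p)
    (hθ0 : IsUnit (θ.eval 0))
    (hθ : ϖs ^ p = ((p : ℕ) : OE A Ks) * θ.eval₂ (inclOE A h) ϖs)
    (hexp : ∀ y : OE A Ks, ∃ a : ℕ → OE A K, y = ∑ i ∈ Finset.range p,
      inclOE A h (a i) * ϖs ^ i)
    (f : LE (M * p) Ks) (hf : f ≠ 0) (ca : Ks) :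
    letI := algebraOL (OE A K) K (LE M K)
    letI := algebraOL (OE A K) K (LE (M * p) K)
    haveI := isScalarTower_OL (OE A K) K (LE M K)
    haveI := isScalarTower_OL (OE A K) K (LE (M * p) K)
    letI := algebraOL (OE A Ks) Ks (LE (M * p) Ks)
    haveI := isScalarTower_OL (OE A Ks) Ks (LE (M * p) Ks)
    Fermat.Agent.S36.HorizAdapter.Horiz ϖs p (alphaHom M p Ks (u4E M Ks h4))⁻¹ f →
    (∃ g y : LE (M * p) Ks, g ≠ 0 ∧
      f = algebraMap Ks (LE (M * p) Ks) ca * g ^ p * (1 + y) ∧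
      ∃ v : GaussDVR.V (OE A Ks) Ks, sigmaHom (M * p) Ks y
        = ((GaussDVR.unif Ks ϖs : GaussDVR.V (OE A Ks) Ks) : LaurentSeries Ks) ^ (p + 2)
          * (v : LaurentSeries Ks)) →
    (∃ g y : LE (M * p) Ks, g ≠ 0 ∧
      f = algebraMap Ks (LE (M * p) Ks) ca * g ^ p * (1 + y) ∧
      ∃ v : GaussDVR.V (OE A Ks) Ks, ((sigmaHom (M * p) Ks).comp
          (wHom M p Ks hp hpM : LE (M * p) Ks →+* LE (M * p) Ks)) y
        = ((GaussDVR.unif Ks ϖs : GaussDVR.V (OE A Ks) Ks) : LaurentSeries Ks) ^ (p + 2)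
          * (v : LaurentSeries Ks)) →
    ∀ 𝔪 : Ideal (integralClosure (Algebra.adjoin (OE A Ks)
        ({(alphaHom M p Ks (u4E M Ks h4))⁻¹} : Set (LE (M * p) Ks))) (LE (M * p) Ks)),
      𝔪.IsMaximal →
      ((p : ℕ) : integralClosure (Algebra.adjoin (OE A Ks)
        ({(alphaHom M p Ks (u4E M Ks h4))⁻¹} : Set (LE (M * p) Ks))) (LE (M * p) Ks)) ∈ 𝔪 →
      (∃ t : integralClosure (Algebra.adjoin (OE A Ks)
        ({(alphaHom M p Ks (u4E M Ks h4))⁻¹} : Set (LE (M * p) Ks))) (LE (M * p) Ks),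
        (t : LE (M * p) Ks) = (alphaHom M p Ks (u4E M Ks h4))⁻¹ ∧ t ∈ 𝔪) →
      PowAt (Algebra.adjoin (OE A Ks)
        ({(alphaHom M p Ks (u4E M Ks h4))⁻¹} : Set (LE (M * p) Ks))) p
        (f / algebraMap Ks (LE (M * p) Ks) ca) 𝔪 := by
  classical
  letI := algebraOL (OE A K) K (LE M K)
  letI := algebraOL (OE A K) K (LE (M * p) K)
  haveI := isScalarTower_OL (OE A K) K (LE M K)
  haveI := isScalarTower_OL (OE A K) K (LE (M * p) K)
  letI := algebraOL (OE A Ks) Ks (LE (M * p) Ks)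
  haveI := isScalarTower_OL (OE A Ks) Ks (LE (M * p) Ks)
  intro hH hmain₁ hmain₂
  have hodd : p ≠ 2 := by omega
  -- the Eisenstein relation over `ϖ`
  have hθ' : ϖs ^ p = inclOE A h ϖ * (C e * θ).eval₂ (inclOE A h) ϖs := by
    rw [eval₂_mul, eval₂_C, ← mul_assoc, ← map_mul, ← hpe, map_natCast]
    exact hθ
  have hθ'deg : (C e * θ).natDegree < p := lt_of_le_of_lt (natDegree_C_mul_le e θ) hθd
  have hθ'0 : IsUnit ((C e * θ).eval 0) := by
    rw [eval_mul, eval_C]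
    exact he.mul hθ0
  -- the coordinates `b j = ϖs ^ j`
  have hspanO := hspanO_of_expansion A h p ϖs hexp
  have hres := hres_of_expansion A h p ϖs hϖs hexp
  have hind := hind_of_expansion A h p ϖ hϖ e he hpe ϖs η hϖs hpη
  have hindL : ∀ c : Fin p → LaurentSeries K,
      ∑ j, algebraMap Ks (LaurentSeries Ks) ((powFam A p ϖs j : OE A Ks) : Ks) *
        coeffMap (IntermediateField.inclusion h : K →+* Ks) (c j) = 0 → ∀ j, c j = 0 :=
    fun c hc => Fermat.Agent.S19.Cech.LaurentBC.coords_unique h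
      (fun k => ((powFam A p ϖs k : OE A Ks) : Ks)) hind c hc
  have hspanL : ∀ x : LaurentSeries Ks, x ∈ LE (M * p) Ks → ∃ c : Fin p → LaurentSeries K,
      (∀ j, c j ∈ LE (M * p) K) ∧
      x = ∑ j, algebraMap Ks (LaurentSeries Ks) ((powFam A p ϖs j : OE A Ks) : Ks) *
        coeffMap (IntermediateField.inclusion h : K →+* Ks) (c j) :=
    fun x hx => Fermat.Agent.S19.Cech.LaurentBC.exists_coords (M * p) h
      (fun k => ((powFam A p ϖs k : OE A Ks) : Ks))
      (Fermat.Agent.S19.Cech.BCData.exists_field_coords A hp hA h (powFam A p ϖs) hspanO) x hx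
  have hbpow : ∀ j, ∃ n : ℕ, powFam A p ϖs j = ϖs ^ n := fun j => ⟨j, rfl⟩
  -- the coordinate at infinity
  have hinv : alphaHom M p Ks (u4E M Ks h4)⁻¹ = (alphaHom M p Ks (u4E M Ks h4))⁻¹ :=
    map_inv₀ _ _
  have hus : lvl (M * p) h (alphaHom M p K (u4E M K h4)⁻¹)
      = (alphaHom M p Ks (u4E M Ks h4))⁻¹ := by
    rw [map_inv₀, map_inv₀, Fermat.Agent.S44.L.Alt.SeamField.lvl_alpha_u4E]
  have hcoords : ∀ x : LE (M * p) Ks,
      IsIntegral (Algebra.adjoin (OE A Ks)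
        ({(alphaHom M p Ks (u4E M Ks h4))⁻¹} : Set (LE (M * p) Ks))) x →
      ∃ c : Fin p → LE (M * p) K,
        (∀ j, IsIntegral (Algebra.adjoin (OE A K)
          ({alphaHom M p K (u4E M K h4)⁻¹} : Set (LE (M * p) K))) (c j)) ∧
        x = ∑ j, algebraMap (OE A Ks) (LE (M * p) Ks) (powFam A p ϖs j) *
          lvl (M * p) h (c j) := by
    rw [← hinv]
    exact Fermat.Agent.S44.L.AltChartBCInf.exists_coords_s4 M p A hp hodd hpM h4 hA h z hz hzK
      ϖ hϖ (powFam A p ϖs) hspanO hres hindL hspanL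
  haveI : Fact p.Prime := ⟨hp⟩
  have hFG := Fermat.Agent.S36.Haupt4.Fibre.finGaussC_OE A M hpM hA K z hz hzK
  have hperf := Fermat.Agent.S44.L.KummerPerf.exists_residue_pow_eq_OE A hp hA Ks
  have hspan := Fermat.Agent.S44.L.NZ.ClosedPointInst.exists_eval₂_lvl A h (M * p)
    (powFam A p ϖs) ϖs hbpow hspanL
  have key := Fermat.Agent.S44.L.NZ.ClosedPointS4.powAt_s4 (O := OE A K) M p K (inclOE A h)
    (IntermediateField.inclusion h : K →+* Ks) (fun a => rfl) hp hodd hpM h4 h2 hFG ϖ hϖ e he hpe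
    (sigmaHom_mem_fracField (M * p) K A) hp3 hϖs η hη hpη hperf (C e * θ) hθ'deg hθ'0 hθ' hexp
    (Ls := LE (M * p) Ks)
    (lvl (M * p) h) (fun r => lvl_algebraMap (M * p) h (r : K))
    (sigmaHom (M * p) Ks) (sigmaHom_algebraMap (M * p) Ks)
    (sigmaHom_mem_fracField (M * p) Ks A)
    (wHom M p Ks hp hpM : LE (M * p) Ks →+* LE (M * p) Ks)
    (fun r => wHom_algebraMap M p Ks hp hpM r)
    (fun x => rfl)
    (fun x => Fermat.Agent.S44.L.NZ.ClosedPointInst.sigmaHom_wHom_lvl h M p hp hpM x) hspan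
    ((alphaHom M p Ks (u4E M Ks h4))⁻¹) hus
    (Fermat.Agent.S44.L.Alt.SeamField.chartBC A h (M * p) _ _ hus)
    (Fermat.Agent.S44.L.Alt.SeamField.coe_chartBC A h (M * p) _ _ hus)
    f hf
  have hordB : Fermat.Agent.S44.L.NZ.HordLoc.HordB
      (Chart (OE A K) (alphaHom M p K (u4E M K h4)⁻¹))
      (fun c : Chart (OE A K) (alphaHom M p K (u4E M K h4)⁻¹) =>
        lvl (M * p) h (c : LE (M * p) K))
      (algebraMap (OE A Ks) (LE (M * p) Ks) ϖs) f p :=
    fun {B} _ _ _ hBβ => Fermat.Agent.S44.L.Alt.HordInst.hord_lvl_of_horiz (M * p) A h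
      (alphaHom M p K (u4E M K h4)⁻¹) ((alphaHom M p Ks (u4E M Ks h4))⁻¹) hus
      (powFam A p ϖs) ϖs hbpow hcoords ϖ p (C e * θ) hθ'deg hθ' hBβ p f hH
  exact key hordB ca hmain₁ hmain₂

end Fermat.Agent.S44.L.NZ.ClosedPointInstInf
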