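import Mathlib
import Fermat.Agent.S44.L.NZ.EisRows
import Fermat.Agent.S44.L.NZ.ChartChange
import Fermat.Agent.S44.L.NZ.ClosedPointInst
import Fermat.Agent.S44.L.NZ.ClosedPointInstInf

/-!
# PROGRAM MR (S44), strand L, (L.NZ): row (R5) of the contract `NZ/EisRows` - junction (F5)

`closedPointStatement : EisRows.ClosedPointStatement` from the two E-level exits
`ClosedPointInst.h0_u4` (all closed points of the chart of `α u₄`, and step (X)) and
`ClosedPointInstInf.powAt_inf_cusp` (the points over `u₄ = ∞`), glued by the change of chart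
`ChartChange.hinf_of_h0`.
-/

set_option autoImplicit false
set_option linter.unusedSectionVars false
set_option linter.unusedVariables false
set_option linter.style.haveILetI false
set_option synthInstance.maxHeartbeats 400000
set_option maxHeartbeats 1000000

open WeierstrassCurve WeierstrassCurve.Affine WeierstrassCurve.Affine.Point
open HahnSeries ModularCurve AlgebraicCurve Polynomial

noncomputable section

namespace Fermat.Agent.S44.L.NZ.ClosedPoint

open Fermat.Agent.S30 Fermat.Agent.S30.Producer Fermat.Agent.S30.E4 Fermat.Agent.S44.Contract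
open Fermat.Agent.S44.L.Top Fermat.Agent.S44.L.IotaCalc Fermat.Agent.S44.L
open Fermat.Agent.S44.L.NZ.Bricks Fermat.Agent.S44.L.NZ.EisBricks
open Fermat.Agent.S34 Fermat.Agent.S34.TwoPrimesGauss Fermat.Agent.S30.Model
open Fermat.Agent.S18.K1Defs Fermat.Agent.S18.K1Main
open Fermat.Agent.S34.TwoPrimesRank Fermat.Agent.S34.HauptU.Plug
open Fermat.Agent.S36.Haupt4 Fermat.Agent.S36.LevelQInstAlt
open Fermat.Agent.S36
open Fermat.Agent.S44.L.NZ.EisRows

/-- **Row (R5) of the NZ contract** from the two E-level exits and the change of chart. -/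
theorem closedPointStatement : Fermat.Agent.S44.L.NZ.EisRows.ClosedPointStatement := by
  intro A M p _ _ hp hp3 hpM h4 hA K Ks h _ _ _ _ z hz hzK h2 ϖ hϖ e he hpe ϖs η hϖs hη hpη θ
    hθd hθ0 hθ hexp f hf ca cb
  letI := algebraOL (OE A Ks) Ks (LE (M * p) Ks)
  intro hhor hhorinf hga hgb hcross
  have key := Fermat.Agent.S44.L.NZ.ClosedPointInst.h0_u4 A M p hp hp3 hpM h4 hA K Ks h z hz hzK
    h2 ϖ hϖ e he hpe ϖs η hϖs hη hpη θ hθd hθ0 hθ hexp f hf ca cb hhor hga hgb hcross
  have h0 := key.1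
  have hX := key.2
  have hcusp := Fermat.Agent.S44.L.NZ.ClosedPointInstInf.powAt_inf_cusp A M p hp hp3 hpM h4 hA K
    Ks h z hz hzK h2 ϖ hϖ e he hpe ϖs η hϖs hη hpη θ hθd hθ0 hθ hexp f hf ca hhorinf hga hX
  have hu : alphaHom M p Ks (u4E M Ks h4) ≠ 0 :=
    (_root_.map_ne_zero _).2 (u4E_ne_zero M Ks h4)
  have hinf := Fermat.Agent.S44.L.NZ.ChartChange.hinf_of_h0 (O := OE A Ks)
    (F := LE (M * p) Ks) (alphaHom M p Ks (u4E M Ks h4)) hu p
    (f / algebraMap Ks (LE (M * p) Ks) ca) h0 hcusp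
  exact ⟨h0, hinf⟩

end Fermat.Agent.S44.L.NZ.ClosedPoint
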