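import Mathlib
import Fermat.Agent.S44.L.NZ.Bricks
import Fermat.Agent.S44.L.EisDichRed
import Fermat.Agent.S44.L.Red

/-!
# PROGRAM MR (S44), strand L, (L.NZ): the brick `NZ.Bricks.SplitRedStatement`

"The reduction of `ι R` is a `p`-th power in the reduced field of level `N'`" is invariant
under the shift `R ↦ R - i T`: by `EisDichRed.red_R_split` (helper54) the reductions `f`, `f'`
of `ι R`, `ι (R - i T)` satisfy `f = C e · f' · h ^ p` with `h` in the reduced field, and a
nonzero constant multiple of a reduction is a reduction (`TopLemmas.RedAt.C_mul`).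

* `splitRedStatement : NZ.Bricks.SplitRedStatement`.
-/

set_option autoImplicit false

open WeierstrassCurve WeierstrassCurve.Affine WeierstrassCurve.Affine.Point
open HahnSeries ModularCurve AlgebraicCurve

namespace Fermat.Agent.S44.L.NZ.SplitRed

open Fermat.Agent.S30 Fermat.Agent.S30.Producer Fermat.Agent.S44.Contract
open Fermat.Agent.S44.L.Top Fermat.Agent.S44.L

/-- **(NZ.SHIFT)** `NZ.Bricks.SplitRedStatement` is a theorem. -/
theorem splitRedStatement : Bricks.SplitRedStatement := by
  intro P N' _ _ W hpN' hsq A hA ι hι T R ζ b hdata i g hg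
  have hdata' : EShapeData P A T R ζ b := hdata
  obtain ⟨hT, hR, -⟩ := hdata
  have hR' : P.p • (R - i • T) = 0 := by
    rw [nsmul_sub, hR, nsmul_left_comm, hT, nsmul_zero, sub_zero]
  have hx0 : ι (R - i • T) ≠ 0 := hι.ne_zero _ hR'
  obtain ⟨f', hf'⟩ := Red.redStatement P.p N' P.pp P.hp5 hpN' A hA (ι (R - i • T)) hx0
  obtain ⟨e, h, he, hfe⟩ := EisDichRed.red_R_split hι hA hdata' (redField N' A)
    (EisDichRed.exists_red_of_redStatement Red.redStatement P N' hpN' A hA) i hg hf'
  have hg0 : (g : LaurentSeries (IsLocalRing.ResidueField A)) ^ P.p ≠ 0 :=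
    TopLemmas.RedAt.ne_zero hg
  have hh0 : (h : LaurentSeries (IsLocalRing.ResidueField A)) ≠ 0 := by
    intro h0
    rw [h0, zero_pow (NeZero.ne P.p), mul_zero] at hfe
    exact hg0 hfe
  refine ⟨g * h⁻¹, ?_⟩
  have h1 : ((g * h⁻¹ : redField N' A) : LaurentSeries (IsLocalRing.ResidueField A)) ^ P.p
      = HahnSeries.C e * (f' : LaurentSeries (IsLocalRing.ResidueField A)) := by
    rw [TopLemmas.coe_mul_redField, TopLemmas.coe_inv_redField, mul_pow, hfe, inv_pow, mul_assoc,
      mul_inv_cancel₀ (pow_ne_zero _ hh0), mul_one]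
  rw [h1]
  exact TopLemmas.RedAt.C_mul hf' he

end Fermat.Agent.S44.L.NZ.SplitRed
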