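import Mathlib
import Fermat.Agent.S44.L.NZ.EisRows
import Fermat.Agent.S44.L.NZ.SplitRed
import Fermat.Agent.S44.L.KummerBase
import Fermat.Agent.S44.L.CrossingInst

/-!
# PROGRAM MR (S44), strand L, (L.NZ) cover-free route: the NZ half from four E-level rows

(helper131, NZ chain owner.)  The two rows of `NZ/EisRows` that are landed theorems are
discharged here, and the chain is wired down to `Slope.Cut.NZCoreStatement`:

* `kummerStatement : EisRows.KummerStatement` — a projection of
  `KummerBase.exists_firstOrder_OE`;
* `crossStatement : EisRows.CrossStatement` — `CrossingInst.exists_crossing_u4_OE`;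
* `nzCoreEWStatement_of_four` : the four open rows (`GenStatement`, `HorizStatement`,
  `ClosedPointStatement`, `ExitStatement`) give `OneCase.NZCoreEWStatement`;
* `nzCoreStatement_of_four` : the same four rows give `Slope.Cut.NZCoreStatement`
  (`OneCase.nzCoreStatement_of_coreEW` and the landed `SplitRed.splitRedStatement`).
-/

set_option autoImplicit false
set_option synthInstance.maxHeartbeats 400000
set_option maxHeartbeats 1000000

namespace Fermat.Agent.S44.L.NZ.EisTop

open Fermat.Agent.S44.L Fermat.Agent.S44.L.NZ

/-- **(R0)** The ramified base `A ∩ K(b)`: a projection of `KummerBase.exists_firstOrder_OE`. -/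
theorem kummerStatement : EisRows.KummerStatement := by
  intro A p hp hA K _ hK b c w hcK hc hwK hw hbc hval
  obtain ⟨ϖ, wK, D, η, θ, h⟩ :=
    KummerBase.exists_firstOrder_OE A hp hA K hK hcK hc hwK hw hbc hval
  have hwu := h.2.2.1
  have hirr := h.2.2.2.1
  have hη := h.2.2.2.2.2.2.2.1
  have hpη := h.2.2.2.2.2.2.2.2.1
  have hθd := h.2.2.2.2.2.2.2.2.2.2.1
  have hθ0 := h.2.2.2.2.2.2.2.2.2.2.2.1
  have hθ := h.2.2.2.2.2.2.2.2.2.2.2.2.1
  have hexp := h.2.2.2.2.2.2.2.2.2.2.2.2.2
  exact ⟨ϖ, η, θ, hirr, hη, hpη, hθd, by rw [hθ0]; exact hwu, hθ, hexp⟩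

/-- **(R4)** A crossing point of the two components on the chart of `α u₄`. -/
theorem crossStatement : EisRows.CrossStatement := by
  intro A M q _ _ hq hodd hqM h4 hA K _ _ hK z hz hzK π hπ
  exact CrossingInst.exists_crossing_u4_OE A M q hq hodd hqM h4 hA K hK z hz hzK π hπ

/-- **The weak `E`-level core from the four open rows.** -/
theorem nzCoreEWStatement_of_four (hGen : EisRows.GenStatement)
    (hHor : EisRows.HorizStatement) (hCP : EisRows.ClosedPointStatement)
    (hExit : EisRows.ExitStatement) : OneCase.NZCoreEWStatement :=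
  EisRows.nzCoreEStatement_of_rows kummerStatement hGen hHor crossStatement hCP hExit

/-- **`Slope.Cut.NZCoreStatement` from the four open rows.** -/
theorem nzCoreStatement_of_four (hGen : EisRows.GenStatement)
    (hHor : EisRows.HorizStatement) (hCP : EisRows.ClosedPointStatement)
    (hExit : EisRows.ExitStatement) : Slope.Cut.NZCoreStatement :=
  OneCase.nzCoreStatement_of_coreEW (nzCoreEWStatement_of_four hGen hHor hCP hExit)
    SplitRed.splitRedStatement

end Fermat.Agent.S44.L.NZ.EisTop
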