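import Mathlib
import Fermat.Agent.S44.L.NZ.ExitCore
import Fermat.Agent.S44.L.AltChartRed
import Fermat.Agent.S36.Haupt4.LevelQ
import Fermat.Agent.S44.L.SimLvl

/-!
# PROGRAM MR (S44), strand L, (L.NZ) on the cover-free route, row NZ.7 (EX): the exit

(helper293.)  Levels `(M, M p)`, `4 ∣ M`, `p ∤ M` an odd prime, `A` a valuation ring of `ℚ̄` over
`p`, `Ks ⊆ ℚ̄` a number field containing a primitive `M`-th root of unity with `Os = A ∩ Ks` a
discrete valuation ring in which `p = η ϖs ^ p` (the ramified base `K(b)` of the Eisenstein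
case), `U = α u₄` the coordinate of level `M p`, `f ∈ LE (M p) Ks`, `ca ∈ Ks` a nonzero constant.

* `sim_one_of_powAt` : if `f / ca` has the datum `PthPoint.PowAt` at every maximal ideal over
  `p` of the two chart rings of `U` and `U⁻¹` over `Os` (the exit of the row NZ.5), then `f` is a
  constant times a `p`-th power over `ℚ̄`.  (`ExitCore.exists_upF_pow_of_powAt` with the reduced
  fibres `AltChartRed.hred0_OE`, `hredinf_OE`.)
* `sim_one_of_powAt_lvl` : the same conclusion for a function `f0` of a level `N` with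
  `M p = 4 N` whose pull-back to the level `M p` is `f` (`SimLvl.sim_one_of_lvl`).
-/

set_option autoImplicit false
set_option linter.unusedSectionVars false
set_option linter.unusedVariables false
set_option linter.style.haveILetI false
set_option synthInstance.maxHeartbeats 400000
set_option maxHeartbeats 1000000

open ModularCurve

noncomputable section

namespace Fermat.Agent.S44.L.NZ.Exit

open Fermat.Agent.S18.K1Defs Fermat.Agent.S18.K1Main Fermat.Agent.S30 Fermat.Agent.S30.E4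
open Fermat.Agent.S34.TwoPrimesRank Fermat.Agent.S36.Haupt4
open Fermat.Agent.S44.L Fermat.Agent.S44.L.IotaCalc
open Fermat.Agent.S37.LevelPull (lvl)

local notation "Qb" => AlgebraicClosure ℚ

/-- **The exit of (L.NZ) at the level `M p`**: from the local `p`-th power data at all closed
points of the special fibre of both charts to "`f` is a constant times a `p`-th power over
`ℚ̄`". -/
theorem sim_one_of_powAt (A : ValuationSubring Qb) (M p : ℕ) [NeZero M] [NeZero p]
    (hp : p.Prime) (hp3 : 3 ≤ p) (hpM : ¬ p ∣ M) (h4 : 4 ∣ M) (hA : A.LiesOverPrime p)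
    (Ks : IntermediateField ℚ Qb) [FiniteDimensional ℚ Ks] [IsDiscreteValuationRing (OE A Ks)]
    (z : Qb) (hz : IsPrimitiveRoot z M) (hzK : z ∈ Ks) (ϖs η : OE A Ks)
    (hϖs : Irreducible ϖs) (hη : IsUnit η) (hpη : ((p : ℕ) : OE A Ks) = η * ϖs ^ p)
    (f : LE (M * p) Ks) (hf : f ≠ 0) (ca : Ks) (hca : ca ≠ 0) :
    letI := algebraOL (OE A Ks) Ks (LE (M * p) Ks)
    ((∀ 𝔪 : Ideal (integralClosure (Algebra.adjoin (OE A Ks)
          ({alphaHom M p Ks (u4E M Ks h4)} : Set (LE (M * p) Ks))) (LE (M * p) Ks)),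
        𝔪.IsMaximal →
        ((p : ℕ) : integralClosure (Algebra.adjoin (OE A Ks)
          ({alphaHom M p Ks (u4E M Ks h4)} : Set (LE (M * p) Ks))) (LE (M * p) Ks)) ∈ 𝔪 →
        PthPoint.PowAt (Algebra.adjoin (OE A Ks)
          ({alphaHom M p Ks (u4E M Ks h4)} : Set (LE (M * p) Ks))) p
          (f / algebraMap Ks (LE (M * p) Ks) ca) 𝔪) ∧
      (∀ 𝔪 : Ideal (integralClosure (Algebra.adjoin (OE A Ks)
          ({(alphaHom M p Ks (u4E M Ks h4))⁻¹} : Set (LE (M * p) Ks))) (LE (M * p) Ks)),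
        𝔪.IsMaximal →
        ((p : ℕ) : integralClosure (Algebra.adjoin (OE A Ks)
          ({(alphaHom M p Ks (u4E M Ks h4))⁻¹} : Set (LE (M * p) Ks))) (LE (M * p) Ks)) ∈ 𝔪 →
        PthPoint.PowAt (Algebra.adjoin (OE A Ks)
          ({(alphaHom M p Ks (u4E M Ks h4))⁻¹} : Set (LE (M * p) Ks))) p
          (f / algebraMap Ks (LE (M * p) Ks) ca) 𝔪)) →
    Sim Qb p (Fermat.Agent.S36.InvFun.upF (M * p) Ks f) 1 := by
  letI := algebraOL (OE A Ks) Ks (LE (M * p) Ks)
  rintro ⟨h0, hinf⟩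
  have hodd : p ≠ 2 := by omega
  haveI := LevelQ.finiteDimensional_alpha_u4E M p Ks h4
  obtain ⟨G, hG⟩ := ExitCore.exists_upF_pow_of_powAt (M * p) A Ks p hp hp3 ϖs η hϖs hη hpη
    (alphaHom M p Ks (u4E M Ks h4)) (LevelQ.transcendental_alpha_u4E M p Ks h4)
    (f / algebraMap Ks (LE (M * p) Ks) ca)
    (AltChartRed.hred0_OE A M p hp hodd hpM h4 hA Ks z hz hzK ϖs hϖs p)
    (AltChartRed.hredinf_OE A M p hp hodd hpM h4 hA Ks z hz hzK ϖs hϖs p) h0 hinf
  have hca' : algebraMap Ks (LE (M * p) Ks) ca ≠ 0 := (_root_.map_ne_zero _).mpr hca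
  have hx0 : Fermat.Agent.S36.InvFun.upF (M * p) Ks f ≠ 0 := (_root_.map_ne_zero _).mpr hf
  exact ExitCore.sim_one_of_upF_pow (M * p) Ks p hp.ne_zero (h := 1) hx0
    (by rw [one_pow, mul_one]) (by field_simp) hG

/-- **The exit of the row NZ.7**: `f0` a function of a level `N` with `M p = 4 N` whose
pull-back to the level `M p` is defined over `Ks` and has, after division by a constant, the
local `p`-th power data at all closed points of the special fibre of both charts.  Then `f0` is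
a constant times a `p`-th power. -/
theorem sim_one_of_powAt_lvl (A : ValuationSubring Qb) (M p : ℕ) [NeZero M] [NeZero p]
    (hp : p.Prime) (hp3 : 3 ≤ p) (hpM : ¬ p ∣ M) (h4 : 4 ∣ M) (hA : A.LiesOverPrime p)
    (Ks : IntermediateField ℚ Qb) [FiniteDimensional ℚ Ks] [IsDiscreteValuationRing (OE A Ks)]
    (z : Qb) (hz : IsPrimitiveRoot z M) (hzK : z ∈ Ks) (ϖs η : OE A Ks)
    (hϖs : Irreducible ϖs) (hη : IsUnit η) (hpη : ((p : ℕ) : OE A Ks) = η * ϖs ^ p)
    (f : LE (M * p) Ks) (hf : f ≠ 0) (ca : Ks) (hca : ca ≠ 0)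
    (hp5 : 5 ≤ p) {N : ℕ} [NeZero N] (hMN : M * p = 4 * N) (hN : N ∣ M * p) (f0 : Fb N)
    (hf0 : lvl hN f0 = Fermat.Agent.S36.InvFun.upF (M * p) Ks f) :
    letI := algebraOL (OE A Ks) Ks (LE (M * p) Ks)
    ((∀ 𝔪 : Ideal (integralClosure (Algebra.adjoin (OE A Ks)
          ({alphaHom M p Ks (u4E M Ks h4)} : Set (LE (M * p) Ks))) (LE (M * p) Ks)),
        𝔪.IsMaximal →
        ((p : ℕ) : integralClosure (Algebra.adjoin (OE A Ks)
          ({alphaHom M p Ks (u4E M Ks h4)} : Set (LE (M * p) Ks))) (LE (M * p) Ks)) ∈ 𝔪 →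
        PthPoint.PowAt (Algebra.adjoin (OE A Ks)
          ({alphaHom M p Ks (u4E M Ks h4)} : Set (LE (M * p) Ks))) p
          (f / algebraMap Ks (LE (M * p) Ks) ca) 𝔪) ∧
      (∀ 𝔪 : Ideal (integralClosure (Algebra.adjoin (OE A Ks)
          ({(alphaHom M p Ks (u4E M Ks h4))⁻¹} : Set (LE (M * p) Ks))) (LE (M * p) Ks)),
        𝔪.IsMaximal →
        ((p : ℕ) : integralClosure (Algebra.adjoin (OE A Ks)
          ({(alphaHom M p Ks (u4E M Ks h4))⁻¹} : Set (LE (M * p) Ks))) (LE (M * p) Ks)) ∈ 𝔪 →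
        PthPoint.PowAt (Algebra.adjoin (OE A Ks)
          ({(alphaHom M p Ks (u4E M Ks h4))⁻¹} : Set (LE (M * p) Ks))) p
          (f / algebraMap Ks (LE (M * p) Ks) ca) 𝔪)) →
    Sim Qb p f0 1 := by
  letI := algebraOL (OE A Ks) Ks (LE (M * p) Ks)
  intro h
  have h1 := sim_one_of_powAt A M p hp hp3 hpM h4 hA Ks z hz hzK ϖs η hϖs hη hpη f hf ca hca h
  rw [← hf0] at h1
  have hf00 : f0 ≠ 0 := by
    rintro rfl
    rw [_root_.map_zero] at hf0
    exact hf ((_root_.map_eq_zero _).mp hf0.symm)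
  exact SimLvl.sim_one_of_lvl hN hp.ne_zero (SimLvl.coprime_finrankAlong_four hMN hN hp hp5) hf00 h1

end Fermat.Agent.S44.L.NZ.Exit
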