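import Mathlib
import Fermat.Agent.S44.L.NZ.EisRows
import Fermat.Agent.S44.L.NZ.Exit

/-!
# PROGRAM MR (S44), strand L, (L.NZ) cover-free route: row (R6) of the contract `NZ/EisRows`

`exitStatement : EisRows.ExitStatement` - pointwise `p`-th powers at all closed points of the
special fibre of both charts of `α u₄` over the ramified base give `f₀ ~ 1` at the level `N`,
`M p = 4 N` - is `Exit.sim_one_of_powAt_lvl` (row NZ.7), binder for binder (helper293).
-/

set_option autoImplicit false

namespace Fermat.Agent.S44.L.NZ.ExitInst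

/-- **Row (R6) of the NZ contract** is a theorem. -/
theorem exitStatement : Fermat.Agent.S44.L.NZ.EisRows.ExitStatement :=
  fun A M p _ _ hp hp3 hpM h4 hA Ks _ _ z hz hzK ϖs η hϖs hη hpη f hf ca hca hp5 _ _ hMN hN f0
      hf0 h =>
    Fermat.Agent.S44.L.NZ.Exit.sim_one_of_powAt_lvl A M p hp hp3 hpM h4 hA Ks z hz hzK ϖs η hϖs
      hη hpη f hf ca hca hp5 hMN hN f0 hf0 h

end Fermat.Agent.S44.L.NZ.ExitInst
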