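import Mathlib
import Fermat.Agent.S44.L.NZ.EisRows
import Fermat.Agent.S44.L.NZ.RootDesc
import Fermat.Agent.S44.L.NZ.HfrRamInst
import Fermat.Agent.S44.L.R3Inst
import Fermat.Agent.S44.L.R3NormLvl
import Fermat.Agent.S44.L.R3Base
import Fermat.Agent.S44.L.Red
import Fermat.Agent.S44.L.TopLemmas
import Fermat.Agent.S36.LevelQInstAlt

/-!
# PROGRAM MR (S44), strand L, (L.NZ) cover-free route, row R1: `EisRows.GenStatement`

helper263.  The generic-depth row (NZ.1, GEN) of the contract `NZ/EisRows.lean`, at level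
`(M, p) = (N' * 4, p)` over the ramified base `Ks ⊇ K`:

* `redField_le_mul` : the reduced function field grows with the level.
* `redAt_of_sim_lvl` : the reduction of a function `Sim`-equivalent to the level pull of `x`,
  `x` with reduction `g ^ p`, is a `p`-th power of an element of the reduced function field of
  the auxiliary level.
* `depthGE_one_of_redAt` : the hypothesis `h1` of `R3Inst.r3_jE_gauss` over EVERY base field
  (`RootDesc.exists_gauss_pow_desc_of_mem_redField` + `R3Base.depthC_one_jE`).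
* `hfr_of_expansion_OL` : the Frobenius stability of the reduced level-`M` chart over the
  ramified base (`HfrRamInst.hfr_jE_of_expansion` on `R3Inst.hfr_jE_of_stable`).
* `genStatement : EisRows.GenStatement`.
-/

set_option autoImplicit false
set_option linter.unusedSectionVars false
set_option linter.unusedVariables false
set_option linter.style.haveILetI false
set_option synthInstance.maxHeartbeats 400000
set_option maxSynthPendingDepth 3
set_option maxHeartbeats 1600000

open WeierstrassCurve WeierstrassCurve.Affine WeierstrassCurve.Affine.Point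
open HahnSeries ModularCurve AlgebraicCurve Polynomial

noncomputable section

namespace Fermat.Agent.S44.L.NZ.GenInst

open Fermat.Agent.S30 Fermat.Agent.S30.Producer Fermat.Agent.S30.E4 Fermat.Agent.S44.Contract
open Fermat.Agent.S44.L.Top Fermat.Agent.S44.L.IotaCalc Fermat.Agent.S44.L
open Fermat.Agent.S44.L.NZ.Bricks Fermat.Agent.S44.L.NZ.EisBricks
open Fermat.Agent.S34 Fermat.Agent.S34.TwoPrimesGauss Fermat.Agent.S30.Model
open Fermat.Agent.S18.K1Defs Fermat.Agent.S18.K1Main
open Fermat.Agent.S34.TwoPrimesRank Fermat.Agent.S34.HauptU.Plug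
open Fermat.Agent.S36.Haupt4 Fermat.Agent.S36.LevelQInstAlt
open Fermat.Agent.S36 Fermat.Agent.S34.Modular.SwapE Fermat.Agent.S44.L.Depth
open Fermat.Agent.S44.L.NZ.EisRows
open Fermat.Agent.S37.LevelPull (lvl coe_lvl)

local notation "GQb" => (AlgebraicClosure ℚ ≃ₐ[ℚ] AlgebraicClosure ℚ)

/-! ### The reduction at the auxiliary level -/

/-- The reduced function field of level `N` lies in that of level `N * a`. -/
theorem redField_le_mul (N a : ℕ) [NeZero N] [NeZero a] (A : ValuationSubring Qb) :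
    redField N A ≤ redField (N * a) A :=
  Subfield.closure_mono (R3Base.redSet_mono N a A)

/-- If `x` of level `N' p` has the reduction `g ^ p`, `g` in the reduced function field of
level `N'`, then every `y` of level `N' * 4 * p` which is `Sim`-equivalent to the level pull of
`x` has a reduction `H ^ p` with `H` in the reduced function field of level `N' * 4 * p`. -/
theorem redAt_of_sim_lvl (P : FreyPackage) (N' : ℕ) [NeZero N'] [NeZero P.p]
    (hpM : ¬ P.p ∣ N' * 4) (A : ValuationSubring Qb) (hA : A.LiesOverPrime P.p)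
    (x : FN (N' * P.p)) (g : redField N' A)
    (hg : RedAt (N' * P.p) A x ((g : LaurentSeries (IsLocalRing.ResidueField A)) ^ P.p))
    (hN : N' * P.p ∣ N' * 4 * P.p) (y : FN (N' * 4 * P.p))
    (hs : Sim Qb P.p (lvl hN x) y) :
    ∃ H : LaurentSeries (IsLocalRing.ResidueField A), H ∈ redField (N' * 4 * P.p) A ∧
      RedAt (N' * 4 * P.p) A y (HahnSeries.C 1 * H ^ P.p) := by
  obtain ⟨c, k, hc, hk, hxy⟩ := hs
  obtain ⟨r, hr⟩ := Red.redStatement P.p (N' * 4) P.pp P.hp5 hpM A hA k hk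
  have hg' : RedAt (N' * 4 * P.p) A (lvl hN x)
      ((g : LaurentSeries (IsLocalRing.ResidueField A)) ^ P.p) := by
    obtain ⟨c0, U, V, hc0, hU, hV, h1, h2⟩ := hg
    exact ⟨c0, U, V, hc0, hU, hV, by rw [coe_lvl]; exact h1, h2⟩
  have hc' : algebraMap Qb (FN (N' * 4 * P.p)) c ≠ 0 := (_root_.map_ne_zero _).2 hc
  have hk' : k ^ P.p ≠ 0 := pow_ne_zero _ hk
  have hy : y = algebraMap Qb (FN (N' * 4 * P.p)) c⁻¹ * (lvl hN x / k ^ P.p) := by
    rw [hxy, map_inv₀]
    field_simp
  refine ⟨(g : LaurentSeries (IsLocalRing.ResidueField A)) /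
    (r : LaurentSeries (IsLocalRing.ResidueField A)), ?_, ?_⟩
  · exact (redField (N' * 4 * P.p) A).div_mem
      (redField_le_mul (N' * 4) P.p A (redField_le_mul N' 4 A g.2))
      (redField_le_mul (N' * 4) P.p A r.2)
  · rw [hy, map_one, one_mul, div_pow]
    exact TopLemmas.RedAt.const_mul (inv_ne_zero hc)
      (TopLemmas.RedAt.div hg' (TopLemmas.RedAt.pow hr P.p))

/-! ### Depth `≥ 1` at the component `∞`, over every base field -/

/-- **`h1` of `R3Inst.r3_jE_gauss` from the `ℚ̄`-level reduction, over every base field.**  If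
the extension of constants of `f : LE (M p) E` has a reduction `ē · H ^ p` with `H` in the
reduced function field of level `M p`, then `f` has `p`-th-power depth `≥ 1` at the prime
`p_∞` of the chart of `α j` (no finite set of constants, `E` ramified or not). -/
theorem depthGE_one_of_redAt (M p : ℕ) [NeZero M] [NeZero p] (hp : p.Prime) (hpM : ¬ p ∣ M)
    (A : ValuationSubring Qb) (hA : A.LiesOverPrime p) (E : IntermediateField ℚ Qb)
    [IsDiscreteValuationRing (OE A E)]
    [Algebra (OE A E) (LE M E)] [IsScalarTower (OE A E) E (LE M E)]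
    [Algebra (OE A E) (LE (M * p) E)] [IsScalarTower (OE A E) E (LE (M * p) E)]
    (π : OE A E) (hπ : Irreducible π) (hprime : Prime (piC (jE M E) π))
    (f : LE (M * p) E) (H : LaurentSeries (IsLocalRing.ResidueField A))
    (e : IsLocalRing.ResidueField A) (hH : H ∈ redField (M * p) A)
    (hred : RedAt (M * p) A (upE (M * p) E f) (HahnSeries.C e * H ^ p)) :
    DepthGE E p (piC (alphaHom M p E (jE M E)) π)
      (RingHom.ker (R3Inst.rInf M p A E π hπ)) 1 f := by
  obtain ⟨d, z, g, hzV, hgV, hd0, hfz, hg0, hzg⟩ :=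
    RootDesc.exists_gauss_pow_desc_of_mem_redField (M * p) p hp A hA (upE (M * p) E f)
      (HahnSeries.C e * H ^ p) H e hred hH rfl E f rfl
  obtain ⟨g', y, hg', hzy, hy⟩ := R3Base.depthC_one_jE M p hp hpM A hA E π hπ hprime (l := p)
    z g hzV hgV hg0 hzg
  refine ⟨d, g', y, hd0, hg', ?_, hy⟩
  rw [hfz, hzy, map_one, one_mul, mul_assoc]

/-! ### `hfr` over the ramified base -/

/-- **`hfr` over the ramified base, at the canonical algebra structures.**  `K` a number field
fixed by the inertia group of `A`, stable under the decomposition group and containing a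
primitive `M`-th root of unity; `Ks ⊇ K` with a uniformiser `ϖs`, `p = η ϖs ^ p`, and the
power basis `1, ϖs, …, ϖs ^ (p - 1)` over `A ∩ K`. -/
theorem hfr_of_expansion_OL (M p : ℕ) [NeZero M] [NeZero p] (hp : p.Prime) (hpM : ¬ p ∣ M)
    (h3 : 3 < p) (A : ValuationSubring Qb) (hA : A.LiesOverPrime p)
    {K Ks : IntermediateField ℚ Qb} (h : K ≤ Ks) [FiniteDimensional ℚ K]
    [IsDiscreteValuationRing (OE A K)] [IsDiscreteValuationRing (OE A Ks)]
    (hI : A.inertiaSubgroupIn ℚ ≤ K.fixingSubgroup)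
    (hst : ∀ τ : GQb, τ ∈ A.decompositionSubgroup ℚ → StableBase.Stable K τ)
    {z : Qb} (hz : IsPrimitiveRoot z M) (hzK : z ∈ K)
    (ϖs η : OE A Ks) (hϖs : Irreducible ϖs) (hη : IsUnit η)
    (hpη : ((p : ℕ) : OE A Ks) = η * ϖs ^ p)
    (hexp : ∀ y : OE A Ks, ∃ a : ℕ → OE A K, y = ∑ i ∈ Finset.range p,
      CycloBase.inclOE A h (a i) * ϖs ^ i) :
    letI := algebraOL (OE A Ks) Ks (LE M Ks)
    letI := algebraOL (OE A Ks) Ks (LE (M * p) Ks)
    haveI := isScalarTower_OL (OE A Ks) Ks (LE M Ks)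
    haveI := isScalarTower_OL (OE A Ks) Ks (LE (M * p) Ks)
    ∀ a : Chart (OE A Ks) (jE M Ks), ∃ s r : Chart (OE A Ks) (jE M Ks),
      R3Inst.rLvl M p A Ks ϖs hϖs s ≠ 0 ∧
      qExpand (IsLocalRing.ResidueField (OE A Ks)) p (R3Inst.rLvl M p A Ks ϖs hϖs s) *
          R3Inst.rLvl M p A Ks ϖs hϖs a ^ p =
        qExpand (IsLocalRing.ResidueField (OE A Ks)) p (R3Inst.rLvl M p A Ks ϖs hϖs r) := by
  letI := algebraOL (OE A K) K (LE M K)
  letI := algebraOL (OE A K) K (LE (M * p) K)
  haveI := isScalarTower_OL (OE A K) K (LE M K)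
  haveI := isScalarTower_OL (OE A K) K (LE (M * p) K)
  letI := algebraOL (OE A Ks) Ks (LE M Ks)
  letI := algebraOL (OE A Ks) Ks (LE (M * p) Ks)
  haveI := isScalarTower_OL (OE A Ks) Ks (LE M Ks)
  haveI := isScalarTower_OL (OE A Ks) Ks (LE (M * p) Ks)
  obtain ⟨ϖ, hϖ⟩ := IsDiscreteValuationRing.exists_irreducible (OE A K)
  obtain ⟨e, he, hpe⟩ := LevelQInstAlt.exists_unit_natCast_eq (A := A) (K := K) hp hA hI ϖ hϖ
  obtain ⟨φ, hφ⟩ := Lib.Frobenius.exists_isFrobeniusAt A hp hA
  have hstφ : StableBase.Stable K φ := hst φ hφ.mem_decompositionSubgroup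
  have hfacts := R3Inst.chartFacts_jE_of_root M p hp hpM h3 A hA hz K hzK ϖ hϖ
  have hfrK := R3Inst.hfr_jE_of_stable M p A K ϖ hϖ hp hA hφ hstφ
  exact HfrRamInst.hfr_jE_of_expansion M p hp A hA h ϖ hϖ e he hpe ϖs η hϖs hη hpη hexp
    hfacts.prime_zero hfrK

/-! ### The row -/

/-- **Row R1 (NZ.1, GEN) of `NZ/EisRows.lean`.** -/
theorem genStatement : EisRows.GenStatement := by
  intro P N' _ _ W hpN hpM hsq A hA ι hι R hR g hg K Ks h _ _ _ _ hI hst z hz hzK ϖs η hϖs hη
    hpη hexp hN f hsim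
  have hp : P.p.Prime := P.pp
  have h3 : 3 < P.p := by have := P.hp5; omega
  have hcop : Nat.Coprime 4 P.p :=
    Nat.Coprime.symm ((Nat.Prime.coprime_iff_not_dvd hp).2
      (fun h4 => hpM (Dvd.dvd.mul_left h4 N')))
  letI := algebraOL (OE A Ks) Ks (LE (N' * 4) Ks)
  letI := algebraOL (OE A Ks) Ks (LE (N' * 4 * P.p) Ks)
  haveI := isScalarTower_OL (OE A Ks) Ks (LE (N' * 4) Ks)
  haveI := isScalarTower_OL (OE A Ks) Ks (LE (N' * 4 * P.p) Ks)
  have hzKs : z ∈ Ks := h hzK
  have hfr := hfr_of_expansion_OL (N' * 4) P.p hp hpM h3 A hA h hI hst hz hzK ϖs η hϖs hη hpη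
    hexp
  have hnorm := R3NormLvl.exists_norm_E_of_sim_lvl P N' W hpN ι hι R hR 4 (N' * 4) rfl hcop
    hpM hN Ks f hsim
  obtain ⟨ca, cb, ka, kb, hNa, hNb⟩ := hnorm
  have hredf := redAt_of_sim_lvl P N' hpM A hA (ι R) g hg hN _ hsim
  obtain ⟨H, hH, hredf⟩ := hredf
  have hf0 : f ≠ 0 := by
    rintro rfl
    exact TopLemmas.RedAt.left_ne_zero hredf (_root_.map_zero _)
  have hfacts := R3Inst.chartFacts_jE_of_root (N' * 4) P.p hp hpM h3 A hA hz Ks hzKs ϖs hϖs
  have h1 := depthGE_one_of_redAt (N' * 4) P.p hp hpM A hA Ks ϖs hϖs hfacts.prime_zero f H 1 hH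
    (by rw [← R3NormLvl.upF_eq_upE]; exact hredf)
  have key := R3Inst.r3_jE_gauss_of_root (N' * 4) P.p hp hpM h3 A hA hz Ks hzKs ϖs hϖs hfr f hf0
    ca cb ka kb hNa hNb (Or.inl h1)
  refine ⟨ca, cb, fun d => ?_⟩
  obtain ⟨⟨g1, y1, hg1, hf1, v1, hv1, hy1⟩, ⟨g2, y2, hg2, hf2, v2, hv2, hy2⟩⟩ := key d
  refine ⟨⟨g1, y1, hg1, hf1, ⟨v1, hv1⟩, ?_⟩, ⟨g2, y2, hg2, hf2, ⟨v2, hv2⟩, ?_⟩⟩
  · rw [GaussDVR.coe_unif]
    exact hy1
  · rw [GaussDVR.coe_unif]
    exact hy2

end Fermat.Agent.S44.L.NZ.GenInst
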