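import Mathlib
import Fermat.Agent.S44.L.NZ.EisRows
import Fermat.Agent.S44.L.Alt.DescHoriz

/-!
# PROGRAM MR (S44), strand L, (L.NZ) cover-free route: row (R3) of the contract `NZ/EisRows`

`horizStatement : EisRows.HorizStatement` - the horizontal `p`-divisibility on the two charts of
`α u₄`, for `fs` and `w fs` - is `Alt.DescHoriz.horiz_desc` (row ALT.8b), binder for binder.
-/

set_option autoImplicit false

namespace Fermat.Agent.S44.L.NZ.HorizInst

/-- **Row (R3) of the NZ contract** is a theorem. -/
theorem horizStatement : Fermat.Agent.S44.L.NZ.EisRows.HorizStatement :=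
  fun M q _ _ A Ks _ hq hqM h4 πs hπs m fs hfs hdiv =>
    Fermat.Agent.S44.L.Alt.DescHoriz.horiz_desc M q A Ks hq hqM h4 πs hπs m fs hfs hdiv

end Fermat.Agent.S44.L.NZ.HorizInst
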