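import Mathlib
import Fermat.Agent.S44.L.NZ.EisTop
import Fermat.Agent.S44.L.NZ.GenInst
import Fermat.Agent.S44.L.NZ.HorizInst
import Fermat.Agent.S44.L.NZ.ExitInst

/-!
# PROGRAM MR (S44), strand L, (L.NZ) cover-free route: the NZ half from ONE open row

(helper131, NZ chain owner.)  Five of the six rows of the contract `NZ/EisRows` are theorems:
`EisTop.kummerStatement` (R0), `GenInst.genStatement` (R1, helper263),
`HorizInst.horizStatement` (R3, helper84), `EisTop.crossStatement` (R4) and
`ExitInst.exitStatement` (R6, helper293).  What is left is the closed-point row (R5):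

* `nzCoreStatement_of_closedPoint : EisRows.ClosedPointStatement → Slope.Cut.NZCoreStatement`.
-/

set_option autoImplicit false

namespace Fermat.Agent.S44.L.NZ.EisFinal

open Fermat.Agent.S44.L Fermat.Agent.S44.L.NZ

/-- **`Slope.Cut.NZCoreStatement` from the closed-point row alone.** -/
theorem nzCoreStatement_of_closedPoint (hCP : EisRows.ClosedPointStatement) :
    Slope.Cut.NZCoreStatement :=
  EisTop.nzCoreStatement_of_four GenInst.genStatement HorizInst.horizStatement hCP
    ExitInst.exitStatement

end Fermat.Agent.S44.L.NZ.EisFinal
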