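import Mathlib
import Fermat.Agent.S44.L.Node
import Fermat.Agent.S44.L.NodeNFEmb
import Fermat.Agent.S44.L.NZ.BranchQuot

/-!
# PROGRAM MR (S44), strand L, NZ-ALT, row NZ.3: the branches of `A = B[π]` at a closed point,
valuation half

Level-free commutative algebra (helper223), on top of the quotient half
`S44/L/NZ/BranchQuot` (helper93).  Targets: the branch hypotheses `hB2`, `hB3`, `hB4` of
`NZ.DepthLift.depth_lift_node` / `depth_lift_smooth` and `hB5` of
`NZ.DepthLift.exists_nf_of_nnf` (helper159's interface), for `A = B[π]` in the binder blocks of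
`NodeNF.exists_eq_first_order` and `SmoothNF.exists_eq_first_order_smooth`.

ONE BRANCH.  `B` a noetherian local domain with `𝔪_B = (t, z)`, `t` a prime element; `c ∈ B`
with `t ∤ c`; `A = B[π]` a domain with `π ^ p = t c κ(π)`, `deg κ < p`, `κ(0)` a unit;
`ψ : A → B / (t)` the evaluation at `π = 0` modulo `t`, with kernel the branch prime
`P = (π, t)`; `K = Frac A`.  (Node: `(t, z, c) = (t₁, t₂, t₂)` and `(t₂, t₁, t₁)`.  Smooth
point: `(t, z, c) = (ϖ, z, 1)`.)

* `isLocalRing_of_gen`, `node_isLocalRing`, `smooth_isLocalRing` : `A` is a local ring.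
* `Data.exists_mul_eq_pow_mul` : **`A_P` is a discrete valuation ring with uniformiser `π`**,
  elementwise: every `a ≠ 0` of `A` satisfies `s * a = π ^ n * u` with `s, u ∉ P` (no Krull
  intersection: `a` divides a nonzero constant `t ^ m b'`, and `(c κ(π)) ^ m t ^ m = π ^ (p m)`).
* For ANY subring `W` of `K` with `A ⊆ W`, `π⁻¹ ∉ W`, "`x ∈ W`, `x⁻¹ ∉ W` ⟹ `x / π ∈ W`" whose
  centre on `B` is `(t)` (predicate `Val`; it is enough that `z` and `c` are units of `W`:
  `Data.val`; totality of `W` is not needed): `Val.div_mem_iff` (`a / π ∈ W ↔ a ∈ P`),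
  `Val.inv_mem` (`a ∉ P ⟹ a⁻¹ ∈ W`), `Val.exists_frac`, `Val.mem_iff` (`W = A_P`: the branch
  valuation subring is unique), `Val.exists_root` (**(B3)**: a `p`-th root modulo `π W` of an
  element of `A` can be taken in `A`), `Val.dvd_of_unif` (**(B5)**: if the image of `z` in
  `B / (t)` is a prime element, `w z ^ j ≡ x ^ p` modulo `π W` forces `p ∣ j`).

THE EXITS: `node_branches` (two branches `W₁`, `W₂`, `t₂` a unit of `W₁`, `t₁` a unit of `W₂`:
`hB2`, `hB3₁`, `hB3₂`, `hB4`, `hB5`), `node_mem_iff`, `node_div_mem_iff`; `smooth_branch`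
(centre form), `smooth_branch'` (unit form) (`hB2`, `hB3`), `smooth_mem_iff`.
-/

set_option autoImplicit false
set_option linter.unusedSectionVars false
set_option linter.style.haveILetI false

open Polynomial IsLocalRing

namespace Fermat.Agent.S44.L.NZ.Branch

open Fermat.Agent.S44.L.Node Fermat.Agent.S44.L.LocalPrincipal Fermat.Agent.S44.L.NodeNFEmb
  Fermat.Agent.S44.L.NZ.BranchQuot

universe u v w

/-! ### `A = B[π]` is local -/

section Local

variable {B : Type u} [CommRing B] [IsLocalRing B] {A : Type v} [CommRing A] [IsDomain A]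
  [Algebra B A]

/-- `A = B[π]` is a local ring when `π ^ p = s κ(π)` with `s` a non-unit of the local ring
`B` and `deg κ < p`. -/
theorem isLocalRing_of_gen {p : ℕ} {s : B} (hs : ¬ IsUnit s) {κ : B[X]} (hκ : κ.natDegree < p)
    {π : A} (hπ : π ^ p = algebraMap B A s * aeval π κ) (hgen : Algebra.adjoin B {π} = ⊤) :
    IsLocalRing A := by
  haveI : Algebra.IsIntegral B A := isIntegral_of_eis hκ hπ hgen
  refine IsLocalRing.of_isUnit_or_isUnit_one_sub_self fun a => ?_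
  obtain ⟨b, a', rfl⟩ := exists_eq_add_mul hgen a
  by_cases hb : IsUnit b
  · exact Or.inl (isUnit_add_mul hs hπ hb a')
  · right
    have h1 : IsUnit (1 - b) := (IsLocalRing.isUnit_or_isUnit_one_sub_self b).resolve_left hb
    have he' : 1 - (algebraMap B A b + π * a') = algebraMap B A (1 - b) + π * (-a') := by
      rw [map_sub, map_one]; ring
    rw [he']
    exact isUnit_add_mul hs hπ h1 (-a')

/-- `π` divides the image of `s` when `π ^ p = s κ(π)`, `κ(π)` a unit. -/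
theorem pi_dvd_base {p : ℕ} (hp : p ≠ 0) {s : B} {κ : B[X]} {π : A}
    (hκu : IsUnit (aeval π κ)) (hπ : π ^ p = algebraMap B A s * aeval π κ) :
    π ∣ algebraMap B A s := by
  obtain ⟨v, hv⟩ := hκu
  obtain ⟨q, rfl⟩ := Nat.exists_eq_succ_of_ne_zero hp
  refine ⟨π ^ q * ((v⁻¹ : Aˣ) : A), ?_⟩
  have h1 : algebraMap B A s = π ^ (q + 1) * ((v⁻¹ : Aˣ) : A) := by
    rw [hπ, ← hv, mul_assoc, Units.mul_inv, mul_one]
  rw [h1]; ring

end Local

/-! ### One branch: the data -/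

section Branch

variable {B : Type u} [CommRing B] [IsDomain B] [IsLocalRing B] [IsNoetherianRing B]
  {A : Type v} [CommRing A] [IsDomain A] [Algebra B A]

/-- The data of one branch of `A = B[π]`: `𝔪_B = (t, z)`, `t` prime, `ψ : A → B / (t)` the
evaluation at `π = 0` modulo `t` (kernel the branch prime `(π, t)`), and an element
`s₀ ∉ (π, t)` with `t s₀ = π ^ p`. -/
structure Data (p : ℕ) (t z : B) (π : A) (ψ : A →+* B ⧸ Ideal.span {t}) (s₀ : A) : Prop where
  hp : p ≠ 0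
  prime : Prime t
  max : maximalIdeal B = Ideal.span {t, z}
  inj : Function.Injective (algebraMap B A)
  gen : Algebra.adjoin B {π} = ⊤
  int : Algebra.IsIntegral B A
  psi_surj : Function.Surjective ψ
  psi_base : ∀ b : B, ψ (algebraMap B A b) = Ideal.Quotient.mk (Ideal.span {t}) b
  psi_pi : ψ π = 0
  psi_ker : RingHom.ker ψ = Ideal.span {π, algebraMap B A t}
  pi_ne : π ≠ 0
  mul_s : algebraMap B A t * s₀ = π ^ p
  psi_s : ψ s₀ ≠ 0

variable {p : ℕ} {t z : B} {π : A} {ψ : A →+* B ⧸ Ideal.span {t}} {s₀ : A}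

/-- The data of the branch `(t, z, c)`: `π ^ p = t c κ(π)`, `t ∤ c`; `s₀ = c κ(π)`. -/
theorem exists_data (hp : p ≠ 0) {c : B} (ht : Prime t)
    (hm : maximalIdeal B = Ideal.span {t, z}) (hc : ¬ t ∣ c) {κ : B[X]} (hκ : κ.natDegree < p)
    (hκ0 : IsUnit (κ.eval 0)) (hBA : Function.Injective (algebraMap B A))
    (hπ : π ^ p = algebraMap B A (t * c) * aeval π κ) (hgen : Algebra.adjoin B {π} = ⊤) :
    ∃ ψ : A →+* B ⧸ Ideal.span {t}, Data p t z π ψ (algebraMap B A c * aeval π κ) := by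
  haveI : IsDomain (B ⧸ Ideal.span {t}) := isDomain_quot ht
  haveI : IsPrincipalIdealRing (B ⧸ Ideal.span {t}) := isPrincipalIdealRing_quot ht hm
  haveI : UniqueFactorizationMonoid B := quot_ufm ht.ne_zero
  haveI : Algebra.IsIntegral B A := isIntegral_of_eis hκ hπ hgen
  obtain ⟨ψ, hsurj, hbase, hpi, hker⟩ := exists_quot_hom hp ht hc hκ hκ0 hBA hπ hgen
  have hs : ¬ IsUnit (t * c) := fun h => ht.not_isUnit (isUnit_of_mul_isUnit_left h)
  have hκu : IsUnit (aeval π κ) := isUnit_aeval hs hκ0 hπ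
  refine ⟨ψ, ⟨hp, ht, hm, hBA, hgen, inferInstance, hsurj, hbase, hpi, hker, ?_, ?_, ?_⟩⟩
  · intro h0
    have h' : π ^ p = 0 := by rw [h0, zero_pow hp]
    rw [hπ] at h'
    have h1 : algebraMap B A (t * c) = 0 := (mul_eq_zero.mp h').resolve_right hκu.ne_zero
    have h2 : t * c = 0 := hBA (h1.trans (map_zero _).symm)
    rcases mul_eq_zero.mp h2 with h | h
    · exact ht.ne_zero h
    · exact hc (h ▸ dvd_zero t)
  · rw [hπ, map_mul]; ring
  · rw [map_mul, hbase]
    exact mul_ne_zero (fun h => hc (mk_eq_zero_iff.mp h)) (hκu.map ψ).ne_zero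

theorem Data.psi_eq_zero_iff (hD : Data p t z π ψ s₀) (a : A) :
    ψ a = 0 ↔ a ∈ Ideal.span {π, algebraMap B A t} := by
  rw [← hD.psi_ker, RingHom.mem_ker]

/-- Modulo `t`, every `b ∈ B` prime to `t` is a unit times a power of `z`. -/
theorem exists_unit_mul_pow_add (ht : Prime t) (hm : maximalIdeal B = Ideal.span {t, z}) {b : B}
    (hb : ¬ t ∣ b) : ∃ (u : Bˣ) (k : ℕ) (d : B), b = u * z ^ k + t * d := by
  haveI : IsDomain (B ⧸ Ideal.span {t}) := isDomain_quot ht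
  haveI : IsPrincipalIdealRing (B ⧸ Ideal.span {t}) := isPrincipalIdealRing_quot ht hm
  have hb0 : Ideal.Quotient.mk (Ideal.span {t}) b ≠ 0 := fun h => hb (mk_eq_zero_iff.mp h)
  obtain ⟨y, hy, hzy⟩ :=
    (FiniteMultiplicity.of_not_isUnit (not_isUnit_mk hm) hb0).exists_eq_pow_mul_and_not_dvd
  obtain ⟨y, rfl⟩ := Ideal.Quotient.mk_surjective y
  have hyu : IsUnit y := by
    by_contra hnu
    exact hzy (mk_dvd_of_mem hm ((mem_maximalIdeal y).mpr hnu))
  obtain ⟨u, rfl⟩ := hyu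
  generalize multiplicity (Ideal.Quotient.mk (Ideal.span {t}) z)
    (Ideal.Quotient.mk (Ideal.span {t}) b) = k at hy
  have h2 : Ideal.Quotient.mk (Ideal.span {t}) (b - u * z ^ k) = 0 := by
    rw [map_sub, map_mul, map_pow, hy]; ring
  obtain ⟨d, hd⟩ := mk_eq_zero_iff.mp h2
  exact ⟨u, k, d, by linear_combination hd⟩

/-- Elements of the branch prime become divisible by `π` after multiplication by `s₀`. -/
theorem Data.exists_mul_eq_pi_mul (hD : Data p t z π ψ s₀) {a : A} (ha : ψ a = 0) :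
    ∃ a₁ : A, s₀ * a = π * a₁ := by
  obtain ⟨x, y, rfl⟩ := Ideal.mem_span_pair.mp ((hD.psi_eq_zero_iff a).mp ha)
  obtain ⟨q, hq⟩ := Nat.exists_eq_succ_of_ne_zero hD.hp
  refine ⟨s₀ * x + y * π ^ q, ?_⟩
  have h := hD.mul_s
  rw [hq, pow_succ] at h
  linear_combination y * h

theorem Data.exists_mul_eq_pow_mul_aux (hD : Data p t z π ψ s₀) :
    ∀ (N : ℕ) (a c' u : A), ψ u ≠ 0 → c' * a = π ^ N * u →
      ∃ (n : ℕ) (s u' : A), ψ s ≠ 0 ∧ ψ u' ≠ 0 ∧ s * a = π ^ n * u' := by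
  haveI : IsDomain (B ⧸ Ideal.span {t}) := isDomain_quot hD.prime
  intro N
  induction N with
  | zero =>
    intro a c' u hu h
    refine ⟨0, 1, a, by rw [map_one]; exact one_ne_zero, ?_, by ring⟩
    intro h0
    apply hu
    rw [pow_zero, one_mul] at h
    rw [← h, map_mul, h0, mul_zero]
  | succ N ih =>
    intro a c' u hu h
    by_cases h0 : ψ a = 0
    · obtain ⟨a₁, ha₁⟩ := hD.exists_mul_eq_pi_mul h0
      have h1 : c' * a₁ = π ^ N * (s₀ * u) := by
        apply mul_left_cancel₀ hD.pi_ne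
        calc π * (c' * a₁) = c' * (π * a₁) := by ring
          _ = c' * (s₀ * a) := by rw [ha₁]
          _ = s₀ * (c' * a) := by ring
          _ = s₀ * (π ^ (N + 1) * u) := by rw [h]
          _ = π * (π ^ N * (s₀ * u)) := by ring
      obtain ⟨n, s, u', hs, hu', e⟩ := ih a₁ c' (s₀ * u)
        (by rw [map_mul]; exact mul_ne_zero hD.psi_s hu) h1
      refine ⟨n + 1, s * s₀, u', by rw [map_mul]; exact mul_ne_zero hs hD.psi_s, hu', ?_⟩
      calc s * s₀ * a = s * (s₀ * a) := by ring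
        _ = s * (π * a₁) := by rw [ha₁]
        _ = π * (s * a₁) := by ring
        _ = π * (π ^ n * u') := by rw [e]
        _ = π ^ (n + 1) * u' := by ring
    · exact ⟨0, 1, a, by rw [map_one]; exact one_ne_zero, h0, by ring⟩

/-- **The localisation of `A` at the branch prime is a discrete valuation ring with
uniformiser `π`** (elementwise form): every `a ≠ 0` satisfies `s * a = π ^ n * u` with
`s, u` outside the branch prime. -/
theorem Data.exists_mul_eq_pow_mul (hD : Data p t z π ψ s₀) {a : A} (ha : a ≠ 0) :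
    ∃ (n : ℕ) (s u : A), ψ s ≠ 0 ∧ ψ u ≠ 0 ∧ s * a = π ^ n * u := by
  haveI : IsDomain (B ⧸ Ideal.span {t}) := isDomain_quot hD.prime
  haveI : Algebra.IsIntegral B A := hD.int
  have hne : (Ideal.span {a}).comap (algebraMap B A) ≠ ⊥ :=
    Ideal.comap_ne_bot_of_integral_mem ha (Ideal.mem_span_singleton_self a)
      (Algebra.IsIntegral.isIntegral a)
  obtain ⟨b, hb, hb0⟩ := Submodule.exists_mem_ne_zero_of_ne_bot hne
  obtain ⟨c', hc'⟩ := Ideal.mem_span_singleton.mp (Ideal.mem_comap.mp hb)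
  obtain ⟨b', hb', htb'⟩ :=
    (FiniteMultiplicity.of_not_isUnit hD.prime.not_isUnit hb0).exists_eq_pow_mul_and_not_dvd
  generalize multiplicity t b = m at hb'
  refine hD.exists_mul_eq_pow_mul_aux (p * m) a (s₀ ^ m * c') (algebraMap B A b') ?_ ?_
  · rw [hD.psi_base]
    exact fun h => htb' (mk_eq_zero_iff.mp h)
  · have h1 : (algebraMap B A t * s₀) ^ m = π ^ (p * m) := by rw [hD.mul_s, pow_mul]
    have h2 : algebraMap B A b = algebraMap B A t ^ m * algebraMap B A b' := by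
      rw [← map_pow, ← map_mul, ← hb']
    calc s₀ ^ m * c' * a = s₀ ^ m * (a * c') := by ring
      _ = s₀ ^ m * algebraMap B A b := by rw [hc']
      _ = s₀ ^ m * (algebraMap B A t ^ m * algebraMap B A b') := by rw [h2]
      _ = (algebraMap B A t * s₀) ^ m * algebraMap B A b' := by ring
      _ = π ^ (p * m) * algebraMap B A b' := by rw [h1]

end Branch

/-! ### One branch: the valuation subring -/

section Val

variable {B : Type u} [CommRing B] [IsDomain B] [IsLocalRing B] [IsNoetherianRing B]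
  {A : Type v} [CommRing A] [IsDomain A] [Algebra B A]
  {K : Type w} [Field K] [Algebra A K] [IsFractionRing A K]

omit [IsDomain B] [IsLocalRing B] [IsNoetherianRing B] [IsDomain A] [IsFractionRing A K] in
/-- In a subring `W` of a field with "`x ∈ W`, `x⁻¹ ∉ W` ⟹ `x / ϖ ∈ W`" and `ϖ⁻¹ ∉ W`:
a unit of `W` plus a multiple of `ϖ` is a unit of `W`. -/
theorem inv_mem_add {W : Subring K} {ϖ : K} (h3 : ϖ⁻¹ ∉ W)
    (h4 : ∀ x ∈ W, x⁻¹ ∉ W → x / ϖ ∈ W) (hϖ : ϖ ∈ W) {U y : K} (hU : U ∈ W) (hU0 : U ≠ 0)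
    (hUi : U⁻¹ ∈ W) (hy : y ∈ W) : (U + ϖ * y)⁻¹ ∈ W := by
  by_contra hn
  have hϖ0 : ϖ ≠ 0 := by
    rintro rfl
    exact h3 (by rw [inv_zero]; exact W.zero_mem)
  have h5 := h4 _ (W.add_mem hU (W.mul_mem hϖ hy)) hn
  have h6 : U / ϖ ∈ W := by
    have e : U / ϖ = (U + ϖ * y) / ϖ - y := by
      rw [add_div, mul_div_cancel_left₀ y hϖ0, add_sub_cancel_right]
    rw [e]
    exact W.sub_mem h5 hy
  apply h3
  have e : ϖ⁻¹ = U⁻¹ * (U / ϖ) := by
    rw [← mul_div_assoc, inv_mul_cancel₀ hU0, one_div]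
  rw [e]
  exact W.mul_mem hUi h6

/-- A branch valuation subring of `K = Frac A`: a subring `W ⊇ A` with `π⁻¹ ∉ W`, all of whose
non-units are multiples of `π`, whose centre on `B` is `(t)` and in which `t / π` lies. -/
structure Val (t : B) (π : A) (W : Subring K) : Prop where
  base : ∀ a : A, algebraMap A K a ∈ W
  inv_pi : (algebraMap A K π)⁻¹ ∉ W
  div_pi : ∀ x : K, x ∈ W → x⁻¹ ∉ W → x / algebraMap A K π ∈ W
  cen : ∀ b : B, ¬ t ∣ b → (algebraMap A K (algebraMap B A b))⁻¹ ∈ W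
  unif : algebraMap A K (algebraMap B A t) / algebraMap A K π ∈ W

variable {p : ℕ} {t z : B} {π : A} {ψ : A →+* B ⧸ Ideal.span {t}} {s₀ : A} {W : Subring K}

/-- `t / π ∈ W` as soon as `s₀` is a unit of `W`. -/
theorem Data.unif_mem (hD : Data p t z π ψ s₀) (hb : ∀ a : A, algebraMap A K a ∈ W)
    (hs : (algebraMap A K s₀)⁻¹ ∈ W) :
    algebraMap A K (algebraMap B A t) / algebraMap A K π ∈ W := by
  have hinj := IsFractionRing.injective A K
  have hπK : algebraMap A K π ≠ 0 := (map_ne_zero_iff _ hinj).mpr hD.pi_ne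
  have hs0 : s₀ ≠ 0 := by
    intro h0
    exact hD.psi_s (by rw [h0, map_zero])
  have hsK : algebraMap A K s₀ ≠ 0 := (map_ne_zero_iff _ hinj).mpr hs0
  obtain ⟨q, hq⟩ := Nat.exists_eq_succ_of_ne_zero hD.hp
  have hK := congrArg (algebraMap A K) hD.mul_s
  rw [map_mul, map_pow, hq, pow_succ] at hK
  have e : algebraMap A K (algebraMap B A t) / algebraMap A K π
      = algebraMap A K π ^ q * (algebraMap A K s₀)⁻¹ := by
    rw [div_eq_iff hπK]
    calc algebraMap A K (algebraMap B A t)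
        = (algebraMap A K (algebraMap B A t) * algebraMap A K s₀) * (algebraMap A K s₀)⁻¹ := by
          rw [mul_inv_cancel_right₀ hsK]
      _ = (algebraMap A K π ^ q * algebraMap A K π) * (algebraMap A K s₀)⁻¹ := by rw [hK]
      _ = algebraMap A K π ^ q * (algebraMap A K s₀)⁻¹ * algebraMap A K π := by ring
  rw [e]
  exact W.mul_mem (W.pow_mem (hb π) q) hs

/-- The branch valuation subring, from the centre condition on `B`. -/
theorem Data.val_of_cen (hD : Data p t z π ψ s₀)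
    (hb : ∀ a : A, algebraMap A K a ∈ W) (hi : (algebraMap A K π)⁻¹ ∉ W)
    (hd : ∀ x : K, x ∈ W → x⁻¹ ∉ W → x / algebraMap A K π ∈ W)
    (hcen : ∀ b : B, ¬ t ∣ b → (algebraMap A K (algebraMap B A b))⁻¹ ∈ W)
    (hs : (algebraMap A K s₀)⁻¹ ∈ W) : Val t π W :=
  ⟨hb, hi, hd, hcen, hD.unif_mem hb hs⟩

/-- The branch valuation subring, from `z⁻¹ ∈ W` (the other parameter is a unit of `W`). -/
theorem Data.val (hD : Data p t z π ψ s₀)
    (hb : ∀ a : A, algebraMap A K a ∈ W) (hi : (algebraMap A K π)⁻¹ ∉ W)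
    (hd : ∀ x : K, x ∈ W → x⁻¹ ∉ W → x / algebraMap A K π ∈ W)
    (hz : (algebraMap A K (algebraMap B A z))⁻¹ ∈ W) (hs : (algebraMap A K s₀)⁻¹ ∈ W) :
    Val t π W := by
  have hunif := hD.unif_mem hb hs
  refine ⟨hb, hi, hd, ?_, hunif⟩
  intro b hbt
  obtain ⟨u, k, d, rfl⟩ := exists_unit_mul_pow_add hD.prime hD.max hbt
  have hU0 : (u : B) * z ^ k ≠ 0 := by
    intro h0
    apply hbt
    rw [h0, zero_add]
    exact dvd_mul_right _ _
  have hinj := IsFractionRing.injective A K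
  have hπK : algebraMap A K π ≠ 0 := (map_ne_zero_iff _ hinj).mpr hD.pi_ne
  have hzk : algebraMap A K (algebraMap B A z) ^ k ≠ 0 := by
    rw [← map_pow, ← map_pow]
    exact (map_ne_zero_iff _ hinj).mpr
      ((map_ne_zero_iff _ hD.inj).mpr (right_ne_zero_of_mul hU0))
  have hUK : algebraMap A K (algebraMap B A ((u : B) * z ^ k)) ≠ 0 :=
    (map_ne_zero_iff _ hinj).mpr ((map_ne_zero_iff _ hD.inj).mpr hU0)
  have hUi : (algebraMap A K (algebraMap B A ((u : B) * z ^ k)))⁻¹ ∈ W := by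
    have e : (algebraMap A K (algebraMap B A ((u : B) * z ^ k)))⁻¹
        = algebraMap A K (algebraMap B A ((u⁻¹ : Bˣ) : B))
          * (algebraMap A K (algebraMap B A z))⁻¹ ^ k := by
      apply inv_eq_of_mul_eq_one_right
      have h1 : algebraMap A K (algebraMap B A (u : B))
          * algebraMap A K (algebraMap B A ((u⁻¹ : Bˣ) : B)) = 1 := by
        rw [← map_mul, ← map_mul, Units.mul_inv, map_one, map_one]
      rw [map_mul, map_mul, map_pow, map_pow, inv_pow]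
      calc algebraMap A K (algebraMap B A (u : B)) * algebraMap A K (algebraMap B A z) ^ k
            * (algebraMap A K (algebraMap B A ((u⁻¹ : Bˣ) : B))
              * (algebraMap A K (algebraMap B A z) ^ k)⁻¹)
          = (algebraMap A K (algebraMap B A (u : B))
              * algebraMap A K (algebraMap B A ((u⁻¹ : Bˣ) : B)))
            * (algebraMap A K (algebraMap B A z) ^ k
              * (algebraMap A K (algebraMap B A z) ^ k)⁻¹) := by ring
        _ = 1 := by rw [h1, mul_inv_cancel₀ hzk, mul_one]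
    rw [e]
    exact W.mul_mem (hb _) (W.pow_mem hz k)
  have key : algebraMap A K (algebraMap B A ((u : B) * z ^ k + t * d))
      = algebraMap A K (algebraMap B A ((u : B) * z ^ k)) + algebraMap A K π *
        (algebraMap A K (algebraMap B A t) / algebraMap A K π
          * algebraMap A K (algebraMap B A d)) := by
    have e1 : algebraMap A K π * (algebraMap A K (algebraMap B A t) / algebraMap A K π)
        = algebraMap A K (algebraMap B A t) := by
      rw [mul_div_assoc', mul_div_cancel_left₀ _ hπK]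
    simp only [map_add, map_mul]
    linear_combination (-(algebraMap A K (algebraMap B A d))) * e1
  rw [key]
  exact inv_mem_add hi hd (hb π) (hb _) hUK hUi (W.mul_mem hunif (hb _))

/-- Elements of `A` outside the branch prime are units of `W`. -/
theorem Val.inv_mem (hV : Val t π W) (hD : Data p t z π ψ s₀) {a : A} (ha : ψ a ≠ 0) :
    (algebraMap A K a)⁻¹ ∈ W := by
  obtain ⟨b, a', rfl⟩ := exists_eq_add_mul hD.gen a
  have hbt : ¬ t ∣ b := by
    intro hd
    apply ha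
    rw [map_add, map_mul, hD.psi_pi, zero_mul, add_zero, hD.psi_base]
    exact mk_eq_zero_iff.mpr hd
  have hb0 : b ≠ 0 := by
    intro h0
    exact hbt (h0 ▸ dvd_zero t)
  have hinj := IsFractionRing.injective A K
  have hUK : algebraMap A K (algebraMap B A b) ≠ 0 :=
    (map_ne_zero_iff _ hinj).mpr ((map_ne_zero_iff _ hD.inj).mpr hb0)
  rw [map_add, map_mul]
  exact inv_mem_add hV.inv_pi hV.div_pi (hV.base π) (hV.base _) hUK (hV.cen b hbt)
    (hV.base a')

/-- The centre of `W` on `A` is the branch prime. -/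
theorem Val.div_mem_iff (hV : Val t π W) (hD : Data p t z π ψ s₀) (a : A) :
    algebraMap A K a / algebraMap A K π ∈ W ↔ ψ a = 0 := by
  have hinj := IsFractionRing.injective A K
  have hπK : algebraMap A K π ≠ 0 := (map_ne_zero_iff _ hinj).mpr hD.pi_ne
  constructor
  · intro h
    by_contra h0
    have h1 := hV.inv_mem hD h0
    have ha0 : algebraMap A K a ≠ 0 := by
      rw [Ne, map_eq_zero_iff _ hinj]
      intro h2
      exact h0 (by rw [h2, map_zero])
    apply hV.inv_pi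
    have e : (algebraMap A K π)⁻¹
        = algebraMap A K a / algebraMap A K π * (algebraMap A K a)⁻¹ := by
      rw [div_mul_eq_mul_div, mul_inv_cancel₀ ha0, one_div]
    rw [e]
    exact W.mul_mem h h1
  · intro h
    obtain ⟨x, y, rfl⟩ := Ideal.mem_span_pair.mp ((hD.psi_eq_zero_iff a).mp h)
    have e : algebraMap A K (x * π + y * algebraMap B A t) / algebraMap A K π
        = algebraMap A K x
          + algebraMap A K y * (algebraMap A K (algebraMap B A t) / algebraMap A K π) := by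
      rw [map_add, map_mul, map_mul, add_div, mul_div_cancel_right₀ _ hπK, mul_div_assoc]
    rw [e]
    exact W.add_mem (hV.base _) (W.mul_mem (hV.base _) hV.unif)

/-- **`W` is the localisation of `A` at the branch prime.** -/
theorem Val.exists_frac (hV : Val t π W) (hD : Data p t z π ψ s₀) {x : K} (hx : x ∈ W) :
    ∃ a s : A, ψ s ≠ 0 ∧ x * algebraMap A K s = algebraMap A K a := by
  haveI : IsDomain (B ⧸ Ideal.span {t}) := isDomain_quot hD.prime
  have hinj := IsFractionRing.injective A K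
  have hπK : algebraMap A K π ≠ 0 := (map_ne_zero_iff _ hinj).mpr hD.pi_ne
  obtain ⟨a₀, d₀, hd₀, rfl⟩ := IsFractionRing.div_surjective A x
  have hd0 : d₀ ≠ 0 := nonZeroDivisors.ne_zero hd₀
  have hdK : algebraMap A K d₀ ≠ 0 := (map_ne_zero_iff _ hinj).mpr hd0
  by_cases ha0 : a₀ = 0
  · refine ⟨0, 1, ?_, ?_⟩
    · rw [map_one]; exact one_ne_zero
    · rw [ha0, map_zero, zero_div, zero_mul]
  obtain ⟨n, sa, ua, hsa, hua, ea⟩ := hD.exists_mul_eq_pow_mul ha0
  obtain ⟨m, sd, ud, hsd, hud, ed⟩ := hD.exists_mul_eq_pow_mul hd0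
  have hmn : m ≤ n := by
    by_contra hlt
    obtain ⟨k, hk⟩ := Nat.exists_eq_add_of_lt (not_le.mp hlt)
    have hne : ψ (ua * sd) ≠ 0 := by rw [map_mul]; exact mul_ne_zero hua hsd
    have hv1 : (algebraMap A K (ua * sd))⁻¹ ∈ W := hV.inv_mem hD hne
    have huK : algebraMap A K (ua * sd) ≠ 0 := by
      rw [Ne, map_eq_zero_iff _ hinj]
      intro h0
      exact hne (by rw [h0, map_zero])
    have hA : a₀ * (π ^ k * (sa * ud)) * π = ua * sd * d₀ := by
      calc a₀ * (π ^ k * (sa * ud)) * π = (sa * a₀) * ud * π ^ (k + 1) := by ring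
        _ = π ^ n * ua * ud * π ^ (k + 1) := by rw [ea]
        _ = ua * (π ^ (n + k + 1) * ud) := by ring
        _ = ua * (sd * d₀) := by rw [ed, hk]
        _ = ua * sd * d₀ := by ring
    have hK : algebraMap A K a₀ * algebraMap A K (π ^ k * (sa * ud)) * algebraMap A K π
        = algebraMap A K (ua * sd) * algebraMap A K d₀ := by
      rw [← map_mul, ← map_mul, hA, map_mul]
    apply hV.inv_pi
    have e1 : algebraMap A K a₀ * algebraMap A K (π ^ k * (sa * ud))
        = algebraMap A K (ua * sd) * algebraMap A K d₀ * (algebraMap A K π)⁻¹ := by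
      rw [← hK, mul_inv_cancel_right₀ hπK]
    have e : (algebraMap A K π)⁻¹ = algebraMap A K a₀ / algebraMap A K d₀
        * algebraMap A K (π ^ k * (sa * ud)) * (algebraMap A K (ua * sd))⁻¹ := by
      rw [div_mul_eq_mul_div, e1]
      field_simp
    rw [e]
    exact W.mul_mem (W.mul_mem hx (hV.base _)) hv1
  refine ⟨π ^ (n - m) * ua * sd, sa * ud, ?_, ?_⟩
  · rw [map_mul]; exact mul_ne_zero hsa hud
  · have hA : a₀ * (sa * ud) = π ^ (n - m) * ua * sd * d₀ := by
      calc a₀ * (sa * ud) = (sa * a₀) * ud := by ring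
        _ = π ^ n * ua * ud := by rw [ea]
        _ = π ^ (n - m) * π ^ m * ua * ud := by rw [pow_sub_mul_pow π hmn]
        _ = π ^ (n - m) * ua * (π ^ m * ud) := by ring
        _ = π ^ (n - m) * ua * (sd * d₀) := by rw [ed]
        _ = π ^ (n - m) * ua * sd * d₀ := by ring
    rw [div_mul_eq_mul_div, ← map_mul, hA, map_mul _ _ d₀, mul_div_assoc, div_self hdK, mul_one]

/-- **(B3)** `p`-th roots modulo `π W` of elements of `A` can be taken in `A`. -/
theorem Val.exists_root (hV : Val t π W) (hD : Data p t z π ψ s₀) (r : A) {x : K}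
    (hx : x ∈ W) (h : (algebraMap A K r - x ^ p) / algebraMap A K π ∈ W) :
    ∃ g : A, algebraMap A K (r - g ^ p) / algebraMap A K π ∈ W := by
  haveI : IsDomain (B ⧸ Ideal.span {t}) := isDomain_quot hD.prime
  haveI : IsPrincipalIdealRing (B ⧸ Ideal.span {t}) :=
    isPrincipalIdealRing_quot hD.prime hD.max
  obtain ⟨a, s, hs, e⟩ := hV.exists_frac hD hx
  have h1 : algebraMap A K (s ^ p * r - a ^ p) / algebraMap A K π ∈ W := by
    have e1 : algebraMap A K (s ^ p * r - a ^ p) / algebraMap A K π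
        = algebraMap A K s ^ p * ((algebraMap A K r - x ^ p) / algebraMap A K π) := by
      rw [map_sub, map_mul, map_pow, map_pow, ← e, mul_pow]
      ring
    rw [e1]
    exact W.mul_mem (W.pow_mem (hV.base s) p) h
  have h2 : ψ s ^ p * ψ r = ψ a ^ p := by
    have h3 := (hV.div_mem_iff hD _).mp h1
    rw [map_sub, map_mul, map_pow, map_pow, sub_eq_zero] at h3
    exact h3
  obtain ⟨g, hg⟩ := (IsIntegrallyClosed.pow_dvd_pow_iff hD.hp).mp ⟨ψ r, h2.symm⟩
  obtain ⟨g, rfl⟩ := hD.psi_surj g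
  have h3 : ψ r = ψ g ^ p := by
    rw [hg, mul_pow] at h2
    exact mul_left_cancel₀ (pow_ne_zero p hs) h2
  have h4 : ψ (r - g ^ p) = 0 := by rw [map_sub, map_pow, h3, sub_self]
  exact ⟨g, (hV.div_mem_iff hD _).mpr h4⟩

/-- **(B5)** If the image of `z` in `B / (t)` is a prime element (a uniformiser of the branch),
then `w z ^ j ≡ x ^ p` modulo `π W` with `w` a unit of `A` and `x ∈ W` forces `p ∣ j`. -/
theorem Val.dvd_of_unif (hV : Val t π W) (hD : Data p t z π ψ s₀)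
    (hz : Prime (Ideal.Quotient.mk (Ideal.span {t}) z)) (j : ℤ) {w : A} (hw : IsUnit w) {x : K}
    (hx : x ∈ W)
    (h : (algebraMap A K w * algebraMap A K (algebraMap B A z) ^ j - x ^ p)
      / algebraMap A K π ∈ W) : (p : ℤ) ∣ j := by
  haveI : IsDomain (B ⧸ Ideal.span {t}) := isDomain_quot hD.prime
  haveI : IsPrincipalIdealRing (B ⧸ Ideal.span {t}) :=
    isPrincipalIdealRing_quot hD.prime hD.max
  have hinj := IsFractionRing.injective A K
  have hπK : algebraMap A K π ≠ 0 := (map_ne_zero_iff _ hinj).mpr hD.pi_ne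
  have hz0 : z ≠ 0 := by
    intro h0
    exact hz.ne_zero (by rw [h0, map_zero])
  have hzK : algebraMap A K (algebraMap B A z) ≠ 0 :=
    (map_ne_zero_iff _ hinj).mpr ((map_ne_zero_iff _ hD.inj).mpr hz0)
  obtain ⟨a, s, hs, e⟩ := hV.exists_frac hD hx
  obtain ⟨n₁, n₂, rfl⟩ : ∃ n₁ n₂ : ℕ, j = (n₁ : ℤ) - n₂ := ⟨j.toNat, (-j).toNat, by omega⟩
  have h1 : algebraMap A K (w * algebraMap B A z ^ n₁ * s ^ p - a ^ p * algebraMap B A z ^ n₂)
      / algebraMap A K π ∈ W := by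
    have e1 : algebraMap A K (w * algebraMap B A z ^ n₁ * s ^ p - a ^ p * algebraMap B A z ^ n₂)
        / algebraMap A K π
        = algebraMap A K (algebraMap B A z ^ n₂ * s ^ p)
          * ((algebraMap A K w * algebraMap A K (algebraMap B A z) ^ ((n₁ : ℤ) - n₂) - x ^ p)
            / algebraMap A K π) := by
      rw [zpow_sub₀ hzK, zpow_natCast, zpow_natCast]
      simp only [map_sub, map_mul, map_pow]
      rw [← e, mul_pow]
      field_simp
    rw [e1]
    exact W.mul_mem (hV.base _) h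
  have h2 := (hV.div_mem_iff hD _).mp h1
  simp only [map_sub, map_mul, map_pow, hD.psi_base, sub_eq_zero] at h2
  have hwu : ¬ Ideal.Quotient.mk (Ideal.span {t}) z ∣ ψ w := fun hd =>
    hz.not_isUnit (isUnit_of_dvd_unit hd (hw.map ψ))
  have h1' : ¬ Ideal.Quotient.mk (Ideal.span {t}) z ∣ (1 : B ⧸ Ideal.span {t}) := fun hd =>
    hz.not_isUnit (isUnit_of_dvd_one hd)
  have ha : ψ a ≠ 0 := by
    intro h0
    rw [h0, zero_pow hD.hp, zero_mul] at h2
    exact mul_ne_zero (mul_ne_zero (hw.map ψ).ne_zero (pow_ne_zero _ hz.ne_zero))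
      (pow_ne_zero _ hs) h2
  have h3 : ψ w * Ideal.Quotient.mk (Ideal.span {t}) z ^ n₁ * ψ s ^ p
      = 1 * Ideal.Quotient.mk (Ideal.span {t}) z ^ n₂ * ψ a ^ p := by
    rw [h2]; ring
  obtain ⟨X', Y', α, β, -, -, e1, -⟩ := exists_reduced hz hwu h1' hs ha h3
  have e2 := congrArg (Nat.cast : ℕ → ℤ) e1
  push_cast at e2
  exact ⟨(β : ℤ) - α, by linear_combination e2⟩

/-- `W` is the localisation of `A` at the branch prime `(π, t)`, membership form. -/
theorem Val.mem_iff (hV : Val t π W) (hD : Data p t z π ψ s₀) (x : K) :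
    x ∈ W ↔ ∃ a s : A, s ∉ Ideal.span {π, algebraMap B A t} ∧
      x = algebraMap A K a / algebraMap A K s := by
  have hinj := IsFractionRing.injective A K
  constructor
  · intro hx
    obtain ⟨a, s, hs, e⟩ := hV.exists_frac hD hx
    have hs0 : algebraMap A K s ≠ 0 := by
      rw [Ne, map_eq_zero_iff _ hinj]
      intro h0
      exact hs (by rw [h0, map_zero])
    exact ⟨a, s, fun h => hs ((hD.psi_eq_zero_iff s).mpr h),
      by rw [← e, mul_div_cancel_right₀ _ hs0]⟩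
  · rintro ⟨a, s, hs, rfl⟩
    rw [div_eq_mul_inv]
    exact W.mul_mem (hV.base a) (hV.inv_mem hD (fun h => hs ((hD.psi_eq_zero_iff s).mp h)))

omit [IsDomain B] [IsLocalRing B] [IsNoetherianRing B] [IsDomain A] [IsFractionRing A K] in
/-- `(c v)⁻¹ ∈ W` for `c⁻¹ ∈ W` and `v` a unit of `A`. -/
theorem inv_mul_unit_mem (hb : ∀ a : A, algebraMap A K a ∈ W) {c v : A}
    (hc : (algebraMap A K c)⁻¹ ∈ W) (hv : IsUnit v) : (algebraMap A K (c * v))⁻¹ ∈ W := by
  obtain ⟨v, rfl⟩ := hv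
  have e : (algebraMap A K (c * (v : A)))⁻¹
      = (algebraMap A K c)⁻¹ * algebraMap A K ((v⁻¹ : Aˣ) : A) := by
    rw [map_mul, mul_inv]
    congr 1
    exact inv_eq_of_mul_eq_one_right (by rw [← map_mul, Units.mul_inv, map_one])
  rw [e]
  exact W.mul_mem hc (hb _)

end Val

/-! ### The exits: a node -/

section Node

variable {B : Type u} [CommRing B] [IsDomain B] [IsLocalRing B] [IsNoetherianRing B]
  {A : Type v} [CommRing A] [IsDomain A] [Algebra B A]
  {K : Type w} [Field K] [Algebra A K] [IsFractionRing A K]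
  {p : ℕ} {t₁ t₂ : B} {κ : B[X]} {π : A} {W₁ W₂ : Subring K}

omit [IsDomain B] [IsNoetherianRing B] in
/-- `A = B[π]` is a local ring (node block). -/
theorem node_isLocalRing (ht₁ : Prime t₁) (hκ : κ.natDegree < p)
    (hπ : π ^ p = algebraMap B A (t₁ * t₂) * aeval π κ) (hgen : Algebra.adjoin B {π} = ⊤) :
    IsLocalRing A :=
  isLocalRing_of_gen (fun h => ht₁.not_isUnit (isUnit_of_mul_isUnit_left h)) hκ hπ hgen

/-- One branch of a node: the data and the valuation subring.  `W₁` is ANY subring of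
`K = Frac A` containing `A`, with `π⁻¹ ∉ W₁`, whose non-units are multiples of `π`, and in
which `t₂` is a unit. -/
theorem node_setup_one (hp : p ≠ 0) (ht₁ : Prime t₁) (ht₂ : Prime t₂)
    (hne : ¬ Associated t₁ t₂) (hm : maximalIdeal B = Ideal.span {t₁, t₂})
    (hκ : κ.natDegree < p) (hκ0 : IsUnit (κ.eval 0)) (hBA : Function.Injective (algebraMap B A))
    (hπ : π ^ p = algebraMap B A (t₁ * t₂) * aeval π κ) (hgen : Algebra.adjoin B {π} = ⊤)
    (hb₁ : ∀ a : A, algebraMap A K a ∈ W₁) (hi₁ : (algebraMap A K π)⁻¹ ∉ W₁)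
    (hd₁ : ∀ x : K, x ∈ W₁ → x⁻¹ ∉ W₁ → x / algebraMap A K π ∈ W₁)
    (hu₁ : (algebraMap A K (algebraMap B A t₂))⁻¹ ∈ W₁) :
    ∃ ψ₁ : A →+* B ⧸ Ideal.span {t₁},
      Data p t₁ t₂ π ψ₁ (algebraMap B A t₂ * aeval π κ) ∧ Val t₁ π W₁ := by
  obtain ⟨ψ₁, hD₁⟩ := exists_data hp ht₁ hm (not_dvd_of_not_associated ht₁ ht₂ hne) hκ hκ0
    hBA hπ hgen
  haveI : Algebra.IsIntegral B A := hD₁.int
  have hs : ¬ IsUnit (t₁ * t₂) := fun h => ht₁.not_isUnit (isUnit_of_mul_isUnit_left h)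
  have hκu : IsUnit (aeval π κ) := isUnit_aeval hs hκ0 hπ
  exact ⟨ψ₁, hD₁, hD₁.val hb₁ hi₁ hd₁ hu₁ (inv_mul_unit_mem hb₁ hu₁ hκu)⟩

/-- **`W₁` is the localisation of `A` at the branch prime `(π, t₁)`** (so the branch
valuation subring is unique). -/
theorem node_mem_iff (hp : p ≠ 0) (ht₁ : Prime t₁) (ht₂ : Prime t₂)
    (hne : ¬ Associated t₁ t₂) (hm : maximalIdeal B = Ideal.span {t₁, t₂})
    (hκ : κ.natDegree < p) (hκ0 : IsUnit (κ.eval 0)) (hBA : Function.Injective (algebraMap B A))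
    (hπ : π ^ p = algebraMap B A (t₁ * t₂) * aeval π κ) (hgen : Algebra.adjoin B {π} = ⊤)
    (hb₁ : ∀ a : A, algebraMap A K a ∈ W₁) (hi₁ : (algebraMap A K π)⁻¹ ∉ W₁)
    (hd₁ : ∀ x : K, x ∈ W₁ → x⁻¹ ∉ W₁ → x / algebraMap A K π ∈ W₁)
    (hu₁ : (algebraMap A K (algebraMap B A t₂))⁻¹ ∈ W₁) (x : K) :
    x ∈ W₁ ↔ ∃ a s : A, s ∉ Ideal.span {π, algebraMap B A t₁} ∧
      x = algebraMap A K a / algebraMap A K s := by
  obtain ⟨ψ₁, hD₁, hV₁⟩ := node_setup_one hp ht₁ ht₂ hne hm hκ hκ0 hBA hπ hgen hb₁ hi₁ hd₁ hu₁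
  exact hV₁.mem_iff hD₁ x

/-- The centre of `W₁` on `A` is the branch prime `(π, t₁)`. -/
theorem node_div_mem_iff (hp : p ≠ 0) (ht₁ : Prime t₁) (ht₂ : Prime t₂)
    (hne : ¬ Associated t₁ t₂) (hm : maximalIdeal B = Ideal.span {t₁, t₂})
    (hκ : κ.natDegree < p) (hκ0 : IsUnit (κ.eval 0)) (hBA : Function.Injective (algebraMap B A))
    (hπ : π ^ p = algebraMap B A (t₁ * t₂) * aeval π κ) (hgen : Algebra.adjoin B {π} = ⊤)
    (hb₁ : ∀ a : A, algebraMap A K a ∈ W₁) (hi₁ : (algebraMap A K π)⁻¹ ∉ W₁)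
    (hd₁ : ∀ x : K, x ∈ W₁ → x⁻¹ ∉ W₁ → x / algebraMap A K π ∈ W₁)
    (hu₁ : (algebraMap A K (algebraMap B A t₂))⁻¹ ∈ W₁) (a : A) :
    algebraMap A K a / algebraMap A K π ∈ W₁ ↔ a ∈ Ideal.span {π, algebraMap B A t₁} := by
  obtain ⟨ψ₁, hD₁, hV₁⟩ := node_setup_one hp ht₁ ht₂ hne hm hκ hκ0 hBA hπ hgen hb₁ hi₁ hd₁ hu₁
  rw [hV₁.div_mem_iff hD₁, hD₁.psi_eq_zero_iff]

/-- **NZ.3, node.**  `A = B[π]` in the binder block of `NodeNF.exists_eq_first_order`,
`W₁`, `W₂` subrings of `K = Frac A` containing `A`, with `π⁻¹ ∉ W_i`, whose non-units are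
multiples of `π`, `t₂` a unit of `W₁` and `t₁` a unit of `W₂`.  Then the hypotheses
`hB2`, `hB3₁`, `hB3₂`, `hB4` of `NZ.DepthLift.depth_lift_node` and `hB5` of
`NZ.DepthLift.exists_nf_of_nnf` (`t := algebraMap B A t₂`; its `ht` is `hu₁`) hold. -/
theorem node_branches [IsLocalRing A] (hp : p ≠ 0) (ht₁ : Prime t₁) (ht₂ : Prime t₂)
    (hne : ¬ Associated t₁ t₂) (hm : maximalIdeal B = Ideal.span {t₁, t₂})
    (hκ : κ.natDegree < p) (hκ0 : IsUnit (κ.eval 0)) (hBA : Function.Injective (algebraMap B A))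
    (hπ : π ^ p = algebraMap B A (t₁ * t₂) * aeval π κ) (hgen : Algebra.adjoin B {π} = ⊤)
    (hb₁ : ∀ a : A, algebraMap A K a ∈ W₁) (hi₁ : (algebraMap A K π)⁻¹ ∉ W₁)
    (hd₁ : ∀ x : K, x ∈ W₁ → x⁻¹ ∉ W₁ → x / algebraMap A K π ∈ W₁)
    (hu₁ : (algebraMap A K (algebraMap B A t₂))⁻¹ ∈ W₁)
    (hb₂ : ∀ a : A, algebraMap A K a ∈ W₂) (hi₂ : (algebraMap A K π)⁻¹ ∉ W₂)
    (hd₂ : ∀ x : K, x ∈ W₂ → x⁻¹ ∉ W₂ → x / algebraMap A K π ∈ W₂)
    (hu₂ : (algebraMap A K (algebraMap B A t₁))⁻¹ ∈ W₂) :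
    (∀ r : A, algebraMap A K r / algebraMap A K π ∈ W₁ →
      algebraMap A K r / algebraMap A K π ∈ W₂ → π ∣ r) ∧
    (∀ (r : A) (x : K), x ∈ W₁ → (algebraMap A K r - x ^ p) / algebraMap A K π ∈ W₁ →
      ∃ h : A, algebraMap A K (r - h ^ p) / algebraMap A K π ∈ W₁) ∧
    (∀ (r : A) (x : K), x ∈ W₂ → (algebraMap A K r - x ^ p) / algebraMap A K π ∈ W₂ →
      ∃ h : A, algebraMap A K (r - h ^ p) / algebraMap A K π ∈ W₂) ∧
    (∀ h₁ h₂ : A, h₁ - h₂ ∈ IsLocalRing.maximalIdeal A →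
      ∃ h : A, algebraMap A K (h - h₁) / algebraMap A K π ∈ W₁ ∧
        algebraMap A K (h - h₂) / algebraMap A K π ∈ W₂) ∧
    (∀ (j : ℤ) (w : A) (x : K), IsUnit w → x ∈ W₁ → x⁻¹ ∈ W₁ →
      (algebraMap A K w * algebraMap A K (algebraMap B A t₂) ^ j - x ^ p)
        / algebraMap A K π ∈ W₁ → (p : ℤ) ∣ j) := by
  obtain ⟨hne', hm', hπ'⟩ := node_swap hne hm hπ
  obtain ⟨ψ₁, hD₁, hV₁⟩ := node_setup_one hp ht₁ ht₂ hne hm hκ hκ0 hBA hπ hgen hb₁ hi₁ hd₁ hu₁
  obtain ⟨ψ₂, hD₂, hV₂⟩ := node_setup_one hp ht₂ ht₁ hne' hm' hκ hκ0 hBA hπ' hgen hb₂ hi₂ hd₂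
    hu₂
  haveI : Algebra.IsIntegral B A := hD₁.int
  have hs : ¬ IsUnit (t₁ * t₂) := fun h => ht₁.not_isUnit (isUnit_of_mul_isUnit_left h)
  have hκu : IsUnit (aeval π κ) := isUnit_aeval hs hκ0 hπ
  refine ⟨?_, ?_, ?_, ?_, ?_⟩
  · intro r h₁ h₂
    have e₁ := (hV₁.div_mem_iff hD₁ r).mp h₁
    have e₂ := (hV₂.div_mem_iff hD₂ r).mp h₂
    obtain ⟨b, a', rfl⟩ := exists_eq_add_mul hgen r
    rw [map_add, map_mul, hD₁.psi_pi, zero_mul, add_zero, hD₁.psi_base, mk_eq_zero_iff] at e₁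
    rw [map_add, map_mul, hD₂.psi_pi, zero_mul, add_zero, hD₂.psi_base, mk_eq_zero_iff] at e₂
    obtain ⟨d, rfl⟩ := e₁
    have h3 : t₂ ∣ d :=
      (ht₂.dvd_or_dvd e₂).resolve_left (not_dvd_of_not_associated ht₂ ht₁ hne')
    obtain ⟨d', rfl⟩ := h3
    have h4 : π ∣ algebraMap B A (t₁ * t₂) := pi_dvd_base hp hκu hπ
    refine dvd_add ?_ (dvd_mul_right _ _)
    rw [← mul_assoc, map_mul]
    exact h4.mul_right _
  · intro r x hx h
    exact hV₁.exists_root hD₁ r hx h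
  · intro r x hx h
    exact hV₂.exists_root hD₂ r hx h
  · intro h₁ h₂ hmem
    have hnu : ¬ IsUnit (h₁ - h₂) := mem_nonunits_iff.mp ((mem_maximalIdeal _).mp hmem)
    obtain ⟨g, hg₁, hg₂⟩ := node_exists_glue ht₁ hm hκ hπ hgen hnu
    exact ⟨g, (hV₁.div_mem_iff hD₁ _).mpr ((hD₁.psi_eq_zero_iff _).mpr hg₁),
      (hV₂.div_mem_iff hD₂ _).mpr ((hD₂.psi_eq_zero_iff _).mpr hg₂)⟩
  · intro j w x hw hx _ h
    exact hV₁.dvd_of_unif hD₁ (prime_mk ht₁ ht₂ hne hm) j hw hx h

end Node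

/-! ### The exits: a smooth point -/

section Smooth

variable {B : Type u} [CommRing B] [IsDomain B] [IsLocalRing B] [IsNoetherianRing B]
  {A : Type v} [CommRing A] [IsDomain A] [Algebra B A]
  {K : Type w} [Field K] [Algebra A K] [IsFractionRing A K]
  {p : ℕ} {ϖ z : B} {κ : B[X]} {π : A} {W : Subring K}

omit [IsDomain B] [IsNoetherianRing B] in
/-- `A = B[π]` is a local ring (smooth block). -/
theorem smooth_isLocalRing (hϖ : Prime ϖ) (hκ : κ.natDegree < p)
    (hπ : π ^ p = algebraMap B A ϖ * aeval π κ) (hgen : Algebra.adjoin B {π} = ⊤) :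
    IsLocalRing A :=
  isLocalRing_of_gen hϖ.not_isUnit hκ hπ hgen

/-- The data of the branch at a smooth point. -/
theorem smooth_data (hp : p ≠ 0) (hϖ : Prime ϖ) (hm : maximalIdeal B = Ideal.span {ϖ, z})
    (hκ : κ.natDegree < p) (hκ0 : IsUnit (κ.eval 0)) (hBA : Function.Injective (algebraMap B A))
    (hπ : π ^ p = algebraMap B A ϖ * aeval π κ) (hgen : Algebra.adjoin B {π} = ⊤) :
    ∃ ψ : A →+* B ⧸ Ideal.span {ϖ},
      Data p ϖ z π ψ (algebraMap B A 1 * aeval π κ) ∧ IsUnit (aeval π κ) := by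
  have hπ' : π ^ p = algebraMap B A (ϖ * 1) * aeval π κ := by rw [mul_one]; exact hπ
  obtain ⟨ψ, hD⟩ := exists_data hp hϖ hm (fun hd => hϖ.not_isUnit (isUnit_of_dvd_one hd))
    hκ hκ0 hBA hπ' hgen
  haveI : Algebra.IsIntegral B A := hD.int
  exact ⟨ψ, hD, isUnit_aeval hϖ.not_isUnit hκ0 hπ⟩

omit [IsDomain B] [IsLocalRing B] [IsNoetherianRing B] [IsDomain A] [IsFractionRing A K] in
theorem inv_one_mul_unit_mem (hb : ∀ a : A, algebraMap A K a ∈ W) {v : A} (hv : IsUnit v) :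
    (algebraMap A K (algebraMap B A 1 * v))⁻¹ ∈ W :=
  inv_mul_unit_mem hb (by rw [map_one, map_one, inv_one]; exact W.one_mem) hv

/-- The two conclusions at a smooth point, from the valuation subring. -/
theorem smooth_of_val (hp : p ≠ 0) {ψ : A →+* B ⧸ Ideal.span {ϖ}} {s₀ : A}
    (hD : Data p ϖ z π ψ s₀) (hV : Val ϖ π W) (hκu : IsUnit (aeval π κ))
    (hπ : π ^ p = algebraMap B A ϖ * aeval π κ) :
    (∀ r : A, algebraMap A K r / algebraMap A K π ∈ W → π ∣ r) ∧
    (∀ (r : A) (x : K), x ∈ W → (algebraMap A K r - x ^ p) / algebraMap A K π ∈ W →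
      ∃ h : A, algebraMap A K (r - h ^ p) / algebraMap A K π ∈ W) := by
  refine ⟨?_, ?_⟩
  · intro r h
    obtain ⟨x, y, rfl⟩ :=
      Ideal.mem_span_pair.mp ((hD.psi_eq_zero_iff r).mp ((hV.div_mem_iff hD r).mp h))
    exact dvd_add (dvd_mul_left _ _) ((pi_dvd_base hp hκu hπ).mul_left _)
  · intro r x hx h
    exact hV.exists_root hD r hx h

/-- **NZ.3, smooth point, centre form.**  `A = B[π]` in the binder block of
`SmoothNF.exists_eq_first_order_smooth`, `W` a subring of `K = Frac A` containing `A`, with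
`π⁻¹ ∉ W`, whose non-units are multiples of `π`, and whose centre on `B` is `(ϖ)`.  Then the
hypotheses `hB2`, `hB3` of `NZ.DepthLift.depth_lift_smooth` hold. -/
theorem smooth_branch (hp : p ≠ 0) (hϖ : Prime ϖ) (hm : maximalIdeal B = Ideal.span {ϖ, z})
    (hκ : κ.natDegree < p) (hκ0 : IsUnit (κ.eval 0)) (hBA : Function.Injective (algebraMap B A))
    (hπ : π ^ p = algebraMap B A ϖ * aeval π κ) (hgen : Algebra.adjoin B {π} = ⊤)
    (hb : ∀ a : A, algebraMap A K a ∈ W) (hi : (algebraMap A K π)⁻¹ ∉ W)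
    (hd : ∀ x : K, x ∈ W → x⁻¹ ∉ W → x / algebraMap A K π ∈ W)
    (hcen : ∀ b : B, ¬ ϖ ∣ b → (algebraMap A K (algebraMap B A b))⁻¹ ∈ W) :
    (∀ r : A, algebraMap A K r / algebraMap A K π ∈ W → π ∣ r) ∧
    (∀ (r : A) (x : K), x ∈ W → (algebraMap A K r - x ^ p) / algebraMap A K π ∈ W →
      ∃ h : A, algebraMap A K (r - h ^ p) / algebraMap A K π ∈ W) := by
  obtain ⟨ψ, hD, hκu⟩ := smooth_data hp hϖ hm hκ hκ0 hBA hπ hgen
  exact smooth_of_val hp hD (hD.val_of_cen hb hi hd hcen (inv_one_mul_unit_mem hb hκu)) hκu hπ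

/-- **NZ.3, smooth point, unit form**: the same with `z⁻¹ ∈ W` instead of the centre
condition. -/
theorem smooth_branch' (hp : p ≠ 0) (hϖ : Prime ϖ) (hm : maximalIdeal B = Ideal.span {ϖ, z})
    (hκ : κ.natDegree < p) (hκ0 : IsUnit (κ.eval 0)) (hBA : Function.Injective (algebraMap B A))
    (hπ : π ^ p = algebraMap B A ϖ * aeval π κ) (hgen : Algebra.adjoin B {π} = ⊤)
    (hb : ∀ a : A, algebraMap A K a ∈ W) (hi : (algebraMap A K π)⁻¹ ∉ W)
    (hd : ∀ x : K, x ∈ W → x⁻¹ ∉ W → x / algebraMap A K π ∈ W)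
    (hz : (algebraMap A K (algebraMap B A z))⁻¹ ∈ W) :
    (∀ r : A, algebraMap A K r / algebraMap A K π ∈ W → π ∣ r) ∧
    (∀ (r : A) (x : K), x ∈ W → (algebraMap A K r - x ^ p) / algebraMap A K π ∈ W →
      ∃ h : A, algebraMap A K (r - h ^ p) / algebraMap A K π ∈ W) := by
  obtain ⟨ψ, hD, hκu⟩ := smooth_data hp hϖ hm hκ hκ0 hBA hπ hgen
  exact smooth_of_val hp hD (hD.val hb hi hd hz (inv_one_mul_unit_mem hb hκu)) hκu hπ

/-- `W` is the localisation of `A` at the branch prime `(π)` of a smooth point. -/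
theorem smooth_mem_iff (hp : p ≠ 0) (hϖ : Prime ϖ) (hm : maximalIdeal B = Ideal.span {ϖ, z})
    (hκ : κ.natDegree < p) (hκ0 : IsUnit (κ.eval 0)) (hBA : Function.Injective (algebraMap B A))
    (hπ : π ^ p = algebraMap B A ϖ * aeval π κ) (hgen : Algebra.adjoin B {π} = ⊤)
    (hb : ∀ a : A, algebraMap A K a ∈ W) (hi : (algebraMap A K π)⁻¹ ∉ W)
    (hd : ∀ x : K, x ∈ W → x⁻¹ ∉ W → x / algebraMap A K π ∈ W)
    (hcen : ∀ b : B, ¬ ϖ ∣ b → (algebraMap A K (algebraMap B A b))⁻¹ ∈ W) (x : K) :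
    x ∈ W ↔ ∃ a s : A, ¬ π ∣ s ∧ x = algebraMap A K a / algebraMap A K s := by
  obtain ⟨ψ, hD, hκu⟩ := smooth_data hp hϖ hm hκ hκ0 hBA hπ hgen
  have hV := hD.val_of_cen hb hi hd hcen (inv_one_mul_unit_mem hb hκu)
  have hspan : ∀ s : A, s ∈ Ideal.span {π, algebraMap B A ϖ} ↔ π ∣ s := by
    intro s
    constructor
    · intro h
      obtain ⟨x, y, rfl⟩ := Ideal.mem_span_pair.mp h
      exact dvd_add (dvd_mul_left _ _) ((pi_dvd_base hp hκu hπ).mul_left _)
    · rintro ⟨c, rfl⟩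
      exact Ideal.mul_mem_right _ _ (Ideal.subset_span (Set.mem_insert _ _))
  rw [hV.mem_iff hD]
  constructor
  · rintro ⟨a, s, hs, e⟩
    exact ⟨a, s, fun h => hs ((hspan s).mpr h), e⟩
  · rintro ⟨a, s, hs, e⟩
    exact ⟨a, s, fun h => hs ((hspan s).mp h), e⟩

end Smooth

end Fermat.Agent.S44.L.NZ.Branch
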