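import Mathlib
import Fermat.Agent.S44.L.NZ.ClosedPointChart

/-!
# PROGRAM MR (S44), strand L, NZ-ALT, row NZ.5 (CP): the chart-generic exits with a
# `B`-generic `hord` binder (helper131)

`NZ/ClosedPointChart.powAt_chart` / `powAt_chart_cusp` (helper211) take the binder `hord` at the
local rings `B = Localization.AtPrime y` of the chart.  At the `E`-level instance the supplier
`Alt/HordInst.hord_u4_of_horiz` is generic in `B` with `[CommRing B]`, and a statement that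
mentions `Localization.AtPrime y` next to the concrete modular types is slow to elaborate.  Here
the two exits are restated with `hord` for EVERY commutative ring `B` (the shape of the
`HordInst` exits), so that the instance files never mention a localisation.  (The commutative
ring structure handed to `hordB` is rebuilt from the commutative semiring structure of the
localisation by `Algebra.semiringToRing`, so that the instances of the two statements agree by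
structure eta: with the instance found by type class search the comparison does not
terminate in reasonable time.)

* `powAt_chart_B`, `powAt_chart_cusp_B`.
-/

set_option autoImplicit false
set_option linter.unusedSectionVars false
set_option linter.unusedVariables false
set_option linter.style.haveILetI false
set_option maxHeartbeats 1000000

open ModularCurve Polynomial

noncomputable section

namespace Fermat.Agent.S44.L.NZ.ClosedPointChartB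

open Fermat.Agent.S30 Fermat.Agent.S34 Fermat.Agent.S34.TwoPrimesGauss
open Fermat.Agent.S44.L.Alt.NodeAlt Fermat.Agent.S44.L.Alt.NodeAltCore
open Fermat.Agent.S44.L.Alt.NodeAltBinders
open Fermat.Agent.S44.L.NZ.ClosedPointCore
open Fermat.Agent.S44.L.DepthHenselExit Fermat.Agent.S44.L.PthPoint

variable {O E : Type*} [CommRing O] [IsDomain O] [IsDiscreteValuationRing O] [Field E]
  [Algebra O E] [FaithfulSMul O E] {L : Type} [Field L] [Algebra O L]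
  {Os Ks : Type*} [CommRing Os] [IsDomain Os] [IsDiscreteValuationRing Os] [Field Ks]
  [Algebra Os Ks] [IsFractionRing Os Ks]
  (φ : O →+* Os) [IsLocalHom φ] (ψ : E →+* Ks)
  (hφψ : ∀ a : O, ψ (algebraMap O E a) = algebraMap Os Ks (φ a))

include hφψ in
/-- **`ClosedPointChart.powAt_chart` with `hord` for every `B`.** -/
theorem powAt_chart_B (ϖ : O) (hϖ : Irreducible ϖ) (e : O) (he : IsUnit e) {p : ℕ}
    (hpe : ((p : ℕ) : O) = ϖ * e) (u : L)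
    (σ₁ : L →+* LaurentSeries E)
    (hσO₁ : ∀ r : O, σ₁ (algebraMap O L r) = HahnSeries.C (algebraMap O E r))
    (hσfrac₁ : ∀ x : L, σ₁ x ∈ GaussDVR.fracField O E)
    (U₁ : LaurentSeries O) (hσu₁ : σ₁ u = GaussDVR.iota O E U₁)
    (σ₂ : L →+* LaurentSeries E)
    (hσO₂ : ∀ r : O, σ₂ (algebraMap O L r) = HahnSeries.C (algebraMap O E r))
    (hσfrac₂ : ∀ x : L, σ₂ x ∈ GaussDVR.fracField O E)
    (U₂ : LaurentSeries O) (hσu₂ : σ₂ u = GaussDVR.iota O E U₂)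
    [IsFractionRing (Chart O u) L] (hnoeth : IsNoetherianRing (Chart O u))
    (hcls : ∀ y : Ideal (Chart O u), y.IsPrime → piC u ϖ ∈ y →
      RingHom.ker (redHom σ₁ hσO₁ ϖ hϖ hσfrac₁ u U₁ hσu₁) ≤ y ∨
      RingHom.ker (redHom σ₂ hσO₂ ϖ hϖ hσfrac₂ u U₂ hσu₂) ≤ y)
    (t₁ t₂ : Chart O u)
    (hne : t₁ ∉ RingHom.ker (redHom σ₂ hσO₂ ϖ hϖ hσfrac₂ u U₂ hσu₂))
    (hnode : ∀ y : Ideal (Chart O u), y.IsMaximal →
      RingHom.ker (redHom σ₁ hσO₁ ϖ hϖ hσfrac₁ u U₁ hσu₁) ≤ y →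
      RingHom.ker (redHom σ₂ hσO₂ ϖ hϖ hσfrac₂ u U₂ hσu₂) ≤ y →
      ∃ g : Chart O u, g ∉ y ∧ t₁ * t₂ = piC u ϖ * g ∧
        (t₁ ∈ RingHom.ker (redHom σ₁ hσO₁ ϖ hϖ hσfrac₁ u U₁ hσu₁) ∧
          ∀ x ∈ RingHom.ker (redHom σ₁ hσO₁ ϖ hϖ hσfrac₁ u U₁ hσu₁),
            ∃ s, s ∉ y ∧ s * x ∈ Ideal.span {t₁}) ∧
        (t₂ ∈ RingHom.ker (redHom σ₂ hσO₂ ϖ hϖ hσfrac₂ u U₂ hσu₂) ∧
          ∀ x ∈ RingHom.ker (redHom σ₂ hσO₂ ϖ hϖ hσfrac₂ u U₂ hσu₂),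
            ∃ s, s ∉ y ∧ s * x ∈ Ideal.span {t₂}) ∧
        ∀ m ∈ y, ∃ s, s ∉ y ∧ s * m ∈ Ideal.span {t₁, t₂})
    (hsm₁ : ∀ y : Ideal (Chart O u), y.IsMaximal →
      RingHom.ker (redHom σ₁ hσO₁ ϖ hϖ hσfrac₁ u U₁ hσu₁) ≤ y →
      ¬ RingHom.ker (redHom σ₂ hσO₂ ϖ hϖ hσfrac₂ u U₂ hσu₂) ≤ y →
      (piC u ϖ ∈ RingHom.ker (redHom σ₁ hσO₁ ϖ hϖ hσfrac₁ u U₁ hσu₁) ∧
        ∀ x ∈ RingHom.ker (redHom σ₁ hσO₁ ϖ hϖ hσfrac₁ u U₁ hσu₁),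
          ∃ s, s ∉ y ∧ s * x ∈ Ideal.span {piC u ϖ}) ∧
      ∃ z ∈ y, ∀ m ∈ y, ∃ s, s ∉ y ∧ s * m ∈ Ideal.span {piC u ϖ, z})
    (hsm₂ : ∀ y : Ideal (Chart O u), y.IsMaximal →
      RingHom.ker (redHom σ₂ hσO₂ ϖ hϖ hσfrac₂ u U₂ hσu₂) ≤ y →
      ¬ RingHom.ker (redHom σ₁ hσO₁ ϖ hϖ hσfrac₁ u U₁ hσu₁) ≤ y →
      (piC u ϖ ∈ RingHom.ker (redHom σ₂ hσO₂ ϖ hϖ hσfrac₂ u U₂ hσu₂) ∧
        ∀ x ∈ RingHom.ker (redHom σ₂ hσO₂ ϖ hϖ hσfrac₂ u U₂ hσu₂),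
          ∃ s, s ∉ y ∧ s * x ∈ Ideal.span {piC u ϖ}) ∧
      ∃ z ∈ y, ∀ m ∈ y, ∃ s, s ∉ y ∧ s * m ∈ Ideal.span {piC u ϖ, z})
    (hcross : ∃ y : Ideal (Chart O u), y.IsMaximal ∧
      RingHom.ker (redHom σ₁ hσO₁ ϖ hϖ hσfrac₁ u U₁ hσu₁) ≤ y ∧
      RingHom.ker (redHom σ₂ hσO₂ ϖ hϖ hσfrac₂ u U₂ hσu₂) ≤ y)
    {ϖs : Os} (hϖs : Irreducible ϖs) (hp : p.Prime) (hp3 : 3 ≤ p)
    (η : Os) (hη : IsUnit η) (hpη : (p : Os) = η * ϖs ^ p)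
    (hperf : ∀ x : IsLocalRing.ResidueField Os, ∃ y, y ^ p = x)
    (θ : O[X]) (hθdeg : θ.natDegree < p) (hθ0 : IsUnit (θ.eval 0))
    (hθ : ϖs ^ p = φ ϖ * θ.eval₂ φ ϖs)
    (hOs : ∀ r : Os, ∃ a : ℕ → O, r = ∑ i ∈ Finset.range p, φ (a i) * ϖs ^ i)
    {Ls : Type*} [Field Ls] [Algebra Os Ls] [Algebra Ks Ls] [IsScalarTower Os Ks Ls]
    (β : L →+* Ls)
    (hβO : ∀ r : O, β (algebraMap O L r) = algebraMap Os Ls (φ r))
    (σs : Ls →+* LaurentSeries Ks)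
    (hσsO : ∀ r : Os, σs (algebraMap Os Ls r) = HahnSeries.C (algebraMap Os Ks r))
    (hσsfrac : ∀ x : Ls, σs x ∈ GaussDVR.fracField Os Ks)
    (ws : Ls →+* Ls) (hwsO : ∀ r : Os, ws (algebraMap Os Ls r) = algebraMap Os Ls r)
    (hσβ₁ : ∀ x : L, σs (β x) = coeffMap ψ (σ₁ x))
    (hσβ₂ : ∀ x : L, σs (ws (β x)) = coeffMap ψ (σ₂ x))
    (hspan : ∀ x : Ls, ∃ P : L[X], x = P.eval₂ β (algebraMap Os Ls ϖs))
    (us : Ls) (hus : β u = us) (bc : Chart O u →+* Chart Os us)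
    (hbc : ∀ c : Chart O u, ((bc c : Chart Os us) : Ls) = β (c : L))
    {x : Ls} (hx : x ≠ 0)
    (hordB : ∀ {B : Type} [CommRing B] [Algebra (Chart O u) B] [Algebra B Ls]
      (hBβ : ∀ c : Chart O u, algebraMap B Ls (algebraMap (Chart O u) B c) = β (c : L))
      (Q : Ideal (Algebra.adjoin B ({algebraMap Os Ls ϖs} : Set Ls))),
      Q.IsPrime →
      (⟨algebraMap Os Ls ϖs, Algebra.self_mem_adjoin_singleton _ _⟩ :
        Algebra.adjoin B ({algebraMap Os Ls ϖs} : Set Ls)) ∉ Q →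
      ∃ (a b : Algebra.adjoin B ({algebraMap Os Ls ϖs} : Set Ls))
        (τ : Ls), a ∉ Q ∧ b ∉ Q ∧
        algebraMap (Algebra.adjoin B ({algebraMap Os Ls ϖs} : Set Ls))
            Ls b * x
          = algebraMap (Algebra.adjoin B
            ({algebraMap Os Ls ϖs} : Set Ls)) Ls a * τ ^ p)
    (ca cb : Ks) (hmain : GaussDepth σs ϖs p (p + 2) ca x)
    (hother : GaussDepth (σs.comp ws) ϖs p (p + 2) cb x) :
    (∀ 𝔪 : Ideal (Chart Os us), 𝔪.IsMaximal → ((p : ℕ) : Chart Os us) ∈ 𝔪 →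
      PowAt (Algebra.adjoin Os ({us} : Set Ls)) p (x / algebraMap Ks Ls ca) 𝔪) ∧
    GaussDepth (σs.comp ws) ϖs p (p + 2) ca x := by
  refine ClosedPointChart.powAt_chart φ ψ hφψ ϖ hϖ e he hpe u σ₁ hσO₁ hσfrac₁ U₁ hσu₁ σ₂ hσO₂
    hσfrac₂ U₂ hσu₂ hnoeth hcls t₁ t₂ hne hnode hsm₁ hsm₂ hcross hϖs hp hp3 η hη hpη hperf θ
    hθdeg hθ0 hθ hOs β hβO σs hσsO hσsfrac ws hwsO hσβ₁ hσβ₂ hspan us hus bc hbc hx ?_ ca cb
    hmain hother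
  intro y _ _ hBβ Q hQ hπ
  letI rg : Ring (Localization.AtPrime y) := Algebra.semiringToRing (Chart O u)
  letI cr : CommRing (Localization.AtPrime y) := { rg with mul_comm := mul_comm }
  exact @hordB (Localization.AtPrime y) cr _ _ hBβ Q hQ hπ

include hφψ in
/-- **`ClosedPointChart.powAt_chart_cusp` with `hord` for every `B`.** -/
theorem powAt_chart_cusp_B (ϖ : O) (hϖ : Irreducible ϖ) (e : O) (he : IsUnit e) {p : ℕ}
    (hpe : ((p : ℕ) : O) = ϖ * e) (u : L)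
    (σ₁ : L →+* LaurentSeries E)
    (hσO₁ : ∀ r : O, σ₁ (algebraMap O L r) = HahnSeries.C (algebraMap O E r))
    (hσfrac₁ : ∀ x : L, σ₁ x ∈ GaussDVR.fracField O E)
    (U₁ : LaurentSeries O) (hσu₁ : σ₁ u = GaussDVR.iota O E U₁)
    (σ₂ : L →+* LaurentSeries E)
    (hσO₂ : ∀ r : O, σ₂ (algebraMap O L r) = HahnSeries.C (algebraMap O E r))
    (hσfrac₂ : ∀ x : L, σ₂ x ∈ GaussDVR.fracField O E)
    (U₂ : LaurentSeries O) (hσu₂ : σ₂ u = GaussDVR.iota O E U₂)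
    [IsFractionRing (Chart O u) L] (hnoeth : IsNoetherianRing (Chart O u))
    (xC : Chart O u) (hxC : ((xC : Chart O u) : L) = u)
    (hcusp : ∀ y : Ideal (Chart O u), y.IsMaximal → piC u ϖ ∈ y → xC ∈ y →
      (RingHom.ker (redHom σ₁ hσO₁ ϖ hϖ hσfrac₁ u U₁ hσu₁) ≤ y ∧
        ¬ RingHom.ker (redHom σ₂ hσO₂ ϖ hϖ hσfrac₂ u U₂ hσu₂) ≤ y ∧
        (piC u ϖ ∈ RingHom.ker (redHom σ₁ hσO₁ ϖ hϖ hσfrac₁ u U₁ hσu₁) ∧
          ∀ x ∈ RingHom.ker (redHom σ₁ hσO₁ ϖ hϖ hσfrac₁ u U₁ hσu₁),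
            ∃ s, s ∉ y ∧ s * x ∈ Ideal.span {piC u ϖ}) ∧
        ∃ z ∈ y, ∀ m ∈ y, ∃ s, s ∉ y ∧ s * m ∈ Ideal.span {piC u ϖ, z}) ∨
      (RingHom.ker (redHom σ₂ hσO₂ ϖ hϖ hσfrac₂ u U₂ hσu₂) ≤ y ∧
        ¬ RingHom.ker (redHom σ₁ hσO₁ ϖ hϖ hσfrac₁ u U₁ hσu₁) ≤ y ∧
        (piC u ϖ ∈ RingHom.ker (redHom σ₂ hσO₂ ϖ hϖ hσfrac₂ u U₂ hσu₂) ∧
          ∀ x ∈ RingHom.ker (redHom σ₂ hσO₂ ϖ hϖ hσfrac₂ u U₂ hσu₂),
            ∃ s, s ∉ y ∧ s * x ∈ Ideal.span {piC u ϖ}) ∧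
        ∃ z ∈ y, ∀ m ∈ y, ∃ s, s ∉ y ∧ s * m ∈ Ideal.span {piC u ϖ, z}))
    {ϖs : Os} (hϖs : Irreducible ϖs) (hp : p.Prime) (hp3 : 3 ≤ p)
    (η : Os) (hη : IsUnit η) (hpη : (p : Os) = η * ϖs ^ p)
    (hperf : ∀ x : IsLocalRing.ResidueField Os, ∃ y, y ^ p = x)
    (θ : O[X]) (hθdeg : θ.natDegree < p) (hθ0 : IsUnit (θ.eval 0))
    (hθ : ϖs ^ p = φ ϖ * θ.eval₂ φ ϖs)
    (hOs : ∀ r : Os, ∃ a : ℕ → O, r = ∑ i ∈ Finset.range p, φ (a i) * ϖs ^ i)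
    {Ls : Type*} [Field Ls] [Algebra Os Ls] [Algebra Ks Ls] [IsScalarTower Os Ks Ls]
    (β : L →+* Ls)
    (hβO : ∀ r : O, β (algebraMap O L r) = algebraMap Os Ls (φ r))
    (σs : Ls →+* LaurentSeries Ks)
    (hσsO : ∀ r : Os, σs (algebraMap Os Ls r) = HahnSeries.C (algebraMap Os Ks r))
    (hσsfrac : ∀ x : Ls, σs x ∈ GaussDVR.fracField Os Ks)
    (ws : Ls →+* Ls) (hwsO : ∀ r : Os, ws (algebraMap Os Ls r) = algebraMap Os Ls r)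
    (hσβ₁ : ∀ x : L, σs (β x) = coeffMap ψ (σ₁ x))
    (hσβ₂ : ∀ x : L, σs (ws (β x)) = coeffMap ψ (σ₂ x))
    (hspan : ∀ x : Ls, ∃ P : L[X], x = P.eval₂ β (algebraMap Os Ls ϖs))
    (us : Ls) (hus : β u = us) (bc : Chart O u →+* Chart Os us)
    (hbc : ∀ c : Chart O u, ((bc c : Chart Os us) : Ls) = β (c : L))
    {x : Ls} (hx : x ≠ 0)
    (hordB : ∀ {B : Type} [CommRing B] [Algebra (Chart O u) B] [Algebra B Ls]
      (hBβ : ∀ c : Chart O u, algebraMap B Ls (algebraMap (Chart O u) B c) = β (c : L))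
      (Q : Ideal (Algebra.adjoin B ({algebraMap Os Ls ϖs} : Set Ls))),
      Q.IsPrime →
      (⟨algebraMap Os Ls ϖs, Algebra.self_mem_adjoin_singleton _ _⟩ :
        Algebra.adjoin B ({algebraMap Os Ls ϖs} : Set Ls)) ∉ Q →
      ∃ (a b : Algebra.adjoin B ({algebraMap Os Ls ϖs} : Set Ls))
        (τ : Ls), a ∉ Q ∧ b ∉ Q ∧
        algebraMap (Algebra.adjoin B ({algebraMap Os Ls ϖs} : Set Ls))
            Ls b * x
          = algebraMap (Algebra.adjoin B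
            ({algebraMap Os Ls ϖs} : Set Ls)) Ls a * τ ^ p)
    (c : Ks) (hmain₁ : GaussDepth σs ϖs p (p + 2) c x)
    (hmain₂ : GaussDepth (σs.comp ws) ϖs p (p + 2) c x) :
    ∀ 𝔪 : Ideal (Chart Os us), 𝔪.IsMaximal → ((p : ℕ) : Chart Os us) ∈ 𝔪 →
      (∃ t : Chart Os us, (t : Ls) = us ∧ t ∈ 𝔪) →
      PowAt (Algebra.adjoin Os ({us} : Set Ls)) p (x / algebraMap Ks Ls c) 𝔪 := by
  refine ClosedPointChart.powAt_chart_cusp φ ψ hφψ ϖ hϖ e he hpe u σ₁ hσO₁ hσfrac₁ U₁ hσu₁ σ₂ hσO₂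
    hσfrac₂ U₂ hσu₂ hnoeth xC hxC hcusp hϖs hp hp3 η hη hpη hperf θ hθdeg hθ0 hθ hOs β hβO σs
    hσsO hσsfrac ws hwsO hσβ₁ hσβ₂ hspan us hus bc hbc hx ?_ c hmain₁ hmain₂
  intro y _ _ hBβ Q hQ hπ
  letI rg : Ring (Localization.AtPrime y) := Algebra.semiringToRing (Chart O u)
  letI cr : CommRing (Localization.AtPrime y) := { rg with mul_comm := mul_comm }
  exact @hordB (Localization.AtPrime y) cr _ _ hBβ Q hQ hπ

end Fermat.Agent.S44.L.NZ.ClosedPointChartB
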