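import Mathlib
import Fermat.Agent.S44.L.DepthHensel

/-!
# PROGRAM MR (S44), strand L, NZ-ALT row NZ.5: the converter to `PthPoint.PowAt`

Level-free (Mathlib + `S44/L/DepthHensel`), helper160 (second of NZ.5; literals of helper211).

`S` a subalgebra of the field `F` over `O` (`S = O_*[u]`), `integralClosure S F` the chart ring
over the ramified base, `𝔪` a prime of it, `π ∈ 𝔪` with `p = η π ^ p`, `η` a unit.

* `powAt_of_div` (CV1) : `H = G ^ p * (1 + π ^ (p + 2) * (a / s))`, `a`, `s` in the chart ring,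
  `s ∉ 𝔪`, gives `PthPoint.PowAt S p H 𝔪` (`DepthHensel.powAt_of_depth` at the localisation of
  the chart ring at `𝔪`).
* `exists_div_of_mem_closure` (CV2) : a subring of `F` generated by integral elements and by
  inverses of chart elements outside `𝔪` consists of fractions `a / s`, `s ∉ 𝔪`
  (`A_y ⊆ (chart)_𝔪` for `𝔪` over `y`).
* `powAt_of_mem_closure` (CV) : the two together.
* `exists_mul_eq_aeval`, `powAt_of_mem_adjoin` : the same converter when `A_y` is presented as
  `B_y[π]`, `B_y` a localisation of a ring `C` with integral image at a prime `y` containing the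
  contraction of `𝔪`.
-/

set_option autoImplicit false
set_option linter.style.haveILetI false

namespace Fermat.Agent.S44.L.NZ.ClosedPointConv

open Polynomial Fermat.Agent.S44.L

variable {O F : Type*} [CommRing O] [Field F] [Algebra O F]

/-- An element of the chart ring outside a proper ideal is nonzero in the field. -/
theorem coe_ne_zero_of_not_mem (S : Subalgebra O F) (𝔪 : Ideal (integralClosure S F))
    {s : integralClosure S F} (hs : s ∉ 𝔪) : (s : F) ≠ 0 := by
  intro h0
  apply hs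
  have : s = 0 := Subtype.ext h0
  rw [this]
  exact 𝔪.zero_mem

/-- **(CV1)** `PowAt` from depth `p + 2` with `r = a / s`, `s ∉ 𝔪`. -/
theorem powAt_of_div (S : Subalgebra O F) (p : ℕ) (hp : p.Prime) (hp3 : 3 ≤ p) (H : F)
    (𝔪 : Ideal (integralClosure S F)) [𝔪.IsPrime] (π η η' : integralClosure S F) (hπ : π ∈ 𝔪)
    (hηη : η * η' = 1) (hpπ : (p : integralClosure S F) = η * π ^ p) (G : F)
    (a s : integralClosure S F) (hs : s ∉ 𝔪)
    (hH : H = G ^ p * (1 + (π : F) ^ (p + 2) * ((a : F) / (s : F)))) :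
    PthPoint.PowAt S p H 𝔪 := by
  classical
  have hunit : ∀ y : 𝔪.primeCompl,
      IsUnit (algebraMap (integralClosure S F) F (y : integralClosure S F)) := fun y =>
    IsUnit.mk0 _ (coe_ne_zero_of_not_mem S 𝔪 y.2)
  letI : Algebra (Localization.AtPrime 𝔪) F :=
    (IsLocalization.lift (M := 𝔪.primeCompl) (S := Localization.AtPrime 𝔪) hunit).toAlgebra
  haveI : IsScalarTower (integralClosure S F) (Localization.AtPrime 𝔪) F :=
    IsScalarTower.of_algebraMap_eq fun x => (IsLocalization.lift_eq hunit x).symm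
  have hs0 : (s : F) ≠ 0 := coe_ne_zero_of_not_mem S 𝔪 hs
  have hπA : ¬ IsUnit (algebraMap (integralClosure S F) (Localization.AtPrime 𝔪) π) := by
    rw [IsLocalization.AtPrime.isUnit_to_map_iff (Localization.AtPrime 𝔪) 𝔪 π]
    exact fun h => h hπ
  have hηA : IsUnit (algebraMap (integralClosure S F) (Localization.AtPrime 𝔪) η) :=
    (IsUnit.of_mul_eq_one η' hηη).map _
  have hpA : (p : Localization.AtPrime 𝔪)
      = algebraMap (integralClosure S F) (Localization.AtPrime 𝔪) η
        * algebraMap (integralClosure S F) (Localization.AtPrime 𝔪) π ^ p := by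
    rw [← map_pow, ← map_mul, ← hpπ, map_natCast]
  have hr : algebraMap (Localization.AtPrime 𝔪) F
      (IsLocalization.mk' (Localization.AtPrime 𝔪) a (⟨s, hs⟩ : 𝔪.primeCompl))
      = (a : F) / (s : F) := by
    rw [eq_div_iff hs0]
    have h1 := IsLocalization.mk'_spec (Localization.AtPrime 𝔪) a (⟨s, hs⟩ : 𝔪.primeCompl)
    have h2 := congrArg (algebraMap (Localization.AtPrime 𝔪) F) h1
    rw [map_mul, ← IsScalarTower.algebraMap_apply, ← IsScalarTower.algebraMap_apply] at h2
    exact h2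
  refine DepthHensel.powAt_of_depth S p hp hp3 H 𝔪 (Localization.AtPrime 𝔪)
    (algebraMap (integralClosure S F) (Localization.AtPrime 𝔪) π)
    (algebraMap (integralClosure S F) (Localization.AtPrime 𝔪) η) hπA hηA hpA G (p + 2)
    (le_refl _) (IsLocalization.mk' (Localization.AtPrime 𝔪) a (⟨s, hs⟩ : 𝔪.primeCompl)) ?_
  rw [hr, ← IsScalarTower.algebraMap_apply]
  exact hH

/-- **(CV2)** A subring of `F` generated by integral elements and inverses of chart elements
outside `𝔪` consists of fractions `a / s` with `s ∉ 𝔪`. -/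
theorem exists_div_of_mem_closure (S : Subalgebra O F) (𝔪 : Ideal (integralClosure S F))
    [𝔪.IsPrime] (T : Set F)
    (hT : ∀ x ∈ T, IsIntegral S x ∨ ∃ s : integralClosure S F, s ∉ 𝔪 ∧ x = (s : F)⁻¹)
    (r : F) (hr : r ∈ Subring.closure T) :
    ∃ a s : integralClosure S F, s ∉ 𝔪 ∧ r = (a : F) / (s : F) := by
  have h1 : (1 : integralClosure S F) ∉ 𝔪 := fun h =>
    (Ideal.IsPrime.ne_top ‹𝔪.IsPrime›) ((Ideal.eq_top_iff_one 𝔪).mpr h)
  induction hr using Subring.closure_induction with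
  | mem x hx =>
    rcases hT x hx with hx | ⟨s, hs, rfl⟩
    · exact ⟨⟨x, hx⟩, 1, h1, by simp⟩
    · exact ⟨1, s, hs, by simp⟩
  | zero => exact ⟨0, 1, h1, by simp⟩
  | one => exact ⟨1, 1, h1, by simp⟩
  | add x y _ _ hx hy =>
    obtain ⟨a₁, s₁, hs₁, rfl⟩ := hx
    obtain ⟨a₂, s₂, hs₂, rfl⟩ := hy
    have h10 := coe_ne_zero_of_not_mem S 𝔪 hs₁
    have h20 := coe_ne_zero_of_not_mem S 𝔪 hs₂
    refine ⟨a₁ * s₂ + a₂ * s₁, s₁ * s₂, fun h => ?_, ?_⟩
    · rcases Ideal.IsPrime.mem_or_mem ‹𝔪.IsPrime› h with h | h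
      · exact hs₁ h
      · exact hs₂ h
    · push_cast
      field_simp
  | neg x _ hx =>
    obtain ⟨a, s, hs, rfl⟩ := hx
    exact ⟨-a, s, hs, by push_cast; ring⟩
  | mul x y _ _ hx hy =>
    obtain ⟨a₁, s₁, hs₁, rfl⟩ := hx
    obtain ⟨a₂, s₂, hs₂, rfl⟩ := hy
    have h10 := coe_ne_zero_of_not_mem S 𝔪 hs₁
    have h20 := coe_ne_zero_of_not_mem S 𝔪 hs₂
    refine ⟨a₁ * a₂, s₁ * s₂, fun h => ?_, ?_⟩
    · rcases Ideal.IsPrime.mem_or_mem ‹𝔪.IsPrime› h with h | h
      · exact hs₁ h
      · exact hs₂ h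
    · push_cast
      field_simp

/-- **(CV)** `PowAt` from depth `p + 2` with `r` in a subring generated by integral elements and
inverses of chart elements outside `𝔪`. -/
theorem powAt_of_mem_closure (S : Subalgebra O F) (p : ℕ) (hp : p.Prime) (hp3 : 3 ≤ p) (H : F)
    (𝔪 : Ideal (integralClosure S F)) [𝔪.IsPrime] (π η η' : integralClosure S F) (hπ : π ∈ 𝔪)
    (hηη : η * η' = 1) (hpπ : (p : integralClosure S F) = η * π ^ p) (T : Set F)
    (hT : ∀ x ∈ T, IsIntegral S x ∨ ∃ s : integralClosure S F, s ∉ 𝔪 ∧ x = (s : F)⁻¹)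
    (G r : F) (hr : r ∈ Subring.closure T)
    (hH : H = G ^ p * (1 + (π : F) ^ (p + 2) * r)) : PthPoint.PowAt S p H 𝔪 := by
  obtain ⟨a, s, hs, rfl⟩ := exists_div_of_mem_closure S 𝔪 T hT r hr
  exact powAt_of_div S p hp hp3 H 𝔪 π η η' hπ hηη hpπ G a s hs hH

/-! ### The presentation `A_y = B_y[π]` -/

section Adjoin

variable {C B : Type*} [CommRing C] [CommRing B] [Algebra C B] [Algebra B F] [Algebra C F]
  [IsScalarTower C B F]

/-- **Common denominator.**  `B` a localisation of `C` at the submonoid `M`: every element `w`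
of `B[π] ⊆ F` is `(∑ c_i π^i) / s` with `c_i ∈ C`, `s ∈ M`. -/
theorem exists_mul_eq_aeval (M : Submonoid C) [IsLocalization M B] (π w : F)
    (hw : w ∈ Algebra.adjoin B ({π} : Set F)) :
    ∃ (s : M) (q : C[X]), algebraMap C F (s : C) * w = aeval π q := by
  rw [Algebra.adjoin_singleton_eq_range_aeval] at hw
  obtain ⟨q', hq'⟩ := hw
  have hq'' : aeval π q' = w := hq'
  obtain ⟨b, hbM, hb⟩ := IsLocalization.integerNormalization_spec M q'
  refine ⟨⟨b, hbM⟩, IsLocalization.integerNormalization M q', ?_⟩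
  show algebraMap C F b * w = aeval π (IsLocalization.integerNormalization M q')
  calc algebraMap C F b * w = b • aeval π q' := by rw [Algebra.smul_def, hq'']
    _ = aeval π (b • q') := (AlgHom.map_smul_of_tower (aeval π) b q').symm
    _ = aeval π ((IsLocalization.integerNormalization M q').map (algebraMap C B)) := by rw [hb]
    _ = aeval π (IsLocalization.integerNormalization M q') := aeval_map_algebraMap B π _

/-- **`PowAt` from depth `p + 2` with `r ∈ B_y[π]`**: `C` a ring with integral image in `F`,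
`y` a prime of `C` containing the contraction of `𝔪`, `B` the localisation of `C` at `y`. -/
theorem powAt_of_mem_adjoin (S : Subalgebra O F) (p : ℕ) (hp : p.Prime) (hp3 : 3 ≤ p) (H : F)
    (𝔪 : Ideal (integralClosure S F)) [𝔪.IsPrime] (π η η' : integralClosure S F) (hπ : π ∈ 𝔪)
    (hηη : η * η' = 1) (hpπ : (p : integralClosure S F) = η * π ^ p)
    (y : Ideal C) [y.IsPrime] [IsLocalization.AtPrime B y]
    (hC : ∀ c : C, IsIntegral S (algebraMap C F c))
    (hy : ∀ c : C, (⟨algebraMap C F c, hC c⟩ : integralClosure S F) ∈ 𝔪 → c ∈ y)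
    (G r : F) (hr : r ∈ Algebra.adjoin B ({(π : F)} : Set F))
    (hH : H = G ^ p * (1 + (π : F) ^ (p + 2) * r)) : PthPoint.PowAt S p H 𝔪 := by
  obtain ⟨s, q, hsq⟩ := exists_mul_eq_aeval (B := B) y.primeCompl (π : F) r hr
  have hq : IsIntegral S (aeval (π : F) q) := by
    rw [aeval_eq_sum_range]
    refine IsIntegral.sum _ fun i _ => ?_
    rw [Algebra.smul_def]
    exact (hC _).mul (π.2.pow i)
  have hs : (⟨algebraMap C F (s : C), hC s⟩ : integralClosure S F) ∉ 𝔪 := fun h => s.2 (hy _ h)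
  have hs0 : algebraMap C F (s : C) ≠ 0 := coe_ne_zero_of_not_mem S 𝔪 hs
  refine powAt_of_div S p hp hp3 H 𝔪 π η η' hπ hηη hpπ G ⟨aeval (π : F) q, hq⟩
    ⟨algebraMap C F (s : C), hC s⟩ hs ?_
  rw [hH]
  congr 3
  show r = aeval (π : F) q / algebraMap C F (s : C)
  rw [← hsq, mul_div_cancel_left₀ _ hs0]

end Adjoin

end Fermat.Agent.S44.L.NZ.ClosedPointConv
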