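import Mathlib
import Fermat.Agent.S44.L.DepthHenselExit

/-!
# PROGRAM MR (S44), strand L, row NZ.5 (F1): the conversion to `PthPoint.PowAt` (twin)

Level-free (Mathlib + `S44/L/DepthHenselExit`), helper126.  Insurance twin of the row
`ClosedPointConv` (helper160), literals of helper211 (NZ.5 interface, (CV1), (CV2), (CV)):
a local `p`-th root of depth `p + 2`, `H = G ^ p * (1 + π ^ (p + 2) * r)`, over a chart in which
`p = η π ^ p` with `η` a unit and `π ∈ 𝔪`, has the landed shape `PthPoint.PowAt S p H 𝔪` as soon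
as `r` lies in the local ring of the chart at `𝔪`, presented as

* a fraction `a / s` of chart elements, `s ∉ 𝔪` (`powAt_of_div`);
* an element of the subring generated by chart elements and inverses of chart elements outside
  `𝔪` (`exists_div_of_mem_closure`, `powAt_of_mem_closure`);
* an element of `Algebra.adjoin B {π}` for a localisation `B` of a subchart `C` at a prime `y`
  lying under `𝔪` (`powAt_of_mem_adjoin`);
* an element of `DepthHenselExit.locAt S 𝔪` (`powAt_of_mem_locAt`, the common core).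
-/

set_option autoImplicit false

namespace Fermat.Agent.S44.L.NZ.ClosedPointConvB

open Fermat.Agent.S44.L.PthPoint Fermat.Agent.S44.L.DepthHenselExit

variable {O F : Type*} [CommRing O] [Field F] [Algebra O F]

/-- A chart element outside a proper ideal is nonzero. -/
theorem coe_ne_zero_of_notMem (S : Subalgebra O F) (𝔪 : Ideal (integralClosure S F))
    (s : integralClosure S F) (hs : s ∉ 𝔪) : (s : F) ≠ 0 := by
  intro h
  apply hs
  have e : s = 0 := Subtype.ext h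
  rw [e]; exact 𝔪.zero_mem

/-- Fractions `a / s` with `s ∉ 𝔪` lie in the local ring at `𝔪`. -/
theorem div_mem_locAt (S : Subalgebra O F) (𝔪 : Ideal (integralClosure S F)) (h𝔪 : 𝔪.IsPrime)
    (a s : integralClosure S F) (hs : s ∉ 𝔪) : (a : F) / (s : F) ∈ locAt S 𝔪 h𝔪 := by
  refine ⟨s, hs, ?_⟩
  have hs0 := coe_ne_zero_of_notMem S 𝔪 s hs
  have e : (s : F) * ((a : F) / (s : F)) = (a : F) := by
    rw [mul_div_assoc', mul_comm, mul_div_assoc, div_self hs0, mul_one]
  rw [e]; exact a.2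

/-- Elements of the local ring at `𝔪` are fractions `a / s` with `s ∉ 𝔪`. -/
theorem exists_div_of_mem_locAt (S : Subalgebra O F) (𝔪 : Ideal (integralClosure S F))
    (h𝔪 : 𝔪.IsPrime) (r : F) (hr : r ∈ locAt S 𝔪 h𝔪) :
    ∃ a s : integralClosure S F, s ∉ 𝔪 ∧ r = (a : F) / (s : F) := by
  obtain ⟨s, hs, hsr⟩ := hr
  have hs0 := coe_ne_zero_of_notMem S 𝔪 s hs
  exact ⟨⟨_, hsr⟩, s, hs, eq_div_of_mul_eq hs0 (mul_comm _ _)⟩

/-- **The common core**: depth `p + 2` with `r` in the local ring of the chart at `𝔪`. -/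
theorem powAt_of_mem_locAt (S : Subalgebra O F) (p : ℕ) (hp : p.Prime) (hp3 : 3 ≤ p) (H : F)
    (𝔪 : Ideal (integralClosure S F)) (h𝔪 : 𝔪.IsPrime) (π η η' : integralClosure S F)
    (hπ : π ∈ 𝔪) (hηη : η * η' = 1) (hpπ : (p : integralClosure S F) = η * π ^ p) (G r : F)
    (hr : r ∈ locAt S 𝔪 h𝔪) (hH : H = G ^ p * (1 + (π : F) ^ (p + 2) * r)) :
    PowAt S p H 𝔪 := by
  obtain ⟨Rl, hRl⟩ : ∃ Rl : Subring F, Rl = locAt S 𝔪 h𝔪 := ⟨_, rfl⟩
  have hmem : ∀ b : integralClosure S F, (b : F) ∈ Rl := fun b => by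
    rw [hRl]; exact coe_mem_locAt S 𝔪 h𝔪 b
  have hrR : r ∈ Rl := by rw [hRl]; exact hr
  have hηηF : (η : F) * (η' : F) = 1 := by
    have h := congrArg Subtype.val hηη
    push_cast at h
    exact h
  have hpF : (p : F) = (η : F) * (π : F) ^ p := by
    have h := congrArg Subtype.val hpπ
    push_cast at h
    exact h
  have hunit : ∀ x : Rl, IsUnit (1 + (⟨(π : F), hmem π⟩ : Rl) * x) := by
    intro x
    have hx : (x : F) ∈ locAt S 𝔪 h𝔪 := by rw [← hRl]; exact x.2
    obtain ⟨h0, hinv⟩ := locAt_unit S 𝔪 h𝔪 π hπ (x : F) hx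
    rw [← hRl] at hinv
    refine IsUnit.of_mul_eq_one ⟨_, hinv⟩ (Subtype.ext ?_)
    push_cast
    exact mul_inv_cancel₀ h0
  obtain ⟨g, w', h1⟩ := exists_sq_form (R := Rl) p hp hp3 ⟨(π : F), hmem π⟩
    ⟨(η : F), hmem η⟩ ⟨(η' : F), hmem η'⟩ (Subtype.ext (by push_cast; exact hηηF))
    (Subtype.ext (by push_cast; exact hpF)) hunit (p + 2) le_rfl ⟨r, hrR⟩
  have h1' := congrArg Subtype.val h1
  push_cast at h1'
  have hw'R : (w' : F) ∈ locAt S 𝔪 h𝔪 := by rw [← hRl]; exact w'.2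
  obtain ⟨s', hs', hsw'⟩ := hw'R
  exact ⟨s', G * ((g : Rl) : F), (w' : F), hs', hsw', by rw [hH, h1', mul_pow]; ring⟩

/-- **(CV1)** depth `p + 2` with `r = a / s`, `s ∉ 𝔪`. -/
theorem powAt_of_div (S : Subalgebra O F) (p : ℕ) (hp : p.Prime) (hp3 : 3 ≤ p) (H : F)
    (𝔪 : Ideal (integralClosure S F)) [𝔪.IsPrime] (π η η' : integralClosure S F) (hπ : π ∈ 𝔪)
    (hηη : η * η' = 1) (hpπ : (p : integralClosure S F) = η * π ^ p) (G : F)
    (a s : integralClosure S F) (hs : s ∉ 𝔪)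
    (hH : H = G ^ p * (1 + (π : F) ^ (p + 2) * ((a : F) / (s : F)))) : PowAt S p H 𝔪 :=
  powAt_of_mem_locAt S p hp hp3 H 𝔪 inferInstance π η η' hπ hηη hpπ G _
    (div_mem_locAt S 𝔪 inferInstance a s hs) hH

/-- The subring generated by chart elements and inverses of chart elements outside `𝔪` lies in
the local ring at `𝔪`. -/
theorem closure_le_locAt (S : Subalgebra O F) (𝔪 : Ideal (integralClosure S F))
    (h𝔪 : 𝔪.IsPrime) (T : Set F)
    (hT : ∀ x ∈ T, IsIntegral S x ∨ ∃ s : integralClosure S F, s ∉ 𝔪 ∧ x = (s : F)⁻¹) :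
    Subring.closure T ≤ locAt S 𝔪 h𝔪 := by
  rw [Subring.closure_le]
  intro x hx
  rcases hT x hx with hi | ⟨s, hs, rfl⟩
  · exact coe_mem_locAt S 𝔪 h𝔪 ⟨x, hi⟩
  · refine ⟨s, hs, ?_⟩
    rw [mul_inv_cancel₀ (coe_ne_zero_of_notMem S 𝔪 s hs)]
    exact isIntegral_one

/-- **(CV2)** elements of the subring generated by chart elements and inverses of chart
elements outside `𝔪` are fractions `a / s`, `s ∉ 𝔪`. -/
theorem exists_div_of_mem_closure (S : Subalgebra O F) (𝔪 : Ideal (integralClosure S F))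
    [𝔪.IsPrime] (T : Set F)
    (hT : ∀ x ∈ T, IsIntegral S x ∨ ∃ s : integralClosure S F, s ∉ 𝔪 ∧ x = (s : F)⁻¹) (r : F)
    (hr : r ∈ Subring.closure T) :
    ∃ a s : integralClosure S F, s ∉ 𝔪 ∧ r = (a : F) / (s : F) :=
  exists_div_of_mem_locAt S 𝔪 inferInstance r (closure_le_locAt S 𝔪 inferInstance T hT hr)

/-- **(CV)** depth `p + 2` with `r` in the subring generated by chart elements and inverses of
chart elements outside `𝔪`. -/
theorem powAt_of_mem_closure (S : Subalgebra O F) (p : ℕ) (hp : p.Prime) (hp3 : 3 ≤ p) (H : F)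
    (𝔪 : Ideal (integralClosure S F)) [𝔪.IsPrime] (π η η' : integralClosure S F) (hπ : π ∈ 𝔪)
    (hηη : η * η' = 1) (hpπ : (p : integralClosure S F) = η * π ^ p) (T : Set F)
    (hT : ∀ x ∈ T, IsIntegral S x ∨ ∃ s : integralClosure S F, s ∉ 𝔪 ∧ x = (s : F)⁻¹)
    (G r : F) (hr : r ∈ Subring.closure T)
    (hH : H = G ^ p * (1 + (π : F) ^ (p + 2) * r)) : PowAt S p H 𝔪 :=
  powAt_of_mem_locAt S p hp hp3 H 𝔪 inferInstance π η η' hπ hηη hpπ G r
    (closure_le_locAt S 𝔪 inferInstance T hT hr) hH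

section Adjoin

variable {C B : Type*} [CommRing C] [CommRing B] [Algebra C B] [Algebra C F] [Algebra B F]
  [IsScalarTower C B F]

/-- The localisation `B` of a subchart `C` at a prime `y` lying under `𝔪` maps into the local
ring of the chart at `𝔪`. -/
theorem algebraMap_mem_locAt (S : Subalgebra O F) (𝔪 : Ideal (integralClosure S F))
    (h𝔪 : 𝔪.IsPrime) (y : Ideal C) [y.IsPrime] [IsLocalization.AtPrime B y]
    (hC : ∀ c : C, IsIntegral S (algebraMap C F c))
    (hy : ∀ c : C, (⟨algebraMap C F c, hC c⟩ : integralClosure S F) ∈ 𝔪 → c ∈ y) (b : B) :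
    algebraMap B F b ∈ locAt S 𝔪 h𝔪 := by
  obtain ⟨c, s, rfl⟩ := IsLocalization.exists_mk'_eq y.primeCompl b
  have hs : (⟨algebraMap C F s, hC s⟩ : integralClosure S F) ∉ 𝔪 := fun h => s.2 (hy _ h)
  refine ⟨⟨algebraMap C F s, hC s⟩, hs, ?_⟩
  have h1 := IsLocalization.mk'_spec B c s
  have h2 := congrArg (algebraMap B F) h1
  rw [map_mul, ← IsScalarTower.algebraMap_apply, ← IsScalarTower.algebraMap_apply] at h2
  have e : algebraMap C F s * algebraMap B F (IsLocalization.mk' B c s) = algebraMap C F c := by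
    rw [mul_comm]; exact h2
  show IsIntegral S (algebraMap C F s * algebraMap B F (IsLocalization.mk' B c s))
  rw [e]; exact hC c

/-- `Algebra.adjoin B {π}` lies in the local ring of the chart at `𝔪`. -/
theorem adjoin_le_locAt (S : Subalgebra O F) (𝔪 : Ideal (integralClosure S F))
    (h𝔪 : 𝔪.IsPrime) (π : integralClosure S F) (y : Ideal C) [y.IsPrime]
    [IsLocalization.AtPrime B y] (hC : ∀ c : C, IsIntegral S (algebraMap C F c))
    (hy : ∀ c : C, (⟨algebraMap C F c, hC c⟩ : integralClosure S F) ∈ 𝔪 → c ∈ y) (r : F)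
    (hr : r ∈ Algebra.adjoin B ({(π : F)} : Set F)) : r ∈ locAt S 𝔪 h𝔪 := by
  refine Algebra.adjoin_induction (p := fun x _ => x ∈ locAt S 𝔪 h𝔪) ?_ ?_ ?_ ?_ hr
  · intro x hx
    rw [Set.mem_singleton_iff] at hx
    rw [hx]; exact coe_mem_locAt S 𝔪 h𝔪 π
  · intro b
    exact algebraMap_mem_locAt S 𝔪 h𝔪 y hC hy b
  · intro x z _ _ hx hz
    exact (locAt S 𝔪 h𝔪).add_mem hx hz
  · intro x z _ _ hx hz
    exact (locAt S 𝔪 h𝔪).mul_mem hx hz

/-- Depth `p + 2` with `r ∈ Algebra.adjoin B {π}`, `B` a localisation of a subchart `C` at a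
prime `y` lying under `𝔪`. -/
theorem powAt_of_mem_adjoin (S : Subalgebra O F) (p : ℕ) (hp : p.Prime) (hp3 : 3 ≤ p) (H : F)
    (𝔪 : Ideal (integralClosure S F)) [𝔪.IsPrime] (π η η' : integralClosure S F) (hπ : π ∈ 𝔪)
    (hηη : η * η' = 1) (hpπ : (p : integralClosure S F) = η * π ^ p) (y : Ideal C) [y.IsPrime]
    [IsLocalization.AtPrime B y] (hC : ∀ c : C, IsIntegral S (algebraMap C F c))
    (hy : ∀ c : C, (⟨algebraMap C F c, hC c⟩ : integralClosure S F) ∈ 𝔪 → c ∈ y) (G r : F)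
    (hr : r ∈ Algebra.adjoin B ({(π : F)} : Set F))
    (hH : H = G ^ p * (1 + (π : F) ^ (p + 2) * r)) : PowAt S p H 𝔪 :=
  powAt_of_mem_locAt S p hp hp3 H 𝔪 inferInstance π η η' hπ hηη hpπ G r
    (adjoin_le_locAt S 𝔪 inferInstance π y hC hy r hr) hH

end Adjoin

end Fermat.Agent.S44.L.NZ.ClosedPointConvB
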