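import Mathlib

/-!
# PROGRAM MR (S44), strand L, NZ-ALT row NZ.2: the single-branch computations of the
closed-point lift (level-free, Mathlib only)

(helper128; compiled second of `NZ/DepthLift`.)  This file contains every computation of the
induction `H(d) ⇒ H(d + 1)`, `1 ≤ d ≤ p + 1`, of L RULING #1 (DL) that takes place on ONE
branch.  It is stated in a commutative ring `V` (in the application: the valuation ring of the
branch, or the localisation of the local ring `A` of the closed point at the branch prime) with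

* `π : V` regular (`hreg`), `(p : V) = η * π ^ p` (`hpπ`), and
* `V / π` reduced in the weak form `π ∣ x ^ p → π ∣ x` (`hred`).

No valuation, no unit, no inverse is used: the caller supplies the element `a ∈ V` (the ratio
`g_i π ^ k / G` of the branch root and the closed-point root) and the relation

  `e * a ^ p * (1 + π ^ N * y) = 1 + π ^ d * r`

(`e` the ratio of the two constants, `N ≥ d + 1` the generic depth at the branch; `N = p + 2`
serves every step).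

* `core`, `core_eq`, `core_succ` : the three expansions, for `a = β + π ^ j * b`.
* `main_lt`, `main_eq`, `main_succ` : the branch with THE SAME constant (`e = 1`):
  `π ∣ r` for `1 ≤ d < p` and for `d = p + 1`; `r ≡ x ^ p` modulo `π` for `d = p`.
* `const_lt`, `const_eq`, `const_succ` : a branch with another constant, `Oc` a subring of
  constants of `V` with `p`-th roots modulo `π` (`hC2`) and `π`-saturated (`hC3`):
  `r ≡ ρ` modulo `π` with `ρ ∈ Oc` for `1 ≤ d < p` and for `d = p + 1`; `r ≡ x ^ p` modulo `π`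
  for `d = p`.
-/

set_option autoImplicit false

namespace Fermat.Agent.S44.L.NZ.HStep

variable {V : Type*} [CommRing V]

/-- Cancellation of a power of a regular element. -/
theorem pow_cancel {π : V} (hreg : ∀ a b : V, π * a = π * b → a = b) (m : ℕ) {a b : V}
    (h : π ^ m * a = π ^ m * b) : a = b := by
  induction m with
  | zero => simpa using h
  | succ m ih =>
    apply ih
    apply hreg
    rw [← mul_assoc, ← mul_assoc, ← pow_succ']
    exact h

/-- Frobenius is injective modulo `π` when `π ∣ p` and `V / π` is reduced. -/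
theorem dvd_sub_of_dvd_pow_sub_pow (p : ℕ) (hp : p.Prime) {π η : V}
    (hpπ : (p : V) = η * π ^ p) (hred : ∀ x : V, π ∣ x ^ p → π ∣ x) {x y : V}
    (h : π ∣ x ^ p - y ^ p) : π ∣ x - y := by
  obtain ⟨q, hq⟩ := exists_add_pow_prime_eq hp (x - y) y
  obtain ⟨c, hc⟩ := h
  have hπp : π ^ p = π * π ^ (p - 1) := by
    rw [← pow_succ', Nat.sub_add_cancel hp.pos]
  have e : x - y + y = x := by ring
  rw [e] at hq
  apply hred
  refine ⟨c - η * π ^ (p - 1) * (x - y) * y * q, ?_⟩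
  linear_combination (-1 : V) * hq + hc - (x - y) * y * q * hpπ - η * (x - y) * y * q * hπp

/-- `(x + y) ^ p ≡ x ^ p + y ^ p` modulo `π`. -/
theorem dvd_add_pow_sub (p : ℕ) (hp : p.Prime) {π η : V} (hpπ : (p : V) = η * π ^ p)
    (x y : V) : π ∣ (x + y) ^ p - (x ^ p + y ^ p) := by
  obtain ⟨q, hq⟩ := exists_add_pow_prime_eq hp x y
  have hπp : π ^ p = π * π ^ (p - 1) := by
    rw [← pow_succ', Nat.sub_add_cancel hp.pos]
  refine ⟨η * π ^ (p - 1) * x * y * q, ?_⟩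
  linear_combination hq + x * y * q * hpπ + η * x * y * q * hπp

/-! ### The three expansions -/

/-- **Core expansion.**  `a = β + π ^ j * b` and `e * a ^ p * (1 + π ^ N * y) = 1 + π ^ d * r`
with `d < j * p`, `d < p + j`, `d < N` give `e * β ^ p = 1 + π ^ d * (r - π * s)`. -/
theorem core (p : ℕ) (hp : p.Prime) {π η : V} (hpπ : (p : V) = η * π ^ p)
    {j d N : ℕ} (hj : d + 1 ≤ j * p) (hpj : d + 1 ≤ p + j) (hN : d + 1 ≤ N)
    {e β b y r : V}
    (h : e * (β + π ^ j * b) ^ p * (1 + π ^ N * y) = 1 + π ^ d * r) :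
    ∃ s : V, e * β ^ p = 1 + π ^ d * (r - π * s) := by
  obtain ⟨q, hq⟩ := exists_add_pow_prime_eq hp β (π ^ j * b)
  obtain ⟨k₁, hk₁⟩ := Nat.exists_eq_add_of_le hj
  obtain ⟨k₂, hk₂⟩ := Nat.exists_eq_add_of_le hpj
  obtain ⟨k₃, hk₃⟩ := Nat.exists_eq_add_of_le hN
  have e1 : (π ^ j * b) ^ p = π ^ d * π * (π ^ k₁ * b ^ p) := by
    rw [mul_pow, ← pow_mul, hk₁]; ring
  have e2 : (p : V) * π ^ j = π ^ d * π * (η * π ^ k₂) := by
    rw [hpπ, mul_assoc, ← pow_add, hk₂]; ring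
  have e3 : π ^ N = π ^ d * π * π ^ k₃ := by rw [hk₃]; ring
  refine ⟨π ^ k₁ * e * b ^ p + η * π ^ k₂ * e * β * b * q
    + e * (β + π ^ j * b) ^ p * π ^ k₃ * y, ?_⟩
  linear_combination h - e * hq - e * e1 - e * β * b * q * e2
    - e * (β + π ^ j * b) ^ p * y * e3

/-- **Expansion at `d = p`.**  `a = β + π * b` and
`e * a ^ p * (1 + π ^ N * y) = 1 + π ^ p * r`, `N ≥ p + 1`, give
`e * β ^ p = 1 + π ^ p * (r - e * b ^ p - π * s)`. -/
theorem core_eq (p : ℕ) (hp : p.Prime) {π η : V} (hpπ : (p : V) = η * π ^ p)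
    {N : ℕ} (hN : p + 1 ≤ N) {e β b y r : V}
    (h : e * (β + π * b) ^ p * (1 + π ^ N * y) = 1 + π ^ p * r) :
    ∃ s : V, e * β ^ p = 1 + π ^ p * (r - e * b ^ p - π * s) := by
  obtain ⟨q, hq⟩ := exists_add_pow_prime_eq hp β (π * b)
  obtain ⟨k, hk⟩ := Nat.exists_eq_add_of_le hN
  have e3 : π ^ N = π ^ p * π * π ^ k := by rw [hk]; ring
  refine ⟨η * e * β * b * q + e * (β + π * b) ^ p * π ^ k * y, ?_⟩
  linear_combination h - e * hq - e * β * π * b * q * hpπ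
    - e * (β + π * b) ^ p * y * e3

/-- **First expansion at `d = p + 1`.**  `a = β + π * b` and
`e * a ^ p * (1 + π ^ N * y) = 1 + π ^ (p + 1) * r`, `N ≥ p + 1`, give
`e * β ^ p = 1 + π ^ p * (π * s - e * b ^ p)`. -/
theorem core_succ (p : ℕ) (hp : p.Prime) {π η : V} (hpπ : (p : V) = η * π ^ p)
    {N : ℕ} (hN : p + 1 ≤ N) {e β b y r : V}
    (h : e * (β + π * b) ^ p * (1 + π ^ N * y) = 1 + π ^ (p + 1) * r) :
    ∃ s : V, e * β ^ p = 1 + π ^ p * (π * s - e * b ^ p) := by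
  obtain ⟨q, hq⟩ := exists_add_pow_prime_eq hp β (π * b)
  obtain ⟨k, hk⟩ := Nat.exists_eq_add_of_le hN
  have e3 : π ^ N = π ^ p * π * π ^ k := by rw [hk]; ring
  refine ⟨r - η * e * β * b * q - e * (β + π * b) ^ p * π ^ k * y, ?_⟩
  linear_combination h - e * hq - e * β * π * b * q * hpπ
    - e * (β + π * b) ^ p * y * e3

/-! ### The branch with the same constant -/

section Main

variable (p : ℕ) (hp : p.Prime) {π η : V} (hpπ : (p : V) = η * π ^ p)
  (hreg : ∀ a b : V, π * a = π * b → a = b) (hred : ∀ x : V, π ∣ x ^ p → π ∣ x)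

include hp hpπ hred in
/-- On the main branch the ratio of the two roots is `≡ 1` modulo `π`. -/
theorem main_dvd_sub_one {d N : ℕ} (hd : 1 ≤ d) (hN : 1 ≤ N) {a y r : V}
    (h : a ^ p * (1 + π ^ N * y) = 1 + π ^ d * r) : π ∣ a - 1 := by
  obtain ⟨d', rfl⟩ := Nat.exists_eq_add_of_le' hd
  obtain ⟨N', rfl⟩ := Nat.exists_eq_add_of_le' hN
  apply dvd_sub_of_dvd_pow_sub_pow p hp hpπ hred
  refine ⟨π ^ d' * r - a ^ p * π ^ N' * y, ?_⟩
  rw [one_pow]
  linear_combination h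

include hp hpπ hreg hred in
/-- **(T1), main branch**, `1 ≤ d < p`: `π ∣ r`. -/
theorem main_lt {d N : ℕ} (hd : 1 ≤ d) (hdp : d < p) (hN : d + 1 ≤ N) {a y r : V}
    (h : a ^ p * (1 + π ^ N * y) = 1 + π ^ d * r) : π ∣ r := by
  obtain ⟨b, hb⟩ := main_dvd_sub_one p hp hpπ hred hd (by omega) h
  have ha : a = 1 + π ^ 1 * b := by rw [pow_one]; linear_combination hb
  rw [ha] at h
  have h' : (1 : V) * (1 + π ^ 1 * b) ^ p * (1 + π ^ N * y) = 1 + π ^ d * r := by
    rw [one_mul]; exact h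
  obtain ⟨s, hs⟩ := core p hp hpπ (j := 1) (d := d) (N := N) (by omega) (by omega)
    hN h'
  refine ⟨s, ?_⟩
  have h2 : π ^ d * (r - π * s) = π ^ d * 0 := by
    rw [one_mul, one_pow] at hs
    linear_combination -hs
  have h3 := pow_cancel hreg d h2
  linear_combination h3

include hp hpπ hreg hred in
/-- **(T2), main branch**, `d = p`: `r` is a `p`-th power modulo `π`. -/
theorem main_eq {N : ℕ} (hN : p + 1 ≤ N) {a y r : V}
    (h : a ^ p * (1 + π ^ N * y) = 1 + π ^ p * r) : ∃ x : V, π ∣ r - x ^ p := by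
  obtain ⟨b, hb⟩ := main_dvd_sub_one p hp hpπ hred hp.pos (by omega) h
  have ha : a = 1 + π * b := by linear_combination hb
  rw [ha] at h
  have h' : (1 : V) * (1 + π * b) ^ p * (1 + π ^ N * y) = 1 + π ^ p * r := by
    rw [one_mul]; exact h
  obtain ⟨s, hs⟩ := core_eq p hp hpπ hN h'
  refine ⟨b, s, ?_⟩
  have h2 : π ^ p * (r - 1 * b ^ p - π * s) = π ^ p * 0 := by
    rw [one_mul, one_pow] at hs
    linear_combination -hs
  have h3 := pow_cancel hreg p h2
  linear_combination h3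

include hp hpπ hreg hred in
/-- **(T1'), main branch**, `d = p + 1`: `π ∣ r`. -/
theorem main_succ {N : ℕ} (hN : p + 2 ≤ N) {a y r : V}
    (h : a ^ p * (1 + π ^ N * y) = 1 + π ^ (p + 1) * r) : π ∣ r := by
  obtain ⟨b, hb⟩ := main_dvd_sub_one p hp hpπ hred (Nat.succ_pos p) (by omega) h
  have ha : a = 1 + π * b := by linear_combination hb
  rw [ha] at h
  have h' : (1 : V) * (1 + π * b) ^ p * (1 + π ^ N * y) = 1 + π ^ (p + 1) * r := by
    rw [one_mul]; exact h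
  obtain ⟨s, hs⟩ := core_succ p hp hpπ (N := N) (by omega) h'
  -- `π ∣ b ^ p`, hence `π ∣ b`
  have h2 : π ^ p * (π * s - 1 * b ^ p) = π ^ p * 0 := by
    rw [one_mul, one_pow] at hs
    linear_combination -hs
  have h3 := pow_cancel hreg p h2
  obtain ⟨b₂, hb₂⟩ := hred b ⟨s, by linear_combination -h3⟩
  have ha2 : (1 : V) + π * b = 1 + π ^ 2 * b₂ := by rw [hb₂]; ring
  rw [ha2] at h
  have hp2 := hp.two_le
  have h'' : (1 : V) * (1 + π ^ 2 * b₂) ^ p * (1 + π ^ N * y)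
      = 1 + π ^ (p + 1) * r := by
    rw [one_mul]; exact h
  obtain ⟨s', hs'⟩ := core p hp hpπ (j := 2) (d := p + 1) (N := N) (by omega)
    (by omega) (by omega) h''
  refine ⟨s', ?_⟩
  have h4 : π ^ (p + 1) * (r - π * s') = π ^ (p + 1) * 0 := by
    rw [one_mul, one_pow] at hs'
    linear_combination -hs'
  have h5 := pow_cancel hreg (p + 1) h4
  linear_combination h5

end Main

/-! ### A branch with another constant -/

section Const

variable (p : ℕ) (hp : p.Prime) {π η : V} (hpπ : (p : V) = η * π ^ p)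
  (hreg : ∀ a b : V, π * a = π * b → a = b) (hred : ∀ x : V, π ∣ x ^ p → π ∣ x)
  (Oc : Subring V)
  (hC2 : ∀ z ∈ Oc, ∃ β ∈ Oc, π ∣ z - β ^ p)
  (hC3 : ∀ z ∈ Oc, π ∣ z → ∃ z' ∈ Oc, z = π * z')

include hreg hC3 in
/-- A constant divisible by `π ^ d` is `π ^ d` times a constant. -/
theorem const_eq_pow_mul (d : ℕ) {z : V} (hz : z ∈ Oc) (h : π ^ d ∣ z) :
    ∃ ρ ∈ Oc, z = π ^ d * ρ := by
  induction d generalizing z with
  | zero => exact ⟨z, hz, by rw [pow_zero, one_mul]⟩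
  | succ d ih =>
    obtain ⟨c, hc⟩ := h
    obtain ⟨z', hz', hzz'⟩ := hC3 z hz ⟨π ^ d * c, by rw [hc]; ring⟩
    have h1 : π * z' = π * (π ^ d * c) := by rw [← hzz', hc]; ring
    obtain ⟨ρ, hρ, hρz⟩ := ih hz' ⟨c, hreg _ _ h1⟩
    exact ⟨ρ, hρ, by rw [hzz', hρz]; ring⟩

include hp hpπ hred hC2 in
/-- On a branch with the constant ratio `e` (a unit constant), the ratio of the roots is
`≡ β` modulo `π` for a constant `β`. -/
theorem const_dvd_sub {d N : ℕ} (hd : 1 ≤ d) (hN : 1 ≤ N) {e e' a y r : V}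
    (he' : e' ∈ Oc) (hee' : e * e' = 1)
    (h : e * a ^ p * (1 + π ^ N * y) = 1 + π ^ d * r) : ∃ β ∈ Oc, π ∣ a - β := by
  obtain ⟨d', rfl⟩ := Nat.exists_eq_add_of_le' hd
  obtain ⟨N', rfl⟩ := Nat.exists_eq_add_of_le' hN
  obtain ⟨β, hβ, c, hc⟩ := hC2 e' he'
  refine ⟨β, hβ, dvd_sub_of_dvd_pow_sub_pow p hp hpπ hred
    ⟨c + e' * (π ^ d' * r - e * a ^ p * π ^ N' * y), ?_⟩⟩
  linear_combination e' * h + hc - a ^ p * hee'

include hp hpπ hreg hred hC2 hC3 in
/-- **(T1), other branch**, `1 ≤ d < p`: `r ≡ ρ` modulo `π` with `ρ` a constant. -/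
theorem const_lt {d N : ℕ} (hd : 1 ≤ d) (hdp : d < p) (hN : d + 1 ≤ N) {e e' a y r : V}
    (he : e ∈ Oc) (he' : e' ∈ Oc) (hee' : e * e' = 1)
    (h : e * a ^ p * (1 + π ^ N * y) = 1 + π ^ d * r) : ∃ ρ ∈ Oc, π ∣ r - ρ := by
  obtain ⟨β, hβ, b, hb⟩ := const_dvd_sub p hp hpπ hred Oc hC2 hd (by omega) he' hee' h
  have ha : a = β + π ^ 1 * b := by rw [pow_one]; linear_combination hb
  rw [ha] at h
  obtain ⟨s, hs⟩ := core p hp hpπ (j := 1) (d := d) (N := N) (by omega) (by omega)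
    hN h
  have hE : e * β ^ p - 1 ∈ Oc := Oc.sub_mem (Oc.mul_mem he (Oc.pow_mem hβ p)) Oc.one_mem
  obtain ⟨ρ, hρ, hρE⟩ := const_eq_pow_mul hreg Oc hC3 d hE
    ⟨r - π * s, by linear_combination hs⟩
  refine ⟨ρ, hρ, s, ?_⟩
  have h2 : π ^ d * ρ = π ^ d * (r - π * s) := by linear_combination -hρE + hs
  have h3 := pow_cancel hreg d h2
  linear_combination -h3

include hp hpπ hreg hred hC2 hC3 in
/-- **(T2), other branch**, `d = p`: `r` is a `p`-th power modulo `π`. -/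
theorem const_eq {N : ℕ} (hN : p + 1 ≤ N) {e e' a y r : V} (he : e ∈ Oc) (he' : e' ∈ Oc)
    (hee' : e * e' = 1)
    (h : e * a ^ p * (1 + π ^ N * y) = 1 + π ^ p * r) : ∃ x : V, π ∣ r - x ^ p := by
  obtain ⟨β, hβ, b, hb⟩ := const_dvd_sub p hp hpπ hred Oc hC2 hp.pos (by omega)
    he' hee' h
  have ha : a = β + π * b := by linear_combination hb
  rw [ha] at h
  obtain ⟨s, hs⟩ := core_eq p hp hpπ hN h
  have hE : e * β ^ p - 1 ∈ Oc := Oc.sub_mem (Oc.mul_mem he (Oc.pow_mem hβ p)) Oc.one_mem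
  obtain ⟨ρ, hρ, hρE⟩ := const_eq_pow_mul hreg Oc hC3 p hE
    ⟨r - e * b ^ p - π * s, by linear_combination hs⟩
  have h2 : π ^ p * ρ = π ^ p * (r - e * b ^ p - π * s) := by linear_combination -hρE + hs
  have h3 := pow_cancel hreg p h2
  obtain ⟨γ, -, c₁, hc₁⟩ := hC2 e he
  obtain ⟨δ, -, c₂, hc₂⟩ := hC2 ρ hρ
  obtain ⟨c₃, hc₃⟩ := dvd_add_pow_sub p hp hpπ δ (γ * b)
  refine ⟨δ + γ * b, s + c₁ * b ^ p + c₂ - c₃, ?_⟩
  linear_combination -h3 + b ^ p * hc₁ + hc₂ - hc₃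

include hp hpπ hreg hred hC2 hC3 in
/-- **(T1'), other branch**, `d = p + 1`: `r ≡ ρ` modulo `π` with `ρ` a constant. -/
theorem const_succ (hπOc : π ∈ Oc) {N : ℕ} (hN : p + 2 ≤ N) {e e' a y r : V} (he : e ∈ Oc)
    (he' : e' ∈ Oc) (hee' : e * e' = 1)
    (h : e * a ^ p * (1 + π ^ N * y) = 1 + π ^ (p + 1) * r) : ∃ ρ ∈ Oc, π ∣ r - ρ := by
  obtain ⟨β, hβ, b, hb⟩ := const_dvd_sub p hp hpπ hred Oc hC2 (Nat.succ_pos p)
    (by omega) he' hee' h
  have ha : a = β + π * b := by linear_combination hb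
  rw [ha] at h
  obtain ⟨s, hs⟩ := core_succ p hp hpπ (N := N) (by omega) h
  have hE : e * β ^ p - 1 ∈ Oc := Oc.sub_mem (Oc.mul_mem he (Oc.pow_mem hβ p)) Oc.one_mem
  obtain ⟨ρ₀, hρ₀, hρ₀E⟩ := const_eq_pow_mul hreg Oc hC3 p hE
    ⟨π * s - e * b ^ p, by linear_combination hs⟩
  have h2 : π ^ p * ρ₀ = π ^ p * (π * s - e * b ^ p) := by linear_combination -hρ₀E + hs
  have h3 := pow_cancel hreg p h2
  -- `b` is a constant modulo `π`
  obtain ⟨γ, -, c₁, hc₁⟩ := hC2 e he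
  obtain ⟨δ, hδ, c₂, hc₂⟩ := hC2 (-ρ₀) (Oc.neg_mem hρ₀)
  have hπp : π ^ p = π * π ^ (p - 1) := by
    rw [← pow_succ', Nat.sub_add_cancel hp.pos]
  obtain ⟨c₄, hc₄⟩ : π ∣ γ * b - δ := by
    apply dvd_sub_of_dvd_pow_sub_pow p hp hpπ hred
    refine ⟨s - c₁ * b ^ p + c₂, ?_⟩
    linear_combination h3 - b ^ p * hc₁ + hc₂
  obtain ⟨c₅, hc₅⟩ : π ∣ β * γ - 1 := by
    apply dvd_sub_of_dvd_pow_sub_pow p hp hpπ hred
    refine ⟨π ^ (p - 1) * ρ₀ - β ^ p * c₁, ?_⟩
    linear_combination hρ₀E - β ^ p * hc₁ + ρ₀ * hπp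
  -- `a = ε₂ + π ^ 2 * b₂` with `ε₂` a constant
  have ha2 : β + π * b = (β + π * (β * δ)) + π ^ 2 * (β * c₄ - b * c₅) := by
    linear_combination (-π * b) * hc₅ + (π * β) * hc₄
  rw [ha2] at h
  have hp2 := hp.two_le
  obtain ⟨s', hs'⟩ := core p hp hpπ (j := 2) (d := p + 1) (N := N) (by omega) (by omega)
    (by omega) h
  have hε₂ : β + π * (β * δ) ∈ Oc := Oc.add_mem hβ (Oc.mul_mem hπOc (Oc.mul_mem hβ hδ))
  have hE₂ : e * (β + π * (β * δ)) ^ p - 1 ∈ Oc :=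
    Oc.sub_mem (Oc.mul_mem he (Oc.pow_mem hε₂ p)) Oc.one_mem
  obtain ⟨ρ, hρ, hρE⟩ := const_eq_pow_mul hreg Oc hC3 (p + 1) hE₂
    ⟨r - π * s', by linear_combination hs'⟩
  refine ⟨ρ, hρ, s', ?_⟩
  have h4 : π ^ (p + 1) * ρ = π ^ (p + 1) * (r - π * s') := by linear_combination -hρE + hs'
  have h5 := pow_cancel hreg (p + 1) h4
  linear_combination -h5

end Const

end Fermat.Agent.S44.L.NZ.HStep
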