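import Mathlib
import Fermat.Agent.S44.L.NZ.HStep

/-!
# PROGRAM MR (S44), strand L, NZ-ALT row NZ.2 (DL): the closed-point lift with a prescribed
constant - FALLBACK TWIN of `NZ/DepthLift` (helper128, compiled second; binders of helper159's
interface, proof on `NZ/HStep`)

`A` a local ring with an algebra map to a field `K`; a *branch* is a valuation subring `W ⊆ K`
containing the image of `A` with `𝔪_W = π W`.  `depth_lift_node`, `depth_lift_smooth`: if
`f = unit * π ^ m * x ^ p` and `f` has generic depth `p + 2` with the constant `c` at the main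
branch (and with some constant at the other branch), then `f = c * G ^ p * (1 + π ^ (p + 2) * r)`
with `r ∈ A` - the SAME constant.
-/

set_option autoImplicit false
set_option linter.unusedSectionVars false

namespace Fermat.Agent.S44.L.NZ.DepthLiftAlt

open IsLocalRing

variable {A K : Type*} [CommRing A] [IsLocalRing A] [Field K] [Algebra A K]

/-- A branch through the closed point: a valuation subring of `K` containing the image of `A`
whose maximal ideal is generated by `π`. -/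
structure IsBranch (π : A) (W : Subring K) : Prop where
  total : ∀ x : K, x ∈ W ∨ x⁻¹ ∈ W
  map_mem : ∀ a : A, algebraMap A K a ∈ W
  inv_notMem : (algebraMap A K π)⁻¹ ∉ W
  div_mem : ∀ x : K, x ∈ W → x⁻¹ ∉ W → x / algebraMap A K π ∈ W

/-- The constants of `A`. -/
structure IsConst (E : Type*) [Field E] [Algebra E K] (π : A) (p : ℕ) (Oc : Subring A) :
    Prop where
  pi_mem : π ∈ Oc
  exists_eq : ∀ c : E, c ≠ 0 → ∃ (n : ℤ) (e e' : A), e ∈ Oc ∧ e' ∈ Oc ∧ e * e' = 1 ∧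
    algebraMap E K c = algebraMap A K π ^ n * algebraMap A K e
  exists_root : ∀ e ∈ Oc, ∃ ε ∈ Oc, ∃ δ ∈ Oc, e = ε ^ p + π * δ
  dvd_of_not_isUnit : ∀ e ∈ Oc, ¬ IsUnit e → ∃ e' ∈ Oc, e = π * e'

/-! ### Branches -/

namespace IsBranch

variable {π : A} {W : Subring K} (hW : IsBranch π W)

include hW

theorem pi_ne_zero : algebraMap A K π ≠ 0 := by
  intro h
  apply hW.inv_notMem
  rw [h, inv_zero]
  exact W.zero_mem

theorem pi_mem : algebraMap A K π ∈ W := hW.map_mem π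

/-- `W` is integrally closed (for pure equations). -/
theorem mem_of_pow_mem {x : K} {n : ℕ} (hn : n ≠ 0) (h : x ^ n ∈ W) : x ∈ W := by
  rcases hW.total x with h1 | h1
  · exact h1
  · by_cases hx : x = 0
    · rw [hx]; exact W.zero_mem
    · obtain ⟨m, rfl⟩ := Nat.exists_eq_succ_of_ne_zero hn
      have e : x = x ^ (m + 1) * x⁻¹ ^ m := by
        rw [pow_succ, inv_pow]
        field_simp
      rw [e]
      exact W.mul_mem h (W.pow_mem h1 m)

/-- An element of `π W` lies in `W`. -/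
theorem mem_of_div_mem {x : K} (h : x / algebraMap A K π ∈ W) : x ∈ W := by
  have e : x = algebraMap A K π * (x / algebraMap A K π) := by
    field_simp [hW.pi_ne_zero]
  rw [e]
  exact W.mul_mem hW.pi_mem h

/-- A unit of `W` is not in `π W`. -/
theorem inv_notMem_of_div_mem {x : K} (hx : x ≠ 0) (h : x / algebraMap A K π ∈ W) :
    x⁻¹ ∉ W := by
  intro h1
  apply hW.inv_notMem
  have e : (algebraMap A K π)⁻¹ = x / algebraMap A K π * x⁻¹ := by
    field_simp
  rw [e]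
  exact W.mul_mem h h1

/-- `π W` is a radical ideal: `x ^ p ∈ π W → x ∈ π W`. -/
theorem div_mem_of_pow {x : K} {n : ℕ} (hn : n ≠ 0) (h : x ^ n / algebraMap A K π ∈ W) :
    x / algebraMap A K π ∈ W := by
  by_cases hx : x = 0
  · rw [hx, zero_div]; exact W.zero_mem
  have hxW : x ∈ W := hW.mem_of_pow_mem hn (hW.mem_of_div_mem h)
  refine hW.div_mem x hxW fun h1 => ?_
  refine hW.inv_notMem_of_div_mem (pow_ne_zero n hx) h ?_
  rw [← inv_pow]
  exact W.pow_mem h1 n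

/-- `1 + π W` consists of nonzero elements. -/
theorem one_add_ne_zero {z : K} (hz : z / algebraMap A K π ∈ W) : 1 + z ≠ 0 := by
  intro h0
  apply hW.inv_notMem
  have e : (algebraMap A K π)⁻¹ = -(z / algebraMap A K π) := by
    have hz1 : z = -1 := by linear_combination h0
    rw [hz1]
    field_simp
  rw [e]
  exact W.neg_mem hz

/-- `1 + π W` consists of units of `W`. -/
theorem one_add_inv_mem {z : K} (hz : z / algebraMap A K π ∈ W) : (1 + z)⁻¹ ∈ W := by
  by_contra hinv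
  have h1 : (1 + z) / algebraMap A K π ∈ W :=
    hW.div_mem _ (W.add_mem W.one_mem (hW.mem_of_div_mem hz)) hinv
  apply hW.inv_notMem
  have e : (algebraMap A K π)⁻¹ = (1 + z) / algebraMap A K π - z / algebraMap A K π := by
    field_simp
    ring
  rw [e]
  exact W.sub_mem h1 hz

/-- An element of `A` whose image lies in `π W` is not a unit of `A`. -/
theorem not_isUnit_of_div_mem {a : A} (h : algebraMap A K a / algebraMap A K π ∈ W) :
    ¬ IsUnit a := by
  rintro ⟨u, rfl⟩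
  have hu : algebraMap A K (u : A) * algebraMap A K ((u⁻¹ : Aˣ) : A) = 1 := by
    rw [← map_mul, Units.mul_inv, map_one]
  have hu0 : algebraMap A K (u : A) ≠ 0 := left_ne_zero_of_mul_eq_one hu
  refine hW.inv_notMem_of_div_mem hu0 h ?_
  rw [inv_eq_of_mul_eq_one_right hu]
  exact hW.map_mem _

theorem div_pow_mem {y : K} {n : ℕ} (h : y / algebraMap A K π ^ (n + 1) ∈ W) :
    y / algebraMap A K π ∈ W := by
  have e : y / algebraMap A K π = algebraMap A K π ^ n * (y / algebraMap A K π ^ (n + 1)) := by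
    have := hW.pi_ne_zero
    field_simp
    ring
  rw [e]
  exact W.mul_mem (W.pow_mem hW.pi_mem n) h

end IsBranch

/-! ### Transport to the ring `↥W` and the single-branch steps -/

section Transport

variable {π : A} {W : Subring K} (hW : IsBranch π W)

/-- The map `A → W`. -/
def toW : A →+* W := (algebraMap A K).codRestrict W hW.map_mem

theorem coe_toW (a : A) : ((toW hW a : W) : K) = algebraMap A K a := rfl

theorem dvd_iff (x : W) : toW hW π ∣ x ↔ (x : K) / algebraMap A K π ∈ W := by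
  constructor
  · rintro ⟨c, rfl⟩
    have e : ((toW hW π * c : W) : K) / algebraMap A K π = (c : K) := by
      rw [Subring.coe_mul, coe_toW]
      field_simp [hW.pi_ne_zero]
    rw [e]
    exact c.2
  · intro h
    refine ⟨⟨_, h⟩, Subtype.ext ?_⟩
    rw [Subring.coe_mul, coe_toW]
    field_simp [hW.pi_ne_zero]

theorem toW_reg (a b : W) (h : toW hW π * a = toW hW π * b) : a = b := by
  have h1 := congrArg (Subtype.val) h
  rw [Subring.coe_mul, Subring.coe_mul, coe_toW] at h1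
  exact Subtype.ext (mul_left_cancel₀ hW.pi_ne_zero h1)

theorem toW_red {p : ℕ} (hp : p ≠ 0) (x : W) (h : toW hW π ∣ x ^ p) : toW hW π ∣ x := by
  rw [dvd_iff] at h ⊢
  rw [Subring.coe_pow] at h
  exact hW.div_mem_of_pow hp h

theorem toW_natCast {p : ℕ} {η : A} (hpπ : (p : A) = η * π ^ p) :
    ((p : ℕ) : W) = toW hW η * toW hW π ^ p := by
  rw [← map_natCast (toW hW) p, hpπ, map_mul, map_pow]

include hW in
/-- **Single-branch step, same constant.** -/
theorem main_step (p : ℕ) (hp : p.Prime) {η : A} (hpπ : (p : A) = η * π ^ p) {d : ℕ}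
    (hd : 1 ≤ d) {a y : K} {r : A} (hy : y ∈ W)
    (h : a ^ p * (1 + algebraMap A K π ^ (p + 2) * y)
      = 1 + algebraMap A K π ^ d * algebraMap A K r) :
    (d < p → algebraMap A K r / algebraMap A K π ∈ W) ∧
    (d = p → ∃ x ∈ W, (algebraMap A K r - x ^ p) / algebraMap A K π ∈ W) ∧
    (d = p + 1 → algebraMap A K r / algebraMap A K π ∈ W) := by
  have hz : algebraMap A K π ^ (p + 2) * y / algebraMap A K π ∈ W := by
    have e : algebraMap A K π ^ (p + 2) * y / algebraMap A K π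
        = algebraMap A K π ^ (p + 1) * y := by
      have := hW.pi_ne_zero
      field_simp
      ring
    rw [e]
    exact W.mul_mem (W.pow_mem hW.pi_mem _) hy
  have hu := hW.one_add_inv_mem hz
  have hu0 := hW.one_add_ne_zero hz
  have hap : a ^ p = (1 + algebraMap A K π ^ d * algebraMap A K r)
      * (1 + algebraMap A K π ^ (p + 2) * y)⁻¹ := by
    rw [← h, mul_assoc, mul_inv_cancel₀ hu0, mul_one]
  have haW : a ∈ W := by
    refine hW.mem_of_pow_mem hp.ne_zero ?_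
    rw [hap]
    exact W.mul_mem (W.add_mem W.one_mem (W.mul_mem (W.pow_mem hW.pi_mem d) (hW.map_mem r))) hu
  have hV : (⟨a, haW⟩ : W) ^ p * (1 + toW hW π ^ (p + 2) * ⟨y, hy⟩)
      = 1 + toW hW π ^ d * toW hW r := by
    apply Subtype.ext
    simp only [Subring.coe_mul, Subring.coe_pow, Subring.coe_add, Subring.coe_one, coe_toW]
    exact h
  have hpW := toW_natCast hW hpπ
  refine ⟨fun hdp => ?_, fun hdp => ?_, fun hdp => ?_⟩
  · exact (dvd_iff hW _).1
      (HStep.main_lt p hp hpW (toW_reg hW) (toW_red hW hp.ne_zero) hd hdp (by omega) hV)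
  · subst hdp
    obtain ⟨x, hx⟩ := HStep.main_eq d hp hpW (toW_reg hW) (toW_red hW hp.ne_zero)
      (N := d + 2) (by omega) hV
    refine ⟨x, x.2, ?_⟩
    have h1 := (dvd_iff hW _).1 hx
    rwa [AddSubgroupClass.coe_sub, Subring.coe_pow, coe_toW] at h1
  · subst hdp
    exact (dvd_iff hW _).1
      (HStep.main_succ p hp hpW (toW_reg hW) (toW_red hW hp.ne_zero) (N := p + 2) le_rfl hV)

include hW in
/-- **Single-branch step, another constant.** -/
theorem const_step {E : Type*} [Field E] [Algebra E K] (p : ℕ) (hp : p.Prime) {η : A}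
    (hpπ : (p : A) = η * π ^ p) {Oc : Subring A} (hOc : IsConst (K := K) E π p Oc) {d : ℕ}
    (hd : 1 ≤ d) {e e' : A} (he : e ∈ Oc) (he' : e' ∈ Oc) (hee' : e * e' = 1) {a y : K} {r : A}
    (hy : y ∈ W)
    (h : algebraMap A K e * a ^ p * (1 + algebraMap A K π ^ (p + 2) * y)
      = 1 + algebraMap A K π ^ d * algebraMap A K r) :
    (d < p → ∃ ρ ∈ Oc, (algebraMap A K r - algebraMap A K ρ) / algebraMap A K π ∈ W) ∧
    (d = p → ∃ x ∈ W, (algebraMap A K r - x ^ p) / algebraMap A K π ∈ W) ∧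
    (d = p + 1 → ∃ ρ ∈ Oc, (algebraMap A K r - algebraMap A K ρ) / algebraMap A K π ∈ W) := by
  have hz : algebraMap A K π ^ (p + 2) * y / algebraMap A K π ∈ W := by
    have e : algebraMap A K π ^ (p + 2) * y / algebraMap A K π
        = algebraMap A K π ^ (p + 1) * y := by
      have := hW.pi_ne_zero
      field_simp
      ring
    rw [e]
    exact W.mul_mem (W.pow_mem hW.pi_mem _) hy
  have hu := hW.one_add_inv_mem hz
  have hu0 := hW.one_add_ne_zero hz
  have heeK : algebraMap A K e * algebraMap A K e' = 1 := by rw [← map_mul, hee', map_one]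
  have hap : a ^ p = algebraMap A K e' * (1 + algebraMap A K π ^ d * algebraMap A K r)
      * (1 + algebraMap A K π ^ (p + 2) * y)⁻¹ := by
    calc a ^ p = (algebraMap A K e * algebraMap A K e') * a ^ p
          * ((1 + algebraMap A K π ^ (p + 2) * y) * (1 + algebraMap A K π ^ (p + 2) * y)⁻¹) := by
          rw [heeK, mul_inv_cancel₀ hu0]; ring
      _ = algebraMap A K e' * (algebraMap A K e * a ^ p * (1 + algebraMap A K π ^ (p + 2) * y))
          * (1 + algebraMap A K π ^ (p + 2) * y)⁻¹ := by ring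
      _ = _ := by rw [h]
  have haW : a ∈ W := by
    refine hW.mem_of_pow_mem hp.ne_zero ?_
    rw [hap]
    exact W.mul_mem (W.mul_mem (hW.map_mem e')
      (W.add_mem W.one_mem (W.mul_mem (W.pow_mem hW.pi_mem d) (hW.map_mem r)))) hu
  have hV : toW hW e * (⟨a, haW⟩ : W) ^ p * (1 + toW hW π ^ (p + 2) * ⟨y, hy⟩)
      = 1 + toW hW π ^ d * toW hW r := by
    apply Subtype.ext
    simp only [Subring.coe_mul, Subring.coe_pow, Subring.coe_add, Subring.coe_one, coe_toW]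
    exact h
  have hpW := toW_natCast hW hpπ
  have hC2 : ∀ z ∈ Oc.map (toW hW), ∃ β ∈ Oc.map (toW hW), toW hW π ∣ z - β ^ p := by
    rintro z ⟨e₀, he₀, rfl⟩
    obtain ⟨ε, hε, δ, hδ, h0⟩ := hOc.exists_root e₀ he₀
    refine ⟨toW hW ε, Subring.mem_map.mpr ⟨_, hε, rfl⟩, toW hW δ, ?_⟩
    rw [h0, map_add, map_pow, map_mul]
    ring
  have hC3 : ∀ z ∈ Oc.map (toW hW), toW hW π ∣ z → ∃ z' ∈ Oc.map (toW hW),
      z = toW hW π * z' := by
    rintro z ⟨e₀, he₀, rfl⟩ hdvd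
    have hnu : ¬ IsUnit e₀ := hW.not_isUnit_of_div_mem ((dvd_iff hW _).1 hdvd)
    obtain ⟨e₀', he₀', h0⟩ := hOc.dvd_of_not_isUnit e₀ he₀ hnu
    exact ⟨toW hW e₀', Subring.mem_map.mpr ⟨_, he₀', rfl⟩, by rw [h0, map_mul]⟩
  have hπV : toW hW π ∈ Oc.map (toW hW) := Subring.mem_map.mpr ⟨_, hOc.pi_mem, rfl⟩
  have heV : toW hW e ∈ Oc.map (toW hW) := Subring.mem_map.mpr ⟨_, he, rfl⟩
  have heV' : toW hW e' ∈ Oc.map (toW hW) := Subring.mem_map.mpr ⟨_, he', rfl⟩
  have heeV : toW hW e * toW hW e' = 1 := by rw [← map_mul, hee', map_one]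
  refine ⟨fun hdp => ?_, fun hdp => ?_, fun hdp => ?_⟩
  · obtain ⟨_, ⟨ρ, hρ, rfl⟩, hdvd⟩ := HStep.const_lt p hp hpW (toW_reg hW)
      (toW_red hW hp.ne_zero) (Oc.map (toW hW)) hC2 hC3 hd hdp (N := p + 2) (by omega)
      heV heV' heeV hV
    refine ⟨ρ, hρ, ?_⟩
    have h1 := (dvd_iff hW _).1 hdvd
    rwa [AddSubgroupClass.coe_sub, coe_toW, coe_toW] at h1
  · subst hdp
    obtain ⟨x, hx⟩ := HStep.const_eq d hp hpW (toW_reg hW) (toW_red hW hp.ne_zero)
      (Oc.map (toW hW)) hC2 hC3 (N := d + 2) (by omega) heV heV' heeV hV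
    refine ⟨x, x.2, ?_⟩
    have h1 := (dvd_iff hW _).1 hx
    rwa [AddSubgroupClass.coe_sub, Subring.coe_pow, coe_toW] at h1
  · subst hdp
    obtain ⟨_, ⟨ρ, hρ, rfl⟩, hdvd⟩ := HStep.const_succ p hp hpW (toW_reg hW)
      (toW_red hW hp.ne_zero) (Oc.map (toW hW)) hC2 hC3 hπV (N := p + 2) le_rfl
      heV heV' heeV hV
    refine ⟨ρ, hρ, ?_⟩
    have h1 := (dvd_iff hW _).1 hdvd
    rwa [AddSubgroupClass.coe_sub, coe_toW, coe_toW] at h1

end Transport

/-! ### Valuation bookkeeping without a value group -/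

section Val

variable {π : A} {W : Subring K} (hW : IsBranch π W)

include hW in
/-- The image of a unit of `A` is a unit of `W`. -/
theorem unit_mem {a : A} (ha : IsUnit a) :
    algebraMap A K a ∈ W ∧ (algebraMap A K a)⁻¹ ∈ W ∧ algebraMap A K a ≠ 0 := by
  obtain ⟨u, rfl⟩ := ha
  have hu : algebraMap A K (u : A) * algebraMap A K ((u⁻¹ : Aˣ) : A) = 1 := by
    rw [← map_mul, Units.mul_inv, map_one]
  refine ⟨hW.map_mem _, ?_, left_ne_zero_of_mul_eq_one hu⟩
  rw [inv_eq_of_mul_eq_one_right hu]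
  exact hW.map_mem _

include hW in
/-- `π ^ s = z ^ p * u` with `u` a unit of `W` forces `p ∣ s`. -/
theorem dvd_of_pow_eq {p : ℕ} (hp : 0 < p) (s : ℕ) {z u : K} (hu : u ∈ W) (hu' : u⁻¹ ∈ W)
    (hu0 : u ≠ 0) (h : algebraMap A K π ^ s = z ^ p * u) : p ∣ s := by
  induction s using Nat.strong_induction_on generalizing z with
  | _ s ih =>
    have hϖ0 : algebraMap A K π ≠ 0 := hW.pi_ne_zero
    by_cases hsp : p ≤ s
    · obtain ⟨s', rfl⟩ := Nat.exists_eq_add_of_le hsp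
      have h' : algebraMap A K π ^ s' = (z / algebraMap A K π) ^ p * u := by
        rw [div_pow, div_mul_eq_mul_div, ← h, pow_add,
          mul_div_cancel_left₀ _ (pow_ne_zero p hϖ0)]
      have h1 := ih s' (by omega) h'
      exact (Nat.dvd_add_right (dvd_refl p)).mpr h1
    · have hsp := Nat.lt_of_not_le hsp
      by_cases hs0 : s = 0
      · rw [hs0]; exact dvd_zero p
      exfalso
      obtain ⟨t, rfl⟩ : ∃ t, s = t + 1 := ⟨s - 1, by omega⟩
      have hzp : z ^ p = algebraMap A K π ^ (t + 1) * u⁻¹ := by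
        rw [h, mul_assoc, mul_inv_cancel₀ hu0, mul_one]
      have hz : z ^ p / algebraMap A K π = algebraMap A K π ^ t * u⁻¹ := by
        rw [hzp, pow_succ]
        field_simp
      have h1 : z / algebraMap A K π ∈ W := hW.div_mem_of_pow hp.ne' (by
        rw [hz]; exact W.mul_mem (W.pow_mem hW.pi_mem t) hu')
      have h2 : (z / algebraMap A K π) ^ p * u ∈ W := W.mul_mem (W.pow_mem h1 p) hu
      obtain ⟨k, hk⟩ := Nat.exists_eq_add_of_lt hsp
      have h3 : (z / algebraMap A K π) ^ p * u = (algebraMap A K π ^ (k + 1))⁻¹ := by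
        have e2 : algebraMap A K π ^ p
            = algebraMap A K π ^ (t + 1) * algebraMap A K π ^ (k + 1) := by
          rw [hk]; ring
        rw [div_pow, div_mul_eq_mul_div, ← h, e2]
        have h5 := pow_ne_zero (t + 1) hϖ0
        rw [div_eq_mul_inv, mul_inv, ← mul_assoc, mul_inv_cancel₀ h5, one_mul]
      rw [h3] at h2
      apply hW.inv_notMem
      have e : (algebraMap A K π)⁻¹
          = algebraMap A K π ^ k * (algebraMap A K π ^ (k + 1))⁻¹ := by
        rw [pow_succ]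
        field_simp
      rw [e]
      exact W.mul_mem (W.pow_mem hW.pi_mem k) h2

include hW in
/-- Comparison of two normal forms `π ^ m * unit * X ^ p = π ^ n * unit * Y ^ p`. -/
theorem exists_pow_eq {p : ℕ} (hp : 0 < p) {m n : ℕ} {u₁ u₂ X Y : K}
    (hu₁ : u₁ ∈ W) (hu₁' : u₁⁻¹ ∈ W) (hu₁0 : u₁ ≠ 0)
    (hu₂ : u₂ ∈ W) (hu₂' : u₂⁻¹ ∈ W) (hu₂0 : u₂ ≠ 0) (hX : X ≠ 0) (hY : Y ≠ 0)
    (h : algebraMap A K π ^ m * u₁ * X ^ p = algebraMap A K π ^ n * u₂ * Y ^ p) :
    ∃ Z : K, Z ≠ 0 ∧ algebraMap A K π ^ m * X ^ p = algebraMap A K π ^ n * Z ^ p := by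
  have hϖ0 : algebraMap A K π ≠ 0 := hW.pi_ne_zero
  have hXp := pow_ne_zero p hX
  have hYp := pow_ne_zero p hY
  rcases le_total n m with hnm | hmn
  · obtain ⟨s, rfl⟩ := Nat.exists_eq_add_of_le hnm
    have hn0 := pow_ne_zero n hϖ0
    have h2 : algebraMap A K π ^ s * (u₁ * X ^ p) = u₂ * Y ^ p := by
      refine mul_left_cancel₀ hn0 ?_
      rw [pow_add] at h
      linear_combination h
    have h1 : algebraMap A K π ^ s = (Y / X) ^ p * (u₂ * u₁⁻¹) := by
      have e : (Y / X) ^ p * (u₂ * u₁⁻¹) = (u₂ * Y ^ p) * (u₁ * X ^ p)⁻¹ := by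
        rw [div_pow, mul_inv]; ring
      rw [e, ← h2, mul_assoc, mul_inv_cancel₀ (mul_ne_zero hu₁0 hXp), mul_one]
    obtain ⟨q, rfl⟩ := dvd_of_pow_eq hW hp s (W.mul_mem hu₂ hu₁')
      (by rw [mul_inv, inv_inv]; exact W.mul_mem hu₂' hu₁)
      (mul_ne_zero hu₂0 (inv_ne_zero hu₁0)) h1
    refine ⟨algebraMap A K π ^ q * X, mul_ne_zero (pow_ne_zero q hϖ0) hX, ?_⟩
    rw [pow_add, mul_pow, ← pow_mul, mul_comm q p]
    ring
  · obtain ⟨s, rfl⟩ := Nat.exists_eq_add_of_le hmn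
    have hm0 := pow_ne_zero m hϖ0
    have h2 : u₁ * X ^ p = algebraMap A K π ^ s * (u₂ * Y ^ p) := by
      refine mul_left_cancel₀ hm0 ?_
      rw [pow_add] at h
      linear_combination h
    have h1 : algebraMap A K π ^ s = (X / Y) ^ p * (u₁ * u₂⁻¹) := by
      have e : (X / Y) ^ p * (u₁ * u₂⁻¹) = (u₁ * X ^ p) * (u₂ * Y ^ p)⁻¹ := by
        rw [div_pow, mul_inv]; ring
      rw [e, h2, mul_assoc, mul_inv_cancel₀ (mul_ne_zero hu₂0 hYp), mul_one]
    obtain ⟨q, rfl⟩ := dvd_of_pow_eq hW hp s (W.mul_mem hu₁ hu₂')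
      (by rw [mul_inv, inv_inv]; exact W.mul_mem hu₁' hu₂)
      (mul_ne_zero hu₁0 (inv_ne_zero hu₂0)) h1
    have hq0 := pow_ne_zero q hϖ0
    refine ⟨X / algebraMap A K π ^ q, div_ne_zero hX hq0, ?_⟩
    rw [pow_add, div_pow, ← pow_mul, mul_comm q p]
    have := pow_ne_zero (p * q) hϖ0
    field_simp

end Val

/-! ### Constants with a natural exponent -/

section Const

variable {E : Type*} [Field E] [Algebra E K]

theorem exists_nat_const {π : A} {p : ℕ} (hp : 0 < p) {Oc : Subring A}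
    (hOc : IsConst (K := K) E π p Oc) (hπ0 : algebraMap A K π ≠ 0) (c : E) (hc : c ≠ 0) :
    ∃ (n : ℕ) (e e' : A) (t : K), e ∈ Oc ∧ e' ∈ Oc ∧ e * e' = 1 ∧ t ≠ 0 ∧
      algebraMap E K c = algebraMap A K π ^ n * algebraMap A K e * t ^ p := by
  obtain ⟨n, e, e', he, he', hee', h⟩ := hOc.exists_eq c hc
  have hnn : (0 : ℤ) ≤ n + (p : ℤ) * (n.natAbs : ℤ) := by
    have h1 : -(n.natAbs : ℤ) ≤ n := by omega
    have h2 : (0 : ℤ) ≤ (n.natAbs : ℤ) := Int.natCast_nonneg _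
    have h3 : (1 : ℤ) ≤ (p : ℤ) := by exact_mod_cast hp
    nlinarith
  have hn' : (((n + (p : ℤ) * (n.natAbs : ℤ)).toNat : ℕ) : ℤ) = n + (p : ℤ) * (n.natAbs : ℤ) :=
    Int.toNat_of_nonneg hnn
  have hk0 := pow_ne_zero p (pow_ne_zero n.natAbs hπ0)
  have e1 : algebraMap A K π ^ (n + (p : ℤ) * (n.natAbs : ℤ)).toNat
      = algebraMap A K π ^ n * (algebraMap A K π ^ n.natAbs) ^ p := by
    rw [← zpow_natCast (algebraMap A K π) (n + (p : ℤ) * (n.natAbs : ℤ)).toNat, hn',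
      zpow_add₀ hπ0, mul_comm (p : ℤ) (n.natAbs : ℤ), zpow_mul, zpow_natCast, zpow_natCast]
  refine ⟨(n + (p : ℤ) * (n.natAbs : ℤ)).toNat, e, e', (algebraMap A K π ^ n.natAbs)⁻¹,
    he, he', hee', inv_ne_zero (pow_ne_zero _ hπ0), ?_⟩
  rw [h, e1, inv_pow]
  field_simp

end Const

/-! ### The two gluing steps, in `A` -/

section Local

theorem pi_mem_maximalIdeal {π : A} {W : Subring K} (hW : IsBranch π W) :
    π ∈ maximalIdeal A := by
  rw [mem_maximalIdeal, mem_nonunits_iff]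
  refine hW.not_isUnit_of_div_mem ?_
  rw [div_self hW.pi_ne_zero]
  exact W.one_mem

/-- `w = h ^ p + π s` with `w` a unit: `w = h ^ p (1 + π r)` and `h` is a unit. -/
theorem unit_eq {π : A} (hπm : π ∈ maximalIdeal A) {p : ℕ} (hp : p ≠ 0) {w h s : A}
    (hw : IsUnit w) (e : w = h ^ p + π * s) :
    ∃ r₁ : A, IsUnit h ∧ w = h ^ p * (1 + π * r₁) := by
  have hh : IsUnit h := by
    by_contra hh
    have h1 : h ∈ maximalIdeal A := (mem_maximalIdeal h).2 hh
    have h2 : w ∈ maximalIdeal A := by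
      rw [e]
      exact Ideal.add_mem _ (Ideal.pow_mem_of_mem _ h1 p (Nat.pos_of_ne_zero hp))
        (Ideal.mul_mem_right _ _ hπm)
    exact (mem_maximalIdeal w).1 h2 hw
  obtain ⟨v, hv⟩ := hh.exists_right_inv
  refine ⟨s * v ^ p, hh, ?_⟩
  have hvp : h ^ p * v ^ p = 1 := by rw [← mul_pow, hv, one_pow]
  linear_combination e - π * s * hvp

/-- `r = h ^ p + π s` gives `1 + π ^ p r = u ^ p (1 + π ^ (p + 1) r'')` with `u = 1 + π h`. -/
theorem one_add_pow_eq {π η : A} (hπm : π ∈ maximalIdeal A) {p : ℕ} (hp : p.Prime)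
    (hpπ : (p : A) = η * π ^ p) {r h s : A} (e : r = h ^ p + π * s) :
    ∃ u r'' : A, IsUnit u ∧ 1 + π ^ p * r = u ^ p * (1 + π ^ (p + 1) * r'') := by
  obtain ⟨q, hq⟩ := exists_add_pow_prime_eq hp (1 : A) (π * h)
  have hu : IsUnit (1 + π * h) := by
    have hnu : ¬ IsUnit (-(π * h)) := by
      intro hu
      have h1 : IsUnit (π * h) := by simpa using hu.neg
      exact (mem_maximalIdeal π).1 hπm (isUnit_of_mul_isUnit_left h1)
    exact (IsLocalRing.isUnit_or_isUnit_of_add_one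
      (a := 1 + π * h) (b := -(π * h)) (by ring)).resolve_right hnu
  obtain ⟨v, hv⟩ := hu.exists_right_inv
  have hvp : (1 + π * h) ^ p * v ^ p = 1 := by rw [← mul_pow, hv, one_pow]
  refine ⟨1 + π * h, (s - η * h * q) * v ^ p, hu, ?_⟩
  linear_combination π ^ p * e - hq - π * h * q * hpπ
    - π ^ (p + 1) * (s - η * h * q) * hvp

end Local

/-! ### The induction, in abstract form -/

section Induction

/-- **The induction `H(1) ⇒ H(p + 2)`.**  `Hdiv` : the steps `1 ≤ d < p` and `d = p + 1`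
(`π ∣ r`); `Hroot` : the step `d = p` (`r ≡ h ^ p` modulo `π`); `Hroot0` : the start. -/
theorem induction_core {π η : A} (hπm : π ∈ maximalIdeal A)
    (hι : ∀ a : A, IsUnit a → algebraMap A K a ≠ 0) {p : ℕ} (hp : p.Prime)
    (hpπ : (p : A) = η * π ^ p) {f cK : K}
    (Hroot0 : ∃ (G₀ : K) (w₀ h s : A), G₀ ≠ 0 ∧ IsUnit w₀ ∧
      f = cK * algebraMap A K w₀ * G₀ ^ p ∧ w₀ = h ^ p + π * s)
    (Hdiv : ∀ (d : ℕ) (G : K) (r : A), 1 ≤ d → (d < p ∨ d = p + 1) → G ≠ 0 →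
      f = cK * G ^ p * (1 + algebraMap A K π ^ d * algebraMap A K r) → π ∣ r)
    (Hroot : ∀ (G : K) (r : A), G ≠ 0 →
      f = cK * G ^ p * (1 + algebraMap A K π ^ p * algebraMap A K r) →
      ∃ h s : A, r = h ^ p + π * s) :
    ∃ (G : K) (r : A),
      f = cK * G ^ p * (1 + algebraMap A K π ^ (p + 2) * algebraMap A K r) := by
  have H1 : ∃ (G : K) (r : A), G ≠ 0 ∧
      f = cK * G ^ p * (1 + algebraMap A K π ^ 1 * algebraMap A K r) := by
    obtain ⟨G₀, w₀, h, s, hG₀, hw₀, hf₀, hhs⟩ := Hroot0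
    obtain ⟨r₁, hh, hw⟩ := unit_eq hπm hp.ne_zero hw₀ hhs
    refine ⟨G₀ * algebraMap A K h, r₁, mul_ne_zero hG₀ (hι h hh), ?_⟩
    rw [hf₀, hw, map_mul, map_pow, map_add, map_one, map_mul]
    ring
  have Hd : ∀ d, 1 ≤ d → d ≤ p + 2 → ∃ (G : K) (r : A), G ≠ 0 ∧
      f = cK * G ^ p * (1 + algebraMap A K π ^ d * algebraMap A K r) := by
    intro d hd
    induction d, hd using Nat.le_induction with
    | base => intro _; exact H1
    | succ d hd ih =>
      intro hd2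
      obtain ⟨G, r, hG, hf⟩ := ih (by omega)
      have hcase : d < p ∨ d = p ∨ d = p + 1 := by omega
      rcases hcase with hdp | hdp | hdp
      · obtain ⟨r', rfl⟩ := Hdiv d G r hd (Or.inl hdp) hG hf
        refine ⟨G, r', hG, ?_⟩
        rw [hf, map_mul]
        ring
      · rw [hdp] at hf
        obtain ⟨h, s, hhs⟩ := Hroot G r hG hf
        obtain ⟨u, r'', hu, hur⟩ := one_add_pow_eq hπm hp hpπ hhs
        refine ⟨G * algebraMap A K u, r'', mul_ne_zero hG (hι u hu), ?_⟩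
        have hurK := congrArg (algebraMap A K) hur
        simp only [map_add, map_one, map_mul, map_pow] at hurK
        rw [hf, hdp]
        linear_combination (cK * G ^ p) * hurK
      · obtain ⟨r', rfl⟩ := Hdiv d G r hd (Or.inr hdp) hG hf
        refine ⟨G, r', hG, ?_⟩
        rw [hf, map_mul]
        ring
  obtain ⟨G, r, -, hf⟩ := Hd (p + 2) (by omega) le_rfl
  exact ⟨G, r, hf⟩

end Induction

/-! ### Branch relations and the start of the induction -/

section Rel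

theorem rel_main {p : ℕ} {f cK g y G X : K} (hcK : cK ≠ 0) (hG : G ≠ 0)
    (hf₁ : f = cK * g ^ p * (1 + y)) (hfX : f = cK * G ^ p * X) :
    (g / G) ^ p * (1 + y) = X := by
  have hGp := pow_ne_zero p hG
  have h1 : cK * (G ^ p * X) = cK * (g ^ p * (1 + y)) := by
    have e1 : cK * (G ^ p * X) = f := by rw [hfX]; ring
    have e2 : cK * (g ^ p * (1 + y)) = f := by rw [hf₁]; ring
    rw [e1, e2]
  have h2 := mul_left_cancel₀ hcK h1
  rw [div_pow, div_mul_eq_mul_div, ← h2, mul_div_cancel_left₀ _ hGp]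

theorem rel_other {p : ℕ} {f cK eK g y G X : K} (hcK : cK ≠ 0) (hG : G ≠ 0)
    (hf₂ : f = cK * eK * g ^ p * (1 + y)) (hfX : f = cK * G ^ p * X) :
    eK * (g / G) ^ p * (1 + y) = X := by
  have hGp := pow_ne_zero p hG
  have h1 : cK * (G ^ p * X) = cK * (eK * g ^ p * (1 + y)) := by
    have e1 : cK * (G ^ p * X) = f := by rw [hfX]; ring
    have e2 : cK * (eK * g ^ p * (1 + y)) = f := by rw [hf₂]; ring
    rw [e1, e2]
  have h2 := mul_left_cancel₀ hcK h1
  have h3 : eK * (g / G) ^ p * (1 + y) = (eK * g ^ p * (1 + y)) / G ^ p := by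
    rw [div_pow]; ring
  rw [h3, ← h2, mul_div_cancel_left₀ _ hGp]

variable {π : A} {W : Subring K} (hW : IsBranch π W)

include hW in
theorem pow_succ_mul_div_mem {y : K} (hy : y ∈ W) (n : ℕ) :
    algebraMap A K π ^ (n + 1) * y / algebraMap A K π ∈ W := by
  have e : algebraMap A K π ^ (n + 1) * y / algebraMap A K π = algebraMap A K π ^ n * y := by
    have := hW.pi_ne_zero
    field_simp
    ring
  rw [e]
  exact W.mul_mem (W.pow_mem hW.pi_mem _) hy

include hW in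
/-- (T0) on the main branch. -/
theorem t0_main {p : ℕ} (hp : p ≠ 0) {w₀ : A} (hw₀ : IsUnit w₀) {a y : K} (hy : y ∈ W)
    (h : a ^ p * (1 + algebraMap A K π ^ (p + 2) * y) = algebraMap A K w₀) :
    a ∈ W ∧ (algebraMap A K w₀ - a ^ p) / algebraMap A K π ∈ W := by
  have hz : algebraMap A K π ^ (p + 2) * y / algebraMap A K π ∈ W :=
    pow_succ_mul_div_mem hW hy (p + 1)
  have hu := hW.one_add_inv_mem hz
  have hu0 := hW.one_add_ne_zero hz
  obtain ⟨hw, -, -⟩ := unit_mem hW hw₀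
  have hap : a ^ p = algebraMap A K w₀ * (1 + algebraMap A K π ^ (p + 2) * y)⁻¹ := by
    rw [← h, mul_assoc, mul_inv_cancel₀ hu0, mul_one]
  have haW : a ∈ W := by
    refine hW.mem_of_pow_mem hp ?_
    rw [hap]
    exact W.mul_mem hw hu
  refine ⟨haW, ?_⟩
  have e : (algebraMap A K w₀ - a ^ p) / algebraMap A K π
      = a ^ p * (algebraMap A K π ^ (p + 1) * y) := by
    rw [div_eq_iff hW.pi_ne_zero]
    linear_combination -h
  rw [e]
  exact W.mul_mem (W.pow_mem haW p) (W.mul_mem (W.pow_mem hW.pi_mem _) hy)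

include hW in
/-- (T0) on a branch with another constant. -/
theorem t0_other {E : Type*} [Field E] [Algebra E K] {p : ℕ} (hp : p ≠ 0) {Oc : Subring A}
    (hOc : IsConst (K := K) E π p Oc) {w₀ : A} (hw₀ : IsUnit w₀) {e e' : A} (he : e ∈ Oc)
    (hee' : e * e' = 1) {a y : K} (hy : y ∈ W)
    (h : algebraMap A K e * a ^ p * (1 + algebraMap A K π ^ (p + 2) * y) = algebraMap A K w₀) :
    ∃ x ∈ W, (algebraMap A K w₀ - x ^ p) / algebraMap A K π ∈ W := by
  have hz : algebraMap A K π ^ (p + 2) * y / algebraMap A K π ∈ W :=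
    pow_succ_mul_div_mem hW hy (p + 1)
  have hu := hW.one_add_inv_mem hz
  have hu0 := hW.one_add_ne_zero hz
  obtain ⟨hw, -, -⟩ := unit_mem hW hw₀
  have heeK : algebraMap A K e * algebraMap A K e' = 1 := by rw [← map_mul, hee', map_one]
  have hap : a ^ p = algebraMap A K e' * algebraMap A K w₀
      * (1 + algebraMap A K π ^ (p + 2) * y)⁻¹ := by
    calc a ^ p = (algebraMap A K e * algebraMap A K e') * a ^ p
          * ((1 + algebraMap A K π ^ (p + 2) * y) * (1 + algebraMap A K π ^ (p + 2) * y)⁻¹) := by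
          rw [heeK, mul_inv_cancel₀ hu0]; ring
      _ = algebraMap A K e' * (algebraMap A K e * a ^ p * (1 + algebraMap A K π ^ (p + 2) * y))
          * (1 + algebraMap A K π ^ (p + 2) * y)⁻¹ := by ring
      _ = _ := by rw [h]
  have haW : a ∈ W := by
    refine hW.mem_of_pow_mem hp ?_
    rw [hap]
    exact W.mul_mem (W.mul_mem (hW.map_mem e') hw) hu
  obtain ⟨ε, -, δ, -, hroot⟩ := hOc.exists_root e he
  have hrootK : algebraMap A K e = algebraMap A K ε ^ p + algebraMap A K π * algebraMap A K δ := by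
    rw [hroot, map_add, map_pow, map_mul]
  refine ⟨algebraMap A K ε * a, W.mul_mem (hW.map_mem ε) haW, ?_⟩
  have e2 : (algebraMap A K w₀ - (algebraMap A K ε * a) ^ p) / algebraMap A K π
      = algebraMap A K δ * a ^ p
        + algebraMap A K e * a ^ p * (algebraMap A K π ^ (p + 1) * y) := by
    rw [div_eq_iff hW.pi_ne_zero]
    linear_combination -h + a ^ p * hrootK
  rw [e2]
  exact W.add_mem (W.mul_mem (hW.map_mem δ) (W.pow_mem haW p))
    (W.mul_mem (W.mul_mem (hW.map_mem e) (W.pow_mem haW p))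
      (W.mul_mem (W.pow_mem hW.pi_mem _) hy))

end Rel

/-! ### Gluing at the closed point -/

section Glue

variable {π : A} {W₁ W₂ : Subring K}

/-- (T1) at a node: `p`-th roots modulo `π` on the two branches glue to a `p`-th root in `A`. -/
theorem node_root (hW₁ : IsBranch π W₁) (hW₂ : IsBranch π W₂) {p : ℕ} (hp : p.Prime) {η : A}
    (hpπ : (p : A) = η * π ^ p)
    (hB2 : ∀ r : A, algebraMap A K r / algebraMap A K π ∈ W₁ →
      algebraMap A K r / algebraMap A K π ∈ W₂ → π ∣ r)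
    (hB3₁ : ∀ (r : A) (x : K), x ∈ W₁ → (algebraMap A K r - x ^ p) / algebraMap A K π ∈ W₁ →
      ∃ h : A, algebraMap A K (r - h ^ p) / algebraMap A K π ∈ W₁)
    (hB3₂ : ∀ (r : A) (x : K), x ∈ W₂ → (algebraMap A K r - x ^ p) / algebraMap A K π ∈ W₂ →
      ∃ h : A, algebraMap A K (r - h ^ p) / algebraMap A K π ∈ W₂)
    (hB4 : ∀ h₁ h₂ : A, h₁ - h₂ ∈ maximalIdeal A →
      ∃ h : A, algebraMap A K (h - h₁) / algebraMap A K π ∈ W₁ ∧
        algebraMap A K (h - h₂) / algebraMap A K π ∈ W₂)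
    {r : A} (h₁ : ∃ x ∈ W₁, (algebraMap A K r - x ^ p) / algebraMap A K π ∈ W₁)
    (h₂ : ∃ x ∈ W₂, (algebraMap A K r - x ^ p) / algebraMap A K π ∈ W₂) :
    ∃ h s : A, r = h ^ p + π * s := by
  obtain ⟨x₁, hx₁, hx₁'⟩ := h₁
  obtain ⟨x₂, hx₂, hx₂'⟩ := h₂
  obtain ⟨a₁, ha₁⟩ := hB3₁ r x₁ hx₁ hx₁'
  obtain ⟨a₂, ha₂⟩ := hB3₂ r x₂ hx₂ hx₂'
  have hπm : π ∈ maximalIdeal A := pi_mem_maximalIdeal hW₁
  have hm₁ : r - a₁ ^ p ∈ maximalIdeal A :=
    (mem_maximalIdeal _).2 (hW₁.not_isUnit_of_div_mem ha₁)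
  have hm₂ : r - a₂ ^ p ∈ maximalIdeal A :=
    (mem_maximalIdeal _).2 (hW₂.not_isUnit_of_div_mem ha₂)
  have hpm : (p : A) ∈ maximalIdeal A := by
    rw [hpπ]
    exact Ideal.mul_mem_left _ _ (Ideal.pow_mem_of_mem _ hπm p hp.pos)
  obtain ⟨q, hq⟩ := exists_add_pow_prime_eq hp (a₁ - a₂) a₂
  have hpow : (a₁ - a₂) ^ p ∈ maximalIdeal A := by
    have e0 : a₁ - a₂ + a₂ = a₁ := by ring
    rw [e0] at hq
    have e : (a₁ - a₂) ^ p
        = (r - a₂ ^ p) - (r - a₁ ^ p) - (p : A) * ((a₁ - a₂) * a₂ * q) := by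
      linear_combination -hq
    rw [e]
    exact Ideal.sub_mem _ (Ideal.sub_mem _ hm₂ hm₁) (Ideal.mul_mem_right _ _ hpm)
  have hsub : a₁ - a₂ ∈ maximalIdeal A :=
    (maximalIdeal.isMaximal A).isPrime.mem_of_pow_mem p hpow
  obtain ⟨h, hh₁, hh₂⟩ := hB4 a₁ a₂ hsub
  have key : ∀ W : Subring K, IsBranch π W → ∀ a : A,
      algebraMap A K (r - a ^ p) / algebraMap A K π ∈ W →
      algebraMap A K (h - a) / algebraMap A K π ∈ W →
      algebraMap A K (r - h ^ p) / algebraMap A K π ∈ W := by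
    intro W hW a h1 h2
    obtain ⟨Q, hQ⟩ := sub_dvd_pow_sub_pow h a p
    have e : algebraMap A K (r - h ^ p) / algebraMap A K π
        = algebraMap A K (r - a ^ p) / algebraMap A K π
          - algebraMap A K (h - a) / algebraMap A K π * algebraMap A K Q := by
      have e1 : r - h ^ p = (r - a ^ p) - (h - a) * Q := by rw [← hQ]; ring
      rw [e1, map_sub, map_mul]
      ring
    rw [e]
    exact W.sub_mem h1 (W.mul_mem h2 (hW.map_mem Q))
  obtain ⟨s, hs⟩ := hB2 _ (key W₁ hW₁ a₁ ha₁ hh₁) (key W₂ hW₂ a₂ ha₂ hh₂)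
  exact ⟨h, s, by linear_combination hs⟩

/-- (T2) at a node: `r ∈ π W₁` and `r ≡ constant` modulo `π W₂` force `π ∣ r`. -/
theorem div_step {E : Type*} [Field E] [Algebra E K] (hW₁ : IsBranch π W₁)
    (hW₂ : IsBranch π W₂) {p : ℕ} {Oc : Subring A} (hOc : IsConst (K := K) E π p Oc)
    (hB2 : ∀ r : A, algebraMap A K r / algebraMap A K π ∈ W₁ →
      algebraMap A K r / algebraMap A K π ∈ W₂ → π ∣ r)
    {r : A} (h₁ : algebraMap A K r / algebraMap A K π ∈ W₁)
    (h₂ : ∃ ρ ∈ Oc, (algebraMap A K r - algebraMap A K ρ) / algebraMap A K π ∈ W₂) :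
    π ∣ r := by
  obtain ⟨ρ, hρ, hρ'⟩ := h₂
  have hr : r ∈ maximalIdeal A := (mem_maximalIdeal _).2 (hW₁.not_isUnit_of_div_mem h₁)
  have hrρ : r - ρ ∈ maximalIdeal A := by
    refine (mem_maximalIdeal _).2 (hW₂.not_isUnit_of_div_mem ?_)
    rw [map_sub]
    exact hρ'
  have hρm : ρ ∈ maximalIdeal A := by
    have e : ρ = r - (r - ρ) := by ring
    rw [e]
    exact Ideal.sub_mem _ hr hrρ
  obtain ⟨ρ', -, rfl⟩ := hOc.dvd_of_not_isUnit ρ hρ ((mem_maximalIdeal _).1 hρm)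
  refine hB2 r h₁ ?_
  have e : algebraMap A K r / algebraMap A K π
      = (algebraMap A K r - algebraMap A K (π * ρ')) / algebraMap A K π
        + algebraMap A K ρ' := by
    rw [map_mul]
    have := hW₂.pi_ne_zero
    field_simp
    ring
  rw [e]
  exact W₂.add_mem hρ' (hW₂.map_mem ρ')

/-- **The node, normalised.** -/
theorem node_core {E : Type*} [Field E] [Algebra E K] (p : ℕ) (hp : p.Prime) {η : A}
    (hpπ : (p : A) = η * π ^ p) (hW₁ : IsBranch π W₁) (hW₂ : IsBranch π W₂)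
    (hB2 : ∀ r : A, algebraMap A K r / algebraMap A K π ∈ W₁ →
      algebraMap A K r / algebraMap A K π ∈ W₂ → π ∣ r)
    (hB3₁ : ∀ (r : A) (x : K), x ∈ W₁ → (algebraMap A K r - x ^ p) / algebraMap A K π ∈ W₁ →
      ∃ h : A, algebraMap A K (r - h ^ p) / algebraMap A K π ∈ W₁)
    (hB3₂ : ∀ (r : A) (x : K), x ∈ W₂ → (algebraMap A K r - x ^ p) / algebraMap A K π ∈ W₂ →
      ∃ h : A, algebraMap A K (r - h ^ p) / algebraMap A K π ∈ W₂)
    (hB4 : ∀ h₁ h₂ : A, h₁ - h₂ ∈ maximalIdeal A →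
      ∃ h : A, algebraMap A K (h - h₁) / algebraMap A K π ∈ W₁ ∧
        algebraMap A K (h - h₂) / algebraMap A K π ∈ W₂)
    {Oc : Subring A} (hOc : IsConst (K := K) E π p Oc) {f cK : K} (hcK : cK ≠ 0)
    {w₀ : A} (hw₀ : IsUnit w₀) {G₀ : K} (hG₀ : G₀ ≠ 0)
    (hf₀ : f = cK * algebraMap A K w₀ * G₀ ^ p)
    {g₁ y₁ : K} (hy₁ : y₁ ∈ W₁)
    (hf₁ : f = cK * g₁ ^ p * (1 + algebraMap A K π ^ (p + 2) * y₁))
    {e e' : A} (he : e ∈ Oc) (he' : e' ∈ Oc) (hee' : e * e' = 1)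
    {g₂ y₂ : K} (hy₂ : y₂ ∈ W₂)
    (hf₂ : f = cK * algebraMap A K e * g₂ ^ p * (1 + algebraMap A K π ^ (p + 2) * y₂)) :
    ∃ (G : K) (r : A),
      f = cK * G ^ p * (1 + algebraMap A K π ^ (p + 2) * algebraMap A K r) := by
  have hπm := pi_mem_maximalIdeal hW₁
  have hι : ∀ a : A, IsUnit a → algebraMap A K a ≠ 0 := fun a ha => (unit_mem hW₁ ha).2.2
  refine induction_core hπm hι hp hpπ ?_ ?_ ?_
  · have hfX : f = cK * G₀ ^ p * algebraMap A K w₀ := by rw [hf₀]; ring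
    have r1 := rel_main hcK hG₀ hf₁ hfX
    have r2 := rel_other hcK hG₀ hf₂ hfX
    obtain ⟨ha, ha'⟩ := t0_main hW₁ hp.ne_zero hw₀ hy₁ r1
    obtain ⟨h, s, hhs⟩ := node_root hW₁ hW₂ hp hpπ hB2 hB3₁ hB3₂ hB4 ⟨_, ha, ha'⟩
      (t0_other hW₂ hp.ne_zero hOc hw₀ he hee' hy₂ r2)
    exact ⟨G₀, w₀, h, s, hG₀, hw₀, hf₀, hhs⟩
  · intro d G r hd hcase hG hf
    have r1 := rel_main hcK hG hf₁ hf
    have r2 := rel_other hcK hG hf₂ hf
    obtain ⟨m1, -, m3⟩ := main_step hW₁ p hp hpπ hd hy₁ r1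
    obtain ⟨c1, -, c3⟩ := const_step hW₂ p hp hpπ hOc hd he he' hee' hy₂ r2
    rcases hcase with hdp | hdp
    · exact div_step hW₁ hW₂ hOc hB2 (m1 hdp) (c1 hdp)
    · exact div_step hW₁ hW₂ hOc hB2 (m3 hdp) (c3 hdp)
  · intro G r hG hf
    have r1 := rel_main hcK hG hf₁ hf
    have r2 := rel_other hcK hG hf₂ hf
    obtain ⟨-, m2, -⟩ := main_step hW₁ p hp hpπ hp.pos hy₁ r1
    obtain ⟨-, c2, -⟩ := const_step hW₂ p hp hpπ hOc hp.pos he he' hee' hy₂ r2
    exact node_root hW₁ hW₂ hp hpπ hB2 hB3₁ hB3₂ hB4 (m2 rfl) (c2 rfl)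

end Glue

/-! ### The smooth point, normalised -/

section Smooth

variable {π : A} {W : Subring K}

theorem smooth_core (p : ℕ) (hp : p.Prime) {η : A} (hpπ : (p : A) = η * π ^ p)
    (hW : IsBranch π W)
    (hB2 : ∀ r : A, algebraMap A K r / algebraMap A K π ∈ W → π ∣ r)
    (hB3 : ∀ (r : A) (x : K), x ∈ W → (algebraMap A K r - x ^ p) / algebraMap A K π ∈ W →
      ∃ h : A, algebraMap A K (r - h ^ p) / algebraMap A K π ∈ W)
    {f cK : K} (hcK : cK ≠ 0) {w₀ : A} (hw₀ : IsUnit w₀) {G₀ : K} (hG₀ : G₀ ≠ 0)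
    (hf₀ : f = cK * algebraMap A K w₀ * G₀ ^ p) {g₁ y₁ : K} (hy₁ : y₁ ∈ W)
    (hf₁ : f = cK * g₁ ^ p * (1 + algebraMap A K π ^ (p + 2) * y₁)) :
    ∃ (G : K) (r : A),
      f = cK * G ^ p * (1 + algebraMap A K π ^ (p + 2) * algebraMap A K r) := by
  have hπm := pi_mem_maximalIdeal hW
  have hι : ∀ a : A, IsUnit a → algebraMap A K a ≠ 0 := fun a ha => (unit_mem hW ha).2.2
  have root : ∀ r : A, (∃ x ∈ W, (algebraMap A K r - x ^ p) / algebraMap A K π ∈ W) →
      ∃ h s : A, r = h ^ p + π * s := by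
    rintro r ⟨x, hx, hx'⟩
    obtain ⟨h, hh⟩ := hB3 r x hx hx'
    obtain ⟨s, hs⟩ := hB2 _ hh
    exact ⟨h, s, by linear_combination hs⟩
  refine induction_core hπm hι hp hpπ ?_ ?_ ?_
  · have hfX : f = cK * G₀ ^ p * algebraMap A K w₀ := by rw [hf₀]; ring
    have r1 := rel_main hcK hG₀ hf₁ hfX
    obtain ⟨ha, ha'⟩ := t0_main hW hp.ne_zero hw₀ hy₁ r1
    obtain ⟨h, s, hhs⟩ := root w₀ ⟨_, ha, ha'⟩
    exact ⟨G₀, w₀, h, s, hG₀, hw₀, hf₀, hhs⟩
  · intro d G r hd hcase hG hf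
    have r1 := rel_main hcK hG hf₁ hf
    obtain ⟨m1, -, m3⟩ := main_step hW p hp hpπ hd hy₁ r1
    rcases hcase with hdp | hdp
    · exact hB2 r (m1 hdp)
    · exact hB2 r (m3 hdp)
  · intro G r hG hf
    have r1 := rel_main hcK hG hf₁ hf
    obtain ⟨-, m2, -⟩ := main_step hW p hp hpπ hp.pos hy₁ r1
    exact root r (m2 rfl)

end Smooth

/-! ### Normalisation and the theorems -/

section Main

variable {E : Type*} [Field E] [Algebra E K]

/-- Comparison of the normal form with a generic form on one branch. -/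
theorem branch_compare {π : A} {W : Subring K} (hW : IsBranch π W) {p : ℕ} (hp : 0 < p)
    {f cK u₁ : K} {e e' : A} (hu₁ : u₁ ∈ W) (hu₁' : u₁⁻¹ ∈ W) (hu₁0 : u₁ ≠ 0)
    (hee' : e * e' = 1) {m n : ℕ} {x t g y : K} (ht : t ≠ 0) (hg : g ≠ 0)
    (hcK : cK = algebraMap A K π ^ n * algebraMap A K e * t ^ p)
    (hfN : f = u₁ * algebraMap A K π ^ m * x ^ p)
    (hf : f = cK * g ^ p * (1 + y)) (hy : y / algebraMap A K π ^ (p + 2) ∈ W) :
    ∃ Z : K, Z ≠ 0 ∧ algebraMap A K π ^ m * x ^ p = algebraMap A K π ^ n * Z ^ p := by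
  have hy1 : y / algebraMap A K π ∈ W := hW.div_pow_mem hy
  have h1 := hW.one_add_ne_zero hy1
  have h1' := hW.one_add_inv_mem hy1
  have h1m : 1 + y ∈ W := W.add_mem W.one_mem (hW.mem_of_div_mem hy1)
  have he : IsUnit e := IsUnit.of_mul_eq_one _ hee'
  obtain ⟨heW, heW', he0⟩ := unit_mem hW he
  have hϖ0 := hW.pi_ne_zero
  have hx : x ≠ 0 := by
    rintro rfl
    have hf0 : f = 0 := by rw [hfN, zero_pow hp.ne', mul_zero]
    have hf1 : f ≠ 0 := by
      rw [hf, hcK]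
      exact mul_ne_zero (mul_ne_zero (mul_ne_zero (mul_ne_zero (pow_ne_zero _ hϖ0) he0)
        (pow_ne_zero _ ht)) (pow_ne_zero _ hg)) h1
    exact hf1 hf0
  refine exists_pow_eq hW hp hu₁ hu₁' hu₁0 (W.mul_mem heW h1m)
    (by rw [mul_inv]; exact W.mul_mem heW' h1') (mul_ne_zero he0 h1) hx (mul_ne_zero ht hg) ?_
  linear_combination -hfN + hf + g ^ p * (1 + y) * hcK

theorem zpow_mem {W : Subring K} {a : K} (ha : a ∈ W) (ha' : a⁻¹ ∈ W) (j : ℤ) : a ^ j ∈ W := by
  cases j with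
  | ofNat n => rw [Int.ofNat_eq_natCast, zpow_natCast]; exact W.pow_mem ha n
  | negSucc n => rw [zpow_negSucc, ← inv_pow]; exact W.pow_mem ha' _

set_option linter.unusedVariables false in
/-- **NZ.2 (DL), node.**  Closed-point lift with the prescribed constant at a node. -/
theorem depth_lift_node (p : ℕ) (hp : p.Prime) (hp3 : 3 ≤ p) (π η : A) (hη : IsUnit η)
    (hpπ : (p : A) = η * π ^ p) (W₁ W₂ : Subring K) (hW₁ : IsBranch π W₁)
    (hW₂ : IsBranch π W₂)
    (hB2 : ∀ r : A, algebraMap A K r / algebraMap A K π ∈ W₁ →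
      algebraMap A K r / algebraMap A K π ∈ W₂ → π ∣ r)
    (hB3₁ : ∀ (r : A) (x : K), x ∈ W₁ → (algebraMap A K r - x ^ p) / algebraMap A K π ∈ W₁ →
      ∃ h : A, algebraMap A K (r - h ^ p) / algebraMap A K π ∈ W₁)
    (hB3₂ : ∀ (r : A) (x : K), x ∈ W₂ → (algebraMap A K r - x ^ p) / algebraMap A K π ∈ W₂ →
      ∃ h : A, algebraMap A K (r - h ^ p) / algebraMap A K π ∈ W₂)
    (hB4 : ∀ h₁ h₂ : A, h₁ - h₂ ∈ IsLocalRing.maximalIdeal A →
      ∃ h : A, algebraMap A K (h - h₁) / algebraMap A K π ∈ W₁ ∧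
        algebraMap A K (h - h₂) / algebraMap A K π ∈ W₂)
    (Oc : Subring A) (hOc : IsConst (K := K) E π p Oc) (f : K) (c : E) (hc : c ≠ 0)
    (hNF : ∃ (w : A) (m : ℕ) (x : K), IsUnit w ∧
      f = algebraMap A K w * algebraMap A K π ^ m * x ^ p)
    (hmain : ∃ g y : K, g ≠ 0 ∧ f = algebraMap E K c * g ^ p * (1 + y) ∧
      y / algebraMap A K π ^ (p + 2) ∈ W₁)
    (hother : ∃ (c₂ : E) (g y : K), c₂ ≠ 0 ∧ g ≠ 0 ∧
      f = algebraMap E K c₂ * g ^ p * (1 + y) ∧ y / algebraMap A K π ^ (p + 2) ∈ W₂) :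
    ∃ (G : K) (r : A),
      f = algebraMap E K c * G ^ p * (1 + algebraMap A K π ^ (p + 2) * algebraMap A K r) := by
  obtain ⟨w, m, x, hw, hfN⟩ := hNF
  obtain ⟨g₁, y₁, hg₁, hf₁, hy₁⟩ := hmain
  obtain ⟨c₂, g₂, y₂, hc₂, hg₂, hf₂, hy₂⟩ := hother
  have hϖ0 := hW₁.pi_ne_zero
  have hϖp := pow_ne_zero (p + 2) hϖ0
  have hcK : algebraMap E K c ≠ 0 := by rwa [Ne, map_eq_zero]
  obtain ⟨n, e, e', t, he, he', hee', ht, hcE⟩ := exists_nat_const hp.pos hOc hϖ0 c hc
  obtain ⟨n₂, e₂, e₂', t₂, he₂, he₂', hee₂', ht₂, hcE₂⟩ :=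
    exists_nat_const hp.pos hOc hϖ0 c₂ hc₂
  obtain ⟨hwW₁, hwW₁', hw0⟩ := unit_mem hW₁ hw
  obtain ⟨hwW₂, hwW₂', -⟩ := unit_mem hW₂ hw
  obtain ⟨Z, hZ, hZe⟩ := branch_compare hW₁ hp.pos hwW₁ hwW₁' hw0 hee' ht hg₁ hcE hfN hf₁ hy₁
  obtain ⟨Z₂, hZ₂, hZe₂⟩ :=
    branch_compare hW₂ hp.pos hwW₂ hwW₂' hw0 hee₂' ht₂ hg₂ hcE₂ hfN hf₂ hy₂
  have heeK : algebraMap A K e * algebraMap A K e' = 1 := by rw [← map_mul, hee', map_one]
  have he'U : IsUnit e' := IsUnit.of_mul_eq_one e (by rw [mul_comm]; exact hee')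
  have htp := pow_ne_zero p ht
  have hZ₂p := pow_ne_zero p hZ₂
  have hf₀ : f = algebraMap E K c * algebraMap A K (w * e') * (Z / t) ^ p := by
    have e1 : algebraMap E K c * algebraMap A K (w * e') * (Z / t) ^ p
        = algebraMap A K w * (algebraMap A K π ^ n * Z ^ p)
          * (algebraMap A K e * algebraMap A K e') := by
      rw [hcE, map_mul, div_pow]
      field_simp
    rw [e1, heeK, mul_one, ← hZe, hfN]
    ring
  have hZZ : algebraMap A K π ^ n * Z ^ p = algebraMap A K π ^ n₂ * Z₂ ^ p := by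
    rw [← hZe, ← hZe₂]
  have hc₂g : algebraMap E K c * algebraMap A K (e₂ * e') * (Z * t₂ * g₂ / (Z₂ * t)) ^ p
      = algebraMap E K c₂ * g₂ ^ p := by
    have e1 : algebraMap E K c * algebraMap A K (e₂ * e') * (Z * t₂ * g₂ / (Z₂ * t)) ^ p
        = (algebraMap A K π ^ n * Z ^ p) * (algebraMap A K e * algebraMap A K e')
          * (algebraMap A K e₂ * t₂ ^ p * g₂ ^ p / Z₂ ^ p) := by
      rw [hcE, map_mul, div_pow, mul_pow, mul_pow, mul_pow]
      field_simp
    rw [e1, heeK, hZZ, hcE₂]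
    field_simp
  have hy₁e : y₁ = algebraMap A K π ^ (p + 2) * (y₁ / algebraMap A K π ^ (p + 2)) := by
    field_simp
  have hy₂e : y₂ = algebraMap A K π ^ (p + 2) * (y₂ / algebraMap A K π ^ (p + 2)) := by
    field_simp
  have hf₁' : f = algebraMap E K c * g₁ ^ p
      * (1 + algebraMap A K π ^ (p + 2) * (y₁ / algebraMap A K π ^ (p + 2))) := by
    rw [← hy₁e]
    exact hf₁
  have hf₂' : f = algebraMap E K c * algebraMap A K (e₂ * e')
      * (Z * t₂ * g₂ / (Z₂ * t)) ^ p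
      * (1 + algebraMap A K π ^ (p + 2) * (y₂ / algebraMap A K π ^ (p + 2))) := by
    rw [← hy₂e, hc₂g]
    exact hf₂
  exact node_core p hp hpπ hW₁ hW₂ hB2 hB3₁ hB3₂ hB4 hOc hcK (hw.mul he'U)
    (div_ne_zero hZ ht) hf₀ hy₁ hf₁' (Oc.mul_mem he₂ he') (Oc.mul_mem he₂' he)
    (by linear_combination (e * e') * hee₂' + hee') hy₂ hf₂'

set_option linter.unusedVariables false in
/-- **NZ.2 (DL), smooth point.** -/
theorem depth_lift_smooth (p : ℕ) (hp : p.Prime) (hp3 : 3 ≤ p) (π η : A) (hη : IsUnit η)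
    (hpπ : (p : A) = η * π ^ p) (W : Subring K) (hW : IsBranch π W)
    (hB2 : ∀ r : A, algebraMap A K r / algebraMap A K π ∈ W → π ∣ r)
    (hB3 : ∀ (r : A) (x : K), x ∈ W → (algebraMap A K r - x ^ p) / algebraMap A K π ∈ W →
      ∃ h : A, algebraMap A K (r - h ^ p) / algebraMap A K π ∈ W)
    (Oc : Subring A) (hOc : IsConst (K := K) E π p Oc) (f : K) (c : E) (hc : c ≠ 0)
    (hNF : ∃ (w : A) (m : ℕ) (x : K), IsUnit w ∧
      f = algebraMap A K w * algebraMap A K π ^ m * x ^ p)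
    (hmain : ∃ g y : K, g ≠ 0 ∧ f = algebraMap E K c * g ^ p * (1 + y) ∧
      y / algebraMap A K π ^ (p + 2) ∈ W) :
    ∃ (G : K) (r : A),
      f = algebraMap E K c * G ^ p * (1 + algebraMap A K π ^ (p + 2) * algebraMap A K r) := by
  obtain ⟨w, m, x, hw, hfN⟩ := hNF
  obtain ⟨g₁, y₁, hg₁, hf₁, hy₁⟩ := hmain
  have hϖ0 := hW.pi_ne_zero
  have hϖp := pow_ne_zero (p + 2) hϖ0
  have hcK : algebraMap E K c ≠ 0 := by rwa [Ne, map_eq_zero]
  obtain ⟨n, e, e', t, he, he', hee', ht, hcE⟩ := exists_nat_const hp.pos hOc hϖ0 c hc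
  obtain ⟨hwW, hwW', hw0⟩ := unit_mem hW hw
  obtain ⟨Z, hZ, hZe⟩ := branch_compare hW hp.pos hwW hwW' hw0 hee' ht hg₁ hcE hfN hf₁ hy₁
  have heeK : algebraMap A K e * algebraMap A K e' = 1 := by rw [← map_mul, hee', map_one]
  have he'U : IsUnit e' := IsUnit.of_mul_eq_one e (by rw [mul_comm]; exact hee')
  have htp := pow_ne_zero p ht
  have hf₀ : f = algebraMap E K c * algebraMap A K (w * e') * (Z / t) ^ p := by
    have e1 : algebraMap E K c * algebraMap A K (w * e') * (Z / t) ^ p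
        = algebraMap A K w * (algebraMap A K π ^ n * Z ^ p)
          * (algebraMap A K e * algebraMap A K e') := by
      rw [hcE, map_mul, div_pow]
      field_simp
    rw [e1, heeK, mul_one, ← hZe, hfN]
    ring
  have hy₁e : y₁ = algebraMap A K π ^ (p + 2) * (y₁ / algebraMap A K π ^ (p + 2)) := by
    field_simp
  have hf₁' : f = algebraMap E K c * g₁ ^ p
      * (1 + algebraMap A K π ^ (p + 2) * (y₁ / algebraMap A K π ^ (p + 2))) := by
    rw [← hy₁e]
    exact hf₁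
  exact smooth_core p hp hpπ hW hB2 hB3 hcK (hw.mul he'U) (div_ne_zero hZ ht) hf₀ hy₁ hf₁'

/-- **From the node normal form to the normal form**: the exponent of the second parameter is
divisible by `p`. -/
theorem exists_nf_of_nnf (p : ℕ) (hp : p.Prime) (π : A) (W₁ : Subring K)
    (hW₁ : IsBranch π W₁) (Oc : Subring A) (hOc : IsConst (K := K) E π p Oc) (t : A)
    (hB5 : ∀ (j : ℤ) (w : A) (x : K), IsUnit w → x ∈ W₁ → x⁻¹ ∈ W₁ →
      (algebraMap A K w * algebraMap A K t ^ j - x ^ p) / algebraMap A K π ∈ W₁ → (p : ℤ) ∣ j)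
    (ht : (algebraMap A K t)⁻¹ ∈ W₁) (f : K) (c : E) (hc : c ≠ 0)
    (hmain : ∃ g y : K, g ≠ 0 ∧ f = algebraMap E K c * g ^ p * (1 + y) ∧
      y / algebraMap A K π ^ (p + 2) ∈ W₁)
    (hNNF : ∃ (w : A) (m : ℕ) (j : ℤ) (x : K), IsUnit w ∧
      f = algebraMap A K w * algebraMap A K π ^ m * algebraMap A K t ^ j * x ^ p) :
    ∃ (w : A) (m : ℕ) (x : K), IsUnit w ∧
      f = algebraMap A K w * algebraMap A K π ^ m * x ^ p := by
  obtain ⟨g, y, hg, hf, hy⟩ := hmain
  obtain ⟨w, m, j, x, hw, hfN⟩ := hNNF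
  have hϖ0 := hW₁.pi_ne_zero
  have hcK : algebraMap E K c ≠ 0 := by rwa [Ne, map_eq_zero]
  obtain ⟨n, e, e', t₀, he, he', hee', ht₀, hcE⟩ := exists_nat_const hp.pos hOc hϖ0 c hc
  have hy1 : y / algebraMap A K π ∈ W₁ := hW₁.div_pow_mem hy
  have h1 := hW₁.one_add_ne_zero hy1
  have h1' := hW₁.one_add_inv_mem hy1
  have h1m : 1 + y ∈ W₁ := W₁.add_mem W₁.one_mem (hW₁.mem_of_div_mem hy1)
  have hf0 : f ≠ 0 := by
    rw [hf]
    exact mul_ne_zero (mul_ne_zero hcK (pow_ne_zero _ hg)) h1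
  obtain ⟨hwW, hwW', hw0⟩ := unit_mem hW₁ hw
  have hτj0 : algebraMap A K t ^ j ≠ 0 := by
    intro h0
    apply hf0
    rw [hfN, h0]
    ring
  have hτj : algebraMap A K t ^ j ∈ W₁ := zpow_mem (hW₁.map_mem t) ht j
  have hτj' : (algebraMap A K t ^ j)⁻¹ ∈ W₁ := by
    rw [← inv_zpow]
    exact zpow_mem ht (by rw [inv_inv]; exact hW₁.map_mem t) j
  have hfN' : f = (algebraMap A K w * algebraMap A K t ^ j) * algebraMap A K π ^ m * x ^ p := by
    rw [hfN]
    ring
  obtain ⟨Z, hZ, hZe⟩ := branch_compare hW₁ hp.pos (W₁.mul_mem hwW hτj)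
    (by rw [mul_inv]; exact W₁.mul_mem hwW' hτj') (mul_ne_zero hw0 hτj0) hee' ht₀ hg hcE
    hfN' hf hy
  have heeK : algebraMap A K e * algebraMap A K e' = 1 := by rw [← map_mul, hee', map_one]
  have he'U : IsUnit e' := IsUnit.of_mul_eq_one e (by rw [mul_comm]; exact hee')
  obtain ⟨he'W, he'W', he'0⟩ := unit_mem hW₁ he'U
  have hZp := pow_ne_zero p hZ
  have hϖn := pow_ne_zero n hϖ0
  -- the key relation
  have hrel : algebraMap A K (w * e') * algebraMap A K t ^ j = (t₀ * g / Z) ^ p * (1 + y) := by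
    have e1 : algebraMap A K π ^ n * (algebraMap A K w * algebraMap A K t ^ j * Z ^ p)
        = algebraMap A K π ^ n * (algebraMap A K e * (t₀ * g) ^ p * (1 + y)) := by
      have e2 : algebraMap A K π ^ n * (algebraMap A K w * algebraMap A K t ^ j * Z ^ p)
          = f := by
        rw [hfN', mul_assoc _ (algebraMap A K π ^ m), hZe]
        ring
      rw [e2, hf, hcE]
      ring
    have e3 := mul_left_cancel₀ hϖn e1
    have e4 : algebraMap A K (w * e') * algebraMap A K t ^ j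
        = algebraMap A K e' * (algebraMap A K w * algebraMap A K t ^ j * Z ^ p) / Z ^ p := by
      rw [map_mul]
      field_simp
    rw [e4, e3, div_pow]
    have e5 : algebraMap A K e' * (algebraMap A K e * (t₀ * g) ^ p * (1 + y)) / Z ^ p
        = (algebraMap A K e * algebraMap A K e') * ((t₀ * g) ^ p / Z ^ p * (1 + y)) := by
      ring
    rw [e5, heeK, one_mul]
  have hx' : (t₀ * g / Z) ^ p
      = algebraMap A K (w * e') * algebraMap A K t ^ j * (1 + y)⁻¹ := by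
    rw [hrel, mul_assoc, mul_inv_cancel₀ h1, mul_one]
  have hx'W : t₀ * g / Z ∈ W₁ := by
    refine hW₁.mem_of_pow_mem hp.ne_zero ?_
    rw [hx']
    exact W₁.mul_mem (W₁.mul_mem (hW₁.map_mem _) hτj) h1'
  have hx'W' : (t₀ * g / Z)⁻¹ ∈ W₁ := by
    refine hW₁.mem_of_pow_mem hp.ne_zero ?_
    rw [inv_pow, hx', mul_inv, mul_inv, inv_inv, map_mul, mul_inv]
    exact W₁.mul_mem (W₁.mul_mem (W₁.mul_mem hwW' he'W') hτj') h1m
  have hdiv : (algebraMap A K (w * e') * algebraMap A K t ^ j - (t₀ * g / Z) ^ p)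
      / algebraMap A K π ∈ W₁ := by
    have e6 : (algebraMap A K (w * e') * algebraMap A K t ^ j - (t₀ * g / Z) ^ p)
        / algebraMap A K π = (t₀ * g / Z) ^ p * (y / algebraMap A K π) := by
      rw [hrel]
      field_simp
      ring
    rw [e6]
    exact W₁.mul_mem (W₁.pow_mem hx'W p) hy1
  obtain ⟨k, rfl⟩ := hB5 j (w * e') (t₀ * g / Z) (hw.mul he'U) hx'W hx'W' hdiv
  refine ⟨w, m, algebraMap A K t ^ k * x, hw, ?_⟩
  rw [hfN, zpow_mul', zpow_natCast]
  ring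

end Main

end Fermat.Agent.S44.L.NZ.DepthLiftAlt
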