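import Mathlib
import Fermat.Agent.S34.Sat
import Fermat.Agent.S34.HauptU.LevelMAux
import Fermat.Agent.S34.Nodal.InfGlue
import Fermat.Agent.S34.Modular.ChartZero
import Fermat.Agent.S44.L.R3Chart
import Fermat.Agent.S44.L.R3Base

/-!
# PROGRAM MR (S44), strand L, row (NZ.1) GEN: the exit of the ping-pong in Gauss form

The ping-pong `R3Chart.r3_chart` ends in the chart vocabulary (`Depth.DepthC` at the two Gauss
primes `p_∞ = ker redInf`, `p_0 = ker redZero` of the chart ring).  The closed-point rows consume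
it in the vocabulary of the Gauss valuation rings of the two `q`-expansion embeddings `σ` and
`σ ∘ w`:

  `f = c * g ^ ℓ * (1 + y)`, `g ≠ 0`, `τ y = 𝔲 ^ d * v` with `v` Gauss-integral,

`𝔲` the uniformiser of the base read as a constant series.

* `gauss_of_depthC` : chart depth at the kernel of a Gauss reduction `redHom σ` gives the
  Gauss form for `σ` (an element of the chart ring outside the kernel is a Gauss unit).
* `gauss_of_depthC_inf`, `gauss_of_depthC_zero` : the same at `ker redInf` (for `σ`) and at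
  `ker redZero` (for `σ ∘ w`).
* `gen_chart` : **the generic depth, chart level.**  In the variable block of the two-primes
  package, with the normality of the level-`M` special fibre and the Frobenius stability `hfr`
  as hypotheses: the two norm equations and depth `≥ 1` at one Gauss prime give, for every `d`,
  the Gauss form with the constant of `N_α f` for `σ` and with the constant of `N_β f` for
  `σ ∘ w`.
* `gen_jE` : **the same at the objects of `Sat.sat_j`** (level `(N', p)`, coordinate `j`,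
  `O = A ∩ E` for ANY intermediate field `E` with `A ∩ E` a discrete valuation ring - ramified
  bases allowed; `hfr` and the level-`N'` chart facts `HauptU.LevelMAux.ChartFacts` stay
  hypotheses).
-/

set_option autoImplicit false
set_option linter.unusedSectionVars false
set_option linter.unusedVariables false
set_option linter.style.haveILetI false
set_option synthInstance.maxHeartbeats 400000

open ModularCurve Polynomial

noncomputable section

namespace Fermat.Agent.S44.L.NZ.GenExit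

open Fermat.Agent.S18.K1Defs Fermat.Agent.S30 Fermat.Agent.S30.E2Deg
open Fermat.Agent.S34 Fermat.Agent.S34.Sat
open Fermat.Agent.S34.TwoPrimesRank Fermat.Agent.S34.HauptU.Plug Fermat.Agent.S34.TwoPrimesGauss
open Fermat.Agent.S44.L Fermat.Agent.S44.L.Depth

/-! ### One chart, one `q`-expansion embedding -/

section Chart

variable {O E : Type*} [CommRing O] [IsDomain O] [IsDiscreteValuationRing O] [Field E]
  [Algebra O E] [FaithfulSMul O E] {L : Type*} [Field L] [Algebra O L]
  (σ : L →+* LaurentSeries E)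
  (hσO : ∀ r : O, σ (algebraMap O L r) = HahnSeries.C (algebraMap O E r))
  (ϖ : O) (hϖ : Irreducible ϖ) (hσfrac : ∀ x : L, σ x ∈ GaussDVR.fracField O E)

/-- **From chart depth to the Gauss form.**  `y ∈ ϖ ^ d C_P`, `P` the kernel of the Gauss
reduction of the chart attached to `σ`, gives `σ y ∈ 𝔲 ^ d V`. -/
theorem gauss_of_depthC (u : L) (U : LaurentSeries O) (hσu : σ u = GaussDVR.iota O E U)
    {K : Type*} [Field K] [Algebra K L] {l d : ℕ} {c : K} {f : L}
    (h : DepthC l (piC u ϖ) (RingHom.ker (redHom σ hσO ϖ hϖ hσfrac u U hσu)) d c f) :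
    ∃ g y : L, g ≠ 0 ∧ f = algebraMap K L c * g ^ l * (1 + y) ∧
      ∃ v : GaussDVR.V O E, σ y =
        ((GaussDVR.unif E ϖ : GaussDVR.V O E) : LaurentSeries E) ^ d * (v : LaurentSeries E) := by
  obtain ⟨g, y, hg, hfy, t, e, ht, hte⟩ := h
  refine ⟨g, y, hg, hfy, ?_⟩
  have ht' : GaussDVR.red O E (toV σ hσO ϖ hϖ hσfrac u U hσu t) ≠ 0 :=
    fun h0 => ht (RingHom.mem_ker.mpr h0)
  have hinv : (σ (t : L))⁻¹ ∈ GaussDVR.V O E :=
    GaussDVR.inv_mem O E (toV σ hσO ϖ hϖ hσfrac u U hσu t) ht'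
  have hσt : σ (t : L) ≠ 0 := by
    intro h0
    apply ht'
    have h1 : toV σ hσO ϖ hϖ hσfrac u U hσu t = 0 := Subtype.ext h0
    rw [h1, map_zero]
  have h3 : (t : L) * y = (algebraMap O L ϖ) ^ d * (e : L) := by
    have h4 : algebraMap (Chart O u) L (piC u ϖ ^ d * e) = (algebraMap O L ϖ) ^ d * (e : L) := by
      rw [map_mul, map_pow]
      rfl
    rw [← h4, ← hte]
    rfl
  have h2 : σ (t : L) * σ y =
      HahnSeries.C (algebraMap O E ϖ) ^ d * σ (e : L) := by
    rw [← hσO, ← map_pow, ← map_mul, ← map_mul, h3]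
  refine ⟨⟨(σ (t : L))⁻¹, hinv⟩ * toV σ hσO ϖ hϖ hσfrac u U hσu e, ?_⟩
  rw [GaussDVR.coe_unif, Subring.coe_mul, coe_toV]
  calc σ y = (σ (t : L))⁻¹ * (σ (t : L) * σ y) := by
        rw [← mul_assoc, inv_mul_cancel₀ hσt, one_mul]
    _ = (σ (t : L))⁻¹ * (HahnSeries.C (algebraMap O E ϖ) ^ d * σ (e : L)) := by rw [h2]
    _ = HahnSeries.C (algebraMap O E ϖ) ^ d * ((σ (t : L))⁻¹ * σ (e : L)) := by ring

end Chart

/-! ### The two Gauss primes -/

section Main

variable {O E : Type*} [CommRing O] [IsDomain O] [IsDiscreteValuationRing O] [Field E]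
  [Algebra O E] [FaithfulSMul O E]
  {L' L : Type*} [Field L'] [Field L] [Algebra O L'] [Algebra O L]
  (ϖ : O) (hϖ : Irreducible ϖ)
  (α : L' →+* L) (hαO : ∀ r : O, α (algebraMap O L' r) = algebraMap O L r)
  (σ : L →+* LaurentSeries E)
  (hσO : ∀ r : O, σ (algebraMap O L r) = HahnSeries.C (algebraMap O E r))
  (hσfrac : ∀ x : L, σ x ∈ GaussDVR.fracField O E)
  (u' : L') (U : LaurentSeries O) (hσu : σ (α u') = GaussDVR.iota O E U)
  (w : L ≃+* L) (hwO : ∀ r : O, w (algebraMap O L r) = algebraMap O L r)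
  (ℓ : ℕ) [NeZero ℓ]
  (hwα : ∀ x : L', σ (w (α x)) = qExpand E ℓ (σ (α x)))

local notation "rI" => redInf ϖ hϖ α σ hσO hσfrac u' U hσu
local notation "rZ" => redZero ϖ hϖ α σ hσO hσfrac u' U hσu w hwO ℓ hwα
local notation "rM" => redM ϖ hϖ α hαO σ hσO hσfrac u' U hσu
local notation "ι" => incl α hαO u'

/-- Depth at `p_∞ = ker redInf` in Gauss form, for `σ`. -/
theorem gauss_of_depthC_inf {K : Type*} [Field K] [Algebra K L] {l d : ℕ} {c : K} {f : L}
    (h : DepthC l (piC (α u') ϖ) (RingHom.ker rI) d c f) :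
    ∃ g y : L, g ≠ 0 ∧ f = algebraMap K L c * g ^ l * (1 + y) ∧
      ∃ v : GaussDVR.V O E, σ y =
        ((GaussDVR.unif E ϖ : GaussDVR.V O E) : LaurentSeries E) ^ d * (v : LaurentSeries E) :=
  gauss_of_depthC σ hσO ϖ hϖ hσfrac (α u') U hσu h

/-- Depth at `p_0 = ker redZero` in Gauss form, for `σ ∘ w`. -/
theorem gauss_of_depthC_zero {K : Type*} [Field K] [Algebra K L] {l d : ℕ} {c : K} {f : L}
    (h : DepthC l (piC (α u') ϖ) (RingHom.ker rZ) d c f) :
    ∃ g y : L, g ≠ 0 ∧ f = algebraMap K L c * g ^ l * (1 + y) ∧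
      ∃ v : GaussDVR.V O E, (σ.comp (w : L →+* L)) y =
        ((GaussDVR.unif E ϖ : GaussDVR.V O E) : LaurentSeries E) ^ d * (v : LaurentSeries E) :=
  gauss_of_depthC (σ.comp (w : L →+* L)) (sigmaW_O σ hσO w hwO) ϖ hϖ (fun x => hσfrac (w x))
    (α u') (qExpand O ℓ U) (sigmaW_u α σ u' U hσu w ℓ hwα) h

end Main

/-! ### The generic depth, chart level -/

section Package

variable {O E : Type*} [CommRing O] [IsDomain O] [IsDiscreteValuationRing O] [Field E]
  [Algebra O E] [FaithfulSMul O E]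
  {L' L : Type*} [Field L'] [Field L] [Algebra O L'] [Algebra O L]
  (ϖ : O) (hϖ : Irreducible ϖ)
  (α : L' →+* L) (hαO : ∀ r : O, α (algebraMap O L' r) = algebraMap O L r)
  (σ : L →+* LaurentSeries E)
  (hσO : ∀ r : O, σ (algebraMap O L r) = HahnSeries.C (algebraMap O E r))
  (hσfrac : ∀ x : L, σ x ∈ GaussDVR.fracField O E)
  (u' : L') (U : LaurentSeries O) (hσu : σ (α u') = GaussDVR.iota O E U)
  (w : L ≃+* L) (hwO : ∀ r : O, w (algebraMap O L r) = algebraMap O L r)
  (ℓ : ℕ) [NeZero ℓ]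
  (hwα : ∀ x : L', σ (w (α x)) = qExpand E ℓ (σ (α x)))
  (hww : ∀ z : L, w (w z) = z)
  (hprime : Prime (piC u' ϖ))
  (hcop : IsCoprime (GaussDVR.rho O U).order (ℓ : ℤ)) (hord : (GaussDVR.rho O U).order ≠ 0)
  (hℓ : 2 ≤ ℓ)
  (hfrob : qExpand (IsLocalRing.ResidueField O) ℓ (GaussDVR.rho O U) = GaussDVR.rho O U ^ ℓ)
  (hwu : IsIntegral (Algebra.adjoin O {α u'}) (w (α u')))
  (hrank : ∀ v : Option (Fin 1 ⊕ Fin ℓ) → Chart O (α u'),
    ∃ c : Option (Fin 1 ⊕ Fin ℓ) → Chart O u', c ≠ 0 ∧ ∑ i, incl α hαO u' (c i) * v i = 0)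

local notation "rI" => redInf ϖ hϖ α σ hσO hσfrac u' U hσu
local notation "rZ" => redZero ϖ hϖ α σ hσO hσfrac u' U hσu w hwO ℓ hwα
local notation "rM" => redM ϖ hϖ α hαO σ hσO hσfrac u' U hσu
local notation "ι" => incl α hαO u'

include hϖ hαO hσO hσfrac hσu hwO hwα hww hprime hcop hord hℓ hfrob hwu hrank in
/-- **(NZ.1) GEN, chart level.**  The two-primes package, the normality of the level-`M`
special fibre, the Frobenius stability `hfr` of the reduced field, the two norm equations and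
depth `≥ 1` at one Gauss prime: for every `d` the function is `ca * g ^ ℓ * (1 + y)` with
`σ y ∈ 𝔲 ^ d V` and `cb * g' ^ ℓ * (1 + y')` with `σ (w y') ∈ 𝔲 ^ d V`. -/
theorem gen_chart {K : Type*} [Field K] [Algebra K L'] [Algebra K L]
    (hKα : ∀ c : K, α (algebraMap K L' c) = algebraMap K L c)
    (hKw : ∀ c : K, w (algebraMap K L c) = algebraMap K L c)
    [IsNoetherianRing (Chart O u')] [IsFractionRing (Chart O u') L']
    [IsFractionRing (Chart O (α u')) L]
    (hfinα : letI := α.toAlgebra; FiniteDimensional L' L)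
    (hsepα : letI := α.toAlgebra; Algebra.IsSeparable L' L)
    (hnα : letI := α.toAlgebra; Module.finrank L' L = ℓ + 1)
    (hfinβ : letI := ((w : L →+* L).comp α).toAlgebra; FiniteDimensional L' L)
    (hsepβ : letI := ((w : L →+* L).comp α).toAlgebra; Algebra.IsSeparable L' L)
    (hnβ : letI := ((w : L →+* L).comp α).toAlgebra; Module.finrank L' L = ℓ + 1)
    (hnormal : IsIntegrallyClosed (Chart O u' ⧸ Ideal.span {piC u' ϖ}))
    (hℓp : ℓ.Prime) (hℓϖ : ϖ ∣ (ℓ : O))
    (hfr : ∀ a : Chart O u', ∃ s r : Chart O u', rM s ≠ 0 ∧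
      qExpand (IsLocalRing.ResidueField O) ℓ (rM s) * rM a ^ ℓ =
        qExpand (IsLocalRing.ResidueField O) ℓ (rM r))
    (f : L) (hf : f ≠ 0) {ca cb : K} {ka kb : L'}
    (hNa : (letI := α.toAlgebra; Algebra.norm L' f) = algebraMap K L' ca * ka ^ ℓ)
    (hNb : (letI := ((w : L →+* L).comp α).toAlgebra; Algebra.norm L' f) =
      algebraMap K L' cb * kb ^ ℓ)
    (h1 : DepthGE K ℓ (piC (α u') ϖ) (RingHom.ker rI) 1 f ∨
      DepthGE K ℓ (piC (α u') ϖ) (RingHom.ker rZ) 1 f) :
    ∀ d : ℕ,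
      (∃ g y : L, g ≠ 0 ∧ f = algebraMap K L ca * g ^ ℓ * (1 + y) ∧
        ∃ v : GaussDVR.V O E, σ y =
          ((GaussDVR.unif E ϖ : GaussDVR.V O E) : LaurentSeries E) ^ d * (v : LaurentSeries E)) ∧
      (∃ g y : L, g ≠ 0 ∧ f = algebraMap K L cb * g ^ ℓ * (1 + y) ∧
        ∃ v : GaussDVR.V O E, (σ.comp (w : L →+* L)) y =
          ((GaussDVR.unif E ϖ : GaussDVR.V O E) : LaurentSeries E) ^ d *
            (v : LaurentSeries E)) := by
  have htr : ∀ q : (IsLocalRing.ResidueField O)[X], q ≠ 0 →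
      q.eval₂ HahnSeries.C (GaussDVR.rho O U) ≠ 0 :=
    fun q hq => Fermat.Agent.S34.ExpandIndep.eval₂_ne_zero_of_order_ne_zero _ hord q hq
  have key := R3Chart.r3_chart ϖ hϖ α hαO σ hσO hσfrac u' U hσu w hwO ℓ hwα hKα hKw
    hfinα hsepα hnα hfinβ hsepβ hnβ hww hprime
    (dvd_of_redM_eq_zero ϖ hϖ α hαO σ hσO hσfrac u' U hσu hprime htr)
    (dvd_of_redInf_redZero ϖ hϖ α hαO σ hσO hσfrac u' U hσu w hwO ℓ hwα hww hprime hcop hord
      hℓ hfrob hwu hrank)
    (fun Q hQ hπQ hQc =>
      haveI := hQ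
      eq_ker_or_eq_ker ϖ hϖ α hαO σ hσO hσfrac u' U hσu w hwO ℓ hwα hww hprime hcop hord hℓ
        hfrob hwu hrank Q hπQ hQc)
    (exists_redInf_sub_eq_zero ϖ hϖ α hαO σ hσO hσfrac u' U hσu w hwO ℓ hwα hww hprime hcop
      hord hℓ hfrob hwu hrank hnormal)
    (exists_sep_zero ϖ hϖ α hαO σ hσO hσfrac u' U hσu w hwO ℓ hwα hww hprime hcop hord hℓ
      hfrob hwu hrank)
    (exists_sep_inf ϖ hϖ α hαO σ hσO hσfrac u' U hσu w hwO ℓ hwα hww hprime hcop hord hℓ
      hfrob hwu hrank)
    (fun c hc => Fermat.Agent.S34.Modular.ChartZero.isIntegral_swap w hwO (α u') hwu hc)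
    hℓp hℓϖ hfr f hf hNa hNb h1
  intro d
  obtain ⟨hI, hZ⟩ := key d
  exact ⟨gauss_of_depthC_inf ϖ hϖ α σ hσO hσfrac u' U hσu hI,
    gauss_of_depthC_zero ϖ hϖ α σ hσO hσfrac u' U hσu w hwO ℓ hwα hZ⟩

end Package

/-! ### `E`-level, the objects of `Sat.sat_j` -/

local notation "Qb" => AlgebraicClosure ℚ

/-- `π` divides the residue characteristic in `A ∩ E`. -/
theorem unif_dvd_natCast (A : ValuationSubring Qb) (E : IntermediateField ℚ Qb)
    [IsDiscreteValuationRing (OE A E)] {p : ℕ} (hA : A.LiesOverPrime p)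
    (π : OE A E) (hπ : Irreducible π) : π ∣ ((p : ℕ) : OE A E) := by
  have h1 : ((p : ℕ) : E) ∈ (OE A E).nonunits := GaussDescent.natCast_mem_nonunits_OE A E hA
  rw [ValuationSubring.mem_nonunits_iff_exists_mem_maximalIdeal] at h1
  obtain ⟨hmem, hmax⟩ := h1
  have h2 : (⟨((p : ℕ) : E), hmem⟩ : OE A E) = ((p : ℕ) : OE A E) := Subtype.ext (by simp)
  rw [h2, (IsDiscreteValuationRing.irreducible_iff_uniformizer π).1 hπ,
    Ideal.mem_span_singleton] at hmax
  exact hmax

set_option maxHeartbeats 1600000 in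
/-- **(NZ.1) GEN at the objects of `Sat.sat_j`**: level `(N', p)`, coordinate `j`, base
`O = A ∩ E` for any intermediate field `E` with `A ∩ E` a discrete valuation ring (ramified
bases allowed).  Hypotheses: the level-`N'` chart facts `HauptU.LevelMAux.ChartFacts` (`π`
prime in the chart, special fibre normal), the Frobenius stability `hfr` (literally the `hfr`
binder of
`R3Chart.r3_chart`), the two norm equations (conclusion of `R3Norm.exists_norm_E`) and depth
`≥ 1` at `p_∞` (conclusion of `R3Base.exists_depthGE_one`).  Conclusion: for every `d` the Gauss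
form with the constant `ca` for `σ` and with the constant `cb` for `σ ∘ w`. -/
theorem gen_jE (N' p : ℕ) [NeZero N'] [NeZero p] (hp : p.Prime) (hpN : ¬ p ∣ N')
    (A : ValuationSubring Qb) (hA : A.LiesOverPrime p) (E : IntermediateField ℚ Qb)
    [IsDiscreteValuationRing (OE A E)]
    [Algebra (OE A E) (LE N' E)] [IsScalarTower (OE A E) E (LE N' E)]
    [Algebra (OE A E) (LE (N' * p) E)] [IsScalarTower (OE A E) E (LE (N' * p) E)]
    (π : OE A E) (hπ : Irreducible π)
    (hfacts : HauptU.LevelMAux.ChartFacts E π (jE N' E) (jE N' E)⁻¹)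
    (hfr : ∀ a : Chart (OE A E) (jE N' E), ∃ s r : Chart (OE A E) (jE N' E),
      redM π hπ (alphaHom N' p E) (alphaHom_algebraMap N' p E) (sigmaHom (N' * p) E)
        (sigmaHom_algebraMap (N' * p) E) (sigmaHom_mem_fracField (N' * p) E A) (jE N' E)
        (jqModC (OE A E)) (hσu_j N' p E) s ≠ 0 ∧
      qExpand (IsLocalRing.ResidueField (OE A E)) p
          (redM π hπ (alphaHom N' p E) (alphaHom_algebraMap N' p E) (sigmaHom (N' * p) E)
            (sigmaHom_algebraMap (N' * p) E) (sigmaHom_mem_fracField (N' * p) E A) (jE N' E)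
            (jqModC (OE A E)) (hσu_j N' p E) s) *
        redM π hπ (alphaHom N' p E) (alphaHom_algebraMap N' p E) (sigmaHom (N' * p) E)
            (sigmaHom_algebraMap (N' * p) E) (sigmaHom_mem_fracField (N' * p) E A) (jE N' E)
            (jqModC (OE A E)) (hσu_j N' p E) a ^ p =
        qExpand (IsLocalRing.ResidueField (OE A E)) p
          (redM π hπ (alphaHom N' p E) (alphaHom_algebraMap N' p E) (sigmaHom (N' * p) E)
            (sigmaHom_algebraMap (N' * p) E) (sigmaHom_mem_fracField (N' * p) E A) (jE N' E)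
            (jqModC (OE A E)) (hσu_j N' p E) r))
    (f : LE (N' * p) E) (hf : f ≠ 0) (ca cb : E) (ka kb : LE N' E)
    (hNa : (letI := (alphaHom N' p E).toAlgebra; Algebra.norm (LE N' E) f)
      = algebraMap E (LE N' E) ca * ka ^ p)
    (hNb : (letI := ((wHom N' p E hp hpN : LE (N' * p) E →+* LE (N' * p) E).comp
        (alphaHom N' p E)).toAlgebra; Algebra.norm (LE N' E) f)
      = algebraMap E (LE N' E) cb * kb ^ p)
    (h1 : DepthGE E p (piC (alphaHom N' p E (jE N' E)) π)
      (RingHom.ker (redInf π hπ (alphaHom N' p E) (sigmaHom (N' * p) E)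
        (sigmaHom_algebraMap (N' * p) E) (sigmaHom_mem_fracField (N' * p) E A) (jE N' E)
        (jqModC (OE A E)) (hσu_j N' p E)) :
        Ideal (Chart (OE A E) (alphaHom N' p E (jE N' E)))) 1 f) :
    ∀ d : ℕ,
      (∃ g y : LE (N' * p) E, g ≠ 0 ∧
        f = algebraMap E (LE (N' * p) E) ca * g ^ p * (1 + y) ∧
        ∃ v : GaussDVR.V (OE A E) E, sigmaHom (N' * p) E y =
          ((GaussDVR.unif E π : GaussDVR.V (OE A E) E) : LaurentSeries E) ^ d *
            (v : LaurentSeries E)) ∧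
      (∃ g y : LE (N' * p) E, g ≠ 0 ∧
        f = algebraMap E (LE (N' * p) E) cb * g ^ p * (1 + y) ∧
        ∃ v : GaussDVR.V (OE A E) E,
          ((sigmaHom (N' * p) E).comp
            (wHom N' p E hp hpN : LE (N' * p) E →+* LE (N' * p) E)) y =
          ((GaussDVR.unif E π : GaussDVR.V (OE A E) E) : LaurentSeries E) ^ d *
            (v : LaurentSeries E)) := by
  haveI := charP_residue_OE' A E hp hA
  have hαj : alphaHom N' p E (jE N' E) = jE (N' * p) E := Subtype.ext rfl
  haveI : FiniteDimensional (IntermediateField.adjoin E {alphaHom N' p E (jE N' E)})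
      (LE (N' * p) E) := by
    rw [hαj]
    exact E2Deg.finite_LE (N' * p) E
  haveI : IsFractionRing (Chart (OE A E) (jE N' E)) (LE N' E) :=
    isFractionRing_chart_of_finite (O := OE A E) (E := E) (jE N' E)
  haveI : IsFractionRing (Chart (OE A E) (alphaHom N' p E (jE N' E))) (LE (N' * p) E) :=
    isFractionRing_chart_of_finite (O := OE A E) (E := E) (alphaHom N' p E (jE N' E))
  haveI : IsNoetherianRing (Chart (OE A E) (jE N' E)) :=
    Fermat.Agent.S34.Nodal.InfGlue.isNoetherianRing_chart (E := E) (jE N' E)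
      (E2Deg.transcendental_jE N' E)
  haveI : CharZero (LE N' E) :=
    charZero_of_injective_algebraMap (algebraMap E (LE N' E)).injective
  have hfinα : letI := (alphaHom N' p E).toAlgebra
      FiniteDimensional (LE N' E) (LE (N' * p) E) := finite_alpha N' p E hp hpN
  have hsepα : letI := (alphaHom N' p E).toAlgebra
      Algebra.IsSeparable (LE N' E) (LE (N' * p) E) := by
    letI := (alphaHom N' p E).toAlgebra
    haveI : Module.Finite (LE N' E) (LE (N' * p) E) := finite_alpha N' p E hp hpN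
    exact Algebra.IsAlgebraic.isSeparable_of_perfectField
  have hnβ := R3Norm.finrank_beta_E N' p hp hpN E
  have hfinβ : letI := ((wHom N' p E hp hpN : LE (N' * p) E →+* LE (N' * p) E).comp
      (alphaHom N' p E)).toAlgebra
      FiniteDimensional (LE N' E) (LE (N' * p) E) := by
    letI := ((wHom N' p E hp hpN : LE (N' * p) E →+* LE (N' * p) E).comp
      (alphaHom N' p E)).toAlgebra
    apply Module.finite_of_finrank_pos
    rw [hnβ]
    omega
  have hsepβ : letI := ((wHom N' p E hp hpN : LE (N' * p) E →+* LE (N' * p) E).comp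
      (alphaHom N' p E)).toAlgebra
      Algebra.IsSeparable (LE N' E) (LE (N' * p) E) := by
    letI := ((wHom N' p E hp hpN : LE (N' * p) E →+* LE (N' * p) E).comp
      (alphaHom N' p E)).toAlgebra
    haveI : Module.Finite (LE N' E) (LE (N' * p) E) := hfinβ
    exact Algebra.IsAlgebraic.isSeparable_of_perfectField
  exact gen_chart π hπ (alphaHom N' p E) (alphaHom_algebraMap N' p E)
    (sigmaHom (N' * p) E) (sigmaHom_algebraMap (N' * p) E) (sigmaHom_mem_fracField (N' * p) E A)
    (jE N' E) (jqModC (OE A E)) (hσu_j N' p E) (wHom N' p E hp hpN)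
    (wHom_algebraMap N' p E hp hpN) p (sigmaHom_wHom_alpha N' p E hp hpN)
    (wHom_wHom N' p E hp hpN) hfacts.prime_zero (hcop_j _ p) (hord_j _) hp.two_le
    (hfrob_j _ p hp)
    (hwu_j N' p E hp hpN) (hrank_j N' p E hp hpN) (K := E)
    (fun c => (heckeAlphaBar E N' p).commutes c)
    (fun c => (wE N' p E hp hpN).commutes c)
    hfinα hsepα (finrank_alpha N' p E hp hpN) hfinβ hsepβ hnβ hfacts.normal_zero hp
    (unif_dvd_natCast A E hA π hπ) hfr f hf hNa hNb (Or.inl h1)

end Fermat.Agent.S44.L.NZ.GenExit
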