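import Mathlib
import Fermat.Agent.S44.L.NZ.HfrTransfer

/-!
# S44 / strand L (NZ.1): `hfr` over a ramified base from a chart base change with residue
degree one (abstract core of `NZ/HfrRam`)

Setting of `HfrTransfer`: `ι : C₀ → C₁` compatible with the reductions `r₀`, `r₁`
(`r₁ ∘ ι = coeffMap φ ∘ r₀`).  If moreover

* `hspan` : every element of `C₁` is a finite sum `∑ γ (b k) * ι (c k)` with constants
  `b k ∈ O₁` (`γ : O₁ → C₁` the structure map) and `c k ∈ C₀` (the chart base change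
  `Chart O₁ = ⊕ b_k • lvl (Chart O₀)` of `S19/Cech/BCChart`), and
* `hγ` : the reduction of every constant of `O₁` is the image of a reduction from `C₀`
  (residue degree one),

then every reduction `r₁ a` is the image of a reduction from `C₀` (`exists_red_eq_of_span`, the
strong form `t = 1` of `GaussBC.exists_red_eq`), and the Frobenius stability `hfr` transfers
from `r₀` to `r₁` (`hfr_of_span`).
-/

set_option autoImplicit false

namespace Fermat.Agent.S44.L.NZ.HfrSpan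

open ModularCurve

/-- Strong form of (T): with residue degree one, every reduction over the big base is the
image of a reduction over the small base. -/
theorem exists_red_eq_of_span {O₁ C₀ C₁ κ₀ κ₁ : Type*} [CommRing O₁] [CommRing C₀]
    [CommRing C₁] [Field κ₀] [Field κ₁] (φ : κ₀ →+* κ₁)
    (r₀ : C₀ →+* LaurentSeries κ₀) (r₁ : C₁ →+* LaurentSeries κ₁) (ι : C₀ →+* C₁)
    (hι : ∀ c : C₀, r₁ (ι c) = coeffMap φ (r₀ c))
    (γ : O₁ →+* C₁)
    (hγ : ∀ b : O₁, ∃ c : C₀, r₁ (γ b) = coeffMap φ (r₀ c))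
    (hspan : ∀ a : C₁, ∃ (n : ℕ) (b : Fin n → O₁) (c : Fin n → C₀),
      a = ∑ k, γ (b k) * ι (c k))
    (a : C₁) : ∃ a0 : C₀, r₁ a = coeffMap φ (r₀ a0) := by
  obtain ⟨n, b, c, rfl⟩ := hspan a
  choose d hd using hγ
  refine ⟨∑ k, d (b k) * c k, ?_⟩
  simp only [map_sum, map_mul, hι, hd]

/-- **`hfr` over the big base** from `hfr` over the small base, a chart base change and
residue degree one. -/
theorem hfr_of_span {O₁ C₀ C₁ κ₀ κ₁ : Type*} [CommRing O₁] [CommRing C₀]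
    [CommRing C₁] [Field κ₀] [Field κ₁] (ℓ : ℕ) [NeZero ℓ] (φ : κ₀ →+* κ₁)
    (r₀ : C₀ →+* LaurentSeries κ₀) (r₁ : C₁ →+* LaurentSeries κ₁) (ι : C₀ →+* C₁)
    (hι : ∀ c : C₀, r₁ (ι c) = coeffMap φ (r₀ c))
    (γ : O₁ →+* C₁)
    (hγ : ∀ b : O₁, ∃ c : C₀, r₁ (γ b) = coeffMap φ (r₀ c))
    (hspan : ∀ a : C₁, ∃ (n : ℕ) (b : Fin n → O₁) (c : Fin n → C₀),
      a = ∑ k, γ (b k) * ι (c k))
    (hfr : ∀ a : C₀, ∃ s r : C₀, r₀ s ≠ 0 ∧
      qExpand κ₀ ℓ (r₀ s) * r₀ a ^ ℓ = qExpand κ₀ ℓ (r₀ r)) :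
    ∀ a : C₁, ∃ s r : C₁, r₁ s ≠ 0 ∧
      qExpand κ₁ ℓ (r₁ s) * r₁ a ^ ℓ = qExpand κ₁ ℓ (r₁ r) := by
  refine HfrTransfer.hfr_transfer ℓ φ r₀ r₁ ι hι (fun a => ?_) hfr
  obtain ⟨a0, ha0⟩ := exists_red_eq_of_span φ r₀ r₁ ι hι γ hγ hspan a
  refine ⟨1, a0, ?_, ?_⟩
  · rw [map_one]
    exact one_ne_zero
  · rw [map_one, map_one, one_mul, ha0]

end Fermat.Agent.S44.L.NZ.HfrSpan
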