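import Mathlib
import Fermat.Agent.S34.Modular.SwapE
import Fermat.Agent.S37.LevelPull
import Fermat.Agent.S18.LevelDescent

/-!
# PROGRAM MR (S44), strand L, NZ chain: the level pull commutes with the Atkin–Lehner swap

(helper45.)  NZ NOTE #1 (LEVELS): the generic depth statement (NZ.1) is proved at level
`(N', p)`, the closed-point analysis (NZ.5 - NZ.7) at the auxiliary level `(M, p)`, `M = 4 N'`.
The transport is the level pull `F_{N' p} → F_{M p}` (the inclusion of subfields of the field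
of `q`-series).  It commutes with the `q`-expansion on the nose; this file proves that it also
commutes with the Atkin–Lehner swaps at `p` of the two levels.

`ℚ̄`-level (`lvl = S37.LevelPull.lvl`, `Fb N = F_{N,ℚ̄}`):

* `lvl_alpha`, `lvl_beta` : `lvl ∘ α_N = α_M ∘ lvl`, `lvl ∘ β_N = β_M ∘ lvl`;
* `swap_lvl` : for ANY swap `w` of `Fb (N p)` (`w ∘ α = β`, `w ∘ β = α`) and ANY swap `w'` of
  `Fb (M p)`, `N ∣ M`: `w' (lvl x) = lvl (w x)`.

`E`-level (`E ⊆ ℚ̄` an intermediate field, `LE N E = F_{N,E} ⊆ E((q))`):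

* `lvlE E h : LE N E →+* LE M E` for `h : N ∣ M`, the inclusion; `coe_lvlE` (`rfl`),
  `lvlE_injective`, `upE_lvlE`, `lvlE_algebraMap`, `lvlE_alpha`, `lvlE_beta`;
* `swapE_lvlE` : for maps `wE`, `wE'` of `LE (N p) E`, `LE (M p) E` which are compatible with
  swaps `w`, `w'` under the extension of constants `upE`: `wE' (lvlE z) = lvlE (wE z)`.
  For `wE := S34.HauptU.Plug.wE N p E hp hpN`, `wE' := Plug.wE M p E hp hpM` the hypotheses are
  `Plug.upE_wE` and `ToricSwap.wAL_alpha`, `ToricSwap.wAL_beta` (this file does not import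
  `Plug`, to keep its closure light).
* `mem_lvlE_of_swap` : the resulting transport of a membership statement of `q`-expansions:
  `σ (wE y) ∈ S → σ (wE' (lvlE y)) ∈ S`.
-/

set_option autoImplicit false
set_option linter.unusedSectionVars false

noncomputable section

open ModularCurve HahnSeries

namespace Fermat.Agent.S44.L.NZ.LevelSwap

open Fermat.Agent.S37.Kummer (Fb)
open Fermat.Agent.S37.LevelPull (lvl coe_lvl)
open Fermat.Agent.S18.K1Defs (LE)
open Fermat.Agent.S18.LevelDescent (LE_mono)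
open Fermat.Agent.S34.Modular.SwapE

local notation "Qb" => AlgebraicClosure ℚ

/-! ### `ℚ̄`-level -/

section Bar

variable {N M p : ℕ} [NeZero N] [NeZero M] [NeZero p]

/-- The level pull commutes with the degeneracy map `α`. -/
theorem lvl_alpha (h : N ∣ M) (a : Fb N) :
    lvl (mul_dvd_mul_right h p) (heckeAlphaBar Qb N p a) = heckeAlphaBar Qb M p (lvl h a) := by
  apply Subtype.ext
  rw [coe_lvl, coe_heckeAlphaBar, coe_heckeAlphaBar, coe_lvl]

/-- The level pull commutes with the degeneracy map `β`. -/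
theorem lvl_beta (h : N ∣ M) (a : Fb N) :
    lvl (mul_dvd_mul_right h p) (heckeBetaBar Qb N p a) = heckeBetaBar Qb M p (lvl h a) := by
  apply Subtype.ext
  rw [coe_lvl, coe_heckeBetaBar, coe_heckeBetaBar, coe_lvl]

/-- **The level pull commutes with the Atkin–Lehner swaps at `p`.**  For `N ∣ M`, any swap `w`
of level `N p` and any swap `w'` of level `M p`. -/
theorem swap_lvl (hp : p.Prime) (h : N ∣ M)
    (w : Fb (N * p) ≃ₐ[Qb] Fb (N * p))
    (hwα : ∀ a : Fb N, w (heckeAlphaBar Qb N p a) = heckeBetaBar Qb N p a)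
    (hwβ : ∀ a : Fb N, w (heckeBetaBar Qb N p a) = heckeAlphaBar Qb N p a)
    (w' : Fb (M * p) ≃ₐ[Qb] Fb (M * p))
    (hw'α : ∀ a : Fb M, w' (heckeAlphaBar Qb M p a) = heckeBetaBar Qb M p a)
    (hw'β : ∀ a : Fb M, w' (heckeBetaBar Qb M p a) = heckeAlphaBar Qb M p a)
    (x : Fb (N * p)) :
    w' (lvl (mul_dvd_mul_right h p) x) = lvl (mul_dvd_mul_right h p) (w x) := by
  have key : ((w' : Fb (M * p) →+* Fb (M * p)).comp
        (lvl (mul_dvd_mul_right h p) : Fb (N * p) →+* Fb (M * p)))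
      = ((lvl (mul_dvd_mul_right h p) : Fb (N * p) →+* Fb (M * p)).comp
        (w : Fb (N * p) →+* Fb (N * p))) := by
    refine Fermat.Agent.S34.Modular.SwapE.ringHom_ext N p hp _ _ ?_ ?_ ?_
    · intro c
      show w' (lvl (mul_dvd_mul_right h p) (algebraMap Qb (Fb (N * p)) c))
        = lvl (mul_dvd_mul_right h p) (w (algebraMap Qb (Fb (N * p)) c))
      simp only [AlgHom.commutes, AlgEquiv.commutes]
    · intro a
      show w' (lvl (mul_dvd_mul_right h p) (heckeAlphaBar Qb N p a))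
        = lvl (mul_dvd_mul_right h p) (w (heckeAlphaBar Qb N p a))
      rw [lvl_alpha h a, hw'α, hwα, lvl_beta h a]
    · intro a
      show w' (lvl (mul_dvd_mul_right h p) (heckeBetaBar Qb N p a))
        = lvl (mul_dvd_mul_right h p) (w (heckeBetaBar Qb N p a))
      rw [lvl_beta h a, hw'β, hwβ, lvl_alpha h a]
  exact congrArg (fun φ : Fb (N * p) →+* Fb (M * p) => φ x) key

end Bar

/-! ### `E`-level -/

section ELevel

variable {N M : ℕ} [NeZero N] [NeZero M] (E : IntermediateField ℚ Qb)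

/-- The level map `LE N E → LE M E` (`N ∣ M`): the inclusion of subfields of `E((q))`. -/
def lvlE (h : N ∣ M) : LE N E →+* LE M E :=
  (IntermediateField.inclusion (LE_mono h E)).toRingHom

theorem coe_lvlE (h : N ∣ M) (x : LE N E) :
    ((lvlE E h x : LE M E) : LaurentSeries E) = (x : LaurentSeries E) :=
  IntermediateField.coe_inclusion (LE_mono h E) x

theorem lvlE_injective (h : N ∣ M) : Function.Injective (lvlE E h) :=
  (lvlE E h).injective

/-- The level pull commutes with the extension of constants. -/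
theorem upE_lvlE (h : N ∣ M) (x : LE N E) : upE M E (lvlE E h x) = lvl h (upE N E x) := by
  apply Subtype.ext
  rw [coe_upE, coe_lvl, coe_upE, coe_lvlE]

theorem lvlE_algebraMap (h : N ∣ M) (c : E) :
    lvlE E h (algebraMap E (LE N E) c) = algebraMap E (LE M E) c :=
  (IntermediateField.inclusion (LE_mono h E)).commutes c

variable {p : ℕ} [NeZero p]

theorem lvlE_alpha (h : N ∣ M) (a : LE N E) :
    lvlE E (mul_dvd_mul_right h p) (heckeAlphaBar E N p a) = heckeAlphaBar E M p (lvlE E h a) := by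
  apply Subtype.ext
  rw [coe_lvlE, coe_heckeAlphaBar, coe_heckeAlphaBar, coe_lvlE]

theorem lvlE_beta (h : N ∣ M) (a : LE N E) :
    lvlE E (mul_dvd_mul_right h p) (heckeBetaBar E N p a) = heckeBetaBar E M p (lvlE E h a) := by
  apply Subtype.ext
  rw [coe_lvlE, coe_heckeBetaBar, coe_heckeBetaBar, coe_lvlE]

/-- **The `E`-level level pull commutes with the `E`-level swaps.**  `wE`, `wE'` are any maps
of `LE (N p) E`, `LE (M p) E` compatible with swaps `w`, `w'` of `Fb (N p)`, `Fb (M p)` under the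
extension of constants (for `Plug.wE`: `Plug.upE_wE` with `w = ToricSwap.wAL`). -/
theorem swapE_lvlE (hp : p.Prime) (h : N ∣ M)
    (w : Fb (N * p) ≃ₐ[Qb] Fb (N * p))
    (hwα : ∀ a : Fb N, w (heckeAlphaBar Qb N p a) = heckeBetaBar Qb N p a)
    (hwβ : ∀ a : Fb N, w (heckeBetaBar Qb N p a) = heckeAlphaBar Qb N p a)
    (w' : Fb (M * p) ≃ₐ[Qb] Fb (M * p))
    (hw'α : ∀ a : Fb M, w' (heckeAlphaBar Qb M p a) = heckeBetaBar Qb M p a)
    (hw'β : ∀ a : Fb M, w' (heckeBetaBar Qb M p a) = heckeAlphaBar Qb M p a)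
    (wE : LE (N * p) E → LE (N * p) E)
    (hwE : ∀ z : LE (N * p) E, upE (N * p) E (wE z) = w (upE (N * p) E z))
    (wE' : LE (M * p) E → LE (M * p) E)
    (hwE' : ∀ z : LE (M * p) E, upE (M * p) E (wE' z) = w' (upE (M * p) E z))
    (z : LE (N * p) E) :
    wE' (lvlE E (mul_dvd_mul_right h p) z) = lvlE E (mul_dvd_mul_right h p) (wE z) := by
  apply upE_injective (M * p) E
  rw [hwE', upE_lvlE, upE_lvlE, hwE, swap_lvl hp h w hwα hwβ w' hw'α hw'β]

/-- Transport of a membership statement of `q`-expansions on the `0`-side: if the expansion of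
`wE y` lies in a set `S` of series, so does the expansion of `wE' (lvlE y)`. -/
theorem mem_lvlE_of_swap (hp : p.Prime) (h : N ∣ M)
    (w : Fb (N * p) ≃ₐ[Qb] Fb (N * p))
    (hwα : ∀ a : Fb N, w (heckeAlphaBar Qb N p a) = heckeBetaBar Qb N p a)
    (hwβ : ∀ a : Fb N, w (heckeBetaBar Qb N p a) = heckeAlphaBar Qb N p a)
    (w' : Fb (M * p) ≃ₐ[Qb] Fb (M * p))
    (hw'α : ∀ a : Fb M, w' (heckeAlphaBar Qb M p a) = heckeBetaBar Qb M p a)
    (hw'β : ∀ a : Fb M, w' (heckeBetaBar Qb M p a) = heckeAlphaBar Qb M p a)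
    (wE : LE (N * p) E → LE (N * p) E)
    (hwE : ∀ z : LE (N * p) E, upE (N * p) E (wE z) = w (upE (N * p) E z))
    (wE' : LE (M * p) E → LE (M * p) E)
    (hwE' : ∀ z : LE (M * p) E, upE (M * p) E (wE' z) = w' (upE (M * p) E z))
    (S : Set (LaurentSeries E)) (y : LE (N * p) E)
    (hy : ((wE y : LE (N * p) E) : LaurentSeries E) ∈ S) :
    ((wE' (lvlE E (mul_dvd_mul_right h p) y) : LE (M * p) E) : LaurentSeries E) ∈ S := by
  rw [swapE_lvlE E hp h w hwα hwβ w' hw'α hw'β wE hwE wE' hwE' y, coe_lvlE]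
  exact hy

end ELevel

end Fermat.Agent.S44.L.NZ.LevelSwap
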