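import Mathlib
import Fermat.Agent.S18.K1Top
import Fermat.Agent.S36.CycloBase
import Fermat.Agent.S36.InvFun

/-!
# PROGRAM MR (S44), strand L, NZ chain: extension of the coefficient field of a series in
`LE N _` along an inclusion of number fields

Glue for the assembly of `NZ.EisBricks.NZCoreEStatement` (contract v3, item (g2)): the datum
`y ∈ LE N ↥(K ⊔ ℚ⟮b⟯)` of the landed `Prop` is moved to `LE N ↥(cyclo K' b)` for `K ≤ K'`
(and, more generally, along any `E ≤ E'`), with the same image in `ℚ̄((q))`.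

* `exists_lift_of_le'` : along `E ≤ E'`.
* `exists_lift_of_le`  : from the join spelling `K ⊔ ℚ⟮b⟯` to `CycloBase.cyclo K' b`, `K ≤ K'`.
* `sup_adjoin_le_cyclo` : `K ⊔ ℚ⟮b⟯ ≤ cyclo K' b`.
-/

set_option autoImplicit false

open ModularCurve AlgebraicCurve HahnSeries

namespace Fermat.Agent.S44.L.NZ.LiftLe

open Fermat.Agent.S18.K1Defs Fermat.Agent.S18.K1Top Fermat.Agent.S36 Fermat.Agent.S36.CycloBase

local notation "Qb" => AlgebraicClosure ℚ

/-- **Extension of coefficients along `E ≤ E'`**: a series of `LE N E` read over `E'` lies in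
`LE N E'` and has the same image in `ℚ̄((q))`. -/
theorem exists_lift_of_le' {E E' : IntermediateField ℚ Qb} (h : E ≤ E') (N : ℕ)
    (y : LaurentSeries ↥E) (hy : y ∈ laurentBaseChange ↥E (modularFunctionFieldFull N)) :
    ∃ y' : LaurentSeries ↥E', y' ∈ laurentBaseChange ↥E' (modularFunctionFieldFull N) ∧
      coeffMap (algebraMap ↥E' Qb) y' = coeffMap (algebraMap ↥E Qb) y := by
  refine ⟨coeffMap (IntermediateField.inclusion h : ↥E →+* ↥E') y,
    coeffMap_mem_laurentBaseChange_hom _ hy, ?_⟩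
  rw [coeffMap_coeffMap]
  exact coeffMap_congr (RingHom.ext fun _ => rfl) y

/-- `K ⊔ ℚ⟮b⟯ ≤ cyclo K' b` for `K ≤ K'`. -/
theorem sup_adjoin_le_cyclo {K K' : IntermediateField ℚ Qb} (h : K ≤ K') (b : Qb) :
    K ⊔ IntermediateField.adjoin ℚ ({b} : Set Qb) ≤ cyclo K' b :=
  sup_le_sup_right h _

/-- **(g2)** From the join spelling over `K` to the `cyclo` spelling over `K' ≥ K`: an element
`fs : LE N ↥(cyclo K' b)` with the same image in `ℚ̄((q))` (stated with `InvFun.upF`). -/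
theorem exists_lift_of_le {K K' : IntermediateField ℚ Qb} (h : K ≤ K') (b : Qb) (N : ℕ)
    [NeZero N] (y : LaurentSeries ↥(K ⊔ IntermediateField.adjoin ℚ ({b} : Set Qb)))
    (hy : y ∈ laurentBaseChange ↥(K ⊔ IntermediateField.adjoin ℚ ({b} : Set Qb))
      (modularFunctionFieldFull N)) :
    ∃ fs : LE N ↥(cyclo K' b),
      ((InvFun.upF N (cyclo K' b) fs : Fermat.Agent.S30.E4.Fb N) : LaurentSeries Qb)
        = coeffMap (algebraMap ↥(K ⊔ IntermediateField.adjoin ℚ ({b} : Set Qb)) Qb) y := by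
  obtain ⟨y', hy', hyy'⟩ := exists_lift_of_le' (sup_adjoin_le_cyclo h b) N y hy
  exact ⟨⟨y', hy'⟩, hyy'⟩

/-- The same for a target `f0` at the `ℚ̄`-level: `upF fs = f0` as elements of `Fb N`. -/
theorem exists_lift_eq_of_le {K K' : IntermediateField ℚ Qb} (h : K ≤ K') (b : Qb) (N : ℕ)
    [NeZero N] (y : LaurentSeries ↥(K ⊔ IntermediateField.adjoin ℚ ({b} : Set Qb)))
    (hy : y ∈ laurentBaseChange ↥(K ⊔ IntermediateField.adjoin ℚ ({b} : Set Qb))
      (modularFunctionFieldFull N))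
    (f0 : Fermat.Agent.S30.E4.Fb N)
    (hyf : coeffMap (algebraMap ↥(K ⊔ IntermediateField.adjoin ℚ ({b} : Set Qb)) Qb) y
      = (f0 : LaurentSeries Qb)) :
    ∃ fs : LE N ↥(cyclo K' b), InvFun.upF N (cyclo K' b) fs = f0 := by
  obtain ⟨fs, hfs⟩ := exists_lift_of_le h b N y hy
  exact ⟨fs, Subtype.ext (hfs.trans hyf)⟩

end Fermat.Agent.S44.L.NZ.LiftLe
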