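import Mathlib
import Fermat.Agent.S44.L.NZ.EisFinal
import Fermat.Agent.S44.L.NZ.ClosedPoint

/-!
# PROGRAM MR (S44), strand L, (L.NZ) cover-free route: `Slope.Cut.NZCoreStatement`

(helper131, NZ chain owner.)  The last line of the NZ chain: all six rows of the contract
`NZ/EisRows` are theorems on main —

* (R0) `EisTop.kummerStatement`, (R4) `EisTop.crossStatement`;
* (R1) `GenInst.genStatement` (helper263); (R3) `HorizInst.horizStatement` (helper84);
* (R5) `ClosedPoint.closedPointStatement` (helper211, helper208, helper160, helper159, …);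
* (R6) `ExitInst.exitStatement` (helper293) —

so `EisFinal.nzCoreStatement_of_closedPoint` gives

* `nzCoreStatement : Slope.Cut.NZCoreStatement`.
-/

set_option autoImplicit false

namespace Fermat.Agent.S44.L.NZ.NZCore

open Fermat.Agent.S44.L Fermat.Agent.S44.L.NZ

/-- **(L.NZ), cover-free route**: `Slope.Cut.NZCoreStatement`. -/
theorem nzCoreStatement : Slope.Cut.NZCoreStatement :=
  EisFinal.nzCoreStatement_of_closedPoint ClosedPoint.closedPointStatement

end Fermat.Agent.S44.L.NZ.NZCore
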