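import Mathlib
import Fermat.Agent.S44.L.Node
import Fermat.Agent.S44.L.NodeGlue
import Fermat.Agent.S44.L.NodeAdapt

/-!
# PROGRAM MR (S44), strand L, (L.NZ), row NZ.8: the node lemma over an UNRAMIFIED base

Level-free commutative algebra (helper59); the unramified twin of `S44/L/Node.node_lemma`
(helper153), whose hypothesis `ϖ ^ (p - 1) ∣ p` fails when `ϖ ∼ p`.

`O` a discrete valuation ring with uniformiser `ϖ`, `ϖ ∣ p`, perfect residue field; `R` a regular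
node ring over `O` (`𝔪 = (s, t)`, `s t ∼ ϖ`), `F = Frac R`.

* `dvd_sub_unram` : first-order depth on a branch.
* `core_units_unram` : if the unit `u` of `R` is `u₁ g₁ ^ p (1 + ϖ ^ p w₁)` on the branch `R_(s)`
  and `u₂ g₂ ^ p (1 + ϖ ^ p w₂)` on the branch `R_(t)` (`u₁, u₂ ∈ Oˣ`), then
  `u₁ / u₂ ∈ (Oˣ) ^ p * (1 + ϖ ^ 2 O)`.
* `node_lemma_unram` : the same for `f ∈ Fˣ` with horizontal orders divisible by `p` and
  constants `c₁, c₂ ∈ O` nonzero: `c₁ / c₂ ∈ (Frac O)ˣᵖ * (1 + ϖ ^ 2 O)`.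
* `node_constants_unram` : the chart-level form (binders of
  `NodeAdapt.node_constants_of_depthC`).
-/

set_option autoImplicit false
set_option linter.unusedSectionVars false
set_option linter.unusedVariables false
set_option linter.style.haveILetI false

namespace Fermat.Agent.S44.L.NZ.NodeUnr

open IsLocalRing
open Fermat.Agent.S44.L.LocalPrincipal Fermat.Agent.S44.L.Node Fermat.Agent.S44.L.Depth

/-! ### First-order depth on a branch -/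

section Branch

variable {R : Type*} [CommRing R] [IsDomain R]

/-- Depth on a branch, unramified form: from the branch relation, `Y ≡ X γ` modulo `s` and
`u = γ ^ p + ϖ z` (`ϖ = s t v`, `s ∣ p`), the `ϖ`-coefficient `z` is `a₁ γ ^ p` modulo `s`. -/
theorem dvd_sub_unram {p : ℕ} (hp : p.Prime) {s t v : R} (hs : Prime s) (hst : ¬ s ∣ t)
    (hv : IsUnit v) (hκ : s ∣ (p : R)) {u b a a₁ X Y γ z : R}
    (hb : ¬ s ∣ b) (hX : ¬ s ∣ X)
    (e : b * u * X ^ p = (1 + s * t * v * a₁) * (b + (s * t * v) ^ p * a) * Y ^ p)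
    (hY : s ∣ Y - X * γ) (hu : u = γ ^ p + s * t * v * z) :
    s ∣ z - a₁ * γ ^ p := by
  obtain ⟨r, hr⟩ := hY
  obtain ⟨m, hm⟩ := Fermat.Agent.S44.L.NodeGlue.sq_dvd_add_pow_sub_pow hκ (X * γ) r
  have hYeq : Y = X * γ + s * r := by linear_combination hr
  have hYp : Y ^ p = X ^ p * γ ^ p + s ^ 2 * m := by
    rw [hYeq, ← mul_pow]
    linear_combination hm
  have h2 : p = 2 + (p - 2) := by
    have := hp.two_le
    omega
  have e2 : (s * t * v) ^ p = s ^ 2 * (s ^ (p - 2) * (t * v) ^ p) := by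
    calc (s * t * v) ^ p = s ^ p * (t * v) ^ p := by rw [mul_assoc, mul_pow]
      _ = s ^ (2 + (p - 2)) * (t * v) ^ p := by rw [← h2]
      _ = s ^ 2 * (s ^ (p - 2) * (t * v) ^ p) := by rw [pow_add]; ring
  have key : s * ((1 + s * t * v * a₁) * (b * m + s ^ (p - 2) * (t * v) ^ p * a * Y ^ p))
      = b * (X ^ p * (t * (v * (z - a₁ * γ ^ p)))) := by
    apply mul_left_cancel₀ hs.ne_zero
    rw [e2, hu] at e
    linear_combination (-1 : R) * e - (1 + s * t * v * a₁) * b * hYp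
  have h1 : s ∣ b * (X ^ p * (t * (v * (z - a₁ * γ ^ p)))) := ⟨_, key.symm⟩
  have h3 := (hs.dvd_or_dvd h1).resolve_left hb
  have h4 := (hs.dvd_or_dvd h3).resolve_left (fun hd => hX (hs.dvd_of_dvd_pow hd))
  have h5 := (hs.dvd_or_dvd h4).resolve_left hst
  exact (hs.dvd_or_dvd h5).resolve_left (fun hd => hs.not_isUnit (isUnit_of_dvd_unit hd hv))

end Branch

/-! ### The node lemma for units, unramified base -/

section Core

variable {O : Type*} [CommRing O] [IsDomain O] [IsDiscreteValuationRing O]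
  {R : Type*} [CommRing R] [IsDomain R] [IsLocalRing R] [IsNoetherianRing R] [Algebra O R]
  {F : Type*} [Field F] [Algebra R F] [IsFractionRing R F]

/-- **The node lemma for a unit, unramified base.**  If the unit `u` of the regular node ring
`R` is `u₁ * g₁ ^ p * (1 + ϖ ^ p * w₁)` on the branch `R_(s)` and
`u₂ * g₂ ^ p * (1 + ϖ ^ p * w₂)` on the branch `R_(t)`, with `u₁`, `u₂` units of `O` and
`ϖ ∣ p`, then `u₁ / u₂ ∈ Oˣᵖ * (1 + ϖ ^ 2 O)`. -/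
theorem core_units_unram (p : ℕ) (hp : p.Prime)
    (ϖ : O) (hϖ : Irreducible ϖ) (hpϖ : ϖ ∣ (p : O))
    (hperf : ∀ a : O, ∃ b : O, ϖ ∣ a - b ^ p)
    (s t : R) (hs : Prime s) (ht : Prime t) (hne : ¬ Associated s t)
    (hm : maximalIdeal R = Ideal.span {s, t})
    (hst : Associated (s * t) (algebraMap O R ϖ))
    (u : R) (hu : IsUnit u) (u₁ u₂ : O) (hu₁ : IsUnit u₁) (hu₂ : IsUnit u₂)
    (hbr₁ : ∃ (g : F) (a b : R), ¬ s ∣ b ∧ algebraMap R F b * algebraMap R F u =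
      algebraMap R F (algebraMap O R u₁) * g ^ p *
        algebraMap R F (b + algebraMap O R ϖ ^ p * a))
    (hbr₂ : ∃ (g : F) (a b : R), ¬ t ∣ b ∧ algebraMap R F b * algebraMap R F u =
      algebraMap R F (algebraMap O R u₂) * g ^ p *
        algebraMap R F (b + algebraMap O R ϖ ^ p * a)) :
    ∃ d e a : O, d ≠ 0 ∧ e ≠ 0 ∧ u₁ * d ^ p = u₂ * e ^ p * (1 + ϖ ^ 2 * a) := by
  obtain ⟨v, hv⟩ := hst
  have hsnt : ¬ s ∣ t := not_dvd_of_not_associated hs ht hne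
  have htns : ¬ t ∣ s := not_dvd_of_not_associated ht hs (fun h => hne h.symm)
  have hm' : maximalIdeal R = Ideal.span {t, s} := by rw [hm, Set.pair_comm]
  have hsm : s ∈ maximalIdeal R := mem_maximalIdeal_left hm
  have htm : t ∈ maximalIdeal R := mem_maximalIdeal_right hm
  have hpp : (s * t * v) ^ (p - 1) * (s * t * v) = (s * t * v) ^ p :=
    pow_sub_one_mul hp.ne_zero _
  -- `p` in `R`
  obtain ⟨cp, hcp⟩ := hpϖ
  have hpR : (p : R) = (s * t * v) * algebraMap O R cp := by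
    rw [hv, ← map_mul, ← hcp, map_natCast]
  have hκs : s ∣ (p : R) := ⟨t * v * algebraMap O R cp, by rw [hpR]; ring⟩
  have hκt : t ∣ (p : R) := ⟨s * v * algebraMap O R cp, by rw [hpR]; ring⟩
  -- normalise the constants
  obtain ⟨β₁, a₁, hβ₁, e₁⟩ := exists_eq_pow_mul_one_add hp.ne_zero hϖ hperf hu₁
  obtain ⟨β₂, a₂, hβ₂, e₂⟩ := exists_eq_pow_mul_one_add hp.ne_zero hϖ hperf hu₂
  have e₁R : algebraMap O R u₁ =
      algebraMap O R β₁ ^ p * (1 + s * t * v * algebraMap O R a₁) := by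
    rw [e₁, map_mul, map_pow, map_add, map_one, map_mul, hv]
  have e₂R : algebraMap O R u₂ =
      algebraMap O R β₂ ^ p * (1 + t * s * v * algebraMap O R a₂) := by
    rw [e₂, map_mul, map_pow, map_add, map_one, map_mul, mul_comm t s, hv]
  -- the two branch relations in `R`
  obtain ⟨g₁, A₁, b₁, hb₁, h₁⟩ := hbr₁
  obtain ⟨g₂, A₂, b₂, hb₂, h₂⟩ := hbr₂
  rw [← hv] at h₁ h₂
  have hc₁ : ¬ s ∣ b₁ + (s * t * v) ^ p * A₁ := by
    intro hd
    apply hb₁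
    have h3 : s ∣ (s * t * v) ^ p * A₁ :=
      Dvd.dvd.mul_right (dvd_pow (Dvd.intro _ (mul_assoc s t v).symm) hp.ne_zero) _
    exact (dvd_add_left h3).mp hd
  have hc₂ : ¬ t ∣ b₂ + (s * t * v) ^ p * A₂ := by
    intro hd
    apply hb₂
    have h3 : t ∣ (s * t * v) ^ p * A₂ :=
      Dvd.dvd.mul_right (dvd_pow ⟨s * v, by ring⟩ hp.ne_zero) _
    exact (dvd_add_left h3).mp hd
  obtain ⟨X₁, Y₁, hX₁, hY₁, E₁⟩ :=
    exists_branch_eq hp.ne_zero hs hu (hu₁.map (algebraMap O R)) hb₁ hc₁ h₁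
  obtain ⟨X₂, Y₂, hX₂, hY₂, E₂⟩ :=
    exists_branch_eq hp.ne_zero ht hu (hu₂.map (algebraMap O R)) hb₂ hc₂ h₂
  have E₁' : b₁ * u * X₁ ^ p = (1 + s * t * v * algebraMap O R a₁) *
      (b₁ + (s * t * v) ^ p * A₁) * (algebraMap O R β₁ * Y₁) ^ p := by
    rw [E₁, e₁R]; ring
  have E₂' : b₂ * u * X₂ ^ p = (1 + t * s * v * algebraMap O R a₂) *
      (b₂ + (t * s * v) ^ p * A₂) * (algebraMap O R β₂ * Y₂) ^ p := by
    rw [E₂, e₂R]; ring
  -- roots on the two branches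
  obtain ⟨γ₁, hγ₁Y, hγ₁u⟩ := exists_root_mod hp.ne_zero hs hm hb₁ hX₁
    (c := (1 + s * t * v * algebraMap O R a₁) * (b₁ + (s * t * v) ^ p * A₁))
    ⟨t * v * algebraMap O R a₁ * (b₁ + (s * t * v) ^ p * A₁)
      + t * v * (s * t * v) ^ (p - 1) * A₁, by linear_combination (-A₁) * hpp⟩ E₁'
  obtain ⟨γ₂, hγ₂Y, hγ₂u⟩ := exists_root_mod hp.ne_zero ht hm' hb₂ hX₂
    (c := (1 + t * s * v * algebraMap O R a₂) * (b₂ + (t * s * v) ^ p * A₂))
    ⟨s * v * algebraMap O R a₂ * (b₂ + (t * s * v) ^ p * A₂)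
      + s * v * (s * t * v) ^ (p - 1) * A₂, by
        rw [mul_comm t s]; linear_combination (-A₂) * hpp⟩ E₂'
  -- glue the two roots at the node
  have hpm : (p : R) ∈ maximalIdeal R := by
    obtain ⟨κ, hκ⟩ := hκs
    rw [hκ]
    exact Ideal.mul_mem_right _ _ hsm
  have hγm : γ₁ - γ₂ ∈ maximalIdeal R := by
    obtain ⟨r, hr⟩ := exists_add_pow_prime_eq hp (γ₁ - γ₂) γ₂
    rw [sub_add_cancel] at hr
    obtain ⟨x₁, hx₁⟩ := hγ₁u
    obtain ⟨x₂, hx₂⟩ := hγ₂u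
    have h3 : (γ₁ - γ₂) ^ p = t * x₂ - s * x₁ - (p : R) * ((γ₁ - γ₂) * γ₂ * r) := by
      linear_combination -hr + hx₂ - hx₁
    have h4 : (γ₁ - γ₂) ^ p ∈ maximalIdeal R := by
      rw [h3]
      exact Ideal.sub_mem _ (Ideal.sub_mem _ (Ideal.mul_mem_right _ _ htm)
        (Ideal.mul_mem_right _ _ hsm)) (Ideal.mul_mem_right _ _ hpm)
    exact (maximalIdeal.isMaximal R).isPrime.mem_of_pow_mem p h4
  rw [hm, Ideal.mem_span_pair] at hγm
  obtain ⟨α, β, hαβ⟩ := hγm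
  set γ : R := γ₁ - α * s with hγ
  have hsγ : s ∣ γ₁ - γ := ⟨α, by rw [hγ]; ring⟩
  have htγ : t ∣ γ₂ - γ := ⟨-β, by rw [hγ]; linear_combination hαβ⟩
  have hsu : s ∣ u - γ ^ p := by
    have : u - γ ^ p = (u - γ₁ ^ p) + (γ₁ ^ p - γ ^ p) := by ring
    rw [this]
    exact dvd_add hγ₁u (hsγ.trans (sub_dvd_pow_sub_pow γ₁ γ p))
  have htu : t ∣ u - γ ^ p := by
    have : u - γ ^ p = (u - γ₂ ^ p) + (γ₂ ^ p - γ ^ p) := by ring
    rw [this]
    exact dvd_add hγ₂u (htγ.trans (sub_dvd_pow_sub_pow γ₂ γ p))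
  obtain ⟨x₁, hx₁⟩ := hsu
  have htx₁ : t ∣ x₁ := (ht.dvd_or_dvd (hx₁ ▸ htu)).resolve_left htns
  obtain ⟨x₂, rfl⟩ := htx₁
  set z : R := ((v⁻¹ : Rˣ) : R) * x₂ with hz
  have hvv : (v : R) * ((v⁻¹ : Rˣ) : R) = 1 := Units.mul_inv v
  have hu_eq : u = γ ^ p + s * t * v * z := by
    rw [hz]; linear_combination hx₁ - s * t * x₂ * hvv
  have hu_eq' : u = γ ^ p + t * s * v * z := by rw [hu_eq]; ring
  have hY₁γ : s ∣ algebraMap O R β₁ * Y₁ - X₁ * γ := by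
    have : algebraMap O R β₁ * Y₁ - X₁ * γ
        = (algebraMap O R β₁ * Y₁ - X₁ * γ₁) + X₁ * (γ₁ - γ) := by ring
    rw [this]
    exact dvd_add hγ₁Y (Dvd.dvd.mul_left hsγ _)
  have hY₂γ : t ∣ algebraMap O R β₂ * Y₂ - X₂ * γ := by
    have : algebraMap O R β₂ * Y₂ - X₂ * γ
        = (algebraMap O R β₂ * Y₂ - X₂ * γ₂) + X₂ * (γ₂ - γ) := by ring
    rw [this]
    exact dvd_add hγ₂Y (Dvd.dvd.mul_left htγ _)
  -- first-order depth on the two branches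
  have D₁ : s ∣ z - algebraMap O R a₁ * γ ^ p :=
    dvd_sub_unram hp hs hsnt v.isUnit hκs hb₁ hX₁ E₁' hY₁γ hu_eq
  have D₂ : t ∣ z - algebraMap O R a₂ * γ ^ p :=
    dvd_sub_unram hp ht htns v.isUnit hκt hb₂ hX₂ E₂' hY₂γ hu_eq'
  -- `γ` is a unit
  have hγu : IsUnit (γ ^ p) := by
    have h5 : IsUnit (γ ^ p + s * t * v * z) := hu_eq ▸ hu
    rcases IsLocalRing.isUnit_or_isUnit_of_isUnit_add h5 with h6 | h6
    · exact h6
    · exfalso
      have h7 : s * t * v * z ∈ maximalIdeal R := by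
        rw [mul_assoc, mul_assoc]
        exact Ideal.mul_mem_right _ _ hsm
      exact h7 h6
  -- the difference of the constants lies in the maximal ideal
  have hmem : algebraMap O R (a₁ - a₂) ∈ maximalIdeal R := by
    obtain ⟨w, hw⟩ := hγu
    obtain ⟨y₁, hy₁⟩ := D₁
    obtain ⟨y₂, hy₂⟩ := D₂
    have hww : (w : R) * ((w⁻¹ : Rˣ) : R) = 1 := Units.mul_inv w
    have h8 : algebraMap O R (a₁ - a₂)
        = (-((w⁻¹ : Rˣ) : R) * y₁) * s + (((w⁻¹ : Rˣ) : R) * y₂) * t := by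
      rw [map_sub]
      linear_combination (algebraMap O R a₂ - algebraMap O R a₁) * hww
        + ((w⁻¹ : Rˣ) : R) * (algebraMap O R a₁ - algebraMap O R a₂) * hw
        + ((w⁻¹ : Rˣ) : R) * hy₂ - ((w⁻¹ : Rˣ) : R) * hy₁
    rw [h8]
    exact Ideal.add_mem _ (Ideal.mul_mem_left _ _ hsm) (Ideal.mul_mem_left _ _ htm)
  -- hence `ϖ ∣ a₁ - a₂` in `O`
  have hdvd : ϖ ∣ a₁ - a₂ := by
    by_contra hnd
    have hunit : IsUnit (a₁ - a₂) := by
      by_contra hnu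
      have h9 : a₁ - a₂ ∈ maximalIdeal O := hnu
      rw [hϖ.maximalIdeal_eq, Ideal.mem_span_singleton] at h9
      exact hnd h9
    exact (IsLocalRing.mem_maximalIdeal _).mp hmem (hunit.map (algebraMap O R))
  obtain ⟨a₃, ha₃⟩ := hdvd
  -- conclusion
  have hω : IsUnit (1 + ϖ * a₂) := by
    rw [e₂] at hu₂
    exact isUnit_of_mul_isUnit_right hu₂
  obtain ⟨ω, hω⟩ := hω
  have hωω : (ω : O) * ((ω⁻¹ : Oˣ) : O) = 1 := Units.mul_inv ω
  refine ⟨β₂, β₁, a₃ * ((ω⁻¹ : Oˣ) : O), hβ₂.ne_zero, hβ₁.ne_zero, ?_⟩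
  rw [e₁, e₂]
  rw [hω] at hωω
  have h10 : a₁ = a₂ + ϖ * a₃ := by linear_combination ha₃
  rw [h10]
  linear_combination (-(β₁ ^ p * β₂ ^ p * ϖ ^ 2 * a₃)) * hωω

end Core

/-! ### The node lemma, unramified base -/

section Main

variable {O : Type*} [CommRing O] [IsDomain O] [IsDiscreteValuationRing O]
  {R : Type*} [CommRing R] [IsDomain R] [IsLocalRing R] [IsNoetherianRing R] [Algebra O R]
  {F : Type*} [Field F] [Algebra R F] [IsFractionRing R F]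

/-- **The node lemma over an unramified base.**  `O` a discrete valuation ring with uniformiser
`ϖ`, `ϖ ∣ p`, perfect residue field; `R` a noetherian local domain over `O` with maximal ideal
`(s, t)`, `s`, `t` non-associated primes, `s t = ϖ * unit`, `F = Frac R`.  If `f ∈ Fˣ` has all
horizontal orders divisible by `p`, is `c₁ * g₁ ^ p * (1 + ϖ ^ p * w₁)` with `w₁ ∈ R_(s)` and
`c₂ * g₂ ^ p * (1 + ϖ ^ p * w₂)` with `w₂ ∈ R_(t)` (`c₁, c₂ ∈ O` nonzero), then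
`c₁ / c₂ ∈ (Frac O)ˣᵖ * (1 + ϖ ^ 2 O)`. -/
theorem node_lemma_unram (p : ℕ) (hp : p.Prime)
    (ϖ : O) (hϖ : Irreducible ϖ) (hpϖ : ϖ ∣ (p : O))
    (hperf : ∀ a : O, ∃ b : O, ϖ ∣ a - b ^ p)
    (s t : R) (hs : Prime s) (ht : Prime t) (hne : ¬ Associated s t)
    (hm : maximalIdeal R = Ideal.span {s, t})
    (hst : Associated (s * t) (algebraMap O R ϖ))
    (f : F) (hf : f ≠ 0)
    (hhor : ∀ q : R, Prime q → ¬ q ∣ algebraMap O R ϖ →
      ∃ (a b : R) (h : F), ¬ q ∣ a ∧ ¬ q ∣ b ∧ algebraMap R F b * f = algebraMap R F a * h ^ p)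
    (c₁ c₂ : O) (hc₁ : c₁ ≠ 0) (hc₂ : c₂ ≠ 0)
    (hbr₁ : ∃ (g : F) (a b : R), ¬ s ∣ b ∧ algebraMap R F b * f =
      algebraMap R F (algebraMap O R c₁) * g ^ p *
        algebraMap R F (b + algebraMap O R ϖ ^ p * a))
    (hbr₂ : ∃ (g : F) (a b : R), ¬ t ∣ b ∧ algebraMap R F b * f =
      algebraMap R F (algebraMap O R c₂) * g ^ p *
        algebraMap R F (b + algebraMap O R ϖ ^ p * a)) :
    ∃ d e a : O, d ≠ 0 ∧ e ≠ 0 ∧ c₁ * d ^ p = c₂ * e ^ p * (1 + ϖ ^ 2 * a) := by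
  have hst' := hst
  obtain ⟨v, hv⟩ := hst
  have hinj := IsFractionRing.injective R F
  haveI : IsDomain (R ⧸ Ideal.span {s}) := isDomain_quot hs
  haveI : IsPrincipalIdealRing (R ⧸ Ideal.span {s}) := isPrincipalIdealRing_quot hs hm
  haveI : UniqueFactorizationMonoid R := quot_ufm hs.ne_zero
  -- factorisation of `f`
  obtain ⟨u, i, j, h, hfe⟩ := exists_eq_unit_mul_pow_mul_pow_mul_pow s t hp.ne_zero hf (by
    intro g hg hgs hgt
    refine hhor g hg ?_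
    rw [← hv]
    intro hd
    rcases hg.dvd_or_dvd hd with hd | hd
    · rcases hg.dvd_or_dvd hd with hd | hd
      · exact hgs (hg.associated_of_dvd hs hd)
      · exact hgt (hg.associated_of_dvd ht hd)
    · exact hg.not_isUnit (isUnit_of_dvd_unit hd v.isUnit))
  have hh : h ≠ 0 := by
    rintro rfl
    rw [zero_pow hp.ne_zero, mul_zero] at hfe
    exact hf hfe
  -- the constants
  obtain ⟨m₁, ε₁, hε₁⟩ := IsDiscreteValuationRing.eq_unit_mul_pow_irreducible hc₁ hϖ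
  obtain ⟨m₂, ε₂, hε₂⟩ := IsDiscreteValuationRing.eq_unit_mul_pow_irreducible hc₂ hϖ
  have hc₁R : algebraMap O R c₁ = algebraMap O R ε₁ * (s * t * v) ^ m₁ := by
    rw [hε₁, map_mul, map_pow, hv]
  have hc₂R : algebraMap O R c₂ = algebraMap O R ε₂ * (s * t * v) ^ m₂ := by
    rw [hε₂, map_mul, map_pow, hv]
  obtain ⟨g₁, a₁, b₁, hb₁, e₁⟩ := hbr₁
  obtain ⟨g₂, a₂, b₂, hb₂, e₂⟩ := hbr₂
  rw [hfe, hc₁R, ← hv] at e₁
  rw [hfe, hc₂R, ← hv] at e₂
  -- orders along the branches and at the node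
  obtain ⟨α₁, β₁, α₁', β₁', o₁, o₁'⟩ := exists_orders hp.ne_zero hs ht hne hm v u
    ((ε₁.isUnit).map (algebraMap O R)) hh hb₁ e₁
  have hm' : maximalIdeal R = Ideal.span {t, s} := by rw [hm, Set.pair_comm]
  have e₂' : algebraMap R F b₂ *
        (algebraMap R F u * algebraMap R F t ^ j * algebraMap R F s ^ i * h ^ p) =
      algebraMap R F (algebraMap O R ε₂ * (t * s * v) ^ m₂) * g₂ ^ p *
        algebraMap R F (b₂ + (t * s * v) ^ p * a₂) := by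
    rw [mul_comm t s, ← e₂]
    ring
  obtain ⟨α₂, β₂, α₂', β₂', o₂, o₂'⟩ := exists_orders hp.ne_zero ht hs (fun h => hne h.symm)
    hm' v u ((ε₂.isUnit).map (algebraMap O R)) hh hb₂ e₂'
  have o₃ : m₂ + p * (β₂' + α₁) = m₁ + p * (β₁ + α₂') := by
    rw [mul_add, mul_add]
    linarith
  -- reduction to a unit
  have hS0 : algebraMap R F s ≠ 0 := (map_ne_zero_iff _ hinj).mpr hs.ne_zero
  have hT0 : algebraMap R F t ≠ 0 := (map_ne_zero_iff _ hinj).mpr ht.ne_zero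
  have hVV : algebraMap R F (v : R) * algebraMap R F ((v⁻¹ : Rˣ) : R) = 1 := by
    rw [← map_mul, Units.mul_inv, map_one]
  simp only [map_mul, map_pow] at e₁ e₂
  obtain ⟨g₁', E₁⟩ := exists_unit_branch_aux (M := m₁) (A := 0) (B := 0) o₁ o₁' rfl hS0 hT0 hVV
    hh e₁
  obtain ⟨g₂', E₂⟩ := exists_unit_branch_aux (M := m₁) o₁ o₁' o₃ hS0 hT0 hVV hh e₂
  have hu' : IsUnit ((u : R) * ((v⁻¹ : Rˣ) : R) ^ m₁) := u.isUnit.mul ((v⁻¹).isUnit.pow m₁)
  obtain ⟨d₀, e₀, a, hd₀, he₀, hfin⟩ := core_units_unram (F := F) p hp ϖ hϖ hpϖ hperf s t hs ht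
    hne hm hst' ((u : R) * ((v⁻¹ : Rˣ) : R) ^ m₁) hu' ε₁ ε₂ ε₁.isUnit ε₂.isUnit
    ⟨g₁', a₁, b₁, hb₁, by
      rw [← hv]
      simp only [map_mul, map_pow]
      exact E₁⟩
    ⟨g₂', a₂, b₂, hb₂, by
      rw [← hv]
      simp only [map_mul, map_pow]
      exact E₂⟩
  -- conclusion
  have hϖ0 : ϖ ≠ 0 := hϖ.ne_zero
  have hpow : ϖ ^ m₁ * (ϖ ^ (β₁ + α₂')) ^ p = ϖ ^ m₂ * (ϖ ^ (β₂' + α₁)) ^ p := by
    rw [← pow_mul, ← pow_add, ← pow_mul, ← pow_add, mul_comm (β₁ + α₂') p,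
      mul_comm (β₂' + α₁) p, o₃]
  refine ⟨d₀ * ϖ ^ (β₁ + α₂'), e₀ * ϖ ^ (β₂' + α₁), a, mul_ne_zero hd₀ (pow_ne_zero _ hϖ0),
    mul_ne_zero he₀ (pow_ne_zero _ hϖ0), ?_⟩
  rw [hε₁, hε₂]
  linear_combination (exp := 1) (ϖ ^ m₁ * (ϖ ^ (β₁ + α₂')) ^ p) * hfin
    + ((ε₂ : O) * e₀ ^ p * (1 + ϖ ^ 2 * a)) * hpow

end Main

/-! ### Chart-level form -/

section Chart

variable {O : Type*} [CommRing O] [IsDomain O] [IsDiscreteValuationRing O]
  {E : Type*} [Field E] [Algebra O E] [IsFractionRing O E]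
  {C : Type*} [CommRing C] {L : Type*} [Field L] [Algebra C L] [Algebra E L]
  {R : Type*} [CommRing R] [IsDomain R] [IsLocalRing R] [IsNoetherianRing R] [Algebra O R]
  {F : Type*} [Field F] [Algebra R F] [IsFractionRing R F]

/-- **The constants of the two branches over an unramified base, from chart-level data**
(binders of `NodeAdapt.node_constants_of_depthC`, with `ϖ ∣ p` in place of
`ϖ ^ (p - 1) ∣ p`): `c₁ / c₂ ∈ (Eˣ) ^ p * (1 + ϖ ^ 2 O)`. -/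
theorem node_constants_unram (p : ℕ) (hp : p.Prime)
    (ϖ : O) (hϖ : Irreducible ϖ) (hpϖ : ϖ ∣ (p : O))
    (hperf : ∀ a : O, ∃ b : O, ϖ ∣ a - b ^ p)
    (s t : R) (hs : Prime s) (ht : Prime t) (hne : ¬ Associated s t)
    (hm : maximalIdeal R = Ideal.span {s, t})
    (hst : Associated (s * t) (algebraMap O R ϖ))
    (ψ : C →+* R) (ι : L →+* F)
    (hψι : ∀ c : C, ι (algebraMap C L c) = algebraMap R F (ψ c))
    (hιE : ∀ c : O, ι (algebraMap E L (algebraMap O E c)) = algebraMap R F (algebraMap O R c))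
    (ϖC : C) (hϖC : ψ ϖC = algebraMap O R ϖ)
    (P₁ P₂ : Ideal C) (hP₁ : ∀ x : C, x ∉ P₁ → ¬ s ∣ ψ x) (hP₂ : ∀ x : C, x ∉ P₂ → ¬ t ∣ ψ x)
    (f : L) (hf : f ≠ 0)
    (hH : ∀ Q : Ideal C, Q.IsPrime → ϖC ∉ Q →
      ∃ (τ : L) (x b : C), τ ≠ 0 ∧ x ∉ Q ∧ b ∉ Q ∧
        f * algebraMap C L x = τ ^ p * algebraMap C L b)
    (c₁ c₂ : E) (hc₁ : c₁ ≠ 0) (hc₂ : c₂ ≠ 0) {d : ℕ} (hd : p ≤ d)
    (h₁ : DepthC p ϖC P₁ d c₁ f) (h₂ : DepthC p ϖC P₂ d c₂ f) :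
    ∃ x y a : O, x ≠ 0 ∧ y ≠ 0 ∧
      c₁ * algebraMap O E x ^ p
        = c₂ * algebraMap O E y ^ p * (1 + algebraMap O E ϖ ^ 2 * algebraMap O E a) := by
  have hinj := IsFractionRing.injective O E
  obtain ⟨a₁, y₁, ha₁, hy₁, e₁⟩ :=
    Fermat.Agent.S44.L.NodeAdapt.exists_const_mul_pow (O := O) hp.ne_zero hc₁
  obtain ⟨a₂, y₂, ha₂, hy₂, e₂⟩ :=
    Fermat.Agent.S44.L.NodeAdapt.exists_const_mul_pow (O := O) hp.ne_zero hc₂
  have hy₁E : algebraMap O E y₁ ≠ 0 := (map_ne_zero_iff _ hinj).mpr hy₁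
  have hy₂E : algebraMap O E y₂ ≠ 0 := (map_ne_zero_iff _ hinj).mpr hy₂
  have h₁' := h₁.const_mul_pow hy₁E
  have h₂' := h₂.const_mul_pow hy₂E
  rw [e₁] at h₁'
  rw [e₂] at h₂'
  have hhor := Fermat.Agent.S44.L.NodeAdapt.hhor_of_horiz ψ ι hψι hH
  rw [hϖC] at hhor
  have hbr₁ := Fermat.Agent.S44.L.NodeAdapt.hbr_of_depthC ψ ι hψι hd hP₁ (hιE a₁) h₁'
  have hbr₂ := Fermat.Agent.S44.L.NodeAdapt.hbr_of_depthC ψ ι hψι hd hP₂ (hιE a₂) h₂'
  rw [hϖC] at hbr₁ hbr₂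
  obtain ⟨x, y, a, hx, hy, e⟩ := node_lemma_unram p hp ϖ hϖ hpϖ hperf s t hs ht hne hm hst (ι f)
    ((map_ne_zero ι).mpr hf) hhor a₁ a₂ ha₁ ha₂ hbr₁ hbr₂
  refine ⟨x * y₁, y * y₂, a, mul_ne_zero hx hy₁, mul_ne_zero hy hy₂, ?_⟩
  have e' := congrArg (algebraMap O E) e
  simp only [map_mul, map_pow, map_add, map_one] at e'
  rw [← e₁, ← e₂] at e'
  simp only [map_mul, mul_pow]
  linear_combination e'

end Chart

end Fermat.Agent.S44.L.NZ.NodeUnr
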