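import Mathlib
import Fermat.Agent.S44.L.Red
import Fermat.Agent.S44.L.TopLemmas
import Fermat.Agent.S44.L.IotaCalc
import Fermat.Agent.S44.L.DescDeg
import Fermat.Agent.S37.LevelPull

/-!
# PROGRAM MR (S44), strand L, (L.NZ) cover-free route: `RedAt` along level pull and `Sim`

Supplier of row NZ.1 (GEN) of `NZ.EisRows` (helper131, NZ chain owner).  The hypothesis of
`EisRows.GenStatement` is a reduction of `ι R` at level `N' p` that is a `p`-th power in
`redField N' A`; the row works with ANY function `y` of level `N' 4 p` in the class (modulo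
constants and `p`-th powers) of the level pull of `ι R`.  This file moves the reduction:

* `redAt_lvl`                : the level pull has the same reduction;
* `redAt_pow_of_sim`         : at level `L p`, `x ~ y` and `x̄ = g ^ p` with `g ∈ redField L A`
  give `ȳ = g' ^ p` with `g' ∈ redField L A` (`Red.redStatement` for the `p`-th power factor);
* `exists_redAt_pow_of_sim_lvl` : both together, in the shape consumed by
  `NZ.RootDesc.exists_gauss_pow_desc_of_mem_redField` (at `N := M * p`, `e := 1`).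
-/

set_option autoImplicit false

open HahnSeries ModularCurve AlgebraicCurve

namespace Fermat.Agent.S44.L.NZ.RedSim

open Fermat.Agent.S30 Fermat.Agent.S30.Producer Fermat.Agent.S44.Contract
open Fermat.Agent.S44.L.Top Fermat.Agent.S44.L.IotaCalc Fermat.Agent.S44.L

/-- The level pull of `x` has the same reduction as `x`. -/
theorem redAt_lvl {N M : ℕ} [NeZero N] [NeZero M] (h : N ∣ M) {A : ValuationSubring Qb}
    {x : FN N} {f : LaurentSeries (IsLocalRing.ResidueField A)} (hx : RedAt N A x f) :
    RedAt M A (Fermat.Agent.S37.LevelPull.lvl h x) f := by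
  obtain ⟨c, U, V, hc, hU, hV, hxe, hfe⟩ := hx
  refine ⟨c, U, V, hc, hU, hV, ?_, hfe⟩
  rw [Fermat.Agent.S37.LevelPull.coe_lvl]
  exact hxe

/-- At level `L p` (`p ∤ L`): if `x ~ y` modulo constants and `p`-th powers and `x` has a
reduction `g ^ p` with `g ∈ redField L A`, then `y` has a reduction `g' ^ p` with
`g' ∈ redField L A`. -/
theorem redAt_pow_of_sim (p L : ℕ) [NeZero L] [NeZero p] (hp : p.Prime) (hp5 : 5 ≤ p)
    (hpL : ¬ p ∣ L) (A : ValuationSubring Qb) (hA : A.LiesOverPrime p) {x y : FN (L * p)}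
    (hs : Sim Qb p x y) (g : redField L A)
    (hg : RedAt (L * p) A x ((g : LaurentSeries (IsLocalRing.ResidueField A)) ^ p)) :
    ∃ g' : redField L A,
      RedAt (L * p) A y ((g' : LaurentSeries (IsLocalRing.ResidueField A)) ^ p) := by
  obtain ⟨c, k, hc, hk, hxy⟩ := hs
  obtain ⟨gk, hgk⟩ := Red.redStatement p L hp hp5 hpL A hA k hk
  have hc' : algebraMap Qb (FN (L * p)) c ≠ 0 := (map_ne_zero _).mpr hc
  have hkp : k ^ p ≠ 0 := pow_ne_zero p hk
  have hy : y = algebraMap Qb (FN (L * p)) c⁻¹ * (x / k ^ p) := by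
    rw [hxy, map_inv₀]
    field_simp
  refine ⟨g / gk, ?_⟩
  rw [hy, TopLemmas.coe_div_redField, div_pow]
  exact TopLemmas.RedAt.const_mul (inv_ne_zero hc)
    (TopLemmas.RedAt.div hg (TopLemmas.RedAt.pow hgk p))

/-- **The reduction hypothesis of `EisRows.GenStatement`, moved to the working function.**
`x` of level `N' p` with a reduction `g ^ p`, `g ∈ redField N' A`; `y` of level `M p`
(`N' ∣ M`, `p ∤ M`) in the class of the level pull of `x`.  Then `y` has a reduction
`C 1 * h ^ p` with `h ∈ redField M A` (hence in `redField (M * p) A`): the three hypotheses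
`hx`, `hhF`, `hpow` of `NZ.RootDesc.exists_gauss_pow_desc_of_mem_redField` at `N := M * p`,
`e := 1`. -/
theorem exists_redAt_pow_of_sim_lvl (p N' M : ℕ) [NeZero N'] [NeZero M] [NeZero p]
    (hp : p.Prime) (hp5 : 5 ≤ p) (hpM : ¬ p ∣ M) (hNM : N' ∣ M) (A : ValuationSubring Qb)
    (hA : A.LiesOverPrime p) (hN : N' * p ∣ M * p) {x : FN (N' * p)} {y : FN (M * p)}
    (hs : Sim Qb p (Fermat.Agent.S37.LevelPull.lvl hN x) y) (g : redField N' A)
    (hg : RedAt (N' * p) A x ((g : LaurentSeries (IsLocalRing.ResidueField A)) ^ p)) :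
    ∃ h : LaurentSeries (IsLocalRing.ResidueField A),
      h ∈ redField M A ∧ h ∈ redField (M * p) A ∧
      RedAt (M * p) A y (HahnSeries.C (1 : IsLocalRing.ResidueField A) * h ^ p) := by
  have hg1 := redAt_lvl hN hg
  obtain ⟨g', hg'⟩ := redAt_pow_of_sim p M hp hp5 hpM A hA hs
    ⟨(g : LaurentSeries (IsLocalRing.ResidueField A)), DescDeg.redField_le hNM A g.2⟩ hg1
  refine ⟨(g' : LaurentSeries (IsLocalRing.ResidueField A)), g'.2,
    DescDeg.redField_le (Dvd.intro p rfl) A g'.2, ?_⟩
  rw [map_one, one_mul]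
  exact hg'

end Fermat.Agent.S44.L.NZ.RedSim
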