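import Mathlib
import Fermat.Agent.S44.L.NZ.EisBricks
import Fermat.Agent.S44.L.AltDescLE

/-!
# PROGRAM MR (S44), strand L, (L.NZ): the Prop `NZ.EisBricks.NZRepStatement` is a theorem

(helper197.)  `nzRepStatement : EisBricks.NZRepStatement` from `AltDescLE.exists_rep`
(helper84's `AltDesc.exists_desc` + `Lib/FixAdjoin`): over every number field `K₀` fixed by
the inertia group there are `K ⊇ K₀` fixed by the inertia group and a representative
`f₀ ~ ι R` defined over `K(b) = K ⊔ ℚ(b)`.
-/

set_option autoImplicit false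

namespace Fermat.Agent.S44.L.NZ.Rep

/-- **(NZ.REP).** -/
theorem nzRepStatement : Fermat.Agent.S44.L.NZ.EisBricks.NZRepStatement := by
  intro P N' _ _ W _ A _ ι hι T R ζ b hE K₀ hK₀fin hK₀
  exact Fermat.Agent.S44.L.AltDescLE.exists_rep hι hE K₀ hK₀fin hK₀

end Fermat.Agent.S44.L.NZ.Rep
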