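import Mathlib
import Fermat.Agent.S44.L.NZ.Bricks
import Fermat.Agent.S44.L.SimLvl
import Fermat.Agent.S44.L.Red
import Fermat.Agent.S36.AuxSquare
import Fermat.Agent.S36.InvDescent
import Fermat.Agent.S36.GeomClass

/-!
# PROGRAM MR (S44), strand L, (L.NZ), row NZ.8: the SPLIT case over the unramified base

Statement-level file (helper59) with two compiled implications.  Target:
`NZ.Bricks.NZSplitStatement` (the Kummer generator `b` and the point `R` of an `EShapeData` are
fixed by the inertia group of `A`; if the reduction of `ι R` is a `p`-th power, contradiction).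

* `SplitFun M p A` : **function form** at an auxiliary level pair `(M, M p)`: a nonzero
  `f ∈ Fb (M p)` with `p ∣ div f`, whose Kummer class is fixed by the inertia group of `A`, whose
  norms along the two degeneracy maps are trivial classes and whose reduction at the Gauss
  valuation is a constant times a `p`-th power of an element of the reduced field of level `M`,
  is a constant times a `p`-th power.
* `SplitE M p A K` : the same statement for `y ∈ LE (M p) K`, `K` a number field, with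
  `K`-rational norm data (the shape of `S36.InvFun.InvE`).
* `SplitFunStatement`, `SplitEStatement` : the two contracts (`4 ∣ M`, `p ∤ M`, `p ≥ 5`); the
  second one over every `K` of the geometric class `S36.GeomClass A M S₀` (finite over `ℚ`,
  inside the inertia field of `A`, stable under the decomposition group, `ζ_M ∈ K`).
* `nzSplitStatement_of_splitFun : SplitFunStatement → NZ.Bricks.NZSplitStatement`
  (level inclusion `N' p ∣ N' 4 p`, `S36.AuxSquare`, exit `SimLvl.eq_zero_of_sim_one_lvl`).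
* `splitFunStatement_of_splitE : SplitEStatement → SplitFunStatement`
  (the bridge of `S36.InvFun.invFun_of_invE`, with the reduction hypothesis carried along).
-/

set_option autoImplicit false
set_option linter.style.haveILetI false
set_option linter.dupNamespace false
set_option linter.unusedSectionVars false
set_option linter.unusedVariables false
set_option synthInstance.maxHeartbeats 400000

open WeierstrassCurve WeierstrassCurve.Affine WeierstrassCurve.Affine.Point
open HahnSeries ModularCurve AlgebraicCurve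

noncomputable section

namespace Fermat.Agent.S44.L.NZ.Split

open Fermat.Agent.S30 Fermat.Agent.S30.E4 Fermat.Agent.S30.Producer Fermat.Agent.S44.Contract
open Fermat.Agent.S44.L.Top Fermat.Agent.S44.L Fermat.Agent.S44.L.IotaCalc
open Fermat.Agent.S18.K1Defs Fermat.Agent.S36.InvFun
open Fermat.Agent.S37.LevelPull (lvl coe_lvl)

local notation "GQb" => (AlgebraicClosure ℚ ≃ₐ[ℚ] AlgebraicClosure ℚ)

/-! ### The two contracts -/

/-- **The split case, function form**, at the level pair `(M, M * p)` for the valuation ring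
`A`: a nonzero function with `p ∣ div`, inertia-invariant Kummer class, trivial norms along `α`
and `β` and a reduction which is a constant times a `p`-th power is a constant times a `p`-th
power. -/
def SplitFun (M p : ℕ) [NeZero M] [NeZero p] (A : ValuationSubring Qb) : Prop :=
  ∀ f : Fb (M * p), f ≠ 0 → DivBy (M * p) p f →
    (∀ τ ∈ A.inertiaSubgroupIn ℚ, ∃ k : Fb (M * p), gal (M * p) τ f = f * k ^ p) →
    (∃ (c : Qb) (h : Fb M), normA M p f = algebraMap Qb (Fb M) c * h ^ p) →
    (∃ (c : Qb) (h : Fb M), normB M p f = algebraMap Qb (Fb M) c * h ^ p) →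
    (∃ (e : IsLocalRing.ResidueField A) (h : redField M A),
      RedAt (M * p) A f
        (HahnSeries.C e * (h : LaurentSeries (IsLocalRing.ResidueField A)) ^ p)) →
    ∃ (c : Qb) (h : Fb (M * p)), f = algebraMap Qb (Fb (M * p)) c * h ^ p

/-- **(NZ.8, function level).** -/
def SplitFunStatement : Prop :=
  ∀ (p M : ℕ) [NeZero M] [NeZero p], p.Prime → 5 ≤ p → ¬ p ∣ M → 4 ∣ M →
    ∀ A : ValuationSubring Qb, A.LiesOverPrime p → SplitFun M p A

/-- **The split case over a number field `K`**: the statement of `SplitFun` for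
`y ∈ LE (M * p) K`, with `K`-rational norm data. -/
def SplitE (M p : ℕ) [NeZero M] [NeZero p] (A : ValuationSubring Qb)
    (K : IntermediateField ℚ Qb) : Prop :=
  ∀ y : LE (M * p) K, y ≠ 0 → DivBy (M * p) p (upF (M * p) K y) →
    (∃ (c : K) (W : LE M K),
      normA M p (upF (M * p) K y) = upF M K (algebraMap K (LE M K) c * W ^ p)) →
    (∃ (c : K) (W : LE M K),
      normB M p (upF (M * p) K y) = upF M K (algebraMap K (LE M K) c * W ^ p)) →
    (∃ (e : IsLocalRing.ResidueField A) (h : redField M A),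
      RedAt (M * p) A (upF (M * p) K y)
        (HahnSeries.C e * (h : LaurentSeries (IsLocalRing.ResidueField A)) ^ p)) →
    ∃ (c : Qb) (h : Fb (M * p)), upF (M * p) K y = algebraMap Qb (Fb (M * p)) c * h ^ p

/-- **(NZ.8, number-field level).**  The exit of the geometric part (regular model of level
`(M, M p)` over the unramified base `OE A K`, ping-pong, gluing at the closed points, `PthPoint`):
`SplitE` over every base field of the geometric class. -/
def SplitEStatement : Prop :=
  ∀ (p M : ℕ) [NeZero M] [NeZero p], p.Prime → 5 ≤ p → ¬ p ∣ M → 4 ∣ M →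
    ∀ A : ValuationSubring Qb, A.LiesOverPrime p →
    ∃ S₀ : Finset Qb, (∀ s ∈ S₀, ∀ τ ∈ A.inertiaSubgroupIn ℚ, τ s = s) ∧
      ∀ K : IntermediateField ℚ Qb, Fermat.Agent.S36.GeomClass.GeomClass A M S₀ K →
        SplitE M p A K

/-! ### From the function form to `NZSplitStatement` -/

/-- **`NZSplitStatement` from the function form.** -/
theorem nzSplitStatement_of_splitFun (h : SplitFunStatement) : Bricks.NZSplitStatement := by
  intro P N' _ _ W hpN' _ A hA ι hι T R ζ b hdata _ hR g hg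
  have hp : P.p.Prime := P.pp
  have hp5 : 5 ≤ P.p := P.hp5
  have hp0 : P.p ≠ 0 := hp.ne_zero
  have hpR : P.p • R = 0 := hdata.2.1
  have hRT : ∀ k : ℕ, R ≠ k • T := hdata.2.2.2.1
  -- the auxiliary level `N' * 4`
  haveI : NeZero (4 : ℕ) := ⟨by norm_num⟩
  haveI : NeZero (N' * 4) := ⟨Nat.mul_ne_zero (NeZero.ne N') (by norm_num)⟩
  have hp4 : ¬ P.p ∣ 4 := by
    intro hd
    have := Nat.le_of_dvd (by norm_num) hd
    omega
  have hpM : ¬ P.p ∣ N' * 4 := by
    intro hd
    rcases (Nat.Prime.dvd_mul hp).mp hd with h1 | h1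
    · exact hpN' h1
    · exact hp4 h1
  have h4M : 4 ∣ N' * 4 := Dvd.intro_left N' rfl
  have hcop : Nat.Coprime 4 P.p := ((Nat.Prime.coprime_iff_not_dvd hp).mpr hp4).symm
  have hdvd : N' * P.p ∣ N' * 4 * P.p := Fermat.Agent.S36.InvAux.dvd_aux_mul N' P.p 4
  have hx0 : lvl hdvd (ι R) ≠ 0 := (map_ne_zero _).mpr (hι.ne_zero R hpR)
  have hdiv : DivBy (N' * 4 * P.p) P.p (lvl hdvd (ι R)) :=
    Fermat.Agent.S36.InvAux.divBy_lvl hdvd (hι.divBy R hpR)
  have hinv : ∀ τ ∈ A.inertiaSubgroupIn ℚ, ∃ k : Fb (N' * 4 * P.p),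
      gal (N' * 4 * P.p) τ (lvl hdvd (ι R)) = lvl hdvd (ι R) * k ^ P.p := by
    intro τ hτ
    have h1 : Sim Qb P.p (ι (τ • R)) (galF (N' * P.p) τ (ι R)) := sim_gal hι τ hpR
    rw [hR τ hτ] at h1
    obtain ⟨k, -, hk⟩ := h1.symm.exists_eq_mul_pow hp0
    refine ⟨lvl hdvd k, ?_⟩
    have hk' : gal (N' * P.p) τ (ι R) = ι R * k ^ P.p := hk
    rw [Fermat.Agent.S36.InvAux.gal_lvl, hk', map_mul, map_pow]
  have hNA : ∃ (c : Qb) (h' : Fb (N' * 4)),
      normA (N' * 4) P.p (lvl hdvd (ι R)) = algebraMap Qb (Fb (N' * 4)) c * h' ^ P.p := by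
    obtain ⟨c, g', hc⟩ := hι.normAlpha R hpR
    have hc' : normA N' P.p (ι R) = algebraMap Qb (Fb N') c * g' ^ P.p := hc
    refine ⟨c, lvl (Fermat.Agent.S36.InvAux.dvd_aux N' 4) g', ?_⟩
    rw [Fermat.Agent.S36.AuxSquare.normA_lvl N' P.p 4 hp hcop, hc', map_mul, map_pow,
      Fermat.Agent.S36.InvAux.lvl_algebraMap]
  have hNB : ∃ (c : Qb) (h' : Fb (N' * 4)),
      normB (N' * 4) P.p (lvl hdvd (ι R)) = algebraMap Qb (Fb (N' * 4)) c * h' ^ P.p := by
    obtain ⟨c, g', hc⟩ := hι.normBeta R hpR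
    have hc' : normB N' P.p (ι R) = algebraMap Qb (Fb N') c * g' ^ P.p := hc
    refine ⟨c, lvl (Fermat.Agent.S36.InvAux.dvd_aux N' 4) g', ?_⟩
    rw [Fermat.Agent.S36.AuxSquare.normB_lvl N' P.p 4 hp hcop, hc', map_mul, map_pow,
      Fermat.Agent.S36.InvAux.lvl_algebraMap]
  have hred : ∃ (e : IsLocalRing.ResidueField A) (h' : redField (N' * 4) A),
      RedAt (N' * 4 * P.p) A (lvl hdvd (ι R))
        (HahnSeries.C e * (h' : LaurentSeries (IsLocalRing.ResidueField A)) ^ P.p) := by
    refine ⟨1, ⟨(g : LaurentSeries (IsLocalRing.ResidueField A)),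
      DescDeg.redField_le (Dvd.intro 4 rfl) A g.2⟩, ?_⟩
    rw [map_one, one_mul]
    obtain ⟨c, U, V, hc, hU, hV, hxe, hfe⟩ := hg
    exact ⟨c, U, V, hc, hU, hV, by rw [coe_lvl]; exact hxe, hfe⟩
  obtain ⟨c, k, hck⟩ := h P.p (N' * 4) hp hp5 hpM h4M A hA (lvl hdvd (ι R)) hx0 hdiv hinv hNA
    hNB hred
  -- the exit at the auxiliary level
  have hM : N' * 4 * P.p = 4 * (N' * P.p) := by ring
  have hc0 : c ≠ 0 := by
    rintro rfl
    rw [_root_.map_zero, zero_mul] at hck
    exact hx0 hck
  have hk0 : k ≠ 0 := by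
    rintro rfl
    rw [zero_pow hp0, mul_zero] at hck
    exact hx0 hck
  have hsim : Sim Qb P.p (lvl hdvd (ι R)) 1 := ⟨c, k, hc0, hk0, by rw [mul_one]; exact hck⟩
  refine hRT 0 ?_
  rw [zero_nsmul]
  exact SimLvl.eq_zero_of_sim_one_lvl hι hM hdvd hpR hsim

/-! ### The bridge: from the number-field form to the function form -/

/-- A nonzero constant times a `p`-th power, divided by a `p`-th power. -/
theorem const_pow_div {F : Type*} [Field F] [Algebra Qb F] {m : ℕ} {x g : F} (c : Qb) (h : F)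
    (hx : x = algebraMap Qb F c * h ^ m) :
    x * (g ^ m)⁻¹ = algebraMap Qb F c * (h * g⁻¹) ^ m := by
  rw [hx, mul_pow, inv_pow, mul_assoc]

/-- **`SplitFunStatement` from the number-field form** over the geometric class of base
fields. -/
theorem splitFunStatement_of_splitE (h : SplitEStatement) : SplitFunStatement := by
  intro p M _ _ hp hp5 hpM h4M A hA f hf hdiv hinv hNa hNb hred
  obtain ⟨S₀, hS₀, hE⟩ := h p M hp hp5 hpM h4M A hA
  have hm : 0 < p := hp.pos
  -- an inertia-fixed representative of the class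
  obtain ⟨f₀, h₁, hh₁, hff₀, hfix⟩ :=
    Fermat.Agent.S36.Descent.exists_invariant_rep (M * p) A hm f hf hinv
  have hf₀ : f₀ ≠ 0 := by
    rintro rfl
    rw [zero_mul] at hff₀
    exact hf hff₀
  have hf₀eq : f₀ = f * (h₁ ^ p)⁻¹ := by
    rw [hff₀, mul_assoc, mul_inv_cancel₀ (pow_ne_zero p hh₁), mul_one]
  -- its divisor is divisible by `p`
  have hdiv₀ : DivBy (M * p) p f₀ := by
    rw [hf₀eq]
    exact DivBy.mul hf (inv_ne_zero (pow_ne_zero p hh₁)) hdiv (divBy_pow_self (M * p) p h₁).inv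
  -- its norms are constants times `p`-th powers
  have hnorm : ∀ (ν : Fb (M * p) →* Fb M),
      (∃ (c : Qb) (h' : Fb M), ν f = algebraMap Qb (Fb M) c * h' ^ p) →
      ∃ (c : Qb) (h' : Fb M), ν f₀ = algebraMap Qb (Fb M) c * h' ^ p := by
    rintro ν ⟨c, h', hch⟩
    have hν : ν h₁ ≠ 0 := by
      intro h0
      have h1 : ν (h₁ * h₁⁻¹) = 1 := by rw [mul_inv_cancel₀ hh₁, map_one]
      rw [map_mul, h0, zero_mul] at h1
      exact zero_ne_one h1
    refine ⟨c, h' * (ν h₁)⁻¹, ?_⟩
    have h2 : ν f = ν f₀ * ν h₁ ^ p := by rw [hff₀, map_mul, map_pow]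
    have h3 : ν f₀ = ν f * (ν h₁ ^ p)⁻¹ := by
      rw [h2, mul_assoc, mul_inv_cancel₀ (pow_ne_zero p hν), mul_one]
    rw [h3]
    exact const_pow_div c h' hch
  obtain ⟨ca, ha, hca⟩ := hnorm (normA M p) hNa
  obtain ⟨cb, hb, hcb⟩ := hnorm (normB M p) hNb
  -- its reduction is a constant times a `p`-th power
  obtain ⟨e, hh, hfred⟩ := hred
  obtain ⟨r₁, hr₁⟩ := Red.redStatement p M hp hp5 hpM A hA h₁ hh₁
  have hred₀ : RedAt (M * p) A f₀ (HahnSeries.C e *
      ((hh / r₁ : redField M A) : LaurentSeries (IsLocalRing.ResidueField A)) ^ p) := by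
    have h1 := TopLemmas.RedAt.div hfred (TopLemmas.RedAt.pow hr₁ p)
    have e1 : f / h₁ ^ p = f₀ := by rw [hf₀eq, div_eq_mul_inv]
    have e2 : HahnSeries.C e * (hh : LaurentSeries (IsLocalRing.ResidueField A)) ^ p
          / (r₁ : LaurentSeries (IsLocalRing.ResidueField A)) ^ p
        = HahnSeries.C e *
          ((hh / r₁ : redField M A) : LaurentSeries (IsLocalRing.ResidueField A)) ^ p := by
      rw [TopLemmas.coe_div_redField, div_pow, mul_div_assoc]
    rw [e1, e2] at h1
    exact h1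
  -- descent to a base field of the geometric class
  obtain ⟨K, hPK, y, hy⟩ := Fermat.Agent.S36.InvDescent.descent_of_cofinal (M * p) A
    (Fermat.Agent.S36.GeomClass.GeomClass A M S₀)
    (fun S hS => Fermat.Agent.S36.GeomClass.cofinal A hp hA hpM S₀ hS₀ S hS) f₀ hfix
  have hy0 : y ≠ 0 := by
    rintro rfl
    rw [_root_.map_zero] at hy
    exact hf₀ hy.symm
  -- the `K`-rational norm data
  obtain ⟨⟨ga, hga⟩, ⟨gb, hgb⟩⟩ := Fermat.Agent.S36.NormRat.normRat M p K y
  obtain ⟨ca₀, Wa, hWa⟩ := Fermat.Agent.S36.InvDescent.kummerConst M hm K ga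
    ⟨ca, ha, by rw [← hga, hy, hca]⟩
  obtain ⟨cb₀, Wb, hWb⟩ := Fermat.Agent.S36.InvDescent.kummerConst M hm K gb
    ⟨cb, hb, by rw [← hgb, hy, hcb]⟩
  -- the contract
  obtain ⟨c, k, hc⟩ := hE K hPK y hy0 (by rw [hy]; exact hdiv₀)
    ⟨ca₀, Wa, by rw [hga, hWa]⟩ ⟨cb₀, Wb, by rw [hgb, hWb]⟩
    ⟨e, hh / r₁, by rw [hy]; exact hred₀⟩
  rw [hy] at hc
  refine ⟨c, k * h₁, ?_⟩
  rw [hff₀, hc, mul_pow, mul_assoc]

/-- **`NZSplitStatement` from the number-field form.** -/
theorem nzSplitStatement_of_splitE (h : SplitEStatement) : Bricks.NZSplitStatement :=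
  nzSplitStatement_of_splitFun (splitFunStatement_of_splitE h)

end Fermat.Agent.S44.L.NZ.Split

end
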