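import Mathlib
import Fermat.Agent.S44.L.NZ.NodeUnr
import Fermat.Agent.S44.L.NodeLocInst
import Fermat.Agent.S44.L.RedCore
import Fermat.Agent.S44.L.CrossingInst

/-!
# PROGRAM MR (S44), strand L, (L.NZ), row NZ.8: the closed points over the unramified base

Chart-level layer of the split case (helper59).  Setting of `S34/TwoPrimesGauss`, section
`Package` (binder block of `S44/L/NodeLocInst`, section `Main`): `O` a discrete valuation ring
with uniformiser `ϖ`, `ℓ = ϖ * unit` (UNRAMIFIED), `C = Chart O (α u')` the chart ring of level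
`M ℓ`, `L = Frac C`, `rI`, `rZ` the reductions at the two components of the special fibre,
`𝔲 = GaussDVR.unif E ϖ`.

Level-free / coordinate-generic:

* `not_dvd_of_notMem`, `hbr_of_memPow` : localisation bookkeeping.
* `memPow_inf_of_gauss`, `memPow_zero_of_gauss` : `σ x ∈ 𝔲 ^ d V` (resp. `σ (w x) ∈ 𝔲 ^ d V`)
  gives `Depth.MemPow ϖ (ker rI) d x` (resp. at `ker rZ`): the localisation of `C` at a vertical
  prime is the Gauss valuation ring.
* `powAt_smooth_inf`, `powAt_smooth_zero`, `powAt_node` : `PthPoint.PowAt` at ONE maximal ideal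
  `y` of `C`, from the horizontal hypothesis and Gauss depth `≥ 2` on the component(s) through
  `y`; the description of the local ring `C_y` is a hypothesis, in the literal shape of the
  conclusions of `NodeLocInst.smooth_inf_loc_of_unram` / `smooth_zero_loc_of_unram` /
  `node_loc_of_unram_pole`.
* `const_of_node` : at a crossing point the constants of the two Gauss expansions of depth
  `≥ ℓ` differ by an `ℓ`-th power and a factor `1 + ϖ ^ 2 O` (`NodeUnr.node_constants_unram`).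
* `gauss_of_const` : change of the constant of a Gauss expansion of depth `2` by such a factor.

The instances at the coordinate `u₄` are NOT in this file (row NZ.8 is insurance since MR RULING
#5): feed `NodeLocInst.node_loc_u4` / `smooth_inf_loc_u4` / `smooth_zero_loc_u4`,
`NodeC1Inst.mem_or_mem_u4` and `CrossingInst.exists_crossing_u4` to the theorems below.
-/

set_option autoImplicit false
set_option linter.unusedSectionVars false
set_option linter.unusedVariables false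
set_option linter.style.haveILetI false
set_option synthInstance.maxHeartbeats 400000
set_option maxHeartbeats 1000000
set_option maxSynthPendingDepth 3

open ModularCurve Polynomial IntermediateField

noncomputable section

namespace Fermat.Agent.S44.L.NZ.SplitCP

open Fermat.Agent.S30 Fermat.Agent.S34 Fermat.Agent.S34.TwoPrimesGauss
open Fermat.Agent.S44.L.Depth

/-! ### Localisation bookkeeping -/

section Loc

variable {C : Type*} [CommRing C] [IsDomain C] (y : Ideal C) [y.IsPrime]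

/-- If `q ∈ P ⊆ y` (`P` prime), then `a q ∤ a c` in `C_y` for `c ∉ P`. -/
theorem not_dvd_of_notMem (P : Ideal C) [P.IsPrime] (hP : P ≤ y) {q : C} (hq : q ∈ P) {c : C}
    (hc : c ∉ P) :
    ¬ algebraMap C (Localization.AtPrime y) q ∣ algebraMap C (Localization.AtPrime y) c := by
  rintro ⟨r, hr⟩
  obtain ⟨m, n, rfl⟩ := IsLocalization.exists_mk'_eq y.primeCompl r
  have h1 : algebraMap C (Localization.AtPrime y) (c * n)
      = algebraMap C (Localization.AtPrime y) (q * m) := by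
    rw [map_mul, map_mul, hr, mul_assoc, IsLocalization.mk'_spec]
  obtain ⟨k, hk⟩ := (IsLocalization.eq_iff_exists y.primeCompl _).mp h1
  have h2 : (k : C) * (c * n) ∈ P := by
    rw [hk]
    exact P.mul_mem_left _ (P.mul_mem_right _ hq)
  rcases Ideal.IsPrime.mem_or_mem inferInstance h2 with h3 | h3
  · exact k.2 (hP h3)
  · rcases Ideal.IsPrime.mem_or_mem inferInstance h3 with h4 | h4
    · exact hc h4
    · exact n.2 (hP h4)

/-- The branch hypothesis of `NodeGlue` from depth `≥ 2` at a vertical prime. -/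
theorem hbr_of_memPow {L : Type*} [Field L] [Algebra C L] [Algebra (Localization.AtPrime y) L]
    [IsScalarTower C (Localization.AtPrime y) L] (P : Ideal C)
    (s : Localization.AtPrime y)
    (hs : ∀ x : C, x ∉ P → ¬ s ∣ algebraMap C (Localization.AtPrime y) x) (p : ℕ) {ϖC eC : C}
    (hϖe : ϖC = (p : C) * eC) {d : ℕ} (hd : 2 ≤ d) {H g x : L} (hH : H = g ^ p * (1 + x))
    (hx : MemPow ϖC P d x) :
    ∃ (g : L) (a b : Localization.AtPrime y), ¬ s ∣ b ∧
      algebraMap (Localization.AtPrime y) L b * H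
        = g ^ p * algebraMap (Localization.AtPrime y) L
          (b + (p : Localization.AtPrime y) ^ 2 * a) := by
  obtain ⟨t, e, ht, hte⟩ := hx.mono hd
  refine ⟨g, algebraMap C (Localization.AtPrime y) (eC ^ 2 * e),
    algebraMap C (Localization.AtPrime y) t, hs t ht, ?_⟩
  rw [hH, map_add, map_mul, map_pow, map_natCast, ← IsScalarTower.algebraMap_apply,
    ← IsScalarTower.algebraMap_apply]
  rw [hϖe] at hte
  simp only [map_mul, map_pow, map_natCast] at hte ⊢
  linear_combination g ^ p * hte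

end Loc

/-! ### Change of the constant -/

section Const

variable {O E L : Type*} [CommRing O] [IsDomain O] [IsDiscreteValuationRing O] [Field E]
  [Algebra O E] [FaithfulSMul O E] [Field L] [Algebra O L] [Algebra E L] [IsScalarTower O E L]

/-- **Change of the constant.**  If `c₁ x ^ p = c₂ y ^ p (1 + ϖ ^ 2 a)` with `x, y, a ∈ O`, a
Gauss expansion of depth `2` with the constant `c₂` gives one with the constant `c₁`. -/
theorem gauss_of_const (ϖ : O) (hϖ : Irreducible ϖ) (τ : L →+* LaurentSeries E)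
    (hτO : ∀ r : O, τ (algebraMap O L r) = HahnSeries.C (algebraMap O E r)) {p : ℕ}
    {c₁ c₂ : E} {x y a : O} (hx : x ≠ 0) (hy : y ≠ 0)
    (hc : c₁ * algebraMap O E x ^ p
      = c₂ * algebraMap O E y ^ p * (1 + algebraMap O E ϖ ^ 2 * algebraMap O E a)) {f : L}
    (h : ∃ g z : L, g ≠ 0 ∧ f = algebraMap E L c₂ * g ^ p * (1 + z) ∧
      ∃ v : GaussDVR.V O E, τ z = ((GaussDVR.unif E ϖ : GaussDVR.V O E) : LaurentSeries E) ^ 2
        * (v : LaurentSeries E)) :
    ∃ g z : L, g ≠ 0 ∧ f = algebraMap E L c₁ * g ^ p * (1 + z) ∧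
      ∃ v : GaussDVR.V O E, τ z = ((GaussDVR.unif E ϖ : GaussDVR.V O E) : LaurentSeries E) ^ 2
        * (v : LaurentSeries E) := by
  obtain ⟨g, z, hg, hf, v, hv⟩ := h
  have hinjE : Function.Injective (algebraMap O E) := FaithfulSMul.algebraMap_injective O E
  have hne : ∀ r : O, r ≠ 0 → algebraMap O L r ≠ 0 := by
    intro r hr h0
    have h1 := hτO r
    rw [h0, map_zero] at h1
    exact HahnSeries.C_ne_zero ((map_ne_zero_iff _ hinjE).mpr hr) h1.symm
  have hX0 := hne x hx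
  have hY0 := hne y hy
  -- the relation in `L`
  have hcL : algebraMap E L c₁ * algebraMap O L x ^ p = algebraMap E L c₂ * algebraMap O L y ^ p
      * (1 + algebraMap O L ϖ ^ 2 * algebraMap O L a) := by
    have h1 := congrArg (algebraMap E L) hc
    simp only [map_mul, map_pow, map_add, map_one, ← IsScalarTower.algebraMap_apply] at h1
    exact h1
  -- the unit `1 + ϖ ^ 2 a` of the Gauss ring
  obtain ⟨aV, haV⟩ : ∃ aV : GaussDVR.V O E,
      (aV : LaurentSeries E) = HahnSeries.C (algebraMap O E a) :=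
    ⟨GaussDVR.ofInt O E (HahnSeries.C a), GaussDVR.iota_C O E a⟩
  obtain ⟨DV, hDV⟩ : ∃ DV : GaussDVR.V O E, DV = 1 + GaussDVR.unif E ϖ ^ 2 * aV := ⟨_, rfl⟩
  have hred : GaussDVR.red O E DV = 1 := by
    rw [hDV, map_add, map_one, map_mul, map_pow, GaussDVR.red_unif E ϖ hϖ,
      zero_pow two_ne_zero, zero_mul, add_zero]
  have hinv : ((DV : GaussDVR.V O E) : LaurentSeries E)⁻¹ ∈ GaussDVR.V O E :=
    GaussDVR.inv_mem O E DV (by rw [hred]; exact one_ne_zero)
  have hτD : τ (1 + algebraMap O L ϖ ^ 2 * algebraMap O L a)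
      = ((DV : GaussDVR.V O E) : LaurentSeries E) := by
    rw [hDV, map_add, map_one, map_mul, map_pow, hτO, hτO, ← GaussDVR.coe_unif, ← haV]
    push_cast
    rfl
  have hDV0 : ((DV : GaussDVR.V O E) : LaurentSeries E) ≠ 0 := by
    intro h0
    have h1 : DV = 0 := Subtype.ext h0
    rw [h1, map_zero] at hred
    exact zero_ne_one hred
  have hD : 1 + algebraMap O L ϖ ^ 2 * algebraMap O L a ≠ 0 := by
    intro h0
    rw [h0, map_zero] at hτD
    exact hDV0 hτD.symm
  have hYp : algebraMap O L y ^ p ≠ 0 := pow_ne_zero p hY0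
  refine ⟨algebraMap O L x * g / algebraMap O L y,
    (z - algebraMap O L ϖ ^ 2 * algebraMap O L a) / (1 + algebraMap O L ϖ ^ 2 * algebraMap O L a),
    div_ne_zero (mul_ne_zero hX0 hg) hY0, ?_,
    (v - aV) * ⟨((DV : GaussDVR.V O E) : LaurentSeries E)⁻¹, hinv⟩, ?_⟩
  · have h1z : 1 + (z - algebraMap O L ϖ ^ 2 * algebraMap O L a)
        / (1 + algebraMap O L ϖ ^ 2 * algebraMap O L a)
        = (1 + z) / (1 + algebraMap O L ϖ ^ 2 * algebraMap O L a) := by
      rw [eq_div_iff hD, add_mul, div_mul_cancel₀ _ hD]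
      ring
    rw [h1z, hf, div_pow, mul_pow]
    have h2 : algebraMap E L c₁ * (algebraMap O L x ^ p * g ^ p / algebraMap O L y ^ p)
        * ((1 + z) / (1 + algebraMap O L ϖ ^ 2 * algebraMap O L a))
        = (algebraMap E L c₁ * algebraMap O L x ^ p) * g ^ p * (1 + z)
          / (algebraMap O L y ^ p * (1 + algebraMap O L ϖ ^ 2 * algebraMap O L a)) := by
      field_simp
    rw [h2, hcL, eq_div_iff (mul_ne_zero hYp hD)]
    ring
  · rw [map_div₀, map_sub, map_mul, map_pow, hτD, hv, hτO, hτO, ← GaussDVR.coe_unif, ← haV,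
      div_eq_mul_inv]
    push_cast
    ring

end Const

/-! ### The two Gauss rings are the localisations of the chart at the vertical primes -/

section Main

variable {O E : Type*} [CommRing O] [IsDomain O] [IsDiscreteValuationRing O] [Field E]
  [CharZero E] [Algebra O E] [IsFractionRing O E]
  {L' L : Type*} [Field L'] [Field L] [Algebra E L'] [Algebra O L'] [IsScalarTower O E L']
  [Algebra O L] [Algebra E L] [IsScalarTower O E L]
  (ϖ : O) (hϖ : Irreducible ϖ)
  (α : L' →+* L) (hαO : ∀ r : O, α (algebraMap O L' r) = algebraMap O L r)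
  (σ : L →+* LaurentSeries E)
  (hσO : ∀ r : O, σ (algebraMap O L r) = HahnSeries.C (algebraMap O E r))
  (hσfrac : ∀ x : L, σ x ∈ GaussDVR.fracField O E)
  (u' : L') (U : LaurentSeries O) (hσu : σ (α u') = GaussDVR.iota O E U)
  (w : L ≃+* L) (hwO : ∀ r : O, w (algebraMap O L r) = algebraMap O L r)
  (ℓ : ℕ) [NeZero ℓ]
  (hwα : ∀ x : L', σ (w (α x)) = qExpand E ℓ (σ (α x)))
  (hww : ∀ z : L, w (w z) = z)
  (hprime : Prime (piC u' ϖ))
  (hcop : IsCoprime (GaussDVR.rho O U).order (ℓ : ℤ)) (hord : (GaussDVR.rho O U).order ≠ 0)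
  (hℓ : 2 ≤ ℓ)
  (hfrob : qExpand (IsLocalRing.ResidueField O) ℓ (GaussDVR.rho O U) = GaussDVR.rho O U ^ ℓ)
  (hwu : IsIntegral (Algebra.adjoin O {α u'}) (w (α u')))
  (hrank : ∀ v : Option (Fin 1 ⊕ Fin ℓ) → Chart O (α u'),
    ∃ c : Option (Fin 1 ⊕ Fin ℓ) → Chart O u', c ≠ 0 ∧ ∑ i, incl α hαO u' (c i) * v i = 0)

local notation "rI" => redInf ϖ hϖ α σ hσO hσfrac u' U hσu
local notation "rZ" => redZero ϖ hϖ α σ hσO hσfrac u' U hσu w hwO ℓ hwα
local notation "uC" => incl α hαO u' (polyChart u' X)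
local notation "vC" =>
  Fermat.Agent.S34.Modular.ChartZero.wChart α u' w hwO hww hwu (incl α hαO u' (polyChart u' X))
local notation "WC" => Fermat.Agent.S34.Modular.ChartZero.wChart α u' w hwO hww hwu
local notation "𝔲" => ((GaussDVR.unif E ϖ : GaussDVR.V O E) : LaurentSeries E)

include hϖ hαO hσO hσfrac hσu hwO hwα hww hprime hcop hord hℓ hfrob hwu hrank in
/-- **Depth at the `∞`-component from the Gauss expansion.** -/
theorem memPow_inf_of_gauss [IsFractionRing (Chart O (α u')) L] (x : L) (d : ℕ)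
    (v : GaussDVR.V O E) (hx : σ x = 𝔲 ^ d * (v : LaurentSeries E)) :
    MemPow (piC (α u') ϖ) (RingHom.ker rI) d x := by
  have h𝔲 : 𝔲 ≠ 0 := GaussDVR.coe_unif_ne_zero E ϖ hϖ
  have hσπ : σ (algebraMap O L ϖ) = 𝔲 := by rw [hσO, GaussDVR.coe_unif]
  have hπL : algebraMap O L ϖ ≠ 0 := by
    intro h0
    rw [h0, map_zero] at hσπ
    exact h𝔲 hσπ.symm
  have hne : algebraMap O L ϖ ^ d ≠ 0 := pow_ne_zero d hπL
  have hx' : σ (x / algebraMap O L ϖ ^ d) ∈ GaussDVR.V O E := by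
    rw [map_div₀, map_pow, hσπ, hx, mul_div_cancel_left₀ _ (pow_ne_zero d h𝔲)]
    exact v.2
  obtain ⟨c, s, hs, hxs⟩ := Fermat.Agent.S44.L.RedCore.exists_frac_redInf_ne_zero ϖ hϖ α hαO σ
    hσO hσfrac u' U hσu w hwO ℓ hwα hww hprime hcop hord hℓ hfrob hwu hrank
    (x / algebraMap O L ϖ ^ d) hx'
  refine ⟨s, c, fun h => hs (RingHom.mem_ker.mp h), ?_⟩
  have h1 : algebraMap (Chart O (α u')) L (piC (α u') ϖ ^ d * c)
      = algebraMap O L ϖ ^ d * (c : L) := by
    rw [map_mul, map_pow]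
    rfl
  have h2 : algebraMap O L ϖ ^ d * (x / algebraMap O L ϖ ^ d) = x := mul_div_cancel₀ _ hne
  rw [h1, ← hxs]
  calc algebraMap (Chart O (α u')) L s * x
      = (s : L) * (algebraMap O L ϖ ^ d * (x / algebraMap O L ϖ ^ d)) := by rw [h2]; rfl
    _ = algebraMap O L ϖ ^ d * (x / algebraMap O L ϖ ^ d * (s : L)) := by ring

include hϖ hαO hσO hσfrac hσu hwO hwα hww hprime hcop hord hℓ hfrob hwu hrank in
/-- **Depth at the `0`-component from the Gauss expansion of `w x`.** -/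
theorem memPow_zero_of_gauss [IsFractionRing (Chart O (α u')) L] (x : L) (d : ℕ)
    (v : GaussDVR.V O E) (hx : σ (w x) = 𝔲 ^ d * (v : LaurentSeries E)) :
    MemPow (piC (α u') ϖ) (RingHom.ker rZ) d x := by
  obtain ⟨t, e, ht, hte⟩ := memPow_inf_of_gauss ϖ hϖ α hαO σ hσO hσfrac u' U hσu w hwO ℓ hwα hww
    hprime hcop hord hℓ hfrob hwu hrank (w x) d v hx
  refine ⟨WC t, WC e, fun h => ht ?_, ?_⟩
  · exact (Fermat.Agent.S34.Modular.ChartZero.wChart_mem_ker_redZero ϖ hϖ α σ hσO hσfrac u' U hσu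
      w hwO ℓ hwα hww hwu t).mp h
  · have h1 := congrArg w hte
    rw [map_mul, hww] at h1
    have h3 : w (algebraMap (Chart O (α u')) L (piC (α u') ϖ))
        = algebraMap (Chart O (α u')) L (piC (α u') ϖ) := hwO ϖ
    have h2 : algebraMap (Chart O (α u')) L (piC (α u') ϖ ^ d * WC e)
        = w (algebraMap (Chart O (α u')) L (piC (α u') ϖ ^ d * e)) := by
      rw [map_mul, map_mul, map_pow, map_mul, map_pow, h3]
      rfl
    rw [h2, ← h1]
    rfl

include hwα hfrob in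
/-- `t₁ = vC - uC ^ ℓ` vanishes on the `∞`-component. -/
theorem t1_mem_ker_redInf : vC - uC ^ ℓ ∈ RingHom.ker rI := by
  rw [RingHom.mem_ker, map_sub, map_pow,
    Fermat.Agent.S36.ThickGauss.redInf_vC ϖ hϖ α hαO σ hσO hσfrac u' U hσu w hwO ℓ hwα hww hwu,
    Fermat.Agent.S36.ThickGauss.redInf_uC ϖ hϖ α hαO σ hσO hσfrac u' U hσu, hfrob, sub_self]

include hfrob in
/-- `t₂ = uC - vC ^ ℓ` vanishes on the `0`-component. -/
theorem t2_mem_ker_redZero : uC - vC ^ ℓ ∈ RingHom.ker rZ := by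
  rw [RingHom.mem_ker, map_sub, map_pow,
    Fermat.Agent.S36.ThickGauss.redZero_vC ϖ hϖ α hαO σ hσO hσfrac u' U hσu w hwO ℓ hwα hww hwu,
    Fermat.Agent.S36.ThickGauss.redZero_uC ϖ hϖ α hαO σ hσO hσfrac u' U hσu w hwO ℓ hwα, hfrob,
    sub_self]

include hϖ in
/-- `ϖ` vanishes on the `∞`-component. -/
theorem piC_mem_ker_redInf : piC (α u') ϖ ∈ RingHom.ker rI := by
  rw [RingHom.mem_ker, Fermat.Agent.S36.ThickGauss.redInf_piC ϖ hϖ α σ hσO hσfrac u' U hσu,
    GaussDVR.residue_unif ϖ hϖ, map_zero]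

include hϖ hww hwu in
/-- `ϖ` vanishes on the `0`-component. -/
theorem piC_mem_ker_redZero : piC (α u') ϖ ∈ RingHom.ker rZ := by
  have h1 : WC (piC (α u') ϖ) = piC (α u') ϖ := Subtype.ext (hwO ϖ)
  have h2 := (Fermat.Agent.S34.Modular.ChartZero.wChart_mem_ker_redInf ϖ hϖ α σ hσO hσfrac u' U
    hσu w hwO ℓ hwα hww hwu (piC (α u') ϖ)).mp
  rw [h1] at h2
  exact h2 (piC_mem_ker_redInf ϖ hϖ α σ hσO hσfrac u' U hσu)


/-! ### `PthPoint.PowAt` at one closed point -/

include hϖ hαO hσO hσfrac hσu hwO hwα hww hprime hcop hord hℓ hfrob hwu hrank in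
/-- **`PowAt` at a point of the `∞`-component where the fibre is smooth**
(hypothesis `hloc` = the conclusion of `NodeLocInst.smooth_inf_loc_of_unram`). -/
theorem powAt_smooth_inf [IsFractionRing (Chart O (α u')) L] (hℓp : ℓ.Prime)
    (e : O) (he : IsUnit e) (hℓe : ((ℓ : ℕ) : O) = ϖ * e)
    (y : Ideal (Chart O (α u'))) [hy : y.IsMaximal] (hIy : RingHom.ker rI ≤ y)
    (hloc : IsNoetherianRing (Localization.AtPrime y) ∧
      Prime ((ℓ : ℕ) : Localization.AtPrime y) ∧
      ∃ θ : Localization.AtPrime y, IsLocalRing.maximalIdeal (Localization.AtPrime y) =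
        Ideal.span {((ℓ : ℕ) : Localization.AtPrime y), θ})
    (H : L) (hH0 : H ≠ 0)
    (hHor : ∀ Q : Ideal (Chart O (α u')), Q.IsPrime → piC (α u') ϖ ∉ Q →
      ∃ (τ : L) (s b : Chart O (α u')), τ ≠ 0 ∧ s ∉ Q ∧ b ∉ Q ∧
        H * algebraMap (Chart O (α u')) L s = τ ^ ℓ * algebraMap (Chart O (α u')) L b)
    (hI : ∃ g x : L, H = g ^ ℓ * (1 + x) ∧ ∃ v : GaussDVR.V O E,
      σ x = 𝔲 ^ 2 * (v : LaurentSeries E)) :
    PthPoint.PowAt (Algebra.adjoin O ({α u'} : Set L)) ℓ H y := by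
  classical
  letI := Fermat.Agent.S44.L.NodeLocInst.algebraLoc L y
  haveI := Fermat.Agent.S44.L.NodeLocInst.isScalarTower_loc L y
  haveI := Fermat.Agent.S44.L.NodeLocInst.isFractionRing_loc L y
  obtain ⟨hN, hpr, θ, hm⟩ := hloc
  haveI := hN
  haveI : (RingHom.ker rI).IsPrime := RingHom.ker_isPrime _
  haveI : IsDomain (Localization.AtPrime y ⧸ Ideal.span {((ℓ : ℕ) : Localization.AtPrime y)}) :=
    Fermat.Agent.S44.L.Node.isDomain_quot hpr
  haveI : IsPrincipalIdealRing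
      (Localization.AtPrime y ⧸ Ideal.span {((ℓ : ℕ) : Localization.AtPrime y)}) :=
    Fermat.Agent.S44.L.Node.isPrincipalIdealRing_quot hpr hm
  obtain ⟨g, x, hH, v, hv⟩ := hI
  have hmem := memPow_inf_of_gauss ϖ hϖ α hαO σ hσO hσfrac u' U hσu w hwO ℓ hwα hww hprime hcop
    hord hℓ hfrob hwu hrank x 2 v hv
  have hℓC : ((ℓ : ℕ) : Chart O (α u')) = piC (α u') ϖ * piC (α u') e :=
    Fermat.Agent.S44.L.NodeLocInst.natCast_eq_piC_mul (α u') ℓ ϖ e hℓe
  obtain ⟨e', he'⟩ := he.exists_right_inv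
  have hϖe : piC (α u') ϖ = ((ℓ : ℕ) : Chart O (α u')) * piC (α u') e' := by
    have h0 : piC (α u') (e * e') = piC (α u') e * piC (α u') e' := by
      simp only [piC, map_mul]
    have h1 : piC (α u') e * piC (α u') e' = 1 := by
      rw [← h0, he']
      simp only [piC, map_one]
    rw [hℓC, mul_assoc, h1, mul_one]
  have hℓI : ((ℓ : ℕ) : Chart O (α u')) ∈ RingHom.ker rI := by
    rw [hℓC]
    exact Ideal.mul_mem_right _ _ (piC_mem_ker_redInf ϖ hϖ α σ hσO hσfrac u' U hσu)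
  refine Fermat.Agent.S44.L.NodeGlue.powAt_of_smooth (Algebra.adjoin O ({α u'} : Set L)) y
    (Localization.AtPrime y) ℓ hℓp hpr.ne_zero (Associated.refl _) H hH0 ?_ ?_
  · intro q hq hqℓ
    refine Fermat.Agent.S44.L.NodeAdapt.hhor_of_horiz
      (algebraMap (Chart O (α u')) (Localization.AtPrime y)) (RingHom.id L)
      (fun c => IsScalarTower.algebraMap_apply (Chart O (α u')) (Localization.AtPrime y) L c)
      hHor q hq (fun hd => hqℓ (hd.trans ?_))
    exact ⟨algebraMap (Chart O (α u')) (Localization.AtPrime y) (piC (α u') e), by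
      rw [← map_mul, ← hℓC, map_natCast]⟩
  · refine hbr_of_memPow y (RingHom.ker rI) _ (fun c hc => ?_) ℓ hϖe (le_refl 2) hH hmem
    have h1 := not_dvd_of_notMem y (RingHom.ker rI) hIy hℓI hc
    rwa [map_natCast] at h1

include hϖ hαO hσO hσfrac hσu hwO hwα hww hprime hcop hord hℓ hfrob hwu hrank in
/-- **`PowAt` at a point of the `0`-component where the fibre is smooth**
(hypothesis `hloc` = the conclusion of `NodeLocInst.smooth_zero_loc_of_unram`). -/
theorem powAt_smooth_zero [IsFractionRing (Chart O (α u')) L] (hℓp : ℓ.Prime)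
    (e : O) (he : IsUnit e) (hℓe : ((ℓ : ℕ) : O) = ϖ * e)
    (y : Ideal (Chart O (α u'))) [hy : y.IsMaximal] (hZy : RingHom.ker rZ ≤ y)
    (hloc : IsNoetherianRing (Localization.AtPrime y) ∧
      Prime ((ℓ : ℕ) : Localization.AtPrime y) ∧
      ∃ θ : Localization.AtPrime y, IsLocalRing.maximalIdeal (Localization.AtPrime y) =
        Ideal.span {((ℓ : ℕ) : Localization.AtPrime y), θ})
    (H : L) (hH0 : H ≠ 0)
    (hHor : ∀ Q : Ideal (Chart O (α u')), Q.IsPrime → piC (α u') ϖ ∉ Q →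
      ∃ (τ : L) (s b : Chart O (α u')), τ ≠ 0 ∧ s ∉ Q ∧ b ∉ Q ∧
        H * algebraMap (Chart O (α u')) L s = τ ^ ℓ * algebraMap (Chart O (α u')) L b)
    (hZ : ∃ g x : L, H = g ^ ℓ * (1 + x) ∧ ∃ v : GaussDVR.V O E,
      σ (w x) = 𝔲 ^ 2 * (v : LaurentSeries E)) :
    PthPoint.PowAt (Algebra.adjoin O ({α u'} : Set L)) ℓ H y := by
  classical
  letI := Fermat.Agent.S44.L.NodeLocInst.algebraLoc L y
  haveI := Fermat.Agent.S44.L.NodeLocInst.isScalarTower_loc L y
  haveI := Fermat.Agent.S44.L.NodeLocInst.isFractionRing_loc L y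
  obtain ⟨hN, hpr, θ, hm⟩ := hloc
  haveI := hN
  haveI : (RingHom.ker rZ).IsPrime := RingHom.ker_isPrime _
  haveI : IsDomain (Localization.AtPrime y ⧸ Ideal.span {((ℓ : ℕ) : Localization.AtPrime y)}) :=
    Fermat.Agent.S44.L.Node.isDomain_quot hpr
  haveI : IsPrincipalIdealRing
      (Localization.AtPrime y ⧸ Ideal.span {((ℓ : ℕ) : Localization.AtPrime y)}) :=
    Fermat.Agent.S44.L.Node.isPrincipalIdealRing_quot hpr hm
  obtain ⟨g, x, hH, v, hv⟩ := hZ
  have hmem := memPow_zero_of_gauss ϖ hϖ α hαO σ hσO hσfrac u' U hσu w hwO ℓ hwα hww hprime hcop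
    hord hℓ hfrob hwu hrank x 2 v hv
  have hℓC : ((ℓ : ℕ) : Chart O (α u')) = piC (α u') ϖ * piC (α u') e :=
    Fermat.Agent.S44.L.NodeLocInst.natCast_eq_piC_mul (α u') ℓ ϖ e hℓe
  obtain ⟨e', he'⟩ := he.exists_right_inv
  have hϖe : piC (α u') ϖ = ((ℓ : ℕ) : Chart O (α u')) * piC (α u') e' := by
    have h0 : piC (α u') (e * e') = piC (α u') e * piC (α u') e' := by
      simp only [piC, map_mul]
    have h1 : piC (α u') e * piC (α u') e' = 1 := by
      rw [← h0, he']
      simp only [piC, map_one]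
    rw [hℓC, mul_assoc, h1, mul_one]
  have hℓZ : ((ℓ : ℕ) : Chart O (α u')) ∈ RingHom.ker rZ := by
    rw [hℓC]
    exact Ideal.mul_mem_right _ _
      (piC_mem_ker_redZero ϖ hϖ α σ hσO hσfrac u' U hσu w hwO ℓ hwα hww hwu)
  refine Fermat.Agent.S44.L.NodeGlue.powAt_of_smooth (Algebra.adjoin O ({α u'} : Set L)) y
    (Localization.AtPrime y) ℓ hℓp hpr.ne_zero (Associated.refl _) H hH0 ?_ ?_
  · intro q hq hqℓ
    refine Fermat.Agent.S44.L.NodeAdapt.hhor_of_horiz
      (algebraMap (Chart O (α u')) (Localization.AtPrime y)) (RingHom.id L)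
      (fun c => IsScalarTower.algebraMap_apply (Chart O (α u')) (Localization.AtPrime y) L c)
      hHor q hq (fun hd => hqℓ (hd.trans ?_))
    exact ⟨algebraMap (Chart O (α u')) (Localization.AtPrime y) (piC (α u') e), by
      rw [← map_mul, ← hℓC, map_natCast]⟩
  · refine hbr_of_memPow y (RingHom.ker rZ) _ (fun c hc => ?_) ℓ hϖe (le_refl 2) hH hmem
    have h1 := not_dvd_of_notMem y (RingHom.ker rZ) hZy hℓZ hc
    rwa [map_natCast] at h1

include hϖ hαO hσO hσfrac hσu hwO hwα hww hprime hcop hord hℓ hfrob hwu hrank in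
/-- **`PowAt` at a crossing point** (hypothesis `hloc` = the conclusion of
`NodeLocInst.node_loc_of_unram_pole`), from Gauss depth `≥ 2` on both components with the SAME
constant. -/
theorem powAt_node [IsFractionRing (Chart O (α u')) L] (hℓp : ℓ.Prime)
    (e : O) (he : IsUnit e) (hℓe : ((ℓ : ℕ) : O) = ϖ * e)
    (y : Ideal (Chart O (α u'))) [hy : y.IsMaximal] (hIy : RingHom.ker rI ≤ y)
    (hZy : RingHom.ker rZ ≤ y)
    (hloc : IsNoetherianRing (Localization.AtPrime y) ∧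
      ∃ x₀ : Localization.AtPrime y,
        Associated x₀ (algebraMap (Chart O (α u')) (Localization.AtPrime y) (vC - uC ^ ℓ)) ∧
        Prime x₀ ∧
        Prime (algebraMap (Chart O (α u')) (Localization.AtPrime y) (uC - vC ^ ℓ)) ∧
        ¬ Associated x₀ (algebraMap (Chart O (α u')) (Localization.AtPrime y) (uC - vC ^ ℓ)) ∧
        IsLocalRing.maximalIdeal (Localization.AtPrime y) =
          Ideal.span {x₀, algebraMap (Chart O (α u')) (Localization.AtPrime y) (uC - vC ^ ℓ)} ∧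
        x₀ * algebraMap (Chart O (α u')) (Localization.AtPrime y) (uC - vC ^ ℓ) =
          ((ℓ : ℕ) : Localization.AtPrime y))
    (H : L) (hH0 : H ≠ 0)
    (hHor : ∀ Q : Ideal (Chart O (α u')), Q.IsPrime → piC (α u') ϖ ∉ Q →
      ∃ (τ : L) (s b : Chart O (α u')), τ ≠ 0 ∧ s ∉ Q ∧ b ∉ Q ∧
        H * algebraMap (Chart O (α u')) L s = τ ^ ℓ * algebraMap (Chart O (α u')) L b)
    (hI : ∃ g x : L, H = g ^ ℓ * (1 + x) ∧ ∃ v : GaussDVR.V O E,
      σ x = 𝔲 ^ 2 * (v : LaurentSeries E))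
    (hZ : ∃ g x : L, H = g ^ ℓ * (1 + x) ∧ ∃ v : GaussDVR.V O E,
      σ (w x) = 𝔲 ^ 2 * (v : LaurentSeries E)) :
    PthPoint.PowAt (Algebra.adjoin O ({α u'} : Set L)) ℓ H y := by
  classical
  letI := Fermat.Agent.S44.L.NodeLocInst.algebraLoc L y
  haveI := Fermat.Agent.S44.L.NodeLocInst.isScalarTower_loc L y
  haveI := Fermat.Agent.S44.L.NodeLocInst.isFractionRing_loc L y
  obtain ⟨hN, x₀, hass, hp₁, hp₂, hne, hm, hmul⟩ := hloc
  haveI := hN
  haveI : (RingHom.ker rI).IsPrime := RingHom.ker_isPrime _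
  haveI : (RingHom.ker rZ).IsPrime := RingHom.ker_isPrime _
  obtain ⟨g₁, x₁, hH₁, v₁, hv₁⟩ := hI
  obtain ⟨g₂, x₂, hH₂, v₂, hv₂⟩ := hZ
  have hmem₁ := memPow_inf_of_gauss ϖ hϖ α hαO σ hσO hσfrac u' U hσu w hwO ℓ hwα hww hprime hcop
    hord hℓ hfrob hwu hrank x₁ 2 v₁ hv₁
  have hmem₂ := memPow_zero_of_gauss ϖ hϖ α hαO σ hσO hσfrac u' U hσu w hwO ℓ hwα hww hprime hcop
    hord hℓ hfrob hwu hrank x₂ 2 v₂ hv₂
  have hℓC : ((ℓ : ℕ) : Chart O (α u')) = piC (α u') ϖ * piC (α u') e :=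
    Fermat.Agent.S44.L.NodeLocInst.natCast_eq_piC_mul (α u') ℓ ϖ e hℓe
  obtain ⟨e', he'⟩ := he.exists_right_inv
  have hϖe : piC (α u') ϖ = ((ℓ : ℕ) : Chart O (α u')) * piC (α u') e' := by
    have h0 : piC (α u') (e * e') = piC (α u') e * piC (α u') e' := by
      simp only [piC, map_mul]
    have h1 : piC (α u') e * piC (α u') e' = 1 := by
      rw [← h0, he']
      simp only [piC, map_one]
    rw [hℓC, mul_assoc, h1, mul_one]
  refine Fermat.Agent.S44.L.NodeGlue.powAt_of_node (Algebra.adjoin O ({α u'} : Set L)) y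
    (Localization.AtPrime y) ℓ hℓp hp₁ hp₂ hne hm
    ⟨1, by rw [Units.val_one, mul_one, hmul]⟩ H hH0 ?_ ?_ ?_
  · intro q hq hqℓ
    refine Fermat.Agent.S44.L.NodeAdapt.hhor_of_horiz
      (algebraMap (Chart O (α u')) (Localization.AtPrime y)) (RingHom.id L)
      (fun c => IsScalarTower.algebraMap_apply (Chart O (α u')) (Localization.AtPrime y) L c)
      hHor q hq (fun hd => hqℓ (hd.trans ?_))
    exact ⟨algebraMap (Chart O (α u')) (Localization.AtPrime y) (piC (α u') e), by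
      rw [← map_mul, ← hℓC, map_natCast]⟩
  · refine hbr_of_memPow y (RingHom.ker rI) x₀ (fun c hc hd => ?_) ℓ hϖe (le_refl 2) hH₁ hmem₁
    exact not_dvd_of_notMem y (RingHom.ker rI) hIy
      (t1_mem_ker_redInf ϖ hϖ α hαO σ hσO hσfrac u' U hσu w hwO ℓ hwα hww hfrob hwu) hc
      (hass.symm.dvd.trans hd)
  · refine hbr_of_memPow y (RingHom.ker rZ) _ (fun c hc => ?_) ℓ hϖe (le_refl 2) hH₂ hmem₂
    exact not_dvd_of_notMem y (RingHom.ker rZ) hZy
      (t2_mem_ker_redZero ϖ hϖ α hαO σ hσO hσfrac u' U hσu w hwO ℓ hwα hww hfrob hwu) hc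

/-! ### The constants at a crossing point -/

include hϖ hαO hσO hσfrac hσu hwO hwα hww hprime hcop hord hℓ hfrob hwu hrank in
/-- **The step (X), unramified base.**  At a crossing point `y` the constants of two Gauss
expansions of depth `≥ ℓ` of a horizontal `f` (at `∞` and at `0`) differ by an `ℓ`-th power and
a factor `1 + ϖ ^ 2 O`. -/
theorem const_of_node [IsFractionRing (Chart O (α u')) L] (hℓp : ℓ.Prime)
    (e : O) (he : IsUnit e) (hℓe : ((ℓ : ℕ) : O) = ϖ * e)
    (hperf : ∀ a : O, ∃ b : O, ϖ ∣ a - b ^ ℓ)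
    (y : Ideal (Chart O (α u'))) [hy : y.IsMaximal] (hIy : RingHom.ker rI ≤ y)
    (hZy : RingHom.ker rZ ≤ y)
    (hloc : IsNoetherianRing (Localization.AtPrime y) ∧
      ∃ x₀ : Localization.AtPrime y,
        Associated x₀ (algebraMap (Chart O (α u')) (Localization.AtPrime y) (vC - uC ^ ℓ)) ∧
        Prime x₀ ∧
        Prime (algebraMap (Chart O (α u')) (Localization.AtPrime y) (uC - vC ^ ℓ)) ∧
        ¬ Associated x₀ (algebraMap (Chart O (α u')) (Localization.AtPrime y) (uC - vC ^ ℓ)) ∧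
        IsLocalRing.maximalIdeal (Localization.AtPrime y) =
          Ideal.span {x₀, algebraMap (Chart O (α u')) (Localization.AtPrime y) (uC - vC ^ ℓ)} ∧
        x₀ * algebraMap (Chart O (α u')) (Localization.AtPrime y) (uC - vC ^ ℓ) =
          ((ℓ : ℕ) : Localization.AtPrime y))
    (f : L) (hf : f ≠ 0)
    (hHor : ∀ Q : Ideal (Chart O (α u')), Q.IsPrime → piC (α u') ϖ ∉ Q →
      ∃ (τ : L) (s b : Chart O (α u')), τ ≠ 0 ∧ s ∉ Q ∧ b ∉ Q ∧
        f * algebraMap (Chart O (α u')) L s = τ ^ ℓ * algebraMap (Chart O (α u')) L b)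
    (c₁ c₂ : E) (hc₁ : c₁ ≠ 0) (hc₂ : c₂ ≠ 0)
    (h₁ : ∃ g x : L, g ≠ 0 ∧ f = algebraMap E L c₁ * g ^ ℓ * (1 + x) ∧ ∃ v : GaussDVR.V O E,
      σ x = 𝔲 ^ ℓ * (v : LaurentSeries E))
    (h₂ : ∃ g x : L, g ≠ 0 ∧ f = algebraMap E L c₂ * g ^ ℓ * (1 + x) ∧ ∃ v : GaussDVR.V O E,
      σ (w x) = 𝔲 ^ ℓ * (v : LaurentSeries E)) :
    ∃ a b r : O, a ≠ 0 ∧ b ≠ 0 ∧
      c₁ * algebraMap O E a ^ ℓ
        = c₂ * algebraMap O E b ^ ℓ * (1 + algebraMap O E ϖ ^ 2 * algebraMap O E r) := by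
  classical
  letI := Fermat.Agent.S44.L.NodeLocInst.algebraLoc L y
  haveI := Fermat.Agent.S44.L.NodeLocInst.isScalarTower_loc L y
  haveI := Fermat.Agent.S44.L.NodeLocInst.isFractionRing_loc L y
  obtain ⟨hN, x₀, hass, hp₁, hp₂, hne, hm, hmul⟩ := hloc
  haveI := hN
  haveI : (RingHom.ker rI).IsPrime := RingHom.ker_isPrime _
  haveI : (RingHom.ker rZ).IsPrime := RingHom.ker_isPrime _
  obtain ⟨g₁, x₁, hg₁, hf₁, v₁, hv₁⟩ := h₁
  obtain ⟨g₂, x₂, hg₂, hf₂, v₂, hv₂⟩ := h₂
  have hmem₁ := memPow_inf_of_gauss ϖ hϖ α hαO σ hσO hσfrac u' U hσu w hwO ℓ hwα hww hprime hcop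
    hord hℓ hfrob hwu hrank x₁ ℓ v₁ hv₁
  have hmem₂ := memPow_zero_of_gauss ϖ hϖ α hαO σ hσO hσfrac u' U hσu w hwO ℓ hwα hww hprime hcop
    hord hℓ hfrob hwu hrank x₂ ℓ v₂ hv₂
  -- the base inside the local ring
  have hOC : ∀ c : O, algebraMap O (Localization.AtPrime y) c
      = algebraMap (Chart O (α u')) (Localization.AtPrime y) (piC (α u') c) := by
    intro c
    rw [IsScalarTower.algebraMap_apply O (Chart O (α u')) (Localization.AtPrime y)]
    rfl
  obtain ⟨ue, hue⟩ := he.map (algebraMap O (Localization.AtPrime y))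
  have hst : Associated
      (x₀ * algebraMap (Chart O (α u')) (Localization.AtPrime y) (uC - vC ^ ℓ))
      (algebraMap O (Localization.AtPrime y) ϖ) := by
    refine Associated.symm ⟨ue, ?_⟩
    rw [hue, ← map_mul, ← hℓe, map_natCast, hmul]
  exact Fermat.Agent.S44.L.NZ.NodeUnr.node_constants_unram ℓ hℓp ϖ hϖ ⟨e, hℓe⟩ hperf x₀
    (algebraMap (Chart O (α u')) (Localization.AtPrime y) (uC - vC ^ ℓ)) hp₁ hp₂ hne hm hst
    (algebraMap (Chart O (α u')) (Localization.AtPrime y)) (RingHom.id L)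
    (fun c => IsScalarTower.algebraMap_apply (Chart O (α u')) (Localization.AtPrime y) L c)
    (fun c => by
      show algebraMap E L (algebraMap O E c)
        = algebraMap (Localization.AtPrime y) L (algebraMap O (Localization.AtPrime y) c)
      rw [hOC, ← IsScalarTower.algebraMap_apply (Chart O (α u')) (Localization.AtPrime y) L,
        ← IsScalarTower.algebraMap_apply O E L]
      rfl)
    (piC (α u') ϖ) (hOC ϖ).symm (RingHom.ker rI) (RingHom.ker rZ)
    (fun c hc hd => not_dvd_of_notMem y (RingHom.ker rI) hIy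
      (t1_mem_ker_redInf ϖ hϖ α hαO σ hσO hσfrac u' U hσu w hwO ℓ hwα hww hfrob hwu) hc
      (hass.symm.dvd.trans hd))
    (fun c hc => not_dvd_of_notMem y (RingHom.ker rZ) hZy
      (t2_mem_ker_redZero ϖ hϖ α hαO σ hσO hσfrac u' U hσu w hwO ℓ hwα hww hfrob hwu) hc)
    f hf hHor c₁ c₂ hc₁ hc₂ (le_refl ℓ) ⟨g₁, x₁, hg₁, hf₁, hmem₁⟩ ⟨g₂, x₂, hg₂, hf₂, hmem₂⟩

end Main

end Fermat.Agent.S44.L.NZ.SplitCP
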