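import Mathlib
import Fermat.Agent.S34.Modular.SwapE
import Fermat.Agent.S37.LevelPull

/-!
# PROGRAM MR (S44), strand L, NZ: the Atkin–Lehner swap commutes with the level pull

`F_{N,L} = laurentBaseChange L (modularFunctionFieldFull N) = L(j(q^d) : d ∣ N) ⊆ L((q))`, for
any coefficient field `L` over `ℚ`.

* `lvlE L h : F_{N,L} →ₐ[L] F_{M,L}` for `N ∣ M` : the level pull, the inclusion of subfields of
  `L((q))`; `coe_lvlE` : it does not change the `q`-expansion.
* `lvlE_alpha`, `lvlE_beta` : the level pull commutes with the two degeneracy maps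
  `α, β : F_{N,L} → F_{Nℓ,L}` (`heckeAlphaBar`, `heckeBetaBar`).
* `swap_lvlE` : if `wN`, `wM` are ring endomorphisms of `F_{Nℓ,L}`, `F_{Mℓ,L}` fixing the
  constants and exchanging `α` and `β` (at their level), then `wM ∘ lvlE = lvlE ∘ wN`
  (`S34.Modular.SwapE.ringHom_ext`: the level-`Nℓ` field is generated by the constants and the
  images of `α`, `β`).
* `coe_swap_lvlE`, `coe_swap_eq_of_coe_eq` : the same on `q`-expansions: the swap of level `Mℓ`
  of a function of level `Nℓ` has the `q`-expansion of its swap of level `Nℓ`.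
* `swap_lvlE_algEquiv`, `coe_swap_lvlE_algEquiv`, `coe_swap_eq_of_coe_eq_algEquiv` : the forms
  for `L`-algebra automorphisms (no hypothesis on constants).

* `upE_lvlE`, `coe_upE_lvlE` : for an intermediate field `E` of `ℚ̄ / ℚ`, the level pull commutes
  with the extension of coefficients `upE` and the `ℚ̄`-level map `S37.LevelPull.lvl`.

Use (NZ, LEVELS): a Gauss-depth statement at the second Gauss prime `σ ∘ w` proved at level
`(N', p)` transports verbatim to level `(4 N', p)`.
-/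

set_option autoImplicit false

noncomputable section

open ModularCurve HahnSeries IntermediateField

namespace Fermat.Agent.S44.L.NZ.SwapLvl

local notation "Qb" => AlgebraicClosure ℚ

variable {L : Type*} [Field L] [Algebra ℚ L]

/-- Base change of a field of `q`-expansions is monotone. -/
theorem lbc_mono {F₀ F₁ : IntermediateField ℚ (LaurentSeries ℚ)} (h : F₀ ≤ F₁) :
    laurentBaseChange L F₀ ≤ laurentBaseChange L F₁ := by
  rw [laurentBaseChange, IntermediateField.adjoin_le_iff]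
  rintro _ ⟨y, hy, rfl⟩
  exact coeffEmb_mem_laurentBaseChange L (h hy)

/-- Membership form of the level pull. -/
theorem mem_of_dvd {N M : ℕ} [NeZero N] [NeZero M] (h : N ∣ M) {y : LaurentSeries L}
    (hy : y ∈ laurentBaseChange L (modularFunctionFieldFull N)) :
    y ∈ laurentBaseChange L (modularFunctionFieldFull M) :=
  lbc_mono (full_degeneracy_le h) hy

variable (L) in
/-- **The level pull** `F_{N,L} → F_{M,L}`, `N ∣ M`: the inclusion. -/
def lvlE {N M : ℕ} [NeZero N] [NeZero M] (h : N ∣ M) :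
    laurentBaseChange L (modularFunctionFieldFull N) →ₐ[L]
      laurentBaseChange L (modularFunctionFieldFull M) :=
  IntermediateField.inclusion (lbc_mono (full_degeneracy_le h))

/-- The level pull does not change the `q`-expansion. -/
@[simp]
theorem coe_lvlE {N M : ℕ} [NeZero N] [NeZero M] (h : N ∣ M)
    (x : laurentBaseChange L (modularFunctionFieldFull N)) :
    ((lvlE L h x : laurentBaseChange L (modularFunctionFieldFull M)) : LaurentSeries L)
      = (x : LaurentSeries L) :=
  IntermediateField.coe_inclusion _ x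

/-- The level pull is injective. -/
theorem lvlE_injective {N M : ℕ} [NeZero N] [NeZero M] (h : N ∣ M) :
    Function.Injective (lvlE L h) :=
  (lvlE L h).toRingHom.injective

/-- An element of level `M` with the `q`-expansion of an element of level `N` is its pull. -/
theorem eq_lvlE_of_coe_eq {N M : ℕ} [NeZero N] [NeZero M] (h : N ∣ M)
    (x : laurentBaseChange L (modularFunctionFieldFull N))
    (x' : laurentBaseChange L (modularFunctionFieldFull M))
    (hx : (x' : LaurentSeries L) = (x : LaurentSeries L)) : x' = lvlE L h x :=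
  Subtype.ext (hx.trans (coe_lvlE h x).symm)

/-- The level pull commutes with `α`. -/
theorem lvlE_alpha {N M : ℕ} [NeZero N] [NeZero M] (ℓ : ℕ) [NeZero ℓ] (h : N ∣ M)
    (f : laurentBaseChange L (modularFunctionFieldFull N)) :
    lvlE L (Nat.mul_dvd_mul_right h ℓ) (heckeAlphaBar L N ℓ f)
      = heckeAlphaBar L M ℓ (lvlE L h f) := by
  apply Subtype.ext
  rw [coe_lvlE, coe_heckeAlphaBar, coe_heckeAlphaBar, coe_lvlE]

/-- The level pull commutes with `β`. -/
theorem lvlE_beta {N M : ℕ} [NeZero N] [NeZero M] (ℓ : ℕ) [NeZero ℓ] (h : N ∣ M)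
    (f : laurentBaseChange L (modularFunctionFieldFull N)) :
    lvlE L (Nat.mul_dvd_mul_right h ℓ) (heckeBetaBar L N ℓ f)
      = heckeBetaBar L M ℓ (lvlE L h f) := by
  apply Subtype.ext
  rw [coe_lvlE, coe_heckeBetaBar, coe_heckeBetaBar, coe_lvlE]

/-- **The swap commutes with the level pull.**  Two ring endomorphisms `wN`, `wM` of the fields
of level `N ℓ`, `M ℓ` (`N ∣ M`, `ℓ` prime) which fix the constants and exchange the two
degeneracy maps of their level satisfy `wM ∘ lvlE = lvlE ∘ wN`. -/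
theorem swap_lvlE {N M : ℕ} [NeZero N] [NeZero M] {ℓ : ℕ} [NeZero ℓ] (hℓ : ℓ.Prime)
    (h : N ∣ M)
    (wN : laurentBaseChange L (modularFunctionFieldFull (N * ℓ)) →+*
      laurentBaseChange L (modularFunctionFieldFull (N * ℓ)))
    (wM : laurentBaseChange L (modularFunctionFieldFull (M * ℓ)) →+*
      laurentBaseChange L (modularFunctionFieldFull (M * ℓ)))
    (hNc : ∀ c : L, wN (algebraMap L _ c) = algebraMap L _ c)
    (hNα : ∀ f, wN (heckeAlphaBar L N ℓ f) = heckeBetaBar L N ℓ f)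
    (hNβ : ∀ f, wN (heckeBetaBar L N ℓ f) = heckeAlphaBar L N ℓ f)
    (hMc : ∀ c : L, wM (algebraMap L _ c) = algebraMap L _ c)
    (hMα : ∀ f, wM (heckeAlphaBar L M ℓ f) = heckeBetaBar L M ℓ f)
    (hMβ : ∀ f, wM (heckeBetaBar L M ℓ f) = heckeAlphaBar L M ℓ f)
    (z : laurentBaseChange L (modularFunctionFieldFull (N * ℓ))) :
    wM (lvlE L (Nat.mul_dvd_mul_right h ℓ) z)
      = lvlE L (Nat.mul_dvd_mul_right h ℓ) (wN z) := by
  have key : wM.comp (lvlE L (Nat.mul_dvd_mul_right h ℓ)).toRingHom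
      = (lvlE L (Nat.mul_dvd_mul_right h ℓ)).toRingHom.comp wN := by
    refine Fermat.Agent.S34.Modular.SwapE.ringHom_ext N ℓ hℓ _ _ ?_ ?_ ?_
    · intro c
      show wM (lvlE L (Nat.mul_dvd_mul_right h ℓ) (algebraMap L _ c))
        = lvlE L (Nat.mul_dvd_mul_right h ℓ) (wN (algebraMap L _ c))
      rw [AlgHom.commutes, hMc, hNc, AlgHom.commutes]
    · intro f
      show wM (lvlE L (Nat.mul_dvd_mul_right h ℓ) (heckeAlphaBar L N ℓ f))
        = lvlE L (Nat.mul_dvd_mul_right h ℓ) (wN (heckeAlphaBar L N ℓ f))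
      rw [lvlE_alpha ℓ h, hMα, hNα, lvlE_beta ℓ h]
    · intro f
      show wM (lvlE L (Nat.mul_dvd_mul_right h ℓ) (heckeBetaBar L N ℓ f))
        = lvlE L (Nat.mul_dvd_mul_right h ℓ) (wN (heckeBetaBar L N ℓ f))
      rw [lvlE_beta ℓ h, hMβ, hNβ, lvlE_alpha ℓ h]
  exact RingHom.congr_fun key z

/-- `swap_lvlE` on `q`-expansions. -/
theorem coe_swap_lvlE {N M : ℕ} [NeZero N] [NeZero M] {ℓ : ℕ} [NeZero ℓ] (hℓ : ℓ.Prime)
    (h : N ∣ M)
    (wN : laurentBaseChange L (modularFunctionFieldFull (N * ℓ)) →+*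
      laurentBaseChange L (modularFunctionFieldFull (N * ℓ)))
    (wM : laurentBaseChange L (modularFunctionFieldFull (M * ℓ)) →+*
      laurentBaseChange L (modularFunctionFieldFull (M * ℓ)))
    (hNc : ∀ c : L, wN (algebraMap L _ c) = algebraMap L _ c)
    (hNα : ∀ f, wN (heckeAlphaBar L N ℓ f) = heckeBetaBar L N ℓ f)
    (hNβ : ∀ f, wN (heckeBetaBar L N ℓ f) = heckeAlphaBar L N ℓ f)
    (hMc : ∀ c : L, wM (algebraMap L _ c) = algebraMap L _ c)
    (hMα : ∀ f, wM (heckeAlphaBar L M ℓ f) = heckeBetaBar L M ℓ f)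
    (hMβ : ∀ f, wM (heckeBetaBar L M ℓ f) = heckeAlphaBar L M ℓ f)
    (z : laurentBaseChange L (modularFunctionFieldFull (N * ℓ))) :
    ((wM (lvlE L (Nat.mul_dvd_mul_right h ℓ) z) :
        laurentBaseChange L (modularFunctionFieldFull (M * ℓ))) : LaurentSeries L)
      = ((wN z : laurentBaseChange L (modularFunctionFieldFull (N * ℓ))) : LaurentSeries L) := by
  rw [swap_lvlE hℓ h wN wM hNc hNα hNβ hMc hMα hMβ z, coe_lvlE]

/-- The swap of level `M ℓ` of an element with the `q`-expansion of an element `z` of level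
`N ℓ` has the `q`-expansion of the swap of level `N ℓ` of `z`. -/
theorem coe_swap_eq_of_coe_eq {N M : ℕ} [NeZero N] [NeZero M] {ℓ : ℕ} [NeZero ℓ]
    (hℓ : ℓ.Prime) (h : N ∣ M)
    (wN : laurentBaseChange L (modularFunctionFieldFull (N * ℓ)) →+*
      laurentBaseChange L (modularFunctionFieldFull (N * ℓ)))
    (wM : laurentBaseChange L (modularFunctionFieldFull (M * ℓ)) →+*
      laurentBaseChange L (modularFunctionFieldFull (M * ℓ)))
    (hNc : ∀ c : L, wN (algebraMap L _ c) = algebraMap L _ c)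
    (hNα : ∀ f, wN (heckeAlphaBar L N ℓ f) = heckeBetaBar L N ℓ f)
    (hNβ : ∀ f, wN (heckeBetaBar L N ℓ f) = heckeAlphaBar L N ℓ f)
    (hMc : ∀ c : L, wM (algebraMap L _ c) = algebraMap L _ c)
    (hMα : ∀ f, wM (heckeAlphaBar L M ℓ f) = heckeBetaBar L M ℓ f)
    (hMβ : ∀ f, wM (heckeBetaBar L M ℓ f) = heckeAlphaBar L M ℓ f)
    (z : laurentBaseChange L (modularFunctionFieldFull (N * ℓ)))
    (z' : laurentBaseChange L (modularFunctionFieldFull (M * ℓ)))
    (hz : (z' : LaurentSeries L) = (z : LaurentSeries L)) :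
    ((wM z' : laurentBaseChange L (modularFunctionFieldFull (M * ℓ))) : LaurentSeries L)
      = ((wN z : laurentBaseChange L (modularFunctionFieldFull (N * ℓ))) : LaurentSeries L) := by
  rw [eq_lvlE_of_coe_eq (Nat.mul_dvd_mul_right h ℓ) z z' hz]
  exact coe_swap_lvlE hℓ h wN wM hNc hNα hNβ hMc hMα hMβ z

/-- **The swap commutes with the level pull**, for `L`-algebra automorphisms. -/
theorem swap_lvlE_algEquiv {N M : ℕ} [NeZero N] [NeZero M] {ℓ : ℕ} [NeZero ℓ] (hℓ : ℓ.Prime)
    (h : N ∣ M)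
    (wN : laurentBaseChange L (modularFunctionFieldFull (N * ℓ)) ≃ₐ[L]
      laurentBaseChange L (modularFunctionFieldFull (N * ℓ)))
    (wM : laurentBaseChange L (modularFunctionFieldFull (M * ℓ)) ≃ₐ[L]
      laurentBaseChange L (modularFunctionFieldFull (M * ℓ)))
    (hNα : ∀ f, wN (heckeAlphaBar L N ℓ f) = heckeBetaBar L N ℓ f)
    (hNβ : ∀ f, wN (heckeBetaBar L N ℓ f) = heckeAlphaBar L N ℓ f)
    (hMα : ∀ f, wM (heckeAlphaBar L M ℓ f) = heckeBetaBar L M ℓ f)
    (hMβ : ∀ f, wM (heckeBetaBar L M ℓ f) = heckeAlphaBar L M ℓ f)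
    (z : laurentBaseChange L (modularFunctionFieldFull (N * ℓ))) :
    wM (lvlE L (Nat.mul_dvd_mul_right h ℓ) z)
      = lvlE L (Nat.mul_dvd_mul_right h ℓ) (wN z) :=
  swap_lvlE hℓ h wN.toAlgHom.toRingHom wM.toAlgHom.toRingHom (fun c => wN.commutes c)
    (fun f => hNα f) (fun f => hNβ f) (fun c => wM.commutes c) (fun f => hMα f)
    (fun f => hMβ f) z

/-- `swap_lvlE_algEquiv` on `q`-expansions. -/
theorem coe_swap_lvlE_algEquiv {N M : ℕ} [NeZero N] [NeZero M] {ℓ : ℕ} [NeZero ℓ]
    (hℓ : ℓ.Prime) (h : N ∣ M)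
    (wN : laurentBaseChange L (modularFunctionFieldFull (N * ℓ)) ≃ₐ[L]
      laurentBaseChange L (modularFunctionFieldFull (N * ℓ)))
    (wM : laurentBaseChange L (modularFunctionFieldFull (M * ℓ)) ≃ₐ[L]
      laurentBaseChange L (modularFunctionFieldFull (M * ℓ)))
    (hNα : ∀ f, wN (heckeAlphaBar L N ℓ f) = heckeBetaBar L N ℓ f)
    (hNβ : ∀ f, wN (heckeBetaBar L N ℓ f) = heckeAlphaBar L N ℓ f)
    (hMα : ∀ f, wM (heckeAlphaBar L M ℓ f) = heckeBetaBar L M ℓ f)
    (hMβ : ∀ f, wM (heckeBetaBar L M ℓ f) = heckeAlphaBar L M ℓ f)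
    (z : laurentBaseChange L (modularFunctionFieldFull (N * ℓ))) :
    ((wM (lvlE L (Nat.mul_dvd_mul_right h ℓ) z) :
        laurentBaseChange L (modularFunctionFieldFull (M * ℓ))) : LaurentSeries L)
      = ((wN z : laurentBaseChange L (modularFunctionFieldFull (N * ℓ))) : LaurentSeries L) := by
  rw [swap_lvlE_algEquiv hℓ h wN wM hNα hNβ hMα hMβ z, coe_lvlE]

/-- The `q`-expansion form for `L`-algebra automorphisms and an arbitrary spelling of the pulled
element. -/
theorem coe_swap_eq_of_coe_eq_algEquiv {N M : ℕ} [NeZero N] [NeZero M] {ℓ : ℕ} [NeZero ℓ]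
    (hℓ : ℓ.Prime) (h : N ∣ M)
    (wN : laurentBaseChange L (modularFunctionFieldFull (N * ℓ)) ≃ₐ[L]
      laurentBaseChange L (modularFunctionFieldFull (N * ℓ)))
    (wM : laurentBaseChange L (modularFunctionFieldFull (M * ℓ)) ≃ₐ[L]
      laurentBaseChange L (modularFunctionFieldFull (M * ℓ)))
    (hNα : ∀ f, wN (heckeAlphaBar L N ℓ f) = heckeBetaBar L N ℓ f)
    (hNβ : ∀ f, wN (heckeBetaBar L N ℓ f) = heckeAlphaBar L N ℓ f)
    (hMα : ∀ f, wM (heckeAlphaBar L M ℓ f) = heckeBetaBar L M ℓ f)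
    (hMβ : ∀ f, wM (heckeBetaBar L M ℓ f) = heckeAlphaBar L M ℓ f)
    (z : laurentBaseChange L (modularFunctionFieldFull (N * ℓ)))
    (z' : laurentBaseChange L (modularFunctionFieldFull (M * ℓ)))
    (hz : (z' : LaurentSeries L) = (z : LaurentSeries L)) :
    ((wM z' : laurentBaseChange L (modularFunctionFieldFull (M * ℓ))) : LaurentSeries L)
      = ((wN z : laurentBaseChange L (modularFunctionFieldFull (N * ℓ))) : LaurentSeries L) := by
  rw [eq_lvlE_of_coe_eq (Nat.mul_dvd_mul_right h ℓ) z z' hz]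
  exact coe_swap_lvlE_algEquiv hℓ h wN wM hNα hNβ hMα hMβ z

/-! ### Extension of coefficients to `ℚ̄` -/

/-- The level pull commutes with the extension of coefficients, on `q`-expansions. -/
theorem coe_upE_lvlE (E : IntermediateField ℚ Qb) {N M : ℕ} [NeZero N] [NeZero M] (h : N ∣ M)
    (x : laurentBaseChange E (modularFunctionFieldFull N)) :
    ((Fermat.Agent.S34.Modular.SwapE.upE M E (lvlE E h x) :
        laurentBaseChange Qb (modularFunctionFieldFull M)) : LaurentSeries Qb)
      = ((Fermat.Agent.S34.Modular.SwapE.upE N E x :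
        laurentBaseChange Qb (modularFunctionFieldFull N)) : LaurentSeries Qb) := by
  rw [Fermat.Agent.S34.Modular.SwapE.coe_upE M E, Fermat.Agent.S34.Modular.SwapE.coe_upE N E,
    coe_lvlE]

/-- The level pull commutes with the extension of coefficients and the `ℚ̄`-level map `lvl`. -/
theorem upE_lvlE (E : IntermediateField ℚ Qb) {N M : ℕ} [NeZero N] [NeZero M] (h : N ∣ M)
    (x : laurentBaseChange E (modularFunctionFieldFull N)) :
    Fermat.Agent.S34.Modular.SwapE.upE M E (lvlE E h x)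
      = (Fermat.Agent.S37.LevelPull.lvl h (Fermat.Agent.S34.Modular.SwapE.upE N E x) :
        laurentBaseChange Qb (modularFunctionFieldFull M)) :=
  Subtype.ext ((coe_upE_lvlE E h x).trans (Fermat.Agent.S37.LevelPull.coe_lvl h _).symm)

end Fermat.Agent.S44.L.NZ.SwapLvl
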